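import Mathlib
import Fermat.Agent.S20.Basic
import Fermat.Agent.S20.CuspExp
import Fermat.Agent.S20.Div
import Fermat.Agent.S20.Ramanujan

/-!
# S24: level one modular functions are polynomials in `j`

A holomorphic function `f : ℍ → ℂ` which is invariant under `SL(2, ℤ)` and meromorphic at `i∞`
(in the sense that `Δ ^ M * f` is bounded at `i∞`) is a polynomial of degree `≤ M` in
`j = E₄ ^ 3 / Δ`.
-/

set_option autoImplicit false

namespace Fermat.Agent.S24.PolyJ

open UpperHalfPlane CongruenceSubgroup ModularForm Filter Topology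
open Fermat.Agent.S20
open scoped MatrixGroups ModularForm Manifold

local notation "Δ" => ModularForm.discriminant

/-- `SL(2, ℤ)`-invariant functions are slash invariant of weight `0`. -/
theorem slash_zero_eq {f : ℍ → ℂ} (hinv : ∀ (γ : SL(2, ℤ)) (z : ℍ), f (γ • z) = f z)
    (γ : SL(2, ℤ)) : f ∣[(0 : ℤ)] γ = f := by
  funext z
  rw [ModularForm.SL_slash_apply, hinv γ z, neg_zero, zpow_zero, mul_one]

/-- The product of a level one form `a` of weight `K` with an invariant holomorphic function `f`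
such that `a * f` is bounded at `i∞` is a level one form of weight `K`. -/
theorem isMF_mul_of_invariant {K : ℤ} {a f : ℍ → ℂ} (ha : IsMF 1 K a) (hf : MDiff f)
    (hinv : ∀ (γ : SL(2, ℤ)) (z : ℍ), f (γ • z) = f z) (hbd : IsBoundedAtImInfty (a * f)) :
    IsMF 1 K (a * f) := by
  have hs : ∀ γ : SL(2, ℤ), (a * f) ∣[K] γ = a * f := fun γ => by
    have h := mul_slash_SL2 K 0 γ a f
    rw [add_zero] at h
    rw [h, ha.slash_eq_one γ, slash_zero_eq hinv γ]
  refine ⟨ha.1.mul hf, fun γ _ => hs γ, fun δ => ?_⟩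
  rw [hs δ]
  exact hbd

/-- The analytic `j`-function is `SL(2, ℤ)`-invariant. -/
theorem j_smul (γ : SL(2, ℤ)) (z : ℍ) :
    E₄ (γ • z) ^ 3 / Δ (γ • z) = E₄ z ^ 3 / Δ z := by
  have h4 := congrFun (isMF_E4.slash_eq_one γ) z
  have h12 := congrFun (isMF_discriminant.slash_eq_one γ) z
  rw [ModularForm.SL_slash_apply] at h4 h12
  have hd : denom γ z ≠ 0 := denom_ne_zero γ z
  have hΔ : Δ z ≠ 0 := discriminant_ne_zero z
  have hΔ' : Δ (γ • z) ≠ 0 := discriminant_ne_zero _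
  have e4 : E₄ (γ • z) = E₄ z * denom γ z ^ (4 : ℕ) := by
    rw [← h4, mul_assoc, zpow_neg, ← zpow_natCast]
    have : (denom γ z ^ (4 : ℤ))⁻¹ * denom γ z ^ ((4 : ℕ) : ℤ) = 1 := by
      rw [Nat.cast_ofNat]
      exact inv_mul_cancel₀ (zpow_ne_zero _ hd)
    rw [this, mul_one]
  have e12 : Δ (γ • z) = Δ z * denom γ z ^ (12 : ℕ) := by
    rw [← h12, mul_assoc, zpow_neg, ← zpow_natCast]
    have : (denom γ z ^ (12 : ℤ))⁻¹ * denom γ z ^ ((12 : ℕ) : ℤ) = 1 := by
      rw [Nat.cast_ofNat]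
      exact inv_mul_cancel₀ (zpow_ne_zero _ hd)
    rw [this, mul_one]
  rw [e4, e12]
  field_simp

theorem mdiff_j : MDiff (fun z : ℍ => E₄ z ^ 3 / Δ z) := by
  have h := Div.mdiff_div (f := fun z : ℍ => E₄ z ^ 3) (g := Δ) (isMF_E4.1.pow 3)
    Div.mdiff_discriminant discriminant_ne_zero
  exact h

theorem mdiff_j_pow (n : ℕ) : MDiff (fun z : ℍ => (E₄ z ^ 3 / Δ z) ^ n) :=
  mdiff_j.pow n

/-- **Level one modular functions are polynomials in `j`.** -/
theorem exists_poly (M : ℕ) : ∀ {f : ℍ → ℂ}, MDiff f →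
    (∀ (γ : SL(2, ℤ)) (z : ℍ), f (γ • z) = f z) →
    IsBoundedAtImInfty (fun z : ℍ => Δ z ^ M * f z) →
    ∃ P : Polynomial ℂ, P.natDegree ≤ M ∧ ∀ z, f z = P.eval (E₄ z ^ 3 / Δ z) := by
  induction M with
  | zero =>
    intro f hf hinv hbd
    have h1 : IsMF 1 0 ((1 : ℍ → ℂ) * f) := by
      refine isMF_mul_of_invariant isMF_one hf hinv ?_
      have : (1 : ℍ → ℂ) * f = fun z : ℍ => Δ z ^ 0 * f z := by
        funext z
        simp
      rw [this]
      exact hbd
    rw [one_mul] at h1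
    obtain ⟨c, hc⟩ := h1.const_of_weight_zero
    refine ⟨Polynomial.C c, by simp, fun z => ?_⟩
    rw [hc, Polynomial.eval_C]
  | succ M ih =>
    intro f hf hinv hbd
    -- the modular form `H = Δ ^ (M + 1) * f` of weight `12 (M + 1)`
    have hΔpow : IsMF 1 (((M + 1 : ℕ) : ℤ) * 12) ((Δ : ℍ → ℂ) ^ (M + 1)) :=
      isMF_discriminant.pow (M + 1)
    have hH : IsMF 1 (((M + 1 : ℕ) : ℤ) * 12) ((Δ : ℍ → ℂ) ^ (M + 1) * f) :=
      isMF_mul_of_invariant hΔpow hf hinv hbd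
    -- its value at `i∞`
    set c : ℂ := (qExpansion 1 hH.toModularFormOne).coeff 0 with hc
    have hlim : Tendsto ((Δ : ℍ → ℂ) ^ (M + 1) * f) atImInfty (𝓝 c) :=
      Ramanujan.tendsto_modularForm hH.toModularFormOne
    -- the form `E₄ ^ (3 (M + 1))`
    have hE : IsMF 1 (((M + 1 : ℕ) : ℤ) * 12) ((E₄ : ℍ → ℂ) ^ (3 * (M + 1))) := by
      refine (isMF_E4.pow (3 * (M + 1))).congr_weight ?_
      push_cast
      ring
    have hElim : Tendsto ((E₄ : ℍ → ℂ) ^ (3 * (M + 1))) atImInfty (𝓝 1) := by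
      have := Ramanujan.tendsto_E₄.pow (3 * (M + 1))
      rw [one_pow] at this
      exact this
    -- the cusp form `H' = H - c E₄ ^ (3 (M + 1))`
    set H' : ℍ → ℂ := (Δ : ℍ → ℂ) ^ (M + 1) * f - c • (E₄ : ℍ → ℂ) ^ (3 * (M + 1)) with hH'
    have hH'MF : IsMF 1 (((M + 1 : ℕ) : ℤ) * 12) H' := hH.sub (hE.smul c)
    have hH'lim : Tendsto H' atImInfty (𝓝 0) := by
      have h0 := hlim.sub (hElim.const_smul c)
      have e : c - c • (1 : ℂ) = 0 := by simp
      rw [e] at h0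
      exact h0
    have hH'CF : IsCF 1 (((M + 1 : ℕ) : ℤ) * 12) H' := by
      refine ⟨hH'MF.1, hH'MF.2.1, fun δ => ?_⟩
      rw [hH'MF.slash_eq_one δ]
      exact hH'lim
    have hcoef := (CuspExp.isCF_iff_coef_zero hH'MF).mp hH'CF
    have hbd' : IsBoundedAtImInfty (H' / Δ) := by
      have := CuspExp.bdd_div_discriminant hH'MF (fun q m hm => by
        have hm0 : m = 0 := by omega
        rw [hm0]
        exact hcoef q) 1
      rwa [hH'MF.slash_eq_one 1] at this
    -- apply the induction hypothesis to `f₁ = f - c j ^ (M + 1)`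
    set f₁ : ℍ → ℂ := fun z => f z - c * (E₄ z ^ 3 / Δ z) ^ (M + 1) with hf₁
    have hf₁md : MDiff f₁ := hf.sub ((mdiff_j_pow (M + 1)).const_smul c)
    have hf₁inv : ∀ (γ : SL(2, ℤ)) (z : ℍ), f₁ (γ • z) = f₁ z := fun γ z => by
      simp only [hf₁]
      rw [hinv γ z, j_smul γ z]
    have hkey : (fun z : ℍ => Δ z ^ M * f₁ z) = H' / Δ := by
      funext z
      have hΔ : Δ z ≠ 0 := discriminant_ne_zero z
      simp only [hf₁, hH', Pi.div_apply, Pi.sub_apply, Pi.mul_apply, Pi.pow_apply, Pi.smul_apply,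
        smul_eq_mul]
      have hB : Δ z ^ (M + 1) ≠ 0 := pow_ne_zero _ hΔ
      have hA : (E₄ z ^ 3 / Δ z) ^ (M + 1) = E₄ z ^ (3 * (M + 1)) / Δ z ^ (M + 1) := by
        rw [div_pow, ← pow_mul]
      rw [hA, eq_div_iff hΔ]
      have h1 : Δ z ^ M * (f z - c * (E₄ z ^ (3 * (M + 1)) / Δ z ^ (M + 1))) * Δ z
          = Δ z ^ (M + 1) * (f z - c * (E₄ z ^ (3 * (M + 1)) / Δ z ^ (M + 1))) := by
        rw [pow_succ]
        ring
      rw [h1, mul_sub, mul_left_comm, mul_div_cancel₀ _ hB]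
    have hf₁bd : IsBoundedAtImInfty (fun z : ℍ => Δ z ^ M * f₁ z) := by
      rw [hkey]
      exact hbd'
    obtain ⟨P₁, hP₁deg, hP₁⟩ := ih hf₁md hf₁inv hf₁bd
    refine ⟨P₁ + Polynomial.C c * Polynomial.X ^ (M + 1), ?_, fun z => ?_⟩
    · refine (Polynomial.natDegree_add_le _ _).trans (max_le (hP₁deg.trans (Nat.le_succ M)) ?_)
      exact (Polynomial.natDegree_C_mul_le _ _).trans (Polynomial.natDegree_X_pow_le _)
    · have := hP₁ z
      simp only [hf₁] at this
      rw [Polynomial.eval_add, Polynomial.eval_mul, Polynomial.eval_C, Polynomial.eval_pow,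
        Polynomial.eval_X, ← this]
      ring

end Fermat.Agent.S24.PolyJ
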