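import Mathlib
import Fermat.Agent.S20.DualTrace
import Fermat.Agent.S24.PolyJ

/-!
# S24, leaf M5 (Degree), part 3: the characteristic polynomial over `ℂ[j]`

Let `Θ : ℍ → ℂ` be invariant under `Γ₀(N)`, such that all translates `Θ ∘ γ`, `γ ∈ SL(2, ℤ)`, are
holomorphic and meromorphic at `i∞` (`Δ ^ M * (Θ ∘ γ)` bounded at `i∞`).  Then
`∏_q (Y - Θ ∘ q.out⁻¹)`, `q ∈ SL(2, ℤ) / Γ₀(N)`, has coefficients in `ℂ[j]`: there is a monic
`G ∈ ℂ[X][Y]` of `Y`-degree `[SL(2, ℤ) : Γ₀(N)]` with `G(j(z), Θ(z)) = 0` for all `z`.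
-/

set_option autoImplicit false
set_option linter.style.haveILetI false
set_option linter.unusedSectionVars false

namespace Fermat.Agent.S24.CharPoly

open UpperHalfPlane CongruenceSubgroup ModularForm Filter Topology Polynomial
open Fermat.Agent.S20
open scoped MatrixGroups ModularForm Manifold

local notation "Δ" => ModularForm.discriminant

attribute [local instance] Fermat.Agent.S20.Dual.fintypeQ

/-! ### Functions meromorphic at `i∞` -/

/-- `f` is meromorphic at `i∞` with a pole of order at most `M` (measured by `Δ`). -/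
def Mero (M : ℕ) (f : ℍ → ℂ) : Prop := IsBoundedAtImInfty (fun z : ℍ => Δ z ^ M * f z)

theorem bdd_discriminant : IsBoundedAtImInfty (Δ : ℍ → ℂ) := by
  have := isMF_discriminant.2.2 1
  rwa [SlashAction.slash_one] at this

theorem bdd_discriminant_pow (n : ℕ) : IsBoundedAtImInfty (fun z : ℍ => Δ z ^ n) := by
  induction n with
  | zero =>
    simp only [pow_zero]
    exact Filter.const_boundedAtFilter _ (1 : ℂ)
  | succ n ih =>
    have h1 := ih.mul bdd_discriminant
    have h2 : (fun z : ℍ => Δ z ^ (n + 1)) = (fun z : ℍ => Δ z ^ n) * (Δ : ℍ → ℂ) := by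
      funext z
      simp only [Pi.mul_apply]
      rw [pow_succ]
    rw [h2]
    exact h1

theorem Mero.mono {M M' : ℕ} {f : ℍ → ℂ} (h : M ≤ M') (hf : Mero M f) : Mero M' f := by
  unfold Mero at hf ⊢
  obtain ⟨k, rfl⟩ := Nat.exists_eq_add_of_le h
  have h1 := (bdd_discriminant_pow k).mul hf
  have h2 : (fun z : ℍ => Δ z ^ (M + k) * f z) = (fun z : ℍ => Δ z ^ k) * fun z => Δ z ^ M * f z := by
    funext z
    simp only [Pi.mul_apply]
    rw [pow_add]
    ring
  rw [h2]
  exact h1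

theorem Mero.add {M : ℕ} {f g : ℍ → ℂ} (hf : Mero M f) (hg : Mero M g) :
    Mero M (fun z => f z + g z) := by
  unfold Mero at hf hg ⊢
  have h1 := hf.add hg
  have h2 : (fun z : ℍ => Δ z ^ M * (f z + g z))
      = (fun z : ℍ => Δ z ^ M * f z) + fun z => Δ z ^ M * g z := by
    funext z
    simp only [Pi.add_apply]
    ring
  rw [h2]
  exact h1

theorem Mero.mul {M M' : ℕ} {f g : ℍ → ℂ} (hf : Mero M f) (hg : Mero M' g) :
    Mero (M + M') (fun z => f z * g z) := by
  unfold Mero at hf hg ⊢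
  have h1 := hf.mul hg
  have h2 : (fun z : ℍ => Δ z ^ (M + M') * (f z * g z))
      = (fun z : ℍ => Δ z ^ M * f z) * fun z => Δ z ^ M' * g z := by
    funext z
    simp only [Pi.mul_apply]
    rw [pow_add]
    ring
  rw [h2]
  exact h1

theorem Mero.const (c : ℂ) : Mero 0 (fun _ => c) := by
  unfold Mero
  simp only [pow_zero, one_mul]
  exact Filter.const_boundedAtFilter _ c

theorem Mero.congr {M : ℕ} {f g : ℍ → ℂ} (hf : Mero M f) (h : ∀ z, f z = g z) : Mero M g := by
  have : f = g := funext h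
  rwa [← this]

theorem Mero.neg {M : ℕ} {f : ℍ → ℂ} (hf : Mero M f) : Mero M (fun z => - f z) := by
  have := (Mero.const (-1)).mul hf
  rw [zero_add] at this
  exact Mero.congr (g := fun z => - f z) this (fun z => by ring)

theorem Mero.sub {M : ℕ} {f g : ℍ → ℂ} (hf : Mero M f) (hg : Mero M g) :
    Mero M (fun z => f z - g z) := by
  have := hf.add hg.neg
  simpa only [sub_eq_add_neg] using this

/-! ### Coefficients of products of linear factors -/

/-- the `i`-th coefficient of `∏_{q ∈ s} (Y - g q)` -/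
noncomputable def prodCoeff {ι : Type*} (s : Finset ι) (g : ι → ℍ → ℂ) (i : ℕ) : ℍ → ℂ :=
  fun z => (∏ q ∈ s, (X - C (g q z)) : ℂ[X]).coeff i

theorem coeff_prod_good {ι : Type*} (s : Finset ι) (g : ι → ℍ → ℂ) (M : ℕ)
    (hg : ∀ q ∈ s, MDiff (g q) ∧ Mero M (g q)) :
    ∀ i : ℕ, MDiff (prodCoeff s g i) ∧ Mero (M * s.card) (prodCoeff s g i) := by
  classical
  induction s using Finset.induction_on with
  | empty =>
    intro i
    have e : prodCoeff (∅ : Finset ι) g i = fun _ => ((1 : ℂ[X]).coeff i : ℂ) := by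
      funext z
      simp [prodCoeff]
    rw [e, Finset.card_empty, mul_zero]
    exact ⟨mdifferentiable_const, Mero.const _⟩
  | insert a s ha ih =>
    have hs : ∀ q ∈ s, MDiff (g q) ∧ Mero M (g q) := fun q hq => hg q (Finset.mem_insert_of_mem hq)
    obtain ⟨ha1, ha2⟩ := hg a (Finset.mem_insert_self a s)
    have ih' := ih hs
    have hcard : M * (insert a s).card = M + M * s.card := by
      rw [Finset.card_insert_of_notMem ha]
      ring
    intro i
    rcases i with _ | k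
    · have e : prodCoeff (insert a s) g 0 = fun z : ℍ => (- g a z) * prodCoeff s g 0 z := by
        funext z
        simp only [prodCoeff]
        rw [Finset.prod_insert ha, Polynomial.mul_coeff_zero]
        simp
      rw [e, hcard]
      exact ⟨ha1.neg.mul (ih' 0).1, ha2.neg.mul (ih' 0).2⟩
    · have e : prodCoeff (insert a s) g (k + 1)
          = fun z : ℍ => prodCoeff s g k z - g a z * prodCoeff s g (k + 1) z := by
        funext z
        simp only [prodCoeff]
        rw [Finset.prod_insert ha, Polynomial.coeff_X_sub_C_mul]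
      rw [e, hcard]
      refine ⟨(ih' k).1.sub (ha1.mul (ih' (k + 1)).1), ?_⟩
      exact ((ih' k).2.mono (Nat.le_add_left _ _)).sub (ha2.mul (ih' (k + 1)).2)

/-! ### The conjugates and the characteristic polynomial -/

section CharPoly

variable {N : ℕ} [NeZero N] {Θ : ℍ → ℂ}

/-- the conjugates `Θ ∘ q.out⁻¹` of `Θ` -/
noncomputable def conj (N : ℕ) (Θ : ℍ → ℂ) (q : Q N) (z : ℍ) : ℂ :=
  Θ ((q.out : SL(2, ℤ))⁻¹ • z)

omit [NeZero N] in
theorem conj_mk (hinv : ∀ γ ∈ Gamma0 N, ∀ z, Θ (γ • z) = Θ z) (δ : SL(2, ℤ)) (z : ℍ) :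
    conj N Θ (QuotientGroup.mk δ) z = Θ (δ⁻¹ • z) := by
  obtain ⟨γ, hγ⟩ := QuotientGroup.mk_out_eq_mul (Gamma0 N) δ
  unfold conj
  rw [hγ, mul_inv_rev, mul_smul]
  exact hinv _ (inv_mem γ.2) _

omit [NeZero N] in
theorem conj_one (hinv : ∀ γ ∈ Gamma0 N, ∀ z, Θ (γ • z) = Θ z) (z : ℍ) :
    conj N Θ (QuotientGroup.mk 1) z = Θ z := by
  rw [conj_mk hinv, inv_one, one_smul]

omit [NeZero N] in
theorem conj_smul (hinv : ∀ γ ∈ Gamma0 N, ∀ z, Θ (γ • z) = Θ z) (q : Q N) (δ : SL(2, ℤ))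
    (z : ℍ) : conj N Θ q (δ • z) = conj N Θ (δ⁻¹ • q) z := by
  have h1 : δ⁻¹ • q = (QuotientGroup.mk (δ⁻¹ * (q.out : SL(2, ℤ))) : Q N) := by
    conv_lhs => rw [← QuotientGroup.out_eq' q]
    rfl
  rw [h1, conj_mk hinv, mul_inv_rev, inv_inv, mul_smul]
  rfl

/-- the characteristic polynomial `∏_q (Y - Θ ∘ q.out⁻¹)` -/
noncomputable def chi (N : ℕ) [NeZero N] (Θ : ℍ → ℂ) (z : ℍ) : ℂ[X] :=
  ∏ q : Q N, (X - C (conj N Θ q z))

theorem chi_smul (hinv : ∀ γ ∈ Gamma0 N, ∀ z, Θ (γ • z) = Θ z) (δ : SL(2, ℤ)) (z : ℍ) :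
    chi N Θ (δ • z) = chi N Θ z := by
  unfold chi
  simp_rw [conj_smul hinv]
  exact Fintype.prod_equiv (MulAction.toPerm δ⁻¹) _ _ fun q => rfl

theorem chi_monic (z : ℍ) : (chi N Θ z).Monic :=
  Polynomial.monic_prod_of_monic _ _ fun _ _ => Polynomial.monic_X_sub_C _

theorem chi_natDegree (z : ℍ) : (chi N Θ z).natDegree = Nat.card (Q N) := by
  unfold chi
  rw [Polynomial.natDegree_prod_of_monic _ _ fun _ _ => Polynomial.monic_X_sub_C _]
  simp only [Polynomial.natDegree_X_sub_C, Finset.sum_const, Finset.card_univ, smul_eq_mul,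
    mul_one]
  exact (Nat.card_eq_fintype_card).symm

theorem chi_eval (hinv : ∀ γ ∈ Gamma0 N, ∀ z, Θ (γ • z) = Θ z) (z : ℍ) :
    (chi N Θ z).eval (Θ z) = 0 := by
  unfold chi
  rw [Polynomial.eval_prod]
  refine Finset.prod_eq_zero (Finset.mem_univ (QuotientGroup.mk 1 : Q N)) ?_
  rw [conj_one hinv]
  simp

/-- **The characteristic polynomial has coefficients in `ℂ[j]`.** -/
theorem exists_monic_relation (M : ℕ)
    (hmd : ∀ γ : SL(2, ℤ), MDiff (fun z : ℍ => Θ (γ • z)))
    (hinv : ∀ γ ∈ Gamma0 N, ∀ z, Θ (γ • z) = Θ z)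
    (hmero : ∀ γ : SL(2, ℤ), Mero M (fun z : ℍ => Θ (γ • z))) :
    ∃ G : ℂ[X][X], G.Monic ∧ G.natDegree = Nat.card (Q N) ∧
      ∀ z : ℍ, Polynomial.eval₂ (Polynomial.evalRingHom (E₄ z ^ 3 / Δ z)) (Θ z) G = 0 := by
  classical
  set μ : ℕ := Nat.card (Q N) with hμ
  -- the coefficient functions are polynomials in `j`
  have hcoef : ∀ i : ℕ, ∃ P : ℂ[X], ∀ z : ℍ, (chi N Θ z).coeff i = P.eval (E₄ z ^ 3 / Δ z) := by
    intro i
    have hgood := coeff_prod_good (Finset.univ : Finset (Q N)) (conj N Θ) M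
      (fun q _ => ⟨hmd _, hmero _⟩) i
    have hinv' : ∀ (γ : SL(2, ℤ)) (z : ℍ), (chi N Θ (γ • z)).coeff i = (chi N Θ z).coeff i :=
      fun γ z => by rw [chi_smul hinv]
    have hfun : prodCoeff (Finset.univ : Finset (Q N)) (conj N Θ) i
        = fun z => (chi N Θ z).coeff i := rfl
    rw [hfun] at hgood
    obtain ⟨P, -, hP⟩ := PolyJ.exists_poly (M * (Finset.univ : Finset (Q N)).card)
      (f := fun z => (chi N Θ z).coeff i) hgood.1 hinv' hgood.2
    exact ⟨P, hP⟩
  choose P hP using hcoef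
  set L : ℂ[X][X] := ∑ i ∈ Finset.range μ, Polynomial.C (P i) * X ^ i with hL
  have hLdeg : L.degree < (μ : WithBot ℕ) := by
    rw [Polynomial.degree_lt_iff_coeff_zero]
    intro m hm
    rw [hL, Polynomial.finsetSum_coeff]
    refine Finset.sum_eq_zero fun i hi => ?_
    rw [Polynomial.coeff_C_mul_X_pow, if_neg]
    have := Finset.mem_range.mp hi
    omega
  refine ⟨X ^ μ + L, Polynomial.monic_X_pow_add hLdeg, ?_, fun z => ?_⟩
  · have h0 : L.degree < (X ^ μ : ℂ[X][X]).degree := by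
      rw [Polynomial.degree_X_pow]
      exact hLdeg
    rw [Polynomial.natDegree_add_eq_left_of_degree_lt h0, Polynomial.natDegree_X_pow]
  · have h1 := chi_eval (N := N) hinv z
    have h2 := (chi_monic (N := N) (Θ := Θ) z).as_sum
    rw [chi_natDegree] at h2
    rw [h2] at h1
    rw [Polynomial.eval₂_add, Polynomial.eval₂_pow, Polynomial.eval₂_X, hL,
      Polynomial.eval₂_finsetSum]
    rw [Polynomial.eval_add, Polynomial.eval_pow, Polynomial.eval_X,
      Polynomial.eval_finsetSum] at h1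
    rw [← h1]
    congr 1
    refine Finset.sum_congr rfl fun i _ => ?_
    rw [Polynomial.eval₂_mul, Polynomial.eval₂_C, Polynomial.eval₂_pow, Polynomial.eval₂_X,
      Polynomial.eval_mul, Polynomial.eval_C, Polynomial.eval_pow, Polynomial.eval_X,
      Polynomial.coe_evalRingHom, hP i z]

end CharPoly

end Fermat.Agent.S24.CharPoly
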