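import Mathlib

/-!
# S24, leaf M5 (Degree), part 2: the algebraic degree bound

Let `F / K` be a field extension in characteristic zero, generated as a field by `x` and a finite
set `S`, with `x` transcendental over `K`.  Assume that every element `r` of the `K`-subalgebra
generated by `x` and `S` satisfies `G(x, r) = 0` for some nonzero `G ∈ K[X][Y]` of `Y`-degree
`≤ μ`.  Then `F` is finite over `K(x)` of degree `≤ μ`.
-/

set_option autoImplicit false
set_option linter.style.haveILetI false
set_option linter.unusedSectionVars false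

namespace Fermat.Agent.S24.DegreeAlg

open Polynomial IntermediateField

variable {K F : Type*} [Field K] [Field F] [Algebra K F]

/-- the coefficient map `K[X] → K(x)`, `X ↦ x` -/
noncomputable def toAdjoin (x : F) : K[X] →+* K⟮x⟯ :=
  (Polynomial.aeval (AdjoinSimple.gen K x)).toRingHom

theorem algebraMap_toAdjoin (x : F) (p : K[X]) :
    algebraMap K⟮x⟯ F (toAdjoin x p) = Polynomial.aeval x p := by
  unfold toAdjoin
  rw [AlgHom.toRingHom_eq_coe, RingHom.coe_coe, ← Polynomial.aeval_algebraMap_apply,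
    AdjoinSimple.algebraMap_gen]

theorem toAdjoin_injective {x : F} (hx : Transcendental K x) :
    Function.Injective (toAdjoin (K := K) x) := by
  intro p q hpq
  have h := congrArg (algebraMap K⟮x⟯ F) hpq
  rw [algebraMap_toAdjoin, algebraMap_toAdjoin] at h
  exact (transcendental_iff_injective.mp hx) h

/-- A root `r` of `G(x, Y)`, `G ≠ 0`, is algebraic over `K(x)` of degree `≤ deg_Y G`. -/
theorem natDegree_minpoly_le {x : F} (hx : Transcendental K x) {r : F} {G : K[X][X]}
    (hG : G ≠ 0) (hroot : Polynomial.eval₂ (Polynomial.aeval x).toRingHom r G = 0) :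
    IsIntegral K⟮x⟯ r ∧ (minpoly K⟮x⟯ r).natDegree ≤ G.natDegree := by
  have hinj := toAdjoin_injective (K := K) hx
  have hG' : G.map (toAdjoin x) ≠ 0 := (Polynomial.map_ne_zero_iff hinj).mpr hG
  have hdeg : (G.map (toAdjoin x)).natDegree = G.natDegree :=
    Polynomial.natDegree_map_eq_of_injective hinj G
  have hcomp : (algebraMap K⟮x⟯ F).comp (toAdjoin x) = (Polynomial.aeval x).toRingHom :=
    RingHom.ext fun p => algebraMap_toAdjoin x p
  have hev : Polynomial.aeval r (G.map (toAdjoin x)) = 0 := by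
    rw [Polynomial.aeval_def, Polynomial.eval₂_map, hcomp]
    exact hroot
  have halg : IsAlgebraic K⟮x⟯ r := ⟨_, hG', hev⟩
  refine ⟨halg.isIntegral, ?_⟩
  rw [← hdeg]
  exact Polynomial.natDegree_le_natDegree (minpoly.degree_le_of_ne_zero K⟮x⟯ r hG' hev)

section Main

variable [CharZero K] (x : F) (hx : Transcendental K x) (S : Set F) (hS : S.Finite)
  (hgen : IntermediateField.adjoin K (insert x S) = ⊤) (μ : ℕ)
  (hR : ∀ r ∈ Algebra.adjoin K (insert x S), ∃ G : K[X][X], G ≠ 0 ∧ G.natDegree ≤ μ ∧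
    Polynomial.eval₂ (Polynomial.aeval x).toRingHom r G = 0)

include hx hR in
theorem isIntegral_of_mem {r : F} (hr : r ∈ Algebra.adjoin K (insert x S)) :
    IsIntegral K⟮x⟯ r ∧ (minpoly K⟮x⟯ r).natDegree ≤ μ := by
  obtain ⟨G, hG, hdeg, hroot⟩ := hR r hr
  obtain ⟨h1, h2⟩ := natDegree_minpoly_le hx hG hroot
  exact ⟨h1, h2.trans hdeg⟩

include hgen in
theorem adjoin_eq_top : IntermediateField.adjoin K⟮x⟯ S = ⊤ := by
  apply IntermediateField.restrictScalars_injective K
  rw [IntermediateField.adjoin_adjoin_left, IntermediateField.restrictScalars_top,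
    Set.singleton_union]
  exact hgen

include hx hS hgen hR in
theorem finiteDimensional : FiniteDimensional K⟮x⟯ F := by
  haveI : Finite S := hS.to_subtype
  have h1 : FiniteDimensional K⟮x⟯ (IntermediateField.adjoin K⟮x⟯ S) :=
    IntermediateField.finiteDimensional_adjoin fun s hs =>
      (isIntegral_of_mem x hx S μ hR
        (Algebra.subset_adjoin (Set.mem_insert_of_mem x hs))).1
  rw [adjoin_eq_top x S hgen] at h1
  exact (IntermediateField.topEquiv (F := K⟮x⟯) (E := F)).toLinearEquiv.finiteDimensional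

include hx hgen hR in
/-- Every element of `F` becomes an element of the subalgebra `K[x, S]` after multiplication
with a nonzero polynomial in `x`. -/
theorem exists_mul_mem (α : F) :
    ∃ s : K[X], s ≠ 0 ∧ Polynomial.aeval x s * α ∈ Algebra.adjoin K (insert x S) := by
  have hxR : x ∈ Algebra.adjoin K (insert x S) := Algebra.subset_adjoin (Set.mem_insert x S)
  have hpR : ∀ p : K[X], Polynomial.aeval x p ∈ Algebra.adjoin K (insert x S) := fun p => by
    rw [Polynomial.aeval_eq_sum_range]
    exact Subalgebra.sum_mem _ fun i _ => Subalgebra.smul_mem _ (Subalgebra.pow_mem _ hxR i) _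
  -- `F` is the `K(x)`-subalgebra generated by `S`
  have halg : ∀ s ∈ S, IsAlgebraic K⟮x⟯ s := fun s hs =>
    (isIntegral_of_mem x hx S μ hR
      (Algebra.subset_adjoin (Set.mem_insert_of_mem x hs))).1.isAlgebraic
  have htop : Algebra.adjoin K⟮x⟯ S = ⊤ := by
    have h1 := IntermediateField.adjoin_toSubalgebra_of_isAlgebraic halg
    rw [adjoin_eq_top x S hgen] at h1
    rw [← h1]
    rfl
  have hα : α ∈ Algebra.adjoin K⟮x⟯ S := by
    rw [htop]
    exact Algebra.mem_top
  induction hα using Algebra.adjoin_induction with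
  | mem s hs =>
    refine ⟨1, one_ne_zero, ?_⟩
    rw [map_one, one_mul]
    exact Algebra.subset_adjoin (Set.mem_insert_of_mem x hs)
  | algebraMap l =>
    obtain ⟨p, q, hpq⟩ := (IntermediateField.mem_adjoin_simple_iff K (l : F)).mp l.2
    by_cases hq : Polynomial.aeval x q = 0
    · refine ⟨1, one_ne_zero, ?_⟩
      have : algebraMap K⟮x⟯ F l = 0 := by
        show (l : F) = 0
        rw [hpq, hq, div_zero]
      rw [this, mul_zero]
      exact Subalgebra.zero_mem _
    · refine ⟨q, fun h0 => hq (by rw [h0, map_zero]), ?_⟩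
      have : Polynomial.aeval x q * algebraMap K⟮x⟯ F l = Polynomial.aeval x p := by
        show Polynomial.aeval x q * (l : F) = _
        rw [hpq, mul_div_cancel₀ _ hq]
      rw [this]
      exact hpR p
  | add a b _ _ ha hb =>
    obtain ⟨s₁, hs₁, h₁⟩ := ha
    obtain ⟨s₂, hs₂, h₂⟩ := hb
    refine ⟨s₁ * s₂, mul_ne_zero hs₁ hs₂, ?_⟩
    have : Polynomial.aeval x (s₁ * s₂) * (a + b)
        = Polynomial.aeval x s₂ * (Polynomial.aeval x s₁ * a)
          + Polynomial.aeval x s₁ * (Polynomial.aeval x s₂ * b) := by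
      rw [map_mul]
      ring
    rw [this]
    exact Subalgebra.add_mem _ (Subalgebra.mul_mem _ (hpR s₂) h₁)
      (Subalgebra.mul_mem _ (hpR s₁) h₂)
  | mul a b _ _ ha hb =>
    obtain ⟨s₁, hs₁, h₁⟩ := ha
    obtain ⟨s₂, hs₂, h₂⟩ := hb
    refine ⟨s₁ * s₂, mul_ne_zero hs₁ hs₂, ?_⟩
    have : Polynomial.aeval x (s₁ * s₂) * (a * b)
        = (Polynomial.aeval x s₁ * a) * (Polynomial.aeval x s₂ * b) := by
      rw [map_mul]
      ring
    rw [this]
    exact Subalgebra.mul_mem _ h₁ h₂

include hx hS hgen hR in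
/-- **The degree bound.** -/
theorem finrank_le : Module.finrank K⟮x⟯ F ≤ μ := by
  haveI : FiniteDimensional K⟮x⟯ F := finiteDimensional x hx S hS hgen μ hR
  haveI : CharZero K⟮x⟯ := charZero_of_injective_algebraMap (algebraMap K K⟮x⟯).injective
  obtain ⟨α, hα⟩ := Field.exists_primitive_element K⟮x⟯ F
  obtain ⟨s, hs, hr⟩ := exists_mul_mem x hx S hgen μ hR α
  set r : F := Polynomial.aeval x s * α with hrdef
  have hsx : Polynomial.aeval x s ≠ 0 := fun h0 =>
    hs ((transcendental_iff_injective.mp hx) (by rw [h0, map_zero]))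
  -- `r` is again a primitive element
  have hsL : Polynomial.aeval x s ∈ K⟮x⟯⟮r⟯ := by
    rw [← algebraMap_toAdjoin]
    exact (K⟮x⟯⟮r⟯).algebraMap_mem _
  have hαr : α ∈ K⟮x⟯⟮r⟯ := by
    have h1 : α = (Polynomial.aeval x s)⁻¹ * r := by
      rw [hrdef, ← mul_assoc, inv_mul_cancel₀ hsx, one_mul]
    rw [h1]
    exact mul_mem (inv_mem hsL) (IntermediateField.mem_adjoin_simple_self K⟮x⟯ r)
  have hr_top : K⟮x⟯⟮r⟯ = ⊤ := by
    rw [eq_top_iff, ← hα]
    exact IntermediateField.adjoin_le_iff.mpr (Set.singleton_subset_iff.mpr hαr)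
  rw [← (Field.primitive_element_iff_minpoly_natDegree_eq K⟮x⟯ r).mp hr_top]
  exact (isIntegral_of_mem x hx S μ hR hr).2

end Main

end Fermat.Agent.S24.DegreeAlg
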