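import Mathlib
import Fermat.Prelude.Def_ModularCurve_LaurentCoeff

/-!
# S24, leaf M5 (Degree), part 1: descent of linear relations

A `K`-linearly independent family of Laurent series over `K` stays linearly independent over `C`
after extending the coefficients along a field embedding `K → C`.  Consequently a `C`-linear
relation between the images of finitely many Laurent series over `K` descends to a `K`-linear
relation.
-/

set_option autoImplicit false
set_option linter.style.haveILetI false

namespace Fermat.Agent.S24.DegreeDescent

open ModularCurve

variable {K C : Type*} [Field K] [Field C] (ι : K →+* C)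

/-- **Descent.** Linear independence over `K` implies linear independence over `C` of the
coefficientwise images. -/
theorem linearIndependent_coeffMap {I : Type*} (e : I → LaurentSeries K)
    (he : LinearIndependent K e) :
    LinearIndependent C (fun i => coeffMap ι (e i)) := by
  classical
  letI : Algebra K C := ι.toAlgebra
  have hsmul : ∀ (k : K) (c : C), k • c = ι k * c := fun k c => rfl
  let b := Module.Basis.ofVectorSpace K C
  rw [linearIndependent_iff']
  intro s g hg i hi
  -- the relation, coefficientwise
  have hcoef : ∀ n : ℤ, ∑ j ∈ s, g j * ι ((e j).coeff n) = 0 := by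
    intro n
    have := congrArg (fun x : LaurentSeries C => x.coeff n) hg
    simp only [HahnSeries.coeff_zero] at this
    rw [← this]
    have h2 : (∑ j ∈ s, g j • coeffMap ι (e j)).coeff n
        = ∑ j ∈ s, (g j • coeffMap ι (e j)).coeff n := by
      rw [← HahnSeries.coeff.addMonoidHom_apply, map_sum]
      rfl
    rw [h2]
    refine Finset.sum_congr rfl fun j _ => ?_
    rw [HahnSeries.coeff_smul, coeffMap_coeff, smul_eq_mul]
  -- apply the coordinate functionals
  have hcoord : ∀ t, ∑ j ∈ s, (b.coord t (g j)) • e j = 0 := by
    intro t
    ext n
    rw [HahnSeries.coeff_zero]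
    have h2 : (∑ j ∈ s, (b.coord t (g j)) • e j).coeff n
        = ∑ j ∈ s, ((b.coord t (g j)) • e j).coeff n := by
      rw [← HahnSeries.coeff.addMonoidHom_apply, map_sum]
      rfl
    rw [h2]
    have h3 := congrArg (b.coord t) (hcoef n)
    rw [map_sum, map_zero] at h3
    rw [← h3]
    refine Finset.sum_congr rfl fun j _ => ?_
    rw [HahnSeries.coeff_smul, smul_eq_mul, mul_comm (g j), ← hsmul, map_smul, smul_eq_mul,
      mul_comm]
  have hzero : ∀ t, b.coord t (g i) = 0 := fun t =>
    (linearIndependent_iff'.mp he) s (fun j => b.coord t (g j)) (hcoord t) i hi
  apply b.ext_elem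
  intro t
  rw [map_zero, Finsupp.zero_apply]
  exact hzero t

/-- **Descent of relations.** If the images of finitely many Laurent series over `K` satisfy a
nontrivial `C`-linear relation, then the series satisfy a nontrivial `K`-linear relation. -/
theorem exists_relation {I : Type*} [Fintype I] (e : I → LaurentSeries K) (g : I → C)
    (hg0 : g ≠ 0) (hg : ∑ i, g i • coeffMap ι (e i) = 0) :
    ∃ c : I → K, c ≠ 0 ∧ ∑ i, c i • e i = 0 := by
  by_contra hcon
  have he : LinearIndependent K e := by
    rw [Fintype.linearIndependent_iff]
    intro c hc
    by_contra hne
    exact hcon ⟨c, fun h => hne fun i => by rw [h]; rfl, hc⟩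
  have := linearIndependent_coeffMap ι e he
  rw [Fintype.linearIndependent_iff] at this
  exact hg0 (funext fun i => this g hg i)

end Fermat.Agent.S24.DegreeDescent
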