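import Mathlib
import Fermat.Agent.S24.DegreeDescent

/-!
# S24, leaf M5 (Degree), part 4: bivariate relations

* `exists_bivariate_descent`: a nonzero bivariate relation `G(x̂, r̂) = 0` with complex
  coefficients between the images of two Laurent series `x, r` over `K` descends to a nonzero
  bivariate relation over `K` of the same `Y`-degree.
* `exists_bivariate_of_finite`: if `F` is finite over `K(x)` of degree `n`, every `y ∈ F`
  satisfies a nonzero bivariate relation `G(x, y) = 0` over `K` of `Y`-degree `≤ n`.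
-/

set_option autoImplicit false
set_option linter.style.haveILetI false
set_option linter.unusedSectionVars false

namespace Fermat.Agent.S24.DegreeBridge

open Polynomial ModularCurve

section Descent

variable {K C : Type*} [Field K] [Field C] (ι : K →+* C)

/-- the bivariate polynomial with coefficients `c (a, b)` -/
noncomputable def biv {R : Type*} [CommRing R] (A μ : ℕ) (c : Fin (A + 1) × Fin (μ + 1) → R) :
    R[X][X] :=
  ∑ b : Fin (μ + 1), Polynomial.monomial (b : ℕ)
    (∑ a : Fin (A + 1), Polynomial.monomial (a : ℕ) (c (a, b)))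

theorem biv_coeff_coeff {R : Type*} [CommRing R] (A μ : ℕ)
    (c : Fin (A + 1) × Fin (μ + 1) → R) (a : Fin (A + 1)) (b : Fin (μ + 1)) :
    ((biv A μ c).coeff b).coeff a = c (a, b) := by
  classical
  unfold biv
  rw [Polynomial.finsetSum_coeff, Finset.sum_eq_single b]
  · rw [Polynomial.coeff_monomial, if_pos rfl, Polynomial.finsetSum_coeff,
      Finset.sum_eq_single a]
    · rw [Polynomial.coeff_monomial, if_pos rfl]
    · intro a' _ ha'
      rw [Polynomial.coeff_monomial, if_neg (fun h => ha' (Fin.ext h))]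
    · intro h
      exact absurd (Finset.mem_univ a) h
  · intro b' _ hb'
    rw [Polynomial.coeff_monomial, if_neg (fun h => hb' (Fin.ext h))]
  · intro h
    exact absurd (Finset.mem_univ b) h

theorem biv_natDegree_le {R : Type*} [CommRing R] (A μ : ℕ)
    (c : Fin (A + 1) × Fin (μ + 1) → R) : (biv A μ c).natDegree ≤ μ := by
  unfold biv
  refine Polynomial.natDegree_sum_le_of_forall_le _ _ fun b _ => ?_
  exact (Polynomial.natDegree_monomial_le _).trans (Nat.lt_succ_iff.mp b.2)

theorem biv_ne_zero {R : Type*} [CommRing R] (A μ : ℕ)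
    (c : Fin (A + 1) × Fin (μ + 1) → R) (hc : c ≠ 0) : biv A μ c ≠ 0 := by
  intro h0
  apply hc
  funext ⟨a, b⟩
  rw [← biv_coeff_coeff A μ c a b, h0]
  simp

theorem eval₂_biv {R S : Type*} [CommRing R] [CommRing S] [Algebra R S] (A μ : ℕ)
    (c : Fin (A + 1) × Fin (μ + 1) → R) (x y : S) :
    Polynomial.eval₂ (Polynomial.aeval x).toRingHom y (biv A μ c)
      = ∑ p : Fin (A + 1) × Fin (μ + 1),
          algebraMap R S (c p) * (x ^ (p.1 : ℕ) * y ^ (p.2 : ℕ)) := by
  unfold biv
  rw [Polynomial.eval₂_finsetSum, Fintype.sum_prod_type_right]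
  refine Finset.sum_congr rfl fun b _ => ?_
  rw [Polynomial.eval₂_monomial, AlgHom.toRingHom_eq_coe, RingHom.coe_coe, map_sum,
    Finset.sum_mul]
  refine Finset.sum_congr rfl fun a _ => ?_
  rw [Polynomial.aeval_monomial, mul_assoc]

/-- the two scalar multiplications on Laurent series agree -/
theorem algebraMap_mul_eq_smul {L : Type*} [Field L] (c : L) (f : LaurentSeries L) :
    algebraMap L (LaurentSeries L) c * f = c • f := by
  rw [algebraMap_laurentSeries_eq_single]
  exact HahnSeries.C_mul_eq_smul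

/-- every bivariate polynomial of bounded degrees is a `biv` -/
theorem eq_biv {R : Type*} [CommRing R] (G : R[X][X]) (A μ : ℕ) (hμ : G.natDegree ≤ μ)
    (hA : ∀ b, (G.coeff b).natDegree ≤ A) :
    G = biv (R := R) A μ (fun p => (G.coeff (p.2 : ℕ)).coeff (p.1 : ℕ)) := by
  classical
  ext b a
  by_cases hb : b < μ + 1
  · by_cases ha : a < A + 1
    · exact (biv_coeff_coeff (R := R) A μ
        (fun p => (G.coeff (p.2 : ℕ)).coeff (p.1 : ℕ)) ⟨a, ha⟩ ⟨b, hb⟩).symm
    · have h1 : (G.coeff b).coeff a = 0 :=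
        Polynomial.coeff_eq_zero_of_natDegree_lt (lt_of_le_of_lt (hA b) (by omega))
      rw [h1]
      unfold biv
      rw [Polynomial.finsetSum_coeff, Polynomial.finsetSum_coeff]
      symm
      refine Finset.sum_eq_zero fun b' _ => ?_
      rw [Polynomial.coeff_monomial]
      split_ifs
      · rw [Polynomial.finsetSum_coeff]
        refine Finset.sum_eq_zero fun a' _ => ?_
        rw [Polynomial.coeff_monomial, if_neg]
        have := a'.2
        omega
      · simp
  · have h1 : G.coeff b = 0 :=
      Polynomial.coeff_eq_zero_of_natDegree_lt (lt_of_le_of_lt hμ (by omega))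
    rw [h1]
    have h2 : (biv (R := R) A μ (fun p => (G.coeff (p.2 : ℕ)).coeff (p.1 : ℕ))).coeff b = 0 :=
      Polynomial.coeff_eq_zero_of_natDegree_lt
        (lt_of_le_of_lt (biv_natDegree_le A μ _) (by omega))
    rw [h2]

/-- **Descent of bivariate relations.** -/
theorem exists_bivariate_descent (x r : LaurentSeries K) (G : C[X][X]) (hG : G ≠ 0)
    (hroot : Polynomial.eval₂ (Polynomial.aeval (coeffMap ι x)).toRingHom (coeffMap ι r) G = 0) :
    ∃ G' : K[X][X], G' ≠ 0 ∧ G'.natDegree ≤ G.natDegree ∧
      Polynomial.eval₂ (Polynomial.aeval x).toRingHom r G' = 0 := by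
  classical
  set μ := G.natDegree with hμ
  set A := (Finset.range (μ + 1)).sup (fun b => (G.coeff b).natDegree) with hA
  have hAb : ∀ b, (G.coeff b).natDegree ≤ A := by
    intro b
    by_cases hb : b < μ + 1
    · exact Finset.le_sup (f := fun b => (G.coeff b).natDegree) (Finset.mem_range.mpr hb)
    · rw [Polynomial.coeff_eq_zero_of_natDegree_lt (by omega : G.natDegree < b)]
      simp
  set g : Fin (A + 1) × Fin (μ + 1) → C := fun p => (G.coeff (p.2 : ℕ)).coeff (p.1 : ℕ) with hg
  have hGg : G = biv A μ g := eq_biv G A μ le_rfl hAb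
  have hg0 : g ≠ 0 := by
    intro h0
    apply hG
    rw [hGg, h0]
    unfold biv
    simp
  have hrel : ∑ p : Fin (A + 1) × Fin (μ + 1),
      g p • coeffMap ι (x ^ (p.1 : ℕ) * r ^ (p.2 : ℕ)) = 0 := by
    rw [hGg, eval₂_biv] at hroot
    rw [← hroot]
    refine Finset.sum_congr rfl fun p _ => ?_
    rw [map_mul, map_pow, map_pow, algebraMap_mul_eq_smul]
  obtain ⟨c, hc0, hc⟩ := DegreeDescent.exists_relation ι
    (fun p : Fin (A + 1) × Fin (μ + 1) => x ^ (p.1 : ℕ) * r ^ (p.2 : ℕ)) g hg0 hrel
  refine ⟨biv A μ c, biv_ne_zero A μ c hc0, biv_natDegree_le A μ c, ?_⟩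
  rw [eval₂_biv, ← hc]
  refine Finset.sum_congr rfl fun p _ => ?_
  rw [algebraMap_mul_eq_smul]

end Descent

section Finite

open IntermediateField

variable {K F : Type*} [Field K] [Field F] [Algebra K F]

/-- **Clearing denominators.** If `F` is finite over `K(x)`, every `y ∈ F` satisfies a nonzero
bivariate relation over `K` of `Y`-degree at most `[F : K(x)]`. -/
theorem exists_bivariate_of_finite (x : F) [FiniteDimensional K⟮x⟯ F] (y : F) :
    ∃ G : K[X][X], G ≠ 0 ∧ G.natDegree ≤ Module.finrank K⟮x⟯ F ∧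
      Polynomial.eval₂ (Polynomial.aeval x).toRingHom y G = 0 := by
  classical
  have hint : IsIntegral K⟮x⟯ y := IsIntegral.of_finite K⟮x⟯ y
  set m := minpoly K⟮x⟯ y with hm
  have hmonic : m.Monic := minpoly.monic hint
  have hroot : Polynomial.aeval y m = 0 := minpoly.aeval K⟮x⟯ y
  set n := m.natDegree with hn
  have hnle : n ≤ Module.finrank K⟮x⟯ F := minpoly.natDegree_le y
  have hex : ∀ b : ℕ, ∃ p q : K[X], ((m.coeff b : K⟮x⟯) : F)
      = Polynomial.aeval x p / Polynomial.aeval x q :=
    fun b => (IntermediateField.mem_adjoin_simple_iff K ((m.coeff b : K⟮x⟯) : F)).mp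
      (m.coeff b).2
  choose p q hpq using hex
  set q' : ℕ → K[X] := fun b => if Polynomial.aeval x (q b) = 0 then 1 else q b with hq'
  set p' : ℕ → K[X] := fun b => if Polynomial.aeval x (q b) = 0 then 0 else p b with hp'
  have h1 : ∀ b, Polynomial.aeval x (q' b) ≠ 0 := by
    intro b
    simp only [hq']
    split_ifs with h
    · simp
    · exact h
  have h2 : ∀ b, ((m.coeff b : K⟮x⟯) : F) * Polynomial.aeval x (q' b)
      = Polynomial.aeval x (p' b) := by
    intro b
    simp only [hq', hp']
    split_ifs with h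
    · rw [hpq b, h, div_zero, zero_mul, map_zero]
    · rw [hpq b, div_mul_cancel₀ _ h]
  set s := Finset.range (n + 1) with hs
  set Qt : K[X] := ∏ b ∈ s, q' b with hQt
  have hQt0 : Polynomial.aeval x Qt ≠ 0 := by
    rw [hQt, map_prod]
    exact Finset.prod_ne_zero_iff.mpr fun b _ => h1 b
  set co : ℕ → K[X] := fun b => p' b * ∏ b' ∈ s.erase b, q' b' with hco
  have hco_eval : ∀ b ∈ s, Polynomial.aeval x (co b)
      = ((m.coeff b : K⟮x⟯) : F) * Polynomial.aeval x Qt := by
    intro b hb
    simp only [hco]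
    rw [map_mul, ← h2 b, mul_assoc, ← map_mul, hQt, Finset.mul_prod_erase s q' hb]
  set G : K[X][X] := ∑ b ∈ s, Polynomial.monomial b (co b) with hG
  have hGcoeff : G.coeff n = co n := by
    rw [hG, Polynomial.finsetSum_coeff]
    rw [Finset.sum_eq_single n]
    · rw [Polynomial.coeff_monomial, if_pos rfl]
    · intro b _ hb
      rw [Polynomial.coeff_monomial, if_neg hb]
    · intro h
      exact absurd (Finset.mem_range.mpr (Nat.lt_succ_self n)) h
  refine ⟨G, ?_, ?_, ?_⟩
  · intro h0
    have h3 : Polynomial.aeval x (co n) = Polynomial.aeval x Qt := by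
      rw [hco_eval n (Finset.mem_range.mpr (Nat.lt_succ_self n))]
      have : m.coeff n = 1 := hmonic
      rw [this]
      simp
    rw [← hGcoeff, h0, Polynomial.coeff_zero, map_zero] at h3
    exact hQt0 h3.symm
  · refine le_trans ?_ hnle
    rw [hG]
    refine Polynomial.natDegree_sum_le_of_forall_le _ _ fun b hb => ?_
    exact (Polynomial.natDegree_monomial_le _).trans (Nat.lt_succ_iff.mp (Finset.mem_range.mp hb))
  · rw [hG, Polynomial.eval₂_finsetSum]
    have h4 : ∀ b ∈ s, Polynomial.eval₂ (Polynomial.aeval x).toRingHom y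
        (Polynomial.monomial b (co b))
        = Polynomial.aeval x Qt * (((m.coeff b : K⟮x⟯) : F) * y ^ b) := by
      intro b hb
      rw [Polynomial.eval₂_monomial, AlgHom.toRingHom_eq_coe, RingHom.coe_coe, hco_eval b hb]
      ring
    rw [Finset.sum_congr rfl h4, ← Finset.mul_sum]
    have h5 : ∑ b ∈ s, ((m.coeff b : K⟮x⟯) : F) * y ^ b = Polynomial.aeval y m := by
      rw [Polynomial.aeval_eq_sum_range]
      refine Finset.sum_congr rfl fun b _ => ?_
      rw [Algebra.smul_def]
      rfl
    rw [h5, hroot, mul_zero]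

end Finite

end Fermat.Agent.S24.DegreeBridge
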