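import Mathlib
import Fermat.Agent.S20.Basic
import Fermat.Agent.S20.Div
import Fermat.Agent.S20.Ramanujan
import Fermat.Agent.S20.JInj

/-!
# S24: the analytic `j`-function

`jfun = E₄³ / Δ` on the upper half plane: holomorphy, invariance under `SL₂(ℤ)`, the fibres are
exactly the `SL₂(ℤ)`-orbits, surjectivity onto `ℂ`, and the local orders
`ord_{z₀} (j - j(z₀)) = 1, 2, 3`.
-/

set_option autoImplicit false

namespace Fermat.Agent.S24.JFunction

open UpperHalfPlane ModularForm EisensteinSeries Filter Topology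
open Fermat.Agent.S20 Fermat.Agent.S20.Ramanujan Fermat.Agent.S20.JInj
open scoped MatrixGroups Manifold ModularForm

/-- The analytic `j`-function `E₄³ / Δ`. -/
noncomputable def jfun (z : ℍ) : ℂ := E₄ z ^ 3 / discriminant z

theorem jfun_apply (z : ℍ) : jfun z = E₄ z ^ 3 / discriminant z := rfl

theorem discriminant_eq' (z : ℍ) : discriminant z = (E₄ z ^ 3 - E₆ z ^ 2) / 1728 :=
  discriminant_eq_E₄_cube_sub_E₆_sq z

/-- The basic identity: `j(z) - j(z₀) = -ψ_{z₀}(z) / (1728 Δ(z) Δ(z₀))`. -/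
theorem jfun_sub (z z₀ : ℍ) :
    jfun z - jfun z₀ = -psi z₀ z / (1728 * discriminant z * discriminant z₀) := by
  have h1 := discriminant_ne_zero z
  have h2 := discriminant_ne_zero z₀
  rw [jfun, jfun, psi_apply, div_sub_div _ _ h1 h2, div_eq_div_iff (mul_ne_zero h1 h2)
    (mul_ne_zero (mul_ne_zero (by norm_num) h1) h2)]
  have e1 := discriminant_eq' z
  have e2 := discriminant_eq' z₀
  have e1' : E₆ z ^ 2 = E₄ z ^ 3 - 1728 * discriminant z := by rw [e1]; ring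
  have e2' : E₆ z₀ ^ 2 = E₄ z₀ ^ 3 - 1728 * discriminant z₀ := by rw [e2]; ring
  rw [e1', e2']
  ring

/-- Transformation of the discriminant under `SL₂(ℤ)`. -/
theorem discriminant_smul (g : SL(2, ℤ)) (z : ℍ) :
    discriminant (g • z) = ((g 1 0 : ℂ) * z + (g 1 1 : ℂ)) ^ 12 * discriminant z := by
  have e4 : E₄ (g • z) = ((g 1 0 : ℂ) * z + (g 1 1 : ℂ)) ^ 4 * E₄ z :=
    E_smul (by norm_num : 3 ≤ 4) g z
  have e6 : E₆ (g • z) = ((g 1 0 : ℂ) * z + (g 1 1 : ℂ)) ^ 6 * E₆ z :=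
    E_smul (by norm_num : 3 ≤ 6) g z
  rw [discriminant_eq', discriminant_eq', e4, e6]
  ring

/-- `j` is invariant under `SL₂(ℤ)`. -/
theorem jfun_smul (g : SL(2, ℤ)) (z : ℍ) : jfun (g • z) = jfun z := by
  have e4 : E₄ (g • z) = ((g 1 0 : ℂ) * z + (g 1 1 : ℂ)) ^ 4 * E₄ z :=
    E_smul (by norm_num : 3 ≤ 4) g z
  have hd : (g 1 0 : ℂ) * z + (g 1 1 : ℂ) ≠ 0 := by
    have := UpperHalfPlane.denom_ne_zero g z
    simpa [UpperHalfPlane.denom] using this
  have h1 := discriminant_ne_zero z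
  rw [jfun, jfun, e4, discriminant_smul, div_eq_div_iff (mul_ne_zero (pow_ne_zero _ hd) h1) h1]
  ring

/-- `j` is holomorphic on the upper half plane. -/
theorem mdiff_jfun : MDiff jfun := by
  have h : jfun = (fun z => E₄ z ^ 3) / (discriminant : ℍ → ℂ) := rfl
  rw [h]
  refine Fermat.Agent.S20.Div.mdiff_div ?_ Fermat.Agent.S20.Div.mdiff_discriminant
    discriminant_ne_zero
  have h4 : MDiff (⇑E₄ : ℍ → ℂ) := E₄.holo'
  exact h4.pow 3

/-- The fibres of `j` are the `SL₂(ℤ)`-orbits. -/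
theorem jfun_eq_iff (z z' : ℍ) : jfun z' = jfun z ↔ ∃ g : SL(2, ℤ), g • z = z' := by
  constructor
  · intro h
    have h0 : psi z z' = 0 := by
      have := jfun_sub z' z
      rw [h, sub_self] at this
      have hne : (1728 * discriminant z' * discriminant z : ℂ) ≠ 0 :=
        mul_ne_zero (mul_ne_zero (by norm_num) (discriminant_ne_zero z')) (discriminant_ne_zero z)
      have := (div_eq_zero_iff.mp this.symm).resolve_right hne
      simpa using this
    rw [psi_apply] at h0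
    by_cases h6 : E₆ z = 0
    · have h4 := E₄_ne_zero_of_E₆_eq_zero h6
      rw [h6] at h0
      have h6' : E₆ z' = 0 := by
        have : E₄ z ^ 3 * E₆ z' ^ 2 = 0 := by linear_combination -h0
        rcases mul_eq_zero.mp this with h1 | h1
        · exact absurd (pow_eq_zero_iff (by norm_num) |>.mp h1) h4
        · exact pow_eq_zero_iff (by norm_num) |>.mp h1
      obtain ⟨g, hg⟩ := (E₆_eq_zero_iff_I z).mp h6
      obtain ⟨g', hg'⟩ := (E₆_eq_zero_iff_I z').mp h6'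
      refine ⟨g' * g⁻¹, ?_⟩
      rw [← hg, ← hg', mul_smul, inv_smul_smul]
    by_cases h4 : E₄ z = 0
    · rw [h4] at h0
      have h4' : E₄ z' = 0 := by
        have : E₆ z ^ 2 * E₄ z' ^ 3 = 0 := by linear_combination h0
        rcases mul_eq_zero.mp this with h1 | h1
        · exact absurd (pow_eq_zero_iff (by norm_num) |>.mp h1) h6
        · exact pow_eq_zero_iff (by norm_num) |>.mp h1
      obtain ⟨g, hg⟩ := (E₄_eq_zero_iff_rho z).mp h4
      obtain ⟨g', hg'⟩ := (E₄_eq_zero_iff_rho z').mp h4'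
      refine ⟨g' * g⁻¹, ?_⟩
      rw [← hg, ← hg', mul_smul, inv_smul_smul]
    exact (psi_eq_zero_iff h4 h6 z').mp h0
  · rintro ⟨g, rfl⟩
    exact jfun_smul g z

theorem jfun_rho : jfun rho = 0 := by
  rw [jfun, E₄_rho]
  simp

theorem jfun_I : jfun UpperHalfPlane.I = 1728 := by
  have h := discriminant_eq' UpperHalfPlane.I
  rw [E₆_I] at h
  have h1 := discriminant_ne_zero UpperHalfPlane.I
  rw [jfun, div_eq_iff h1, h]
  ring

theorem jfun_eq_zero_iff (z : ℍ) : jfun z = 0 ↔ E₄ z = 0 := by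
  rw [jfun, div_eq_zero_iff]
  constructor
  · rintro (h | h)
    · exact pow_eq_zero_iff (by norm_num) |>.mp h
    · exact absurd h (discriminant_ne_zero z)
  · intro h
    left
    rw [h]
    norm_num

theorem jfun_eq_1728_iff (z : ℍ) : jfun z = 1728 ↔ E₆ z = 0 := by
  have h1 := discriminant_ne_zero z
  rw [jfun, div_eq_iff h1, discriminant_eq']
  constructor
  · intro h
    have : E₆ z ^ 2 = 0 := by linear_combination h
    exact pow_eq_zero_iff (by norm_num) |>.mp this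
  · intro h
    rw [h]
    ring

/-! ### Surjectivity -/

/-- Every level one modular form of weight `12` tending to `1` at `i∞` has a zero. -/
theorem exists_zero_of_tendsto_one {f : ℍ → ℂ} (hf : IsMF 1 12 f)
    (hlim : Tendsto f atImInfty (𝓝 1)) : ∃ z, f z = 0 := by
  by_contra hne
  replace hne : ∀ z, f z ≠ 0 := fun z hz => hne ⟨z, hz⟩
  set g : ℍ → ℂ := (fun _ => (1 : ℂ)) / f with hg
  have hfg : f * g = 1 := by
    ext z
    simp only [Pi.mul_apply, hg, Pi.div_apply, Pi.one_apply]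
    exact mul_div_cancel₀ _ (hne z)
  have hslash : ∀ γ : SL(2, ℤ), g ∣[(-12 : ℤ)] γ = g := by
    intro γ
    have h1 := mul_slash_SL2 12 (-12) γ f g
    rw [hfg, hf.slash_eq_one γ] at h1
    have h2 : (1 : ℍ → ℂ) ∣[((12 : ℤ) + -12)] γ = 1 := by
      have : ((12 : ℤ) + -12) = 0 := by norm_num
      rw [this]
      exact is_invariant_one γ
    rw [h2] at h1
    ext z
    have h3 := congrFun h1 z
    have h4 := congrFun hfg z
    simp only [Pi.mul_apply, Pi.one_apply] at h3 h4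
    have := hne z
    apply mul_left_cancel₀ this
    rw [← h3, h4]
  have hgl : Tendsto g atImInfty (𝓝 1) := by
    have : Tendsto (fun z => (1 : ℂ) / f z) atImInfty (𝓝 ((1 : ℂ) / 1)) :=
      tendsto_const_nhds.div hlim one_ne_zero
    rw [div_one] at this
    exact this
  have hgMF : IsMF 1 (-12) g := by
    refine ⟨Fermat.Agent.S20.Div.mdiff_div ?_ hf.mdiff hne, fun γ _ => hslash γ, fun δ => ?_⟩
    · exact mdifferentiable_const
    · rw [hslash δ]
      exact hgl.isBigO_one ℝ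
  have h0 := hgMF.eq_zero_of_neg (by norm_num)
  have := congrFun hfg UpperHalfPlane.I
  rw [h0] at this
  simp at this

/-- **`j` is surjective.** -/
theorem jfun_surjective : Function.Surjective jfun := by
  intro c
  have hMF : IsMF 1 12 (fun z => E₄ z ^ 3 - c * discriminant z) := by
    have h1 : IsMF 1 12 ((⇑E₄ : ℍ → ℂ) ^ 3) := by
      have := (isMF_E4).pow 3
      exact this.congr_weight (by norm_num)
    have h2 : IsMF 1 12 (c • (discriminant : ℍ → ℂ)) := (isMF_discriminant).smul c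
    exact h1.sub h2
  have hlim : Tendsto (fun z => E₄ z ^ 3 - c * discriminant z) atImInfty (𝓝 1) := by
    have h1 : Tendsto (fun z : ℍ => E₄ z ^ 3) atImInfty (𝓝 (1 ^ 3)) := tendsto_E₄.pow 3
    have h2 : Tendsto (fun z : ℍ => c * discriminant z) atImInfty (𝓝 (c * 0)) :=
      tendsto_const_nhds.mul discriminant_isZeroAtImInfty
    have := h1.sub h2
    simpa using this
  obtain ⟨z, hz⟩ := exists_zero_of_tendsto_one hMF hlim
  refine ⟨z, ?_⟩
  rw [jfun, div_eq_iff (discriminant_ne_zero z)]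
  linear_combination hz

/-! ### Local orders -/

/-- Holomorphic functions on `ℍ` are analytic at every point, as functions on `ℂ`. -/
theorem analyticAt_comp_ofComplex {f : ℍ → ℂ} (hf : MDiff f) (z : ℍ) :
    AnalyticAt ℂ (f ∘ ofComplex) (z : ℂ) := by
  have h := UpperHalfPlane.mdifferentiable_iff.mp hf
  exact h.analyticAt (UpperHalfPlane.isOpen_upperHalfPlaneSet.mem_nhds z.im_pos)

/-- The ramification index of `j` at `z₀`: `3` on the orbit of `ρ`, `2` on the orbit of `i`,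
`1` elsewhere. -/
noncomputable def ramIdx (z₀ : ℍ) : ℕ :=
  open Classical in if E₄ z₀ = 0 then 3 else if E₆ z₀ = 0 then 2 else 1

theorem ramIdx_pos (z₀ : ℍ) : 0 < ramIdx z₀ := by
  unfold ramIdx
  split_ifs <;> norm_num

theorem analyticOrderAt_E₄ {z₀ : ℍ} (h : E₄ z₀ = 0) :
    analyticOrderAt ((⇑E₄ : ℍ → ℂ) ∘ ofComplex) (z₀ : ℂ) = 1 := by
  have hA4 : AnalyticAt ℂ ((⇑E₄ : ℍ → ℂ) ∘ ofComplex) (z₀ : ℂ) :=
    analyticAt_comp_ofComplex E₄.holo' z₀
  refine hA4.analyticOrderAt_eq_one_of_zero_deriv_ne_zero ?_ (deriv_E₄_ne_zero h)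
  simp [h]

theorem analyticOrderAt_E₆ {z₀ : ℍ} (h : E₆ z₀ = 0) :
    analyticOrderAt ((⇑E₆ : ℍ → ℂ) ∘ ofComplex) (z₀ : ℂ) = 1 := by
  have hA6 : AnalyticAt ℂ ((⇑E₆ : ℍ → ℂ) ∘ ofComplex) (z₀ : ℂ) :=
    analyticAt_comp_ofComplex E₆.holo' z₀
  refine hA6.analyticOrderAt_eq_one_of_zero_deriv_ne_zero ?_ (deriv_E₆_ne_zero h)
  simp [h]

theorem analyticOrderAt_psi (z₀ : ℍ) :
    analyticOrderAt (psi z₀ ∘ ofComplex) (z₀ : ℂ) = ramIdx z₀ := by
  have hA4 : AnalyticAt ℂ ((⇑E₄ : ℍ → ℂ) ∘ ofComplex) (z₀ : ℂ) :=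
    analyticAt_comp_ofComplex E₄.holo' z₀
  have hA6 : AnalyticAt ℂ ((⇑E₆ : ℍ → ℂ) ∘ ofComplex) (z₀ : ℂ) :=
    analyticAt_comp_ofComplex E₆.holo' z₀
  unfold ramIdx
  split_ifs with h4 h6
  · -- `ψ = E₆(z₀)² E₄³`
    have h6' := E₆_ne_zero_of_E₄_eq_zero h4
    have e : psi z₀ ∘ ofComplex =
        (fun _ : ℂ => E₆ z₀ ^ 2) * ((⇑E₄ : ℍ → ℂ) ∘ ofComplex) ^ 3 := by
      ext w
      simp [psi_apply, h4]
    rw [e, analyticOrderAt_mul analyticAt_const (hA4.pow 3), analyticOrderAt_pow hA4,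
      analyticOrderAt_E₄ h4, (analyticAt_const).analyticOrderAt_eq_zero.mpr (pow_ne_zero 2 h6')]
    norm_num
  · -- `ψ = -E₄(z₀)³ E₆²`
    have e : psi z₀ ∘ ofComplex =
        (fun _ : ℂ => -E₄ z₀ ^ 3) * ((⇑E₆ : ℍ → ℂ) ∘ ofComplex) ^ 2 := by
      ext w
      simp [psi_apply, h6]
    rw [e, analyticOrderAt_mul analyticAt_const (hA6.pow 2), analyticOrderAt_pow hA6,
      analyticOrderAt_E₆ h6,
      (analyticAt_const).analyticOrderAt_eq_zero.mpr (neg_ne_zero.mpr (pow_ne_zero 3 h4))]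
    norm_num
  · have := (analyticAt_comp_ofComplex (psi_mdifferentiable z₀) z₀)
      |>.analyticOrderAt_eq_one_of_zero_deriv_ne_zero (by simp)
        (deriv_psi_ne_zero h4 h6 (psi_self z₀))
    rw [this]
    norm_num

/-- **Local order of `j`.** `j - j(z₀)` vanishes at `z₀` to order exactly `ramIdx z₀`. -/
theorem analyticOrderAt_jfun_sub (z₀ : ℍ) :
    analyticOrderAt (fun w : ℂ => jfun (ofComplex w) - jfun z₀) (z₀ : ℂ) = ramIdx z₀ := by
  have hΔ : AnalyticAt ℂ ((discriminant : ℍ → ℂ) ∘ ofComplex) (z₀ : ℂ) :=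
    analyticAt_comp_ofComplex Fermat.Agent.S20.Div.mdiff_discriminant z₀
  have hψ := analyticAt_comp_ofComplex (psi_mdifferentiable z₀) z₀
  set u : ℂ → ℂ := fun w => -(1728 * discriminant (ofComplex w) * discriminant z₀)⁻¹ with hu
  have hden : AnalyticAt ℂ (fun w : ℂ => 1728 * discriminant (ofComplex w) * discriminant z₀)
      (z₀ : ℂ) := (analyticAt_const.mul hΔ).mul analyticAt_const
  have hden0 : (1728 * discriminant (ofComplex (z₀ : ℂ)) * discriminant z₀ : ℂ) ≠ 0 := by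
    rw [ofComplex_apply]
    exact mul_ne_zero (mul_ne_zero (by norm_num) (discriminant_ne_zero z₀))
      (discriminant_ne_zero z₀)
  have huA : AnalyticAt ℂ u (z₀ : ℂ) := (hden.inv hden0).neg
  have hu0 : u (z₀ : ℂ) ≠ 0 := neg_ne_zero.mpr (inv_ne_zero hden0)
  have e : (fun w : ℂ => jfun (ofComplex w) - jfun z₀) = (psi z₀ ∘ ofComplex) * u := by
    ext w
    simp only [Pi.mul_apply, Function.comp_apply, hu, jfun_sub]
    rw [div_eq_mul_inv]
    ring
  rw [e, analyticOrderAt_mul hψ huA, analyticOrderAt_psi, huA.analyticOrderAt_eq_zero.mpr hu0,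
    add_zero]

/-! ### Stabilisers -/

/-- On the orbit of `i` the point `z₀` is fixed by a conjugate of `S`. -/
theorem exists_conj_S_smul_eq {z₀ : ℍ} (h : E₆ z₀ = 0) :
    ∃ g : SL(2, ℤ), g • UpperHalfPlane.I = z₀ ∧ (g * ModularGroup.S * g⁻¹) • z₀ = z₀ := by
  obtain ⟨g, hg⟩ := (E₆_eq_zero_iff_I z₀).mp h
  refine ⟨g, hg, ?_⟩
  rw [← hg, mul_smul, mul_smul, inv_smul_smul, S_smul_I]

/-- On the orbit of `ρ` the point `z₀` is fixed by a conjugate of `S * T`. -/
theorem exists_conj_ST_smul_eq {z₀ : ℍ} (h : E₄ z₀ = 0) :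
    ∃ g : SL(2, ℤ), g • rho = z₀ ∧
      (g * (ModularGroup.S * ModularGroup.T) * g⁻¹) • z₀ = z₀ := by
  obtain ⟨g, hg⟩ := (E₄_eq_zero_iff_rho z₀).mp h
  refine ⟨g, hg, ?_⟩
  rw [← hg, mul_smul, mul_smul, inv_smul_smul, ST_smul_rho]

theorem ramIdx_of_E₄ {z₀ : ℍ} (h : E₄ z₀ = 0) : ramIdx z₀ = 3 := by
  simp [ramIdx, h]

theorem ramIdx_of_E₆ {z₀ : ℍ} (h : E₆ z₀ = 0) : ramIdx z₀ = 2 := by
  simp [ramIdx, h, E₄_ne_zero_of_E₆_eq_zero h]

theorem ramIdx_of_ne {z₀ : ℍ} (h4 : E₄ z₀ ≠ 0) (h6 : E₆ z₀ ≠ 0) : ramIdx z₀ = 1 := by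
  simp [ramIdx, h4, h6]

theorem ramIdx_of_jfun_ne {z₀ : ℍ} (h0 : jfun z₀ ≠ 0) (h1 : jfun z₀ ≠ 1728) : ramIdx z₀ = 1 :=
  ramIdx_of_ne (fun h => h0 ((jfun_eq_zero_iff z₀).mpr h))
    (fun h => h1 ((jfun_eq_1728_iff z₀).mpr h))

theorem ramIdx_smul (g : SL(2, ℤ)) (z₀ : ℍ) : ramIdx (g • z₀) = ramIdx z₀ := by
  have h4 : E₄ (g • z₀) = 0 ↔ E₄ z₀ = 0 := by
    rw [← jfun_eq_zero_iff, ← jfun_eq_zero_iff, jfun_smul]
  have h6 : E₆ (g • z₀) = 0 ↔ E₆ z₀ = 0 := by
    rw [← jfun_eq_1728_iff, ← jfun_eq_1728_iff, jfun_smul]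
  unfold ramIdx
  simp only [h4, h6]

/-! ### Behaviour at `i∞` -/

/-- `q · j → 1` at `i∞`: the `j`-function has a simple pole at the cusp with residue `1`. -/
theorem tendsto_qParam_mul_jfun :
    Tendsto (fun z : ℍ => Function.Periodic.qParam 1 z * jfun z) atImInfty (𝓝 1) := by
  have h1 : Tendsto (fun z : ℍ => E₄ z ^ 3) atImInfty (𝓝 (1 ^ 3)) := tendsto_E₄.pow 3
  have h2 := tendsto_atImInfty_tprod_one_sub_eta_q_pow
  have h3 := h1.div h2 one_ne_zero
  rw [one_pow, div_one] at h3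
  refine h3.congr fun z => ?_
  have hq : Function.Periodic.qParam 1 (z : ℂ) ≠ 0 := by
    simp [Function.Periodic.qParam]
  have hΔ := discriminant_ne_zero z
  have e := discriminant_eq_q_prod z
  have hP : (∏' n, (1 - eta_q n (z : ℂ)) ^ 24) ≠ 0 := by
    intro h0
    rw [h0, mul_zero] at e
    exact hΔ e
  simp only [Pi.div_apply]
  rw [jfun, e]
  field_simp

end Fermat.Agent.S24.JFunction
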