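import Mathlib
import Fermat.Agent.S20.Stab
import Fermat.Agent.S20.Ramanujan
import Fermat.Agent.S20.JInj
import Fermat.Agent.S24.JFunction

/-!
# S24: the conjugates of `j(N z)` are pairwise distinct

* `jf = JFunction.jfun`, `jf z = E₄(z)³ / Δ(z)`, is the analytic `j`-function; it is
  `SL(2, ℤ)`-invariant and `‖jf z‖ * exp (-2π Im z) → 1` at `i∞`.
* Hermite reduction: `jf (d * (h • z)) = jf ((e z + x) / d')` with `e d' = d`, `e = gcd(d, h₁₀)`.
* `JN d z = jf (d z)`; its translates `JN d ∘ γ` are holomorphic, `N`-periodic for `d ∣ N`, and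
  `Δ ^ d * (JN d ∘ γ)` is bounded at `i∞`.
* if `JN N ∘ h = JN N` for `h ∈ SL(2, ℤ)` then `h ∈ Γ₀(N)`; hence the functions
  `JN N ∘ q.out⁻¹`, `q ∈ SL(2, ℤ) / Γ₀(N)`, are pairwise distinct.
-/

set_option autoImplicit false

namespace Fermat.Agent.S24.Distinct

open UpperHalfPlane CongruenceSubgroup ModularForm Complex Filter Topology
open Fermat.Agent.S20 Fermat.Agent.S20.Stab
open scoped MatrixGroups ModularForm Manifold Real

local notation "Δ" => ModularForm.discriminant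

/-- The analytic `j`-function `E₄³ / Δ` (this is `JFunction.jfun`). -/
noncomputable abbrev jf : ℍ → ℂ := JFunction.jfun

theorem jf_def (z : ℍ) : jf z = E₄ z ^ 3 / Δ z := rfl

/-- `jf` is invariant under `SL(2, ℤ)`. -/
theorem jf_smul (g : SL(2, ℤ)) (z : ℍ) : jf (g • z) = jf z := JFunction.jfun_smul g z

/-- `jf` is invariant under integer translations. -/
theorem jf_ofComplex_add_int {w : ℂ} (hw : 0 < w.im) (m : ℤ) :
    jf (ofComplex (w + m)) = jf (ofComplex w) := by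
  obtain ⟨γ, hγ⟩ : ∃ γ : SL(2, ℤ), γ = ModularGroup.T ^ m := ⟨_, rfl⟩
  have hp : ((γ • (⟨w, hw⟩ : ℍ) : ℍ) : ℂ) = w + m := by
    rw [hγ]
    exact ModularGroup.coe_T_zpow_smul_eq (⟨w, hw⟩ : ℍ)
  rw [← hp, ofComplex_apply, jf_smul]
  congr 1
  exact (ofComplex_apply_of_im_pos hw).symm

/-! ### Hermite reduction -/

/-- **Hermite reduction on points**: `d * (h • z) = γ • ((e z + x) / d')` with `γ ∈ SL(2, ℤ)`,
`e = gcd(d, h₁₀)`, `e * d' = d`. -/
theorem exists_hermite_smul (d : ℕ) (hd : 0 < d) (h : SL(2, ℤ)) :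
    ∃ (e d' : ℕ) (x : ℤ) (γ : SL(2, ℤ)), 0 < e ∧ 0 < d' ∧ e * d' = d ∧
      e = Int.gcd d (h 1 0) ∧
      ∀ z : ℍ, ofComplex ((d : ℂ) * ((h • z : ℍ) : ℂ)) = γ • ofComplex (aff e d' x z) := by
  obtain ⟨e, d', x, γ, he, hd', hed, hgcd, h00, h01, h10, h11⟩ := exists_hermite d hd h
  refine ⟨e, d', x, γ, he, hd', hed, hgcd, fun z => ?_⟩
  have hwpos : 0 < (aff e d' x z).im := aff_im_pos he hd' x z.im_pos
  set w : ℍ := ⟨aff e d' x z, hwpos⟩ with hw
  have hwc : (w : ℂ) = aff e d' x z := rfl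
  have hdC : (d' : ℂ) ≠ 0 := by exact_mod_cast hd'.ne'
  have hdenh : denom h z ≠ 0 := denom_ne_zero h z
  have hdenγ : denom γ w ≠ 0 := denom_ne_zero γ w
  have c00 : ((d : ℂ)) * (h 0 0 : ℂ) = (γ 0 0 : ℂ) * e := by exact_mod_cast h00
  have c01 : ((d : ℂ)) * (h 0 1 : ℂ) = (γ 0 0 : ℂ) * x + (γ 0 1 : ℂ) * d' := by
    exact_mod_cast h01
  have c10 : (h 1 0 : ℂ) = (γ 1 0 : ℂ) * e := by exact_mod_cast h10
  have c11 : (h 1 1 : ℂ) = (γ 1 0 : ℂ) * x + (γ 1 1 : ℂ) * d' := by exact_mod_cast h11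
  have hden : denom γ w = denom h z / d' := by
    rw [denom_SL, denom_SL, hwc, aff, c10, c11]
    field_simp
    ring
  have hpt : (d : ℂ) * ((h • z : ℍ) : ℂ) = ((γ • w : ℍ) : ℂ) := by
    have h1 : (γ 1 0 : ℂ) * w + (γ 1 1 : ℂ) ≠ 0 := by rw [← denom_SL]; exact hdenγ
    have h2 : (h 1 0 : ℂ) * z + (h 1 1 : ℂ) ≠ 0 := by rw [← denom_SL]; exact hdenh
    have h3 : (γ 1 0 : ℂ) * w + (γ 1 1 : ℂ) = ((h 1 0 : ℂ) * z + (h 1 1 : ℂ)) / d' := by
      rw [← denom_SL, ← denom_SL]; exact hden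
    have h4 : (γ 0 0 : ℂ) * w + (γ 0 1 : ℂ) =
        (d : ℂ) * ((h 0 0 : ℂ) * z + (h 0 1 : ℂ)) / d' := by
      rw [hwc, aff, mul_add, ← mul_assoc, c00, c01]
      field_simp
      ring
    rw [coe_smul_SL, coe_smul_SL, h3, h4]
    field_simp
  have e2 : ofComplex (aff e d' x z) = w := by
    rw [← hwc, ofComplex_apply]
  rw [hpt, ofComplex_apply, e2]

/-- The function `z ↦ j(d z)`. -/
noncomputable def JN (d : ℕ) (z : ℍ) : ℂ := jf (ofComplex ((d : ℂ) * z))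

theorem JN_def (d : ℕ) (z : ℍ) : JN d z = jf (ofComplex ((d : ℂ) * z)) := rfl

theorem JN_one (z : ℍ) : JN 1 z = jf z := by
  rw [JN_def, Nat.cast_one, one_mul, ofComplex_apply]

/-- **Explicit form of the translates of `j(d z)`.** -/
theorem JN_smul_eq (d : ℕ) (hd : 0 < d) (h : SL(2, ℤ)) :
    ∃ (e d' : ℕ) (x : ℤ), 0 < e ∧ 0 < d' ∧ e * d' = d ∧ e = Int.gcd d (h 1 0) ∧
      ∀ z : ℍ, JN d (h • z) = jf (ofComplex (aff e d' x z)) := by
  obtain ⟨e, d', x, γ, he, hd', hed, hgcd, hz⟩ := exists_hermite_smul d hd h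
  exact ⟨e, d', x, he, hd', hed, hgcd, fun z => by rw [JN_def, hz z, jf_smul]⟩

/-! ### Growth of `jf` at `i∞` -/

theorem tendsto_norm_jf_mul_exp :
    Tendsto (fun z : ℍ => ‖jf z‖ * Real.exp (-(2 * π * z.im))) atImInfty (𝓝 1) := by
  have h1 : Tendsto (fun z : ℍ => ‖E₄ z‖ ^ 3) atImInfty (𝓝 1) := by
    have := (Ramanujan.tendsto_E₄.norm).pow 3
    simpa using this
  have h2 := tendsto_norm_discriminant_mul_exp
  have h3 := h1.div h2 one_ne_zero
  rw [div_one] at h3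
  refine h3.congr fun z => ?_
  simp only [Pi.div_apply]
  rw [jf_def, norm_div, norm_pow, Real.exp_neg]
  have hΔ : ‖Δ z‖ ≠ 0 := norm_ne_zero_iff.mpr (discriminant_ne_zero z)
  have hexp : Real.exp (2 * π * z.im) ≠ 0 := (Real.exp_pos _).ne'
  field_simp

theorem tendsto_norm_jf_comp (φ : ℍ → ℂ) (r : ℝ) (hr : 0 < r)
    (hφ : ∀ z : ℍ, (φ z).im = r * z.im) :
    Tendsto (fun z : ℍ => ‖jf (ofComplex (φ z))‖ * Real.exp (-(2 * π * (r * z.im)))) atImInfty
      (𝓝 1) := by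
  have h := tendsto_norm_jf_mul_exp.comp (tendsto_liftPt φ r hr hφ)
  refine h.congr fun z => ?_
  simp only [Function.comp_apply]
  rw [ofComplex_eq_liftPt φ r hr hφ, liftPt_im]

/-! ### The stabiliser of `JN N` -/

/-- If `j(N (h • z)) = j(N z)` for all `z`, then `h ∈ Γ₀(N)`. -/
theorem mem_Gamma0_of_JN_smul_eq (N : ℕ) (hN : 0 < N) (h : SL(2, ℤ))
    (hh : ∀ z : ℍ, JN N (h • z) = JN N z) : h ∈ Gamma0 N := by
  obtain ⟨e, d, x, he, hd, hed, hgcd, hf⟩ := JN_smul_eq N hN h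
  by_contra hmem
  have hN' : (0 : ℝ) < N := by exact_mod_cast hN
  have he' : (0 : ℝ) < e := by exact_mod_cast he
  have hd' : (0 : ℝ) < d := by exact_mod_cast hd
  have hd2 : 2 ≤ d := by
    by_contra hlt
    have hd1 : d = 1 := by omega
    apply hmem
    rw [Gamma0_mem]
    have heN : e = N := by rw [← hed, hd1, mul_one]
    have hdv : ((Int.gcd (N : ℤ) (h 1 0) : ℕ) : ℤ) ∣ h 1 0 := Int.gcd_dvd_right _ _
    rw [← hgcd, heN] at hdv
    exact (ZMod.intCast_zmod_eq_zero_iff_dvd _ _).mpr hdv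
  have hr : (0 : ℝ) < e / d := by positivity
  have hlt : (e : ℝ) / d < N := by
    have h1 : (N : ℝ) = e * d := by exact_mod_cast hed.symm
    have h2 : (2 : ℝ) ≤ d := by exact_mod_cast hd2
    rw [div_lt_iff₀ hd', h1]
    nlinarith
  have L1 := tendsto_norm_jf_comp (fun z : ℍ => (N : ℂ) * z) N hN'
    (fun z => by
      rw [Complex.mul_im]
      simp only [Complex.natCast_re, Complex.natCast_im, zero_mul, add_zero,
        UpperHalfPlane.coe_im])
  have L2 := tendsto_norm_jf_comp (fun z : ℍ => aff e d x z) (e / d) hr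
    (fun z => by rw [aff_im, UpperHalfPlane.coe_im]; ring)
  have key : ∀ z : ℍ, ‖jf (ofComplex ((N : ℂ) * z))‖ = ‖jf (ofComplex (aff e d x z))‖ := by
    intro z
    rw [← hf z, hh z, JN_def]
  have hc : 0 < 2 * π * ((N : ℝ) - e / d) := by
    have := Real.pi_pos
    have : 0 < (N : ℝ) - e / d := sub_pos.mpr hlt
    positivity
  have L3 : Tendsto (fun z : ℍ => Real.exp (-(2 * π * ((N : ℝ) - e / d)) * z.im)) atImInfty
      (𝓝 0) := by
    have h1 : Tendsto (fun y : ℝ => Real.exp (-(2 * π * ((N : ℝ) - e / d)) * y)) atTop (𝓝 0) := by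
      refine Real.tendsto_exp_atBot.comp ?_
      exact tendsto_id.const_mul_atTop_of_neg (neg_neg_of_pos hc)
    exact h1.comp tendsto_comap
  have L4 := L2.mul L3
  rw [mul_zero] at L4
  have L6 : Tendsto (fun z : ℍ =>
      ‖jf (ofComplex ((N : ℂ) * z))‖ * Real.exp (-(2 * π * ((N : ℝ) * z.im)))) atImInfty
      (𝓝 0) := by
    refine L4.congr fun z => ?_
    rw [key z, mul_assoc, ← Real.exp_add]
    congr 2
    ring
  exact zero_ne_one (tendsto_nhds_unique L6 L1)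

/-- **Distinctness of the conjugates.** The functions `JN N ∘ q.out⁻¹`, for `q` running through
`SL(2, ℤ) / Γ₀(N)`, are pairwise distinct. -/
theorem conj_JN_injective (N : ℕ) (hN : 0 < N) :
    Function.Injective (fun (q : Q N) (z : ℍ) => JN N ((q.out : SL(2, ℤ))⁻¹ • z)) := by
  intro q q' hqq
  have h0 : ∀ z : ℍ, JN N ((q.out : SL(2, ℤ))⁻¹ • z) = JN N ((q'.out : SL(2, ℤ))⁻¹ • z) :=
    fun z => congrFun hqq z
  have h1 : ∀ z : ℍ, JN N (((q.out : SL(2, ℤ))⁻¹ * q'.out) • z) = JN N z := by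
    intro z
    have := h0 ((q'.out : SL(2, ℤ)) • z)
    rw [← mul_smul, ← mul_smul, inv_mul_cancel, one_smul] at this
    exact this
  have h2 := mem_Gamma0_of_JN_smul_eq N hN _ h1
  have h3 : ((q.out : SL(2, ℤ)) : Q N) = ((q'.out : SL(2, ℤ)) : Q N) := QuotientGroup.eq.mpr h2
  rwa [QuotientGroup.out_eq', QuotientGroup.out_eq'] at h3

/-- Pointwise form: if `j(N g⁻¹ z) = j(N g'⁻¹ z)` for all `z`, then `g` and `g'` define the same
coset of `Γ₀(N)`. -/
theorem mk_eq_of_JN_inv_smul_eq (N : ℕ) (hN : 0 < N) (g g' : SL(2, ℤ))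
    (hh : ∀ z : ℍ, JN N (g⁻¹ • z) = JN N (g'⁻¹ • z)) : (g : Q N) = (g' : Q N) := by
  have h1 : ∀ z : ℍ, JN N ((g⁻¹ * g') • z) = JN N z := by
    intro z
    have := hh (g' • z)
    rw [← mul_smul, ← mul_smul, inv_mul_cancel, one_smul] at this
    exact this
  exact QuotientGroup.eq.mpr (mem_Gamma0_of_JN_smul_eq N hN _ h1)

/-- `JN N` is invariant under `Γ₀(N)`. -/
theorem JN_smul_of_mem_Gamma0 (N : ℕ) (hN : 0 < N) {g : SL(2, ℤ)} (hg : g ∈ Gamma0 N) (z : ℍ) :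
    JN N (g • z) = JN N z := by
  obtain ⟨e, d, x, he, hd, hed, hgcd, hf⟩ := JN_smul_eq N hN g
  have hdv : (N : ℤ) ∣ g 1 0 := by
    rw [Gamma0_mem] at hg
    exact (ZMod.intCast_zmod_eq_zero_iff_dvd _ _).mp hg
  have heN : e = N := by
    rw [hgcd]
    apply Nat.dvd_antisymm
    · have : ((Int.gcd (N : ℤ) (g 1 0) : ℕ) : ℤ) ∣ (N : ℤ) := Int.gcd_dvd_left _ _
      exact_mod_cast this
    · have : (N : ℤ) ∣ ((Int.gcd (N : ℤ) (g 1 0) : ℕ) : ℤ) := Int.dvd_coe_gcd (dvd_refl _) hdv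
      exact_mod_cast this
  have hd1 : d = 1 := by
    rw [heN] at hed
    exact Nat.eq_of_mul_eq_mul_left hN (by rw [hed, mul_one])
  rw [hf z, heN, hd1, JN_def]
  have hpos : 0 < ((N : ℂ) * z).im := by
    rw [Complex.mul_im]
    simp only [Complex.natCast_re, Complex.natCast_im, zero_mul, add_zero, UpperHalfPlane.coe_im]
    exact mul_pos (by exact_mod_cast hN) z.im_pos
  have haff : aff N 1 x z = (N : ℂ) * z + x := by
    unfold aff; simp
  rw [haff, jf_ofComplex_add_int hpos]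

/-- `JN d` is invariant under `Γ₀(N)` for every `d ∣ N`. -/
theorem JN_smul_of_mem_Gamma0_of_dvd (d N : ℕ) (hd : 0 < d) (hdN : d ∣ N) {g : SL(2, ℤ)}
    (hg : g ∈ Gamma0 N) (z : ℍ) : JN d (g • z) = JN d z := by
  refine JN_smul_of_mem_Gamma0 d hd ?_ z
  rw [Gamma0_mem] at hg ⊢
  have h1 : (N : ℤ) ∣ g 1 0 := (ZMod.intCast_zmod_eq_zero_iff_dvd _ _).mp hg
  have h2 : (d : ℤ) ∣ (N : ℤ) := by exact_mod_cast hdN
  exact (ZMod.intCast_zmod_eq_zero_iff_dvd _ _).mpr (h2.trans h1)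

/-! ### Holomorphy, periodicity and growth of the translates -/

theorem mdiff_JN (d : ℕ) (hd : 0 < d) : MDiff (JN d) := by
  rw [UpperHalfPlane.mdifferentiable_iff]
  have hj : DifferentiableOn ℂ (jf ∘ ofComplex) {z | 0 < z.im} :=
    UpperHalfPlane.mdifferentiable_iff.mp JFunction.mdiff_jfun
  have hmul : DifferentiableOn ℂ (fun z : ℂ => (d : ℂ) * z) {z | 0 < z.im} :=
    (differentiable_id.const_mul (d : ℂ)).differentiableOn
  have hd' : (0 : ℝ) < d := by exact_mod_cast hd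
  have hmaps : Set.MapsTo (fun z : ℂ => (d : ℂ) * z) {z | 0 < z.im} {z | 0 < z.im} := by
    intro z hz
    show 0 < ((d : ℂ) * z).im
    have hz : 0 < z.im := hz
    rw [Complex.mul_im]
    simp only [Complex.natCast_re, Complex.natCast_im, zero_mul, add_zero]
    positivity
  refine (hj.comp hmul hmaps).congr fun z hz => ?_
  simp only [Function.comp_apply, JN]
  rw [ofComplex_apply_of_im_pos hz]

theorem mdiff_JN_smul (d : ℕ) (hd : 0 < d) (γ : SL(2, ℤ)) : MDiff (fun z : ℍ => JN d (γ • z)) := by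
  have h : MDiff (JN d ∣[(0 : ℤ)] γ) := (mdiff_JN d hd).slash (0 : ℤ) _
  have e : (JN d ∣[(0 : ℤ)] γ) = fun z : ℍ => JN d (γ • z) := by
    ext z
    rw [SL_slash_apply]
    simp
  rwa [e] at h

/-- The translates of `JN d` are `N`-periodic when `d ∣ N`. -/
theorem JN_smul_vadd (d N : ℕ) (hd : 0 < d) (hdN : d ∣ N) (γ : SL(2, ℤ)) (z : ℍ) :
    JN d (γ • ((N : ℝ) +ᵥ z)) = JN d (γ • z) := by
  obtain ⟨e, d', x, he, hd', hed, hgcd, hf⟩ := JN_smul_eq d hd γ
  rw [hf, hf]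
  have hd'N : d' ∣ N := (Dvd.intro_left e hed).trans hdN
  obtain ⟨k, hk⟩ := hd'N
  have hd'C : (d' : ℂ) ≠ 0 := by exact_mod_cast hd'.ne'
  have h1 : aff e d' x (((N : ℝ) +ᵥ z : ℍ) : ℂ) = aff e d' x z + ((e * k : ℕ) : ℤ) := by
    unfold aff
    rw [UpperHalfPlane.coe_vadd, hk]
    push_cast
    field_simp
    ring
  rw [h1, jf_ofComplex_add_int (aff_im_pos he hd' x z.im_pos)]

/-- `Δ ^ d * (JN d ∘ γ)` is bounded at `i∞`: the translates of `j(d z)` are meromorphic at the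
cusp with a pole of order at most `d` (in `q`). -/
theorem isBoundedAtImInfty_discriminant_pow_mul_JN (d : ℕ) (hd : 0 < d) (γ : SL(2, ℤ)) :
    IsBoundedAtImInfty (fun z : ℍ => Δ z ^ d * JN d (γ • z)) := by
  obtain ⟨e, d', x, he, hd', hed, hgcd, hf⟩ := JN_smul_eq d hd γ
  have he' : (0 : ℝ) < e := by exact_mod_cast he
  have hd'' : (0 : ℝ) < d' := by exact_mod_cast hd'
  have hr : (0 : ℝ) < e / d' := by positivity
  have hle : (e : ℝ) / d' ≤ d := by
    have h1 : (d : ℝ) = e * d' := by exact_mod_cast hed.symm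
    have h2 : (1 : ℝ) ≤ d' := by exact_mod_cast hd'
    rw [div_le_iff₀ hd'', h1]
    nlinarith
  have L1 : Tendsto (fun z : ℍ => (‖Δ z‖ * Real.exp (2 * π * z.im)) ^ d) atImInfty (𝓝 1) := by
    have := tendsto_norm_discriminant_mul_exp.pow d
    rwa [one_pow] at this
  have L2 := tendsto_norm_jf_comp (fun z : ℍ => aff e d' x z) (e / d') hr
    (fun z => by rw [aff_im, UpperHalfPlane.coe_im]; ring)
  have L3 := L1.mul L2
  rw [mul_one] at L3
  have hev : ∀ᶠ z : ℍ in atImInfty,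
      (‖Δ z‖ * Real.exp (2 * π * z.im)) ^ d *
        (‖jf (ofComplex (aff e d' x z))‖ * Real.exp (-(2 * π * (e / d' * z.im)))) < 2 :=
    L3.eventually (gt_mem_nhds (by norm_num : (1 : ℝ) < 2))
  rw [IsBoundedAtImInfty, BoundedAtFilter]
  refine Asymptotics.IsBigO.of_bound 2 ?_
  filter_upwards [hev] with z hz
  rw [hf z, norm_mul, norm_pow]
  simp only [Pi.one_apply, norm_one, mul_one]
  refine le_trans ?_ hz.le
  rw [mul_pow, ← Real.exp_nat_mul]
  have hA : 0 ≤ ‖Δ z‖ ^ d := by positivity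
  have hB : 0 ≤ ‖jf (ofComplex (aff e d' x z))‖ := norm_nonneg _
  have hexp : 1 ≤ Real.exp ((d : ℝ) * (2 * π * z.im)) *
      Real.exp (-(2 * π * (e / d' * z.im))) := by
    rw [← Real.exp_add]
    apply Real.one_le_exp
    have hy : 0 < z.im := z.im_pos
    have hpi := Real.pi_pos
    have : 0 ≤ 2 * π * z.im * ((d : ℝ) - e / d') := by
      have : 0 ≤ (d : ℝ) - e / d' := sub_nonneg.mpr hle
      positivity
    nlinarith
  calc ‖Δ z‖ ^ d * ‖jf (ofComplex (aff e d' x z))‖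
      = ‖Δ z‖ ^ d * ‖jf (ofComplex (aff e d' x z))‖ * 1 := by rw [mul_one]
    _ ≤ ‖Δ z‖ ^ d * ‖jf (ofComplex (aff e d' x z))‖ *
          (Real.exp ((d : ℝ) * (2 * π * z.im)) * Real.exp (-(2 * π * (e / d' * z.im)))) :=
        mul_le_mul_of_nonneg_left hexp (mul_nonneg hA hB)
    _ = ‖Δ z‖ ^ d * Real.exp ((d : ℝ) * (2 * π * z.im)) *
          (‖jf (ofComplex (aff e d' x z))‖ * Real.exp (-(2 * π * (e / d' * z.im)))) := by ring

end Fermat.Agent.S24.Distinct
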