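import Mathlib
import Fermat.Prelude.Def_ModularCurve_ArithmeticGalois

/-!
# S24, shared definitions of the analytic realisation (Part II)

* `KK = AlgebraicClosure ℚ`, `FF N = modularFunctionFieldBar N` (a subfield of `LaurentSeries KK`);
* `iota : KK →+* ℂ`, the embedding of the constants fixed once and for all;
* `jgenL d = j(q^d)` as a Laurent series over `KK`, `jgen N d hd : FF N`, `jF N = jgen N 1`;
* `FF N` is generated over `KK` by the `jgenL d`, `d ∣ N`.
-/

set_option autoImplicit false

namespace Fermat.Agent.S24.Eval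

open ModularCurve IntermediateField

/-- the field of constants -/
abbrev KK : Type := AlgebraicClosure ℚ

/-- the function field of `X₀(N)` over `KK` -/
abbrev FF (N : ℕ) : Type := ↥(ModularCurve.modularFunctionFieldBar N)

/-- the embedding of the constants into `ℂ`, fixed once and for all -/
noncomputable def iota : KK →+* ℂ :=
  haveI : Algebra.IsAlgebraic ℚ KK := AlgebraicClosure.isAlgebraic ℚ
  ((IsAlgClosed.lift : KK →ₐ[ℚ] ℂ) : KK →+* ℂ)

theorem iota_injective : Function.Injective iota := iota.injective

theorem iota_ratCast (r : ℚ) : iota (r : KK) = (r : ℂ) := map_ratCast iota r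

theorem iota_natCast (n : ℕ) : iota (n : KK) = (n : ℂ) := map_natCast iota n

theorem iota_intCast (n : ℤ) : iota (n : KK) = (n : ℂ) := map_intCast iota n

/-- `j(q^d)` as a Laurent series with coefficients in `KK` -/
noncomputable def jgenL (d : ℕ) [NeZero d] : LaurentSeries KK :=
  coeffEmb KK (qExpand ℚ d jq)

theorem jgenL_coeff (d : ℕ) [NeZero d] (n : ℤ) :
    (jgenL d).coeff n = algebraMap ℚ KK ((qExpand ℚ d jq).coeff n) := rfl

theorem jgenL_mem {N d : ℕ} [NeZero d] (hd : d ∣ N) : jgenL d ∈ modularFunctionFieldBar N :=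
  coeffEmb_mem_laurentBaseChange KK (jqd_mem_full N hd)

/-- the generator `j(q^d)` of the function field, `d ∣ N` -/
noncomputable def jgen (N d : ℕ) [NeZero d] (hd : d ∣ N) : FF N := ⟨jgenL d, jgenL_mem hd⟩

@[simp] theorem coe_jgen (N d : ℕ) [NeZero d] (hd : d ∣ N) :
    ((jgen N d hd : FF N) : LaurentSeries KK) = jgenL d := rfl

/-- the generator `j` of the function field -/
noncomputable def jF (N : ℕ) : FF N := jgen N 1 (one_dvd N)

theorem coe_jF (N : ℕ) : ((jF N : FF N) : LaurentSeries KK) = coeffEmb KK jq := by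
  show coeffEmb KK (qExpand ℚ 1 jq) = coeffEmb KK jq
  rw [qExpand_one_apply]

/-- the set of generators -/
def gens (N : ℕ) : Set (LaurentSeries KK) :=
  {x | ∃ (d : ℕ) (_ : NeZero d), d ∣ N ∧ x = jgenL d}

theorem gens_eq_image (N : ℕ) : gens N = ⇑(coeffEmb KK) '' divisorExpansions N := by
  ext x
  constructor
  · rintro ⟨d, hd, hdN, rfl⟩
    exact ⟨_, ⟨d, hd, hdN, rfl⟩, rfl⟩
  · rintro ⟨_, ⟨d, hd, hdN, rfl⟩, rfl⟩
    exact ⟨d, hd, hdN, rfl⟩

/-- The function field is generated over `KK` by the `j(q^d)`, `d ∣ N`. -/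
theorem modularFunctionFieldBar_eq_adjoin (N : ℕ) :
    modularFunctionFieldBar N = IntermediateField.adjoin KK (gens N) := by
  have key : ∀ x ∈ Subfield.closure (Set.range (algebraMap ℚ (LaurentSeries ℚ)) ∪
      divisorExpansions N), coeffEmb KK x ∈ IntermediateField.adjoin KK (gens N) := by
    intro x hx
    induction hx using Subfield.closure_induction with
    | mem y hy =>
        rcases hy with ⟨a, rfl⟩ | hy
        · have : coeffEmb KK (algebraMap ℚ (LaurentSeries ℚ) a) =
              algebraMap KK (LaurentSeries KK) (algebraMap ℚ KK a) := by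
            rw [algebraMap_apply_eq_single, algebraMap_laurentSeries_eq_single]
            exact coeffMap_single _ _ _
          rw [this]
          exact (IntermediateField.adjoin KK (gens N)).algebraMap_mem _
        · exact IntermediateField.subset_adjoin KK _ (by rw [gens_eq_image]; exact ⟨y, hy, rfl⟩)
    | one => rw [map_one]; exact one_mem _
    | add x y _ _ hx hy => rw [map_add]; exact add_mem hx hy
    | neg x _ hx => rw [map_neg]; exact neg_mem hx
    | inv x _ hx => rw [map_inv₀]; exact inv_mem hx
    | mul x y _ _ hx hy => rw [map_mul]; exact mul_mem hx hy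
  apply le_antisymm
  · show laurentBaseChange KK (modularFunctionFieldFull N) ≤ _
    unfold laurentBaseChange
    rw [IntermediateField.adjoin_le_iff]
    rintro _ ⟨x, hx, rfl⟩
    exact key x hx
  · rw [IntermediateField.adjoin_le_iff]
    rintro _ ⟨d, hd, hdN, rfl⟩
    exact jgenL_mem hdN

end Fermat.Agent.S24.Eval
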