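import Mathlib

/-!
# S24 (M1.a): lifting ring homomorphisms to a finitely generated field

`F = K(g_i : i ∈ I) ⊆ L`.  If `ιE : K →+* E` and `θ : I → E` satisfy exactly the same
polynomial relations over `K` as the `g_i`, there is a ring homomorphism `σ : F →+* E`
extending `ιE` with `σ (g_i) = θ_i`.
-/

set_option autoImplicit false

namespace Fermat.Agent.S24.JqLift

open IntermediateField

variable {K L E : Type*} [Field K] [Field L] [Algebra K L] [Field E] {I : Type*}

/-- the generator `g i` as an element of the generated field -/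
def gen (g : I → L) (i : I) : IntermediateField.adjoin K (Set.range g) :=
  ⟨g i, IntermediateField.subset_adjoin K _ ⟨i, rfl⟩⟩

@[simp] theorem coe_gen (g : I → L) (i : I) :
    ((gen (K := K) g i : adjoin K (Set.range g)) : L) = g i :=
  rfl

/-- the evaluation map onto the generated subalgebra -/
noncomputable def toAdjoin (g : I → L) :
    MvPolynomial I K →+* Algebra.adjoin K (Set.range g) :=
  ((MvPolynomial.aeval g).codRestrict (Algebra.adjoin K (Set.range g)) (fun P => by
    rw [Algebra.adjoin_range_eq_range_aeval]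
    exact ⟨P, rfl⟩)).toRingHom

@[simp] theorem coe_toAdjoin (g : I → L) (P : MvPolynomial I K) :
    ((toAdjoin g P : Algebra.adjoin K (Set.range g)) : L) = MvPolynomial.aeval g P := rfl

theorem toAdjoin_surjective (g : I → L) : Function.Surjective (toAdjoin (K := K) g) := by
  rintro ⟨a, ha⟩
  rw [Algebra.adjoin_range_eq_range_aeval] at ha
  obtain ⟨P, hP⟩ := ha
  exact ⟨P, Subtype.ext hP⟩

theorem ker_le (g : I → L) (ιE : K →+* E) (θ : I → E)
    (h : ∀ P : MvPolynomial I K, MvPolynomial.aeval g P = 0 ↔ MvPolynomial.eval₂ ιE θ P = 0) :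
    RingHom.ker (toAdjoin (K := K) g) ≤ RingHom.ker (MvPolynomial.eval₂Hom ιE θ) := by
  intro P hP
  rw [RingHom.mem_ker] at hP ⊢
  have : MvPolynomial.aeval g P = 0 := by
    have := congrArg Subtype.val hP
    simpa using this
  exact (h P).mp this

/-- the homomorphism on the generated subalgebra -/
noncomputable def liftAlg (g : I → L) (ιE : K →+* E) (θ : I → E)
    (h : ∀ P : MvPolynomial I K, MvPolynomial.aeval g P = 0 ↔ MvPolynomial.eval₂ ιE θ P = 0) :
    Algebra.adjoin K (Set.range g) →+* E :=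
  RingHom.liftOfSurjective (toAdjoin (K := K) g)
    (toAdjoin_surjective g) ⟨MvPolynomial.eval₂Hom ιE θ, ker_le g ιE θ h⟩

theorem liftAlg_toAdjoin (g : I → L) (ιE : K →+* E) (θ : I → E)
    (h : ∀ P : MvPolynomial I K, MvPolynomial.aeval g P = 0 ↔ MvPolynomial.eval₂ ιE θ P = 0)
    (P : MvPolynomial I K) :
    liftAlg g ιE θ h (toAdjoin g P) = MvPolynomial.eval₂ ιE θ P :=
  RingHom.liftOfRightInverse_comp_apply
    (toAdjoin (K := K) g)
    (Function.surjInv (toAdjoin_surjective g))
    (Function.rightInverse_surjInv (toAdjoin_surjective g))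
    ⟨MvPolynomial.eval₂Hom ιE θ, ker_le g ιE θ h⟩ P

theorem liftAlg_injective (g : I → L) (ιE : K →+* E) (θ : I → E)
    (h : ∀ P : MvPolynomial I K, MvPolynomial.aeval g P = 0 ↔ MvPolynomial.eval₂ ιE θ P = 0) :
    Function.Injective (liftAlg g ιE θ h) := by
  rw [injective_iff_map_eq_zero]
  intro a ha
  obtain ⟨P, rfl⟩ := toAdjoin_surjective g a
  rw [liftAlg_toAdjoin] at ha
  have := (h P).mpr ha
  exact Subtype.ext this

open IntermediateField.algebraAdjoinAdjoin in
/-- the homomorphism on the generated field -/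
noncomputable def lift (g : I → L) (ιE : K →+* E) (θ : I → E)
    (h : ∀ P : MvPolynomial I K, MvPolynomial.aeval g P = 0 ↔ MvPolynomial.eval₂ ιE θ P = 0) :
    IntermediateField.adjoin K (Set.range g) →+* E :=
  IsFractionRing.lift (liftAlg_injective g ιE θ h)

open IntermediateField.algebraAdjoinAdjoin in
theorem lift_algebraMap (g : I → L) (ιE : K →+* E) (θ : I → E)
    (h : ∀ P : MvPolynomial I K, MvPolynomial.aeval g P = 0 ↔ MvPolynomial.eval₂ ιE θ P = 0)
    (a : Algebra.adjoin K (Set.range g)) :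
    lift g ιE θ h (algebraMap _ _ a) = liftAlg g ιE θ h a :=
  IsFractionRing.lift_algebraMap _ _

theorem aeval_mem (g : I → L) (P : MvPolynomial I K) :
    MvPolynomial.aeval g P ∈ IntermediateField.adjoin K (Set.range g) :=
  IntermediateField.algebra_adjoin_le_adjoin K _ (toAdjoin g P).2

theorem lift_aeval (g : I → L) (ιE : K →+* E) (θ : I → E)
    (h : ∀ P : MvPolynomial I K, MvPolynomial.aeval g P = 0 ↔ MvPolynomial.eval₂ ιE θ P = 0)
    (P : MvPolynomial I K) :
    lift g ιE θ h ⟨MvPolynomial.aeval g P, aeval_mem g P⟩ = MvPolynomial.eval₂ ιE θ P := by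
  rw [← liftAlg_toAdjoin g ιE θ h P, ← lift_algebraMap]
  rfl

theorem lift_const (g : I → L) (ιE : K →+* E) (θ : I → E)
    (h : ∀ P : MvPolynomial I K, MvPolynomial.aeval g P = 0 ↔ MvPolynomial.eval₂ ιE θ P = 0)
    (c : K) :
    lift g ιE θ h (algebraMap K (IntermediateField.adjoin K (Set.range g)) c) = ιE c := by
  have := lift_aeval g ιE θ h (MvPolynomial.C c)
  rw [MvPolynomial.eval₂_C] at this
  rw [← this]
  congr 1
  apply Subtype.ext
  simp

theorem lift_gen (g : I → L) (ιE : K →+* E) (θ : I → E)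
    (h : ∀ P : MvPolynomial I K, MvPolynomial.aeval g P = 0 ↔ MvPolynomial.eval₂ ιE θ P = 0)
    (i : I) : lift g ιE θ h (gen g i) = θ i := by
  have := lift_aeval g ιE θ h (MvPolynomial.X i)
  rw [MvPolynomial.eval₂_X] at this
  rw [← this]
  congr 1
  apply Subtype.ext
  simp

/-- **Lifting principle.** -/
theorem exists_lift (g : I → L) (ιE : K →+* E) (θ : I → E)
    (h : ∀ P : MvPolynomial I K, MvPolynomial.aeval g P = 0 ↔ MvPolynomial.eval₂ ιE θ P = 0) :
    ∃ σ : IntermediateField.adjoin K (Set.range g) →+* E,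
      (∀ c : K, σ (algebraMap K _ c) = ιE c) ∧ ∀ i, σ (gen g i) = θ i :=
  ⟨lift g ιE θ h, lift_const g ιE θ h, lift_gen g ιE θ h⟩

/-- Two ring homomorphisms on the generated field which agree on the constants and on the
generators are equal. -/
theorem ringHom_ext (g : I → L) {σ τ : IntermediateField.adjoin K (Set.range g) →+* E}
    (hc : ∀ c : K, σ (algebraMap K _ c) = τ (algebraMap K _ c))
    (hg : ∀ i, σ (gen g i) = τ (gen g i)) : σ = τ := by
  ext ⟨x, hx⟩
  induction hx using IntermediateField.adjoin_induction with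
  | mem x hx =>
    obtain ⟨i, rfl⟩ := hx
    exact hg i
  | algebraMap c => exact hc c
  | add x y hx hy ihx ihy =>
    have : (⟨x + y, add_mem hx hy⟩ : adjoin K (Set.range g)) = ⟨x, hx⟩ + ⟨y, hy⟩ := rfl
    rw [this, map_add, map_add, ihx, ihy]
  | inv x hx ih =>
    have : (⟨x⁻¹, inv_mem hx⟩ : adjoin K (Set.range g))
        = (⟨x, hx⟩ : adjoin K (Set.range g))⁻¹ := rfl
    rw [this, map_inv₀, map_inv₀, ih]
  | mul x y hx hy ihx ihy =>
    have : (⟨x * y, mul_mem hx hy⟩ : adjoin K (Set.range g)) = ⟨x, hx⟩ * ⟨y, hy⟩ := rfl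
    rw [this, map_mul, map_mul, ihx, ihy]

/-- **Lifting principle**, for an intermediate field known to be generated by the `g i`. -/
theorem exists_lift' (F' : IntermediateField K L) (g : I → L)
    (hF : F' = IntermediateField.adjoin K (Set.range g)) (ιE : K →+* E) (θ : I → E)
    (h : ∀ P : MvPolynomial I K, MvPolynomial.aeval g P = 0 ↔ MvPolynomial.eval₂ ιE θ P = 0) :
    ∃ σ : F' →+* E,
      (∀ c : K, σ (algebraMap K F' c) = ιE c) ∧ ∀ (i : I) (hi : g i ∈ F'), σ ⟨g i, hi⟩ = θ i := by
  subst hF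
  obtain ⟨σ, hc, hg⟩ := exists_lift g ιE θ h
  exact ⟨σ, hc, fun i _ => hg i⟩

/-- Uniqueness, for an intermediate field known to be generated by the `g i`. -/
theorem ringHom_ext' (F' : IntermediateField K L) (g : I → L)
    (hF : F' = IntermediateField.adjoin K (Set.range g)) {σ τ : F' →+* E}
    (hc : ∀ c : K, σ (algebraMap K F' c) = τ (algebraMap K F' c))
    (hg : ∀ (i : I) (hi : g i ∈ F'), σ ⟨g i, hi⟩ = τ ⟨g i, hi⟩) : σ = τ := by
  subst hF
  exact ringHom_ext g hc (fun i => hg i _)

end Fermat.Agent.S24.JqLift
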