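import Mathlib
import Fermat.Prelude.Def_ModularCurve_ArithmeticGalois
import Fermat.Agent.S24.Eval
import Fermat.Agent.S24.JqLift

/-!
# S24 (M1.a): the lifting principle for the function field of `X₀(N)`

* `Dv N = {d // d ∣ N}`, `gL N d = jgenL d`, `gF N d = jgen N d _`;
* `exists_lift` : the lifting principle for the function field `FF N`;
* `ringHom_ext` : ring homomorphisms on `FF N` are determined by the constants and the
  generators.
-/

set_option autoImplicit false

namespace Fermat.Agent.S24.Jq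

open ModularCurve IntermediateField
open Fermat.Agent.S24.Eval

/-! ### The generators -/

/-- the index set of the generators: divisors of `N` -/
abbrev Dv (N : ℕ) : Type := {d : ℕ // d ∣ N}

theorem dv_ne_zero {N : ℕ} [NeZero N] (d : Dv N) : (d : ℕ) ≠ 0 := by
  intro h
  have := d.2
  rw [h, zero_dvd_iff] at this
  exact NeZero.ne N this

instance instNeZeroDv (N : ℕ) [NeZero N] (d : Dv N) : NeZero (d : ℕ) := ⟨dv_ne_zero d⟩

instance instFiniteDv (N : ℕ) [NeZero N] : Finite (Dv N) := by
  have : Dv N = {d : ℕ // d ∈ N.divisors} := by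
    unfold Dv
    congr 1
    funext d
    rw [Nat.mem_divisors]
    exact propext ⟨fun h => ⟨h, NeZero.ne N⟩, fun h => h.1⟩
  rw [this]
  infer_instance

/-- the one in `Dv N` -/
def one (N : ℕ) : Dv N := ⟨1, one_dvd N⟩

/-- the generators as Laurent series -/
noncomputable def gL (N : ℕ) [NeZero N] (d : Dv N) : LaurentSeries KK := jgenL (d : ℕ)

/-- the generators as elements of the function field -/
noncomputable def gF (N : ℕ) [NeZero N] (d : Dv N) : FF N := jgen N (d : ℕ) d.2

@[simp] theorem coe_gF (N : ℕ) [NeZero N] (d : Dv N) :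
    ((gF N d : FF N) : LaurentSeries KK) = gL N d := rfl

theorem gF_one (N : ℕ) [NeZero N] : gF N (one N) = jF N := rfl

theorem range_gL (N : ℕ) [NeZero N] : Set.range (gL N) = gens N := by
  ext x
  constructor
  · rintro ⟨d, rfl⟩
    exact ⟨d, instNeZeroDv N d, d.2, rfl⟩
  · rintro ⟨d, hd, hdN, rfl⟩
    exact ⟨⟨d, hdN⟩, rfl⟩

theorem adjoin_range_gL (N : ℕ) [NeZero N] :
    IntermediateField.adjoin KK (Set.range (gL N)) = modularFunctionFieldBar N := by
  rw [range_gL, modularFunctionFieldBar_eq_adjoin]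

/-- **Lifting principle** for the function field of `X₀(N)`. -/
theorem exists_lift (N : ℕ) [NeZero N] {E : Type*} [Field E] (ιE : KK →+* E) (θ : Dv N → E)
    (h : ∀ P : MvPolynomial (Dv N) KK,
      MvPolynomial.aeval (gL N) P = 0 ↔ MvPolynomial.eval₂ ιE θ P = 0) :
    ∃ σ : FF N →+* E, (∀ c : KK, σ (algebraMap KK (FF N) c) = ιE c) ∧ ∀ d, σ (gF N d) = θ d := by
  obtain ⟨σ, hc, hg⟩ := JqLift.exists_lift' (modularFunctionFieldBar N) (gL N)
    (adjoin_range_gL N).symm ιE θ h
  exact ⟨σ, hc, fun d => hg d (jgenL_mem d.2)⟩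

/-- Ring homomorphisms on the function field are determined by their values on the constants
and on the generators. -/
theorem ringHom_ext (N : ℕ) [NeZero N] {E : Type*} [Field E] {σ τ : FF N →+* E}
    (hc : ∀ c : KK, σ (algebraMap KK (FF N) c) = τ (algebraMap KK (FF N) c))
    (hg : ∀ d, σ (gF N d) = τ (gF N d)) : σ = τ :=
  JqLift.ringHom_ext' (modularFunctionFieldBar N) (gL N) (adjoin_range_gL N).symm hc
    (fun d _ => hg d)

/-- **Lifting principle**, with the generators written as `jgenL d` / `jgen N d _` (the shape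
of the analytic criterion for the index map `fun d : Dv N => (d : ℕ)`). -/
theorem exists_lift_jgen (N : ℕ) [NeZero N] {E : Type*} [Field E] (ιE : KK →+* E)
    (θ : Dv N → E)
    (h : ∀ P : MvPolynomial (Dv N) KK,
      MvPolynomial.aeval (fun d : Dv N => jgenL (d : ℕ)) P = 0
        ↔ MvPolynomial.eval₂ ιE θ P = 0) :
    ∃ σ : FF N →+* E, (∀ c : KK, σ (algebraMap KK (FF N) c) = ιE c) ∧
      ∀ d : Dv N, σ (jgen N (d : ℕ) d.2) = θ d :=
  exists_lift N ιE θ h

/-- Uniqueness, with the generators written as `jgen N d _`. -/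
theorem ringHom_ext_jgen (N : ℕ) [NeZero N] {E : Type*} [Field E] {σ τ : FF N →+* E}
    (hc : ∀ c : KK, σ (algebraMap KK (FF N) c) = τ (algebraMap KK (FF N) c))
    (hg : ∀ (d : ℕ) [NeZero d] (hd : d ∣ N), σ (jgen N d hd) = τ (jgen N d hd)) : σ = τ :=
  ringHom_ext N hc (fun d => hg (d : ℕ) d.2)

end Fermat.Agent.S24.Jq
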