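import Mathlib

/-!
# S24: power series converging on the open unit disc

`DRepr P f` says that the formal power series `P : ℂ⟦X⟧` converges to `f` on the open unit disc.
We prove the ring-theoretic calculus (`DRepr.add`, `DRepr.mul`, ...), uniqueness of the
representing series, existence for holomorphic functions (Taylor), inverses, the Cauchy estimate
for the coefficients and the convergence of coefficients under uniform convergence on a circle.
-/

set_option autoImplicit false

namespace Fermat.Agent.S24.DiscSeries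

open Metric Filter Topology

/-- The power series `P` converges to `f` on the open unit disc. -/
def DRepr (P : PowerSeries ℂ) (f : ℂ → ℂ) : Prop :=
  ∀ q : ℂ, ‖q‖ < 1 → HasSum (fun n : ℕ => PowerSeries.coeff n P * q ^ n) (f q)

theorem DRepr.congr {P : PowerSeries ℂ} {f g : ℂ → ℂ} (h : DRepr P f)
    (hfg : ∀ q : ℂ, ‖q‖ < 1 → f q = g q) : DRepr P g := fun q hq => by
  rw [← hfg q hq]
  exact h q hq

theorem DRepr.apply_zero {P : PowerSeries ℂ} {f : ℂ → ℂ} (h : DRepr P f) :
    f 0 = PowerSeries.coeff 0 P := by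
  have h0 := h 0 (by simp)
  have h1 : HasSum (fun n : ℕ => PowerSeries.coeff n P * (0 : ℂ) ^ n) (PowerSeries.coeff 0 P) := by
    convert hasSum_ite_eq (0 : ℕ) (PowerSeries.coeff 0 P) using 2 with n
    rcases Nat.eq_zero_or_pos n with rfl | hn
    · simp
    · simp [hn.ne']
  exact h0.unique h1

/-- Absolute convergence inside the disc. -/
theorem DRepr.summable_norm {P : PowerSeries ℂ} {f : ℂ → ℂ} (h : DRepr P f) {q : ℂ}
    (hq : ‖q‖ < 1) : Summable (fun n : ℕ => ‖PowerSeries.coeff n P‖ * ‖q‖ ^ n) := by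
  obtain ⟨r, hqr, hr1⟩ := exists_between hq
  have hr0 : 0 < r := lt_of_le_of_lt (norm_nonneg q) hqr
  have hsum : Summable (fun n : ℕ => PowerSeries.coeff n P * (r : ℂ) ^ n) :=
    (h (r : ℂ) (by rw [Complex.norm_real, Real.norm_eq_abs, abs_of_pos hr0]; exact hr1)).summable
  have hbdd := hsum.tendsto_atTop_zero.norm
  rw [norm_zero] at hbdd
  have hev : ∀ᶠ n : ℕ in atTop, ‖PowerSeries.coeff n P * (r : ℂ) ^ n‖ ≤ 1 :=
    (hbdd.eventually (ge_mem_nhds zero_lt_one))
  have hgeo : Summable (fun n : ℕ => (‖q‖ / r) ^ n) :=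
    summable_geometric_of_lt_one (div_nonneg (norm_nonneg q) hr0.le) ((div_lt_one hr0).mpr hqr)
  refine Summable.of_norm_bounded_eventually_nat hgeo ?_
  filter_upwards [hev] with n hn
  rw [norm_mul, norm_pow, Complex.norm_real, Real.norm_eq_abs, abs_of_pos hr0] at hn
  rw [Real.norm_eq_abs, abs_of_nonneg (mul_nonneg (norm_nonneg _) (pow_nonneg (norm_nonneg _) n))]
  have hrn : 0 < r ^ n := pow_pos hr0 n
  calc ‖PowerSeries.coeff n P‖ * ‖q‖ ^ n
      = (‖PowerSeries.coeff n P‖ * r ^ n) * (‖q‖ / r) ^ n := by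
        rw [div_pow]; field_simp
    _ ≤ 1 * (‖q‖ / r) ^ n := by
        gcongr
    _ = (‖q‖ / r) ^ n := one_mul _

theorem DRepr.summable_norm' {P : PowerSeries ℂ} {f : ℂ → ℂ} (h : DRepr P f) {q : ℂ}
    (hq : ‖q‖ < 1) : Summable (fun n : ℕ => ‖PowerSeries.coeff n P * q ^ n‖) := by
  simpa [norm_mul, norm_pow] using h.summable_norm hq

/-- The associated `HasFPowerSeriesOnBall` statement. -/
theorem DRepr.hasFPowerSeriesOnBall {P : PowerSeries ℂ} {f : ℂ → ℂ} (h : DRepr P f) :
    HasFPowerSeriesOnBall f (.ofScalars ℂ fun n => PowerSeries.coeff n P) 0 1 := by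
  constructor
  · refine le_of_forall_lt_imp_le_of_dense fun r hr => ?_
    lift r to NNReal using hr.ne_top
    apply FormalMultilinearSeries.le_radius_of_summable
    have hr1 : ‖((r : ℝ) : ℂ)‖ < 1 := by
      rw [Complex.norm_real, Real.norm_eq_abs, abs_of_nonneg r.coe_nonneg]
      exact_mod_cast hr
    have := h.summable_norm hr1
    rw [Complex.norm_real, Real.norm_eq_abs, abs_of_nonneg r.coe_nonneg] at this
    refine this.congr fun n => ?_
    congr 1
    rw [← (ContinuousMultilinearMap.piFieldEquiv ℂ (Fin n) ℂ).symm.norm_map]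
    simp
  · simp
  · intro y hy
    rw [← ENNReal.coe_one, Metric.eball_coe, NNReal.coe_one, mem_ball_zero_iff] at hy
    simpa [FormalMultilinearSeries.ofScalars_apply_eq, zero_add, mul_comm] using h y hy

theorem DRepr.differentiableOn {P : PowerSeries ℂ} {f : ℂ → ℂ} (h : DRepr P f) :
    DifferentiableOn ℂ f (ball 0 1) := by
  have := h.hasFPowerSeriesOnBall.differentiableOn
  rwa [← ENNReal.coe_one, Metric.eball_coe, NNReal.coe_one] at this

/-- Uniqueness of the representing series. -/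
theorem DRepr.unique {P Q : PowerSeries ℂ} {f : ℂ → ℂ} (hP : DRepr P f) (hQ : DRepr Q f) :
    P = Q := by
  have h := hP.hasFPowerSeriesOnBall.hasFPowerSeriesAt.eq_formalMultilinearSeries
    hQ.hasFPowerSeriesOnBall.hasFPowerSeriesAt
  ext n
  have hn := congrArg (fun p => FormalMultilinearSeries.coeff p n) h
  simpa [FormalMultilinearSeries.coeff_ofScalars] using hn

/-- Uniqueness, when the two functions are only known to agree on the punctured disc. -/
theorem DRepr.unique' {P Q : PowerSeries ℂ} {f g : ℂ → ℂ} (hP : DRepr P f) (hQ : DRepr Q g)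
    (hfg : ∀ q : ℂ, q ≠ 0 → ‖q‖ < 1 → f q = g q) : P = Q := by
  have hf := hP.hasFPowerSeriesOnBall.hasFPowerSeriesAt.continuousAt
  have hg := hQ.hasFPowerSeriesOnBall.hasFPowerSeriesAt.continuousAt
  have h0 : f 0 = g 0 := by
    have hev : f =ᶠ[𝓝[≠] (0 : ℂ)] g := by
      have hball : ball (0 : ℂ) 1 ∈ 𝓝[≠] (0 : ℂ) :=
        mem_nhdsWithin_of_mem_nhds (ball_mem_nhds 0 one_pos)
      filter_upwards [self_mem_nhdsWithin, hball] with q hq hq1
      exact hfg q hq (by simpa using hq1)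
    exact ((hf.eventuallyEq_nhds_iff_eventuallyEq_nhdsNE hg).mp hev).eq_of_nhds
  refine hP.unique (hQ.congr fun q hq => ?_)
  rcases eq_or_ne q 0 with rfl | hq0
  · exact h0.symm
  · exact (hfg q hq0 hq).symm

theorem repr_zero : DRepr 0 (fun _ => 0) := fun q _ => by
  simp [hasSum_zero]

theorem repr_C (c : ℂ) : DRepr (PowerSeries.C c) (fun _ => c) := fun q _ => by
  convert hasSum_ite_eq (0 : ℕ) c using 2 with n
  rw [PowerSeries.coeff_C]
  split_ifs with hn
  · subst hn; simp
  · simp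

theorem repr_one : DRepr 1 (fun _ => 1) := by
  simpa using repr_C 1

theorem repr_X : DRepr PowerSeries.X (fun q => q) := fun q _ => by
  convert hasSum_ite_eq (1 : ℕ) q using 2 with n
  rw [PowerSeries.coeff_X]
  split_ifs with hn
  · subst hn; simp
  · simp

theorem DRepr.add {P Q : PowerSeries ℂ} {f g : ℂ → ℂ} (hP : DRepr P f) (hQ : DRepr Q g) :
    DRepr (P + Q) (fun q => f q + g q) := fun q hq => by
  simpa [add_mul] using (hP q hq).add (hQ q hq)

theorem DRepr.neg {P : PowerSeries ℂ} {f : ℂ → ℂ} (hP : DRepr P f) :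
    DRepr (-P) (fun q => -f q) := fun q hq => by
  simpa [neg_mul] using (hP q hq).neg

theorem DRepr.sub {P Q : PowerSeries ℂ} {f g : ℂ → ℂ} (hP : DRepr P f) (hQ : DRepr Q g) :
    DRepr (P - Q) (fun q => f q - g q) := fun q hq => by
  simpa [sub_mul] using (hP q hq).sub (hQ q hq)

theorem DRepr.mul {P Q : PowerSeries ℂ} {f g : ℂ → ℂ} (hP : DRepr P f) (hQ : DRepr Q g) :
    DRepr (P * Q) (fun q => f q * g q) := fun q hq => by
  have h1 := hP.summable_norm' hq
  have h2 := hQ.summable_norm' hq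
  have h3 := tsum_mul_tsum_eq_tsum_sum_antidiagonal_of_summable_norm h1 h2
  have h4 := (summable_norm_sum_mul_antidiagonal_of_summable_norm h1 h2).of_norm
  rw [(hP q hq).tsum_eq, (hQ q hq).tsum_eq] at h3
  have h5 : (fun n : ℕ => PowerSeries.coeff n (P * Q) * q ^ n) = fun n : ℕ =>
      ∑ kl ∈ Finset.HasAntidiagonal.antidiagonal n,
        (PowerSeries.coeff kl.1 P * q ^ kl.1) * (PowerSeries.coeff kl.2 Q * q ^ kl.2) := by
    funext n
    rw [PowerSeries.coeff_mul, Finset.sum_mul]
    refine Finset.sum_congr rfl fun kl hkl => ?_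
    rw [← Finset.HasAntidiagonal.mem_antidiagonal.mp hkl, pow_add]
    ring
  show HasSum _ (f q * g q)
  rw [h5, h3]
  exact h4.hasSum

theorem DRepr.pow {P : PowerSeries ℂ} {f : ℂ → ℂ} (hP : DRepr P f) (n : ℕ) :
    DRepr (P ^ n) (fun q => f q ^ n) := by
  induction n with
  | zero => simpa using repr_one
  | succ n ih =>
    simp only [pow_succ]
    exact ih.mul hP

theorem DRepr.smul {P : PowerSeries ℂ} {f : ℂ → ℂ} (hP : DRepr P f) (c : ℂ) :
    DRepr (PowerSeries.C c * P) (fun q => c * f q) :=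
  (repr_C c).mul hP

theorem repr_prod {ι : Type*} (s : Finset ι) (P : ι → PowerSeries ℂ) (f : ι → ℂ → ℂ)
    (h : ∀ i ∈ s, DRepr (P i) (f i)) : DRepr (∏ i ∈ s, P i) (fun q => ∏ i ∈ s, f i q) := by
  classical
  induction s using Finset.induction_on with
  | empty => simpa using repr_one
  | insert a s ha ih =>
    simp only [Finset.prod_insert ha]
    exact (h a (Finset.mem_insert_self a s)).mul
      (ih fun i hi => h i (Finset.mem_insert_of_mem hi))

/-- The Taylor series at `0`. -/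
noncomputable def taylor (f : ℂ → ℂ) : PowerSeries ℂ :=
  PowerSeries.mk fun n => ((n.factorial : ℂ))⁻¹ * iteratedDeriv n f 0

theorem coeff_taylor (f : ℂ → ℂ) (n : ℕ) :
    PowerSeries.coeff n (taylor f) = ((n.factorial : ℂ))⁻¹ * iteratedDeriv n f 0 := by
  simp [taylor]

/-- Holomorphic functions on the disc are represented by their Taylor series. -/
theorem repr_taylor {f : ℂ → ℂ} (hf : DifferentiableOn ℂ f (ball 0 1)) : DRepr (taylor f) f :=
  fun q hq => by
    have h := Complex.hasSum_taylorSeries_on_ball hf (z := q) (by simpa using hq)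
    have h' : (fun n : ℕ => PowerSeries.coeff n (taylor f) * q ^ n) =
        fun n : ℕ => ((n.factorial : ℂ))⁻¹ • (q - 0) ^ n • iteratedDeriv n f 0 := by
      funext n
      rw [coeff_taylor, sub_zero, smul_eq_mul, smul_eq_mul]
      ring
    rw [h']
    exact h

theorem exists_repr {f : ℂ → ℂ} (hf : DifferentiableOn ℂ f (ball 0 1)) : ∃ P, DRepr P f :=
  ⟨_, repr_taylor hf⟩

theorem DRepr.eq_taylor {P : PowerSeries ℂ} {f : ℂ → ℂ} (h : DRepr P f) : P = taylor f :=
  h.unique (repr_taylor h.differentiableOn)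

/-- Inverses: if `f` has no zero on the disc, the inverse series represents `1 / f`. -/
theorem DRepr.exists_inv {P : PowerSeries ℂ} {f : ℂ → ℂ} (h : DRepr P f)
    (hf : ∀ q : ℂ, ‖q‖ < 1 → f q ≠ 0) :
    ∃ Q : PowerSeries ℂ, DRepr Q (fun q => (f q)⁻¹) ∧ P * Q = 1 := by
  have hd : DifferentiableOn ℂ (fun q => (f q)⁻¹) (ball 0 1) :=
    h.differentiableOn.inv fun q hq => hf q (by simpa using hq)
  refine ⟨taylor fun q => (f q)⁻¹, repr_taylor hd, ?_⟩
  refine (h.mul (repr_taylor hd)).unique (repr_one.congr fun q hq => ?_)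
  exact (mul_inv_cancel₀ (hf q hq)).symm

theorem DRepr.of_mul_eq_one {P Q : PowerSeries ℂ} {f : ℂ → ℂ} (h : DRepr P f)
    (hf : ∀ q : ℂ, ‖q‖ < 1 → f q ≠ 0) (hPQ : P * Q = 1) : DRepr Q (fun q => (f q)⁻¹) := by
  obtain ⟨Q', hQ', hPQ'⟩ := h.exists_inv hf
  have : Q = Q' := by
    calc Q = Q * (P * Q') := by rw [hPQ', mul_one]
      _ = (P * Q) * Q' := by ring
      _ = Q' := by rw [hPQ, one_mul]
  rw [this]
  exact hQ'

/-- **Cauchy estimate** for the coefficients. -/
theorem DRepr.norm_coeff_le {P : PowerSeries ℂ} {f : ℂ → ℂ} (h : DRepr P f) {r C : ℝ}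
    (hr0 : 0 < r) (hr1 : r < 1) (hC : ∀ q : ℂ, ‖q‖ = r → ‖f q‖ ≤ C) (n : ℕ) :
    ‖PowerSeries.coeff n P‖ ≤ C / r ^ n := by
  have hsub : closedBall (0 : ℂ) r ⊆ ball 0 1 := closedBall_subset_ball hr1
  have hd : DiffContOnCl ℂ f (ball 0 r) := h.differentiableOn.diffContOnCl_ball hsub
  have hC' : ∀ z ∈ sphere (0 : ℂ) r, ‖f z‖ ≤ C := fun z hz => hC z (by simpa using hz)
  have key := Complex.norm_iteratedDeriv_le_of_forall_mem_sphere_norm_le n hr0 hd hC'
  rw [h.eq_taylor, coeff_taylor, norm_mul, norm_inv, Complex.norm_natCast]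
  have hfac : (0 : ℝ) < n.factorial := by exact_mod_cast n.factorial_pos
  calc ((n.factorial : ℝ))⁻¹ * ‖iteratedDeriv n f 0‖
      ≤ ((n.factorial : ℝ))⁻¹ * (n.factorial * C / r ^ n) := by gcongr
    _ = C / r ^ n := by field_simp

/-- If `f_M → f` uniformly on a circle of radius `r < 1`, the coefficients converge. -/
theorem DRepr.tendsto_coeff {ι : Type*} {l : Filter ι} {P : ι → PowerSeries ℂ}
    {f : ι → ℂ → ℂ} {Q : PowerSeries ℂ} {g : ℂ → ℂ} (hP : ∀ i, DRepr (P i) (f i))
    (hQ : DRepr Q g) {r : ℝ} (hr0 : 0 < r) (hr1 : r < 1)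
    (hconv : TendstoUniformlyOn f g l (sphere (0 : ℂ) r)) (n : ℕ) :
    Tendsto (fun i => PowerSeries.coeff n (P i)) l (𝓝 (PowerSeries.coeff n Q)) := by
  rw [Metric.tendsto_nhds]
  intro ε hε
  have hrn : 0 < r ^ n := pow_pos hr0 n
  have hε' : 0 < ε * r ^ n / 2 := by positivity
  have h1 := (Metric.tendstoUniformlyOn_iff.mp hconv) (ε * r ^ n / 2) hε'
  filter_upwards [h1] with i hi
  have hb := ((hP i).sub hQ).norm_coeff_le (C := ε * r ^ n / 2) hr0 hr1 (fun q hq => by
    have := hi q (by simpa using hq)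
    rw [dist_comm, dist_eq_norm] at this
    exact this.le) n
  rw [dist_eq_norm, ← map_sub]
  refine lt_of_le_of_lt hb ?_
  rw [div_lt_iff₀ hrn]
  nlinarith

end Fermat.Agent.S24.DiscSeries
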