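import Mathlib
import Fermat.Prelude.Def_ModularCurve_X0
import Fermat.Agent.S24.DiscSeries
import Fermat.Agent.S24.JFunction

/-!
# S24: the formal `q`-expansion of `j` is the analytic one

The prelude defines `jq = q⁻¹ · jNum` with `jNum = eisenstein4 ^ 3 * (etaProd ^ 24)⁻¹` as formal
power series over `ℤ`.  We prove that these formal series converge on the unit disc to the
analytic functions `E₄`, `∏ (1 - qⁿ)`, `Δ / q` and `q · j`.
-/

set_option autoImplicit false

namespace Fermat.Agent.S24.JqExpansion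

open Metric Filter Topology UpperHalfPlane ModularForm EisensteinSeries ModularCurve
open Fermat.Agent.S24.DiscSeries Fermat.Agent.S24.JFunction
open scoped PowerSeries.WithPiTopology

local notation "𝕢" => Function.Periodic.qParam

/-- The coefficient map `ℤ⟦X⟧ → ℂ⟦X⟧`. -/
noncomputable abbrev toC : PowerSeries ℤ →+* PowerSeries ℂ :=
  PowerSeries.map (Int.castRingHom ℂ)

theorem coeff_toC (P : PowerSeries ℤ) (n : ℕ) :
    PowerSeries.coeff n (toC P) = ((PowerSeries.coeff n P : ℤ) : ℂ) := by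
  simp [toC]

/-! ### The eta product -/

/-- The analytic eta product `∏ (1 - q^(n+1))`. -/
noncomputable def etaFun (q : ℂ) : ℂ := ∏' n : ℕ, (1 - q ^ (n + 1))

theorem differentiableOn_etaFun : DifferentiableOn ℂ etaFun (ball 0 1) :=
  differentiableOn_tprod_one_sub_pow

theorem etaFun_ne_zero {q : ℂ} (hq : ‖q‖ < 1) : etaFun q ≠ 0 := by
  refine tprod_one_add_ne_zero_of_summable (f := fun n => -q ^ (n + 1)) ?_ ?_
  · intro i
    rw [← sub_eq_add_neg, sub_ne_zero]
    intro h
    have h1 : ‖q ^ (i + 1)‖ = 1 := by rw [← h, norm_one]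
    rw [norm_pow] at h1
    have h2 : ‖q‖ ^ (i + 1) < 1 := pow_lt_one₀ (norm_nonneg q) hq (Nat.succ_ne_zero i)
    linarith
  · simpa [norm_pow] using
      (summable_nat_add_iff 1).mpr (summable_geometric_of_lt_one (norm_nonneg q) hq)

/-- The partial products of the formal eta product. -/
noncomputable def etaPartial (M : ℕ) : PowerSeries ℤ :=
  ∏ n ∈ Finset.range M, (1 - PowerSeries.X ^ (n + 1))

theorem tendsto_coeff_etaPartial (k : ℕ) :
    Tendsto (fun M : ℕ => ((PowerSeries.coeff k (etaPartial M) : ℤ) : ℂ)) atTop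
      (𝓝 ((PowerSeries.coeff k etaProd : ℤ) : ℂ)) := by
  have h1 : HasProd (fun n : ℕ => (1 - (PowerSeries.X : PowerSeries ℤ) ^ (n + 1))) etaProd :=
    (PowerSeries.WithPiTopology.multipliable_one_sub_X_pow ℤ).hasProd
  have h2 := h1.tendsto_prod_nat
  have h3 := ((PowerSeries.WithPiTopology.continuous_coeff ℤ k).tendsto etaProd).comp h2
  exact ((continuous_of_discreteTopology (f := fun z : ℤ => (z : ℂ))).tendsto _).comp h3

theorem repr_etaPartial (M : ℕ) :
    DRepr (toC (etaPartial M)) (fun q => ∏ n ∈ Finset.range M, (1 - q ^ (n + 1))) := by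
  rw [etaPartial, map_prod]
  refine repr_prod _ _ _ fun n _ => ?_
  rw [map_sub, map_one, map_pow, PowerSeries.map_X]
  exact repr_one.sub (repr_X.pow (n + 1))

theorem tendstoUniformlyOn_etaPartial {r : ℝ} (hr : r < 1) :
    TendstoUniformlyOn (fun (M : ℕ) (q : ℂ) => ∏ n ∈ Finset.range M, (1 - q ^ (n + 1))) etaFun
      atTop (sphere (0 : ℂ) r) := by
  have h := multipliableLocallyUniformlyOn_one_sub_pow.hasProdLocallyUniformlyOn
    |>.tendstoLocallyUniformlyOn_finsetRange
  exact (tendstoLocallyUniformlyOn_iff_forall_isCompact isOpen_ball).mp h _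
    (sphere_subset_closedBall.trans (closedBall_subset_ball hr)) (isCompact_sphere 0 r)

/-- **The formal eta product converges to the analytic one.** -/
theorem repr_etaProd : DRepr (toC etaProd) etaFun := by
  have hT := repr_taylor differentiableOn_etaFun
  have : toC etaProd = taylor etaFun := by
    ext k
    have h1 := DRepr.tendsto_coeff (fun M => repr_etaPartial M) hT (r := 1 / 2) (by norm_num)
      (by norm_num) (tendstoUniformlyOn_etaPartial (by norm_num)) k
    have h2 := tendsto_coeff_etaPartial k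
    simp only [coeff_toC] at h1 ⊢
    exact tendsto_nhds_unique h2 h1
  rw [this]
  exact hT

/-- The unit `∏ (1 - qⁿ)^24`. -/
theorem repr_dedekindEtaUnit : DRepr (toC dedekindEtaUnit) (fun q => etaFun q ^ 24) := by
  rw [dedekindEtaUnit, map_pow]
  exact repr_etaProd.pow 24

theorem repr_dedekindEtaUnitInv :
    DRepr (toC dedekindEtaUnitInv) (fun q => (etaFun q ^ 24)⁻¹) := by
  refine repr_dedekindEtaUnit.of_mul_eq_one (fun q hq => pow_ne_zero _ (etaFun_ne_zero hq)) ?_
  rw [← map_mul, dedekindEtaUnit_mul_inv, map_one]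

/-- `Δ = q ∏ (1 - qⁿ)^24` in terms of `etaFun`. -/
theorem discriminant_eq_etaFun (τ : ℍ) :
    discriminant τ = 𝕢 1 τ * etaFun (𝕢 1 τ) ^ 24 := by
  rw [discriminant_eq_q_prod, etaFun]
  congr 1
  have hq : ‖𝕢 1 (τ : ℂ)‖ < 1 := Function.Periodic.norm_qParam_lt_one one_pos τ.im_pos
  rw [← (multipliable_one_sub_pow hq).tprod_pow 24]

/-! ### The Eisenstein series `E₄` -/

theorem qExpansion_E₄ : qExpansion 1 E₄ = toC eisenstein4 := by
  ext m
  rw [E_qExpansion_coeff (by norm_num : 3 ≤ 4) ⟨2, rfl⟩ m, coeff_toC, eisenstein4,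
    PowerSeries.coeff_mk]
  split_ifs with hm
  · simp
  · have hb : bernoulli 4 = -1 / 30 := by decide +kernel
    rw [hb, ArithmeticFunction.sigma_apply]
    push_cast
    ring

/-- The function on the disc attached to `E₄`. -/
noncomputable def e4Fun : ℂ → ℂ := cuspFunction 1 E₄

theorem e4Fun_qParam (τ : ℍ) : e4Fun (𝕢 1 τ) = E₄ τ :=
  SlashInvariantFormClass.eq_cuspFunction E₄ τ one_mem_strictPeriods_SL one_ne_zero

theorem repr_eisenstein4 : DRepr (toC eisenstein4) e4Fun := by
  rw [← qExpansion_E₄]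
  intro q hq
  have h := hasSum_qExpansion_of_norm_lt (f := E₄) one_pos
    (SlashInvariantFormClass.periodic_comp_ofComplex E₄ one_mem_strictPeriods_SL)
    (ModularFormClass.holo E₄) (ModularFormClass.bdd_at_infty E₄) hq
  simpa [smul_eq_mul, e4Fun] using h

/-! ### The `j`-function -/

/-- The function `q ↦ q · j` on the disc. -/
noncomputable def jNumFun (q : ℂ) : ℂ := e4Fun q ^ 3 * (etaFun q ^ 24)⁻¹

theorem repr_jNum : DRepr (toC jNum) jNumFun := by
  rw [jNum, map_mul, map_pow]
  exact (repr_eisenstein4.pow 3).mul repr_dedekindEtaUnitInv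

theorem jNumFun_qParam (τ : ℍ) : jNumFun (𝕢 1 τ) = 𝕢 1 τ * jfun τ := by
  have hq : 𝕢 1 (τ : ℂ) ≠ 0 := Function.Periodic.qParam_ne_zero _
  have hΔ := discriminant_ne_zero τ
  have e := discriminant_eq_etaFun τ
  have hη : etaFun (𝕢 1 τ) ^ 24 ≠ 0 := by
    intro h0
    rw [h0, mul_zero] at e
    exact hΔ e
  rw [jNumFun, e4Fun_qParam, jfun, e]
  field_simp

/-- **The `q`-expansion of `j`**: `q · j(τ) = ∑ c(n) qⁿ` with `c(n)` the coefficients of the
prelude's `jNum` (so that `jq = q⁻¹ · jNum`). -/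
theorem hasSum_jNum (τ : ℍ) :
    HasSum (fun n : ℕ => ((PowerSeries.coeff n jNum : ℤ) : ℂ) * 𝕢 1 τ ^ n) (𝕢 1 τ * jfun τ) := by
  have h := repr_jNum (𝕢 1 τ) (Function.Periodic.norm_qParam_lt_one one_pos τ.im_pos)
  rw [jNumFun_qParam] at h
  simpa [coeff_toC] using h

theorem summable_norm_jNum {q : ℂ} (hq : ‖q‖ < 1) :
    Summable (fun n : ℕ => ‖((PowerSeries.coeff n jNum : ℤ) : ℂ)‖ * ‖q‖ ^ n) := by
  simpa [coeff_toC] using repr_jNum.summable_norm hq

end Fermat.Agent.S24.JqExpansion
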