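import Mathlib
import Fermat.Agent.S24.Eval
import Fermat.Agent.S24.JqExpansion

/-!
# S24 (M1.b): the analytic criterion for polynomial relations between the `j(q^d)`

A polynomial relation `P(j(q^d) : d) = 0` holds between the formal Laurent series
`jgenL d = j(q^d)` if and only if it holds between the holomorphic functions `τ ↦ j(d τ)`.
-/

set_option autoImplicit false

namespace Fermat.Agent.S24.JqCriterion

open Metric Filter Topology UpperHalfPlane ModularForm ModularCurve HahnSeries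
open Fermat.Agent.S24.DiscSeries Fermat.Agent.S24.JFunction Fermat.Agent.S24.JqExpansion
open Fermat.Agent.S24.Eval

local notation "𝕢" => Function.Periodic.qParam

/-! ### Convergent Laurent series -/

/-- The Laurent series `L` converges to `f` on the punctured open unit disc. -/
def LRepr (L : LaurentSeries ℂ) (f : ℂ → ℂ) : Prop :=
  ∃ (m : ℕ) (P : PowerSeries ℂ) (g : ℂ → ℂ),
    HahnSeries.single (m : ℤ) (1 : ℂ) * L = HahnSeries.ofPowerSeries ℤ ℂ P ∧ DRepr P g ∧
      ∀ q : ℂ, q ≠ 0 → ‖q‖ < 1 → g q = q ^ m * f q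

theorem single_natCast_eq (m : ℕ) :
    (HahnSeries.single (m : ℤ) (1 : ℂ) : LaurentSeries ℂ) =
      HahnSeries.ofPowerSeries ℤ ℂ (PowerSeries.X ^ m) :=
  (HahnSeries.ofPowerSeries_X_pow m).symm

theorem single_add_eq (m₁ m₂ : ℕ) :
    (HahnSeries.single ((m₁ + m₂ : ℕ) : ℤ) (1 : ℂ) : LaurentSeries ℂ) =
      HahnSeries.single (m₁ : ℤ) 1 * HahnSeries.single (m₂ : ℤ) 1 := by
  rw [HahnSeries.single_mul_single, mul_one, Nat.cast_add]

theorem lrepr_C (c : ℂ) : LRepr (HahnSeries.C c) (fun _ => c) := by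
  refine ⟨0, PowerSeries.C c, fun _ => c, ?_, repr_C c, fun q _ _ => by simp⟩
  rw [Nat.cast_zero, HahnSeries.single_zero_one, one_mul, HahnSeries.ofPowerSeries_C]

theorem LRepr.add {L₁ L₂ : LaurentSeries ℂ} {f₁ f₂ : ℂ → ℂ} (h₁ : LRepr L₁ f₁)
    (h₂ : LRepr L₂ f₂) : LRepr (L₁ + L₂) (fun q => f₁ q + f₂ q) := by
  obtain ⟨m₁, P₁, g₁, e₁, r₁, v₁⟩ := h₁
  obtain ⟨m₂, P₂, g₂, e₂, r₂, v₂⟩ := h₂
  refine ⟨m₁ + m₂, PowerSeries.X ^ m₂ * P₁ + PowerSeries.X ^ m₁ * P₂,
    fun q => q ^ m₂ * g₁ q + q ^ m₁ * g₂ q, ?_,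
    ((repr_X.pow m₂).mul r₁).add ((repr_X.pow m₁).mul r₂), fun q hq0 hq => ?_⟩
  · rw [map_add, map_mul, map_mul, ← e₁, ← e₂, ← single_natCast_eq, ← single_natCast_eq,
      single_add_eq]
    ring
  · simp only []
    rw [v₁ q hq0 hq, v₂ q hq0 hq, _root_.pow_add]
    ring

theorem LRepr.mul {L₁ L₂ : LaurentSeries ℂ} {f₁ f₂ : ℂ → ℂ} (h₁ : LRepr L₁ f₁)
    (h₂ : LRepr L₂ f₂) : LRepr (L₁ * L₂) (fun q => f₁ q * f₂ q) := by
  obtain ⟨m₁, P₁, g₁, e₁, r₁, v₁⟩ := h₁
  obtain ⟨m₂, P₂, g₂, e₂, r₂, v₂⟩ := h₂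
  refine ⟨m₁ + m₂, P₁ * P₂, fun q => g₁ q * g₂ q, ?_, r₁.mul r₂, fun q hq0 hq => ?_⟩
  · rw [map_mul, ← e₁, ← e₂, single_add_eq]
    ring
  · simp only []
    rw [v₁ q hq0 hq, v₂ q hq0 hq, _root_.pow_add]
    ring

/-- A convergent Laurent series is zero iff the function it represents vanishes on the punctured
disc. -/
theorem LRepr.eq_zero_iff {L : LaurentSeries ℂ} {f : ℂ → ℂ} (h : LRepr L f) :
    L = 0 ↔ ∀ q : ℂ, q ≠ 0 → ‖q‖ < 1 → f q = 0 := by
  obtain ⟨m, P, g, e, r, v⟩ := h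
  have hs : (HahnSeries.single (m : ℤ) (1 : ℂ) : LaurentSeries ℂ) ≠ 0 :=
    HahnSeries.single_ne_zero one_ne_zero
  constructor
  · intro hL q hq0 hq
    rw [hL, mul_zero] at e
    have hP : P = 0 := HahnSeries.ofPowerSeries_injective (by rw [← e, map_zero])
    have hg : g q = 0 := by
      have h1 := r q hq
      rw [hP] at h1
      simp only [map_zero, zero_mul] at h1
      exact h1.unique hasSum_zero
    have h2 := v q hq0 hq
    rw [hg] at h2
    exact (mul_eq_zero.mp h2.symm).resolve_left (pow_ne_zero m hq0)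
  · intro hf
    have hP : P = 0 := by
      refine r.unique' repr_zero fun q hq0 hq => ?_
      rw [v q hq0 hq, hf q hq0 hq, mul_zero]
    rw [hP, map_zero] at e
    exact (mul_eq_zero.mp e).resolve_left hs

/-! ### Substitution `q ↦ q^d` -/

/-- The power series `P(X^d)`. -/
noncomputable def expandPS (d : ℕ) (P : PowerSeries ℂ) : PowerSeries ℂ :=
  PowerSeries.mk fun n => if d ∣ n then PowerSeries.coeff (n / d) P else 0

theorem coeff_expandPS (d : ℕ) (P : PowerSeries ℂ) (n : ℕ) :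
    PowerSeries.coeff n (expandPS d P) = if d ∣ n then PowerSeries.coeff (n / d) P else 0 := by
  simp [expandPS]

theorem repr_expandPS {d : ℕ} (hd : 0 < d) {P : PowerSeries ℂ} {g : ℂ → ℂ} (h : DRepr P g) :
    DRepr (expandPS d P) (fun q => g (q ^ d)) := by
  intro q hq
  have hqd : ‖q ^ d‖ < 1 := by
    rw [norm_pow]
    exact pow_lt_one₀ (norm_nonneg q) hq hd.ne'
  have h1 := h (q ^ d) hqd
  have hinj : Function.Injective (fun k : ℕ => d * k) := fun a b hab =>
    Nat.eq_of_mul_eq_mul_left hd hab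
  rw [← hinj.hasSum_iff]
  · have e : ((fun n : ℕ => PowerSeries.coeff n (expandPS d P) * q ^ n) ∘ fun k : ℕ => d * k) =
        fun n : ℕ => PowerSeries.coeff n P * (q ^ d) ^ n := by
      funext k
      simp only [Function.comp_apply, coeff_expandPS, dvd_mul_right, if_true,
        Nat.mul_div_cancel_left k hd, pow_mul]
    rw [e]
    exact h1
  · intro n hn
    have : ¬ d ∣ n := fun ⟨k, hk⟩ => hn ⟨k, hk.symm⟩
    rw [coeff_expandPS, if_neg this, zero_mul]

theorem qExpand_ofPowerSeries (d : ℕ) [NeZero d] (P : PowerSeries ℂ) :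
    qExpand ℂ d (HahnSeries.ofPowerSeries ℤ ℂ P) =
      HahnSeries.ofPowerSeries ℤ ℂ (expandPS d P) := by
  have hd : 0 < d := Nat.pos_of_ne_zero (NeZero.ne d)
  have hdZ : (0 : ℤ) < (d : ℤ) := by exact_mod_cast hd
  ext k
  rcases lt_or_ge k 0 with hk | hk
  · rw [ofPowerSeries_coeff_of_neg _ hk]
    by_cases hdk : (d : ℤ) ∣ k
    · obtain ⟨k', rfl⟩ := hdk
      rw [qExpand_coeff_mul]
      exact ofPowerSeries_coeff_of_neg _ (by nlinarith)
    · exact qExpand_coeff_of_not_dvd d _ hdk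
  · obtain ⟨n, rfl⟩ := Int.eq_ofNat_of_zero_le hk
    rw [HahnSeries.ofPowerSeries_apply_coeff, coeff_expandPS]
    split_ifs with hdn
    · obtain ⟨n', rfl⟩ := hdn
      rw [Nat.mul_div_cancel_left n' hd, Nat.cast_mul, qExpand_coeff_mul,
        HahnSeries.ofPowerSeries_apply_coeff]
    · exact qExpand_coeff_of_not_dvd d _ (fun h => hdn (Int.natCast_dvd_natCast.mp h))

theorem LRepr.qExpand {L : LaurentSeries ℂ} {f : ℂ → ℂ} (h : LRepr L f) (d : ℕ) [NeZero d] :
    LRepr (qExpand ℂ d L) (fun q => f (q ^ d)) := by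
  have hd : 0 < d := Nat.pos_of_ne_zero (NeZero.ne d)
  obtain ⟨m, P, g, e, r, v⟩ := h
  refine ⟨d * m, expandPS d P, fun q => g (q ^ d), ?_, repr_expandPS hd r, fun q hq0 hq => ?_⟩
  · rw [← qExpand_ofPowerSeries, ← e, map_mul, qExpand_single, Nat.cast_mul]
  · have hqd : ‖q ^ d‖ < 1 := by
      rw [norm_pow]
      exact pow_lt_one₀ (norm_nonneg q) hq hd.ne'
    simp only []
    rw [v (q ^ d) (pow_ne_zero d hq0) hqd, pow_mul]

/-! ### Coefficient maps -/

theorem coeffMap_qExpand {R S : Type*} [CommRing R] [CommRing S] (φ : R →+* S) (d : ℕ)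
    [NeZero d] (L : LaurentSeries R) :
    coeffMap φ (qExpand R d L) = qExpand S d (coeffMap φ L) := by
  ext k
  by_cases hdk : (d : ℤ) ∣ k
  · obtain ⟨k', rfl⟩ := hdk
    rw [coeffMap_coeff, qExpand_coeff_mul, qExpand_coeff_mul, coeffMap_coeff]
  · rw [coeffMap_coeff, qExpand_coeff_of_not_dvd d _ hdk, qExpand_coeff_of_not_dvd d _ hdk,
      map_zero]

theorem coeffMap_ofPowerSeries {R S : Type*} [CommRing R] [CommRing S] (φ : R →+* S)
    (P : PowerSeries R) :
    coeffMap φ (HahnSeries.ofPowerSeries ℤ R P) =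
      HahnSeries.ofPowerSeries ℤ S (PowerSeries.map φ P) := by
  ext k
  rcases lt_or_ge k 0 with hk | hk
  · rw [coeffMap_coeff, ofPowerSeries_coeff_of_neg _ hk, ofPowerSeries_coeff_of_neg _ hk,
      map_zero]
  · obtain ⟨n, rfl⟩ := Int.eq_ofNat_of_zero_le hk
    rw [coeffMap_coeff, HahnSeries.ofPowerSeries_apply_coeff,
      HahnSeries.ofPowerSeries_apply_coeff, PowerSeries.coeff_map]

/-- The complex Laurent series of `j`. -/
noncomputable def jqC : LaurentSeries ℂ :=
  HahnSeries.single (-1 : ℤ) (1 : ℂ) * HahnSeries.ofPowerSeries ℤ ℂ (toC jNum)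

theorem coeffMap_jq (ψ : ℚ →+* ℂ) : coeffMap ψ jq = jqC := by
  rw [jq, jqC, map_mul, coeffMap_single, map_one, coeffMap_ofPowerSeries]
  congr 2
  ext n
  rw [jNumQ, PowerSeries.coeff_map, PowerSeries.coeff_map, coeff_toC, eq_intCast, map_intCast]

theorem coeffMap_iota_jgenL (d : ℕ) [NeZero d] :
    coeffMap iota (jgenL d) = qExpand ℂ d jqC := by
  rw [jgenL, coeffEmb, coeffMap_coeffMap, coeffMap_qExpand, coeffMap_jq]

/-! ### The function `j` on the punctured disc -/

/-- The `j`-function as a function of `q`. -/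
noncomputable def jDisc (q : ℂ) : ℂ := jNumFun q / q

theorem jDisc_qParam (τ : ℍ) : jDisc (𝕢 1 τ) = jfun τ := by
  have hq : 𝕢 1 (τ : ℂ) ≠ 0 := Function.Periodic.qParam_ne_zero _
  rw [jDisc, jNumFun_qParam]
  field_simp

theorem lrepr_jqC : LRepr jqC jDisc := by
  refine ⟨1, toC jNum, jNumFun, ?_, repr_jNum, fun q hq0 _ => ?_⟩
  · rw [jqC, ← mul_assoc, HahnSeries.single_mul_single, Nat.cast_one, add_neg_cancel, mul_one,
      HahnSeries.single_zero_one, one_mul]
  · rw [jDisc, pow_one]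
    field_simp

theorem lrepr_jgenL (d : ℕ) [NeZero d] :
    LRepr (coeffMap iota (jgenL d)) (fun q => jDisc (q ^ d)) := by
  rw [coeffMap_iota_jgenL]
  exact lrepr_jqC.qExpand d

/-- `j(dτ)` as a function on the upper half plane. -/
noncomputable def Jd (d : ℕ) (τ : ℍ) : ℂ := jfun (ofComplex ((d : ℂ) * (τ : ℂ)))

theorem Jd_def (d : ℕ) (τ : ℍ) : Jd d τ = jfun (ofComplex ((d : ℂ) * (τ : ℂ))) := rfl

theorem jDisc_qParam_pow (d : ℕ) [NeZero d] (τ : ℍ) : jDisc (𝕢 1 τ ^ d) = Jd d τ := by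
  have hd : 0 < d := Nat.pos_of_ne_zero (NeZero.ne d)
  have him : 0 < ((d : ℂ) * (τ : ℂ)).im := by
    rw [Complex.mul_im, Complex.natCast_re, Complex.natCast_im, zero_mul, add_zero]
    exact mul_pos (by exact_mod_cast hd) τ.im_pos
  have e : 𝕢 1 (τ : ℂ) ^ d = 𝕢 1 ((⟨(d : ℂ) * (τ : ℂ), him⟩ : ℍ) : ℂ) := by
    simp only [Function.Periodic.qParam, ← Complex.exp_nat_mul]
    congr 1
    push_cast
    ring
  rw [e, jDisc_qParam, Jd, ofComplex_apply_of_im_pos him]

/-! ### The criterion -/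

section Criterion

variable {σ : Type*} (d : σ → ℕ) [∀ i, NeZero (d i)]

theorem lrepr_aeval (P : MvPolynomial σ ℂ) :
    LRepr (MvPolynomial.aeval (fun i => coeffMap iota (jgenL (d i))) P)
      (fun q => MvPolynomial.eval (fun i => jDisc (q ^ d i)) P) := by
  induction P using MvPolynomial.induction_on with
  | C a =>
    simp only [MvPolynomial.aeval_C, MvPolynomial.eval_C]
    rw [algebraMap_laurentSeries_eq_single]
    exact lrepr_C a
  | add p q hp hq =>
    simp only [map_add]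
    exact hp.add hq
  | mul_X p i hp =>
    simp only [map_mul, MvPolynomial.aeval_X, MvPolynomial.eval_X]
    exact hp.mul (lrepr_jgenL (d i))

/-- **Analytic criterion (complex coefficients).** A polynomial relation between the formal
Laurent series `j(q^d)` holds iff it holds between the functions `τ ↦ j(dτ)`. -/
theorem aeval_eq_zero_iff (P : MvPolynomial σ ℂ) :
    MvPolynomial.aeval (fun i => coeffMap iota (jgenL (d i))) P = 0 ↔
      ∀ τ : ℍ, MvPolynomial.eval (fun i => Jd (d i) τ) P = 0 := by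
  rw [(lrepr_aeval d P).eq_zero_iff]
  constructor
  · intro h τ
    have h1 := h (𝕢 1 τ) (Function.Periodic.qParam_ne_zero _)
      (Function.Periodic.norm_qParam_lt_one one_pos τ.im_pos)
    simpa only [jDisc_qParam_pow] using h1
  · intro h q hq0 hq
    have him := Function.Periodic.im_invQParam_pos_of_norm_lt_one one_pos hq hq0
    have h1 := h ⟨Function.Periodic.invQParam 1 q, him⟩
    simp only [← jDisc_qParam_pow] at h1
    rwa [show 𝕢 1 ((⟨Function.Periodic.invQParam 1 q, him⟩ : ℍ) : ℂ) = q from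
      Function.Periodic.qParam_right_inv one_ne_zero hq0] at h1

theorem coeffMap_iota_injective : Function.Injective (coeffMap iota : LaurentSeries KK → _) := by
  intro x y hxy
  ext k
  have := congrArg (fun z => HahnSeries.coeff z k) hxy
  simp only [coeffMap_coeff] at this
  exact iota_injective this

theorem coeffMap_aeval (P : MvPolynomial σ KK) :
    coeffMap iota (MvPolynomial.aeval (fun i => jgenL (d i)) P) =
      MvPolynomial.aeval (fun i => coeffMap iota (jgenL (d i))) (MvPolynomial.map iota P) := by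
  induction P using MvPolynomial.induction_on with
  | C a =>
    simp only [MvPolynomial.aeval_C, MvPolynomial.map_C]
    rw [algebraMap_laurentSeries_eq_single, algebraMap_laurentSeries_eq_single, coeffMap_single]
  | add p q hp hq =>
    simp only [map_add, hp, hq]
  | mul_X p i hp =>
    simp only [map_mul, MvPolynomial.aeval_X, MvPolynomial.map_X, hp]

/-- **Analytic criterion (coefficients in `ℚ̄`).** -/
theorem aeval_eq_zero_iff' (P : MvPolynomial σ KK) :
    MvPolynomial.aeval (fun i => jgenL (d i)) P = 0 ↔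
      ∀ τ : ℍ, MvPolynomial.eval₂ iota (fun i => Jd (d i) τ) P = 0 := by
  rw [← (coeffMap_iota_injective).eq_iff, map_zero, coeffMap_aeval, aeval_eq_zero_iff]
  simp only [MvPolynomial.eval_map]

end Criterion

end Fermat.Agent.S24.JqCriterion
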