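import Mathlib

/-!
# S24: Taylor series at `0` of analytic functions as formal power series

`tay g : PowerSeries ℂ` is the Taylor series of `g : ℂ → ℂ` at `0`.  On functions analytic at `0`
it is additive and multiplicative, it only depends on the germ of `g` at `0`, it is characterised
by any convergent expansion, it turns `w ↦ g (ζ * w)` into `PowerSeries.rescale ζ`, and its order
is the analytic order of `g` at `0`.
-/

set_option autoImplicit false

namespace Fermat.Agent.S24.Taylor

open Filter Topology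

/-- The Taylor series at `0`. -/
noncomputable def tay (g : ℂ → ℂ) : PowerSeries ℂ :=
  .mk fun m => (m.factorial : ℂ)⁻¹ * iteratedDeriv m g 0

theorem coeff_tay (g : ℂ → ℂ) (m : ℕ) :
    (tay g).coeff m = (m.factorial : ℂ)⁻¹ * iteratedDeriv m g 0 := by
  simp [tay]

theorem tay_congr {f g : ℂ → ℂ} (h : f =ᶠ[𝓝 0] g) : tay f = tay g := by
  ext m
  rw [coeff_tay, coeff_tay, h.iteratedDeriv_eq]

theorem tay_add {f g : ℂ → ℂ} (hf : AnalyticAt ℂ f 0) (hg : AnalyticAt ℂ g 0) :
    tay (f + g) = tay f + tay g := by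
  ext m
  simp [coeff_tay, iteratedDeriv_add hf.contDiffAt hg.contDiffAt, mul_add]

theorem tay_mul {f g : ℂ → ℂ} (hf : AnalyticAt ℂ f 0) (hg : AnalyticAt ℂ g 0) :
    tay (f * g) = tay f * tay g := by
  ext m
  simp only [coeff_tay, iteratedDeriv_mul hf.contDiffAt hg.contDiffAt, Finset.mul_sum,
    PowerSeries.coeff_mul, Finset.Nat.sum_antidiagonal_eq_sum_range_succ_mk, Nat.succ_eq_add_one]
  refine Finset.sum_congr rfl fun i hi => ?_
  rw [Nat.cast_choose _ (by grind)]
  field_simp [Nat.factorial_ne_zero]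

theorem tay_const (c : ℂ) : tay (fun _ => c) = PowerSeries.C c := by
  ext m
  rw [coeff_tay, PowerSeries.coeff_C]
  rcases m with _ | m
  · simp
  · simp [iteratedDeriv_const]

theorem tay_one : tay (1 : ℂ → ℂ) = 1 := by
  have := tay_const 1
  rw [map_one] at this
  exact this

theorem tay_zero : tay (0 : ℂ → ℂ) = 0 := by
  have := tay_const 0
  rw [map_zero] at this
  exact this

theorem tay_smul {f : ℂ → ℂ} (hf : AnalyticAt ℂ f 0) (c : ℂ) : tay (c • f) = c • tay f := by
  have h1 : c • f = (fun _ => c) * f := by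
    funext z
    simp
  rw [h1, tay_mul analyticAt_const hf, tay_const]
  ext m
  simp

theorem tay_neg {f : ℂ → ℂ} (hf : AnalyticAt ℂ f 0) : tay (-f) = -tay f := by
  have := tay_smul hf (-1)
  simpa using this

theorem tay_sub {f g : ℂ → ℂ} (hf : AnalyticAt ℂ f 0) (hg : AnalyticAt ℂ g 0) :
    tay (f - g) = tay f - tay g := by
  rw [sub_eq_add_neg, tay_add hf hg.neg, tay_neg hg, sub_eq_add_neg]

/-- The Taylor series is the unique convergent expansion. -/
theorem tay_eq_of_hasSum {g : ℂ → ℂ} (a : ℕ → ℂ)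
    (h : ∀ᶠ z in 𝓝 (0 : ℂ), HasSum (fun n => z ^ n • a n) (g z)) : tay g = PowerSeries.mk a := by
  have h1 : HasFPowerSeriesAt g (FormalMultilinearSeries.ofScalars ℂ a) 0 := by
    rw [hasFPowerSeriesAt_iff]
    simpa [FormalMultilinearSeries.coeff_ofScalars] using h
  have h2 := (h1.analyticAt).hasFPowerSeriesAt
  have h3 := h1.eq_formalMultilinearSeries h2
  ext m
  have h4 := congrArg (fun p : FormalMultilinearSeries ℂ ℂ ℂ => p.coeff m) h3
  simp only [FormalMultilinearSeries.coeff_ofScalars] at h4
  rw [coeff_tay, PowerSeries.coeff_mk, h4]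
  field_simp

/-- The Taylor series converges to the function on any ball of holomorphy. -/
theorem hasSum_tay {g : ℂ → ℂ} {r : ℝ} (hg : DifferentiableOn ℂ g (Metric.ball 0 r)) {z : ℂ}
    (hz : z ∈ Metric.ball (0 : ℂ) r) : HasSum (fun n => (tay g).coeff n * z ^ n) (g z) := by
  have := Complex.hasSum_taylorSeries_on_ball hg hz
  refine this.congr_fun ?_ |>.mono_left le_rfl
  intro n
  simp [coeff_tay, smul_eq_mul]
  ring

/-- A function holomorphic on a ball with vanishing Taylor series vanishes on the ball. -/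
theorem eq_zero_of_tay_eq_zero {g : ℂ → ℂ} {r : ℝ} (hg : DifferentiableOn ℂ g (Metric.ball 0 r))
    (h : tay g = 0) {z : ℂ} (hz : z ∈ Metric.ball (0 : ℂ) r) : g z = 0 := by
  have h1 := hasSum_tay hg hz
  simp only [h, map_zero, zero_mul] at h1
  exact h1.unique hasSum_zero

/-- Rescaling the variable. -/
theorem tay_comp_mul {g : ℂ → ℂ} (hg : AnalyticAt ℂ g 0) (ζ : ℂ) :
    tay (fun w => g (ζ * w)) = PowerSeries.rescale ζ (tay g) := by
  have h0 := hg.hasFPowerSeriesAt
  rw [hasFPowerSeriesAt_iff] at h0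
  simp only [FormalMultilinearSeries.coeff_ofScalars, zero_add] at h0
  have hcont : Tendsto (fun w : ℂ => ζ * w) (𝓝 0) (𝓝 0) := by
    have : Continuous fun w : ℂ => ζ * w := by fun_prop
    simpa using this.tendsto 0
  have h1 := hcont.eventually h0
  rw [tay_eq_of_hasSum (fun n => ζ ^ n * (iteratedDeriv n g 0 / (n.factorial : ℂ)))]
  · ext m
    rw [PowerSeries.coeff_mk, PowerSeries.coeff_rescale, coeff_tay]
    ring
  · filter_upwards [h1] with w hw
    refine hw.congr_fun ?_ |>.mono_left le_rfl
    intro n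
    simp only [smul_eq_mul, mul_pow]
    ring

/-- The order of the Taylor series is the analytic order. -/
theorem order_tay {g : ℂ → ℂ} (hg : AnalyticAt ℂ g 0) : (tay g).order = analyticOrderAt g 0 := by
  refine ENat.eq_of_forall_natCast_le_iff fun n => ?_
  rw [natCast_le_analyticOrderAt_iff_iteratedDeriv_eq_zero hg]
  have hcoef : ∀ i : ℕ, (tay g).coeff i = 0 ↔ iteratedDeriv i g 0 = 0 := by
    intro i
    rw [coeff_tay]
    constructor
    · intro h
      rcases mul_eq_zero.mp h with h | h
      · exact absurd h (inv_ne_zero (Nat.cast_ne_zero.mpr (Nat.factorial_ne_zero i)))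
      · exact h
    · intro h
      rw [h, mul_zero]
  constructor
  · intro h i hi
    rw [← hcoef]
    exact PowerSeries.coeff_of_lt_order i (lt_of_lt_of_le (by exact_mod_cast hi) h)
  · intro h
    exact PowerSeries.nat_le_order _ n fun i hi => (hcoef i).mpr (h i hi)

/-- The Taylor series of the derivative. -/
theorem tay_deriv (g : ℂ → ℂ) : tay (deriv g) = PowerSeries.derivative ℂ (tay g) := by
  ext m
  rw [coeff_tay, PowerSeries.coeff_derivative, coeff_tay, ← iteratedDeriv_succ']
  have : ((m + 1).factorial : ℂ) = (m + 1 : ℂ) * (m.factorial : ℂ) := by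
    rw [Nat.factorial_succ]; push_cast; ring
  rw [this]
  have h1 : (m.factorial : ℂ) ≠ 0 := Nat.cast_ne_zero.mpr (Nat.factorial_ne_zero m)
  have h2 : (m + 1 : ℂ) ≠ 0 := by exact_mod_cast Nat.succ_ne_zero m
  field_simp

/-- The Taylor series of the identity. -/
theorem tay_id : tay (fun w : ℂ => w) = PowerSeries.X := by
  rw [tay_eq_of_hasSum (fun n => if n = 1 then 1 else 0)]
  · ext m
    simp [PowerSeries.coeff_X]
  · refine Eventually.of_forall fun z => ?_
    have := hasSum_ite_eq (1 : ℕ) (z ^ 1 • (1 : ℂ))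
    simp only [pow_one, smul_eq_mul, mul_one] at this
    refine this.congr_fun ?_ |>.mono_left le_rfl
    intro n
    by_cases hn : n = 1
    · simp [hn]
    · simp [hn]

end Fermat.Agent.S24.Taylor
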