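import Mathlib
import Fermat.Agent.S24.Taylor

/-!
# S24: Taylor expansion of holomorphic functions on `ℍ` in the Cayley coordinate at a point

For `τ₀ : ℍ` the Cayley coordinate is `w = (τ - τ₀) / (τ - conj τ₀)`; it identifies `ℍ` with the
unit disc, `τ₀` with `0`, and the stabiliser of `τ₀` in `SL(2, ℤ)` acts on it by *rotations*
`w ↦ rot γ τ₀ * w`.  `taylor τ₀ f : PowerSeries ℂ` is the Taylor series at `w = 0` of a function
`f : ℍ → ℂ` expressed in the coordinate `w`.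

* `taylor_add`, `taylor_mul`, `taylor_const`, `taylor_one`, ... : ring homomorphism properties
  (for holomorphic functions);
* `taylor_eq_zero_iff` : injectivity (identity theorem);
* `order_taylor` : the order of the Taylor series is the analytic order at `τ₀`;
* `taylor_smul` : equivariance under the stabiliser of `τ₀`.
-/

set_option autoImplicit false

namespace Fermat.Agent.S24.Point

open UpperHalfPlane Complex Filter Topology Fermat.Agent.S24.Taylor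
open scoped MatrixGroups Manifold ComplexConjugate

section Cayley

variable (τ₀ : ℍ)

/-- The inverse Cayley transform centred at `τ₀`: the unit disc to the upper half plane. -/
noncomputable def cayInv (w : ℂ) : ℂ := ((τ₀ : ℂ) - conj (τ₀ : ℂ) * w) / (1 - w)

/-- The Cayley transform centred at `τ₀`. -/
noncomputable def cay (τ : ℂ) : ℂ := (τ - τ₀) / (τ - conj (τ₀ : ℂ))

@[simp] theorem cayInv_zero : cayInv τ₀ 0 = τ₀ := by simp [cayInv]

@[simp] theorem cay_self : cay τ₀ τ₀ = 0 := by simp [cay]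

theorem one_sub_ne_zero {w : ℂ} (hw : ‖w‖ < 1) : (1 : ℂ) - w ≠ 0 := by
  intro h
  have : w = 1 := by linear_combination -h
  rw [this] at hw
  simp at hw

theorem sub_conj_ne_zero (τ : ℍ) : (τ : ℂ) - conj (τ₀ : ℂ) ≠ 0 := by
  intro h
  have h1 := congrArg Complex.im h
  simp only [Complex.sub_im, Complex.conj_im, Complex.zero_im] at h1
  have h2 : 0 < (τ : ℂ).im := τ.2
  have h3 : 0 < (τ₀ : ℂ).im := τ₀.2
  linarith

theorem im_cayInv {w : ℂ} (hw : ‖w‖ < 1) :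
    (cayInv τ₀ w).im = (τ₀ : ℂ).im * (1 - ‖w‖ ^ 2) / ‖(1 : ℂ) - w‖ ^ 2 := by
  have h1 := one_sub_ne_zero hw
  have h2 : cayInv τ₀ w = ((τ₀ : ℂ) - conj (τ₀ : ℂ) * w) * conj (1 - w) / (‖(1 : ℂ) - w‖ ^ 2 : ℝ) := by
    rw [cayInv, div_eq_div_iff h1 (by
      have : ‖(1 : ℂ) - w‖ ≠ 0 := norm_ne_zero_iff.mpr h1
      exact_mod_cast pow_ne_zero 2 this)]
    rw [← Complex.normSq_eq_norm_sq, ← Complex.mul_conj]
    ring
  rw [h2, Complex.div_ofReal_im]
  congr 1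
  rw [← Complex.normSq_eq_norm_sq w, Complex.normSq_apply]
  simp only [Complex.mul_im, Complex.sub_re, Complex.sub_im, Complex.mul_re, Complex.conj_re,
    Complex.conj_im, Complex.one_re, Complex.one_im, map_sub, map_one]
  ring

theorem im_cayInv_pos {w : ℂ} (hw : ‖w‖ < 1) : 0 < (cayInv τ₀ w).im := by
  rw [im_cayInv τ₀ hw]
  have h1 := one_sub_ne_zero hw
  have h2 : 0 < ‖(1 : ℂ) - w‖ ^ 2 := by positivity
  have h3 : 0 < (τ₀ : ℂ).im := τ₀.2
  have h4 : ‖w‖ ^ 2 < 1 := by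
    have := norm_nonneg w
    nlinarith
  have h5 : 0 < 1 - ‖w‖ ^ 2 := by linarith
  positivity

theorem cayInv_cay (τ : ℍ) : cayInv τ₀ (cay τ₀ τ) = τ := by
  have h := sub_conj_ne_zero τ₀ τ
  have h0 : (τ₀ : ℂ) - conj (τ₀ : ℂ) ≠ 0 := sub_conj_ne_zero τ₀ τ₀
  rw [cayInv, cay]
  have h1 : (1 : ℂ) - ((τ : ℂ) - τ₀) / ((τ : ℂ) - conj (τ₀ : ℂ))
      = ((τ₀ : ℂ) - conj (τ₀ : ℂ)) / ((τ : ℂ) - conj (τ₀ : ℂ)) := by
    field_simp
    ring
  rw [h1]
  field_simp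
  ring

theorem norm_cay_lt_one (τ : ℍ) : ‖cay τ₀ τ‖ < 1 := by
  have h := sub_conj_ne_zero τ₀ τ
  rw [cay, norm_div, div_lt_one (norm_pos_iff.mpr h)]
  have h2 : 0 < (τ : ℂ).im := τ.2
  have h3 : 0 < (τ₀ : ℂ).im := τ₀.2
  have key : ‖(τ : ℂ) - τ₀‖ ^ 2 < ‖(τ : ℂ) - conj (τ₀ : ℂ)‖ ^ 2 := by
    rw [← Complex.normSq_eq_norm_sq, ← Complex.normSq_eq_norm_sq, Complex.normSq_apply,
      Complex.normSq_apply]
    simp only [Complex.sub_re, Complex.sub_im, Complex.conj_re, Complex.conj_im]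
    nlinarith
  exact lt_of_pow_lt_pow_left₀ 2 (norm_nonneg _) key

theorem cay_cayInv {w : ℂ} (hw : ‖w‖ < 1) : cay τ₀ (cayInv τ₀ w) = w := by
  have h1 := one_sub_ne_zero hw
  have h0 : (τ₀ : ℂ) - conj (τ₀ : ℂ) ≠ 0 := sub_conj_ne_zero τ₀ τ₀
  rw [cay, cayInv]
  have e1 : ((τ₀ : ℂ) - conj (τ₀ : ℂ) * w) / (1 - w) - τ₀
      = ((τ₀ : ℂ) - conj (τ₀ : ℂ)) * w / (1 - w) := by
    field_simp
    ring
  have e2 : ((τ₀ : ℂ) - conj (τ₀ : ℂ) * w) / (1 - w) - conj (τ₀ : ℂ)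
      = ((τ₀ : ℂ) - conj (τ₀ : ℂ)) / (1 - w) := by
    field_simp
    ring
  rw [e1, e2]
  field_simp

theorem differentiableAt_cayInv {w : ℂ} (hw : ‖w‖ < 1) : DifferentiableAt ℂ (cayInv τ₀) w := by
  have h1 := one_sub_ne_zero hw
  unfold cayInv
  fun_prop (disch := exact h1)

theorem analyticAt_cayInv {w : ℂ} (hw : ‖w‖ < 1) : AnalyticAt ℂ (cayInv τ₀) w := by
  have hopen : IsOpen (Metric.ball (0 : ℂ) 1) := Metric.isOpen_ball
  have hd : DifferentiableOn ℂ (cayInv τ₀) (Metric.ball (0 : ℂ) 1) := fun z hz =>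
    (differentiableAt_cayInv τ₀ (by simpa using hz)).differentiableWithinAt
  exact hd.analyticAt (hopen.mem_nhds (by simpa using hw))

theorem hasDerivAt_cayInv_zero :
    HasDerivAt (cayInv τ₀) ((τ₀ : ℂ) - conj (τ₀ : ℂ)) 0 := by
  have h1 : HasDerivAt (fun w : ℂ => (τ₀ : ℂ) - conj (τ₀ : ℂ) * w) (-(conj (τ₀ : ℂ))) 0 := by
    have := ((hasDerivAt_id (0 : ℂ)).const_mul (conj (τ₀ : ℂ))).const_sub (τ₀ : ℂ)
    simpa using this
  have h2 : HasDerivAt (fun w : ℂ => (1 : ℂ) - w) (-1) 0 := by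
    have := (hasDerivAt_id (0 : ℂ)).const_sub (1 : ℂ)
    simpa using this
  have h3 := h1.div h2 (by simp)
  refine h3.congr_deriv ?_
  simp
  ring

theorem deriv_cayInv_zero_ne_zero : deriv (cayInv τ₀) 0 ≠ 0 := by
  rw [(hasDerivAt_cayInv_zero τ₀).deriv]
  exact sub_conj_ne_zero τ₀ τ₀

end Cayley

section Pull

variable (τ₀ : ℍ)

/-- A function on `ℍ` expressed in the Cayley coordinate at `τ₀`. -/
noncomputable def pull (f : ℍ → ℂ) : ℂ → ℂ := fun w => f (ofComplex (cayInv τ₀ w))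

theorem pull_cay (f : ℍ → ℂ) (τ : ℍ) : pull τ₀ f (cay τ₀ τ) = f τ := by
  rw [pull, cayInv_cay, ofComplex_apply]

theorem pull_zero' (f : ℍ → ℂ) : pull τ₀ f 0 = f τ₀ := by
  rw [pull, cayInv_zero, ofComplex_apply]

theorem pull_add (f g : ℍ → ℂ) : pull τ₀ (f + g) = pull τ₀ f + pull τ₀ g := rfl

theorem pull_mul (f g : ℍ → ℂ) : pull τ₀ (f * g) = pull τ₀ f * pull τ₀ g := rfl

theorem pull_const (c : ℂ) : pull τ₀ (fun _ => c) = fun _ => c := rfl

theorem differentiableOn_pull {f : ℍ → ℂ} (hf : MDiff f) :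
    DifferentiableOn ℂ (pull τ₀ f) (Metric.ball 0 1) := by
  intro w hw
  have hw' : ‖w‖ < 1 := by simpa using hw
  have h1 : DifferentiableAt ℂ (f ∘ ofComplex) (cayInv τ₀ w) :=
    (UpperHalfPlane.mdifferentiable_iff.mp hf).differentiableAt
      ((isOpen_lt continuous_const Complex.continuous_im).mem_nhds (im_cayInv_pos τ₀ hw'))
  exact (h1.comp w (differentiableAt_cayInv τ₀ hw')).differentiableWithinAt

theorem analyticAt_pull {f : ℍ → ℂ} (hf : MDiff f) : AnalyticAt ℂ (pull τ₀ f) 0 :=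
  (differentiableOn_pull τ₀ hf).analyticAt (Metric.isOpen_ball.mem_nhds (by simp))

end Pull

section Taylor

variable (τ₀ : ℍ)

/-- The Taylor series of `f : ℍ → ℂ` at `τ₀` in the Cayley coordinate. -/
noncomputable def taylor (f : ℍ → ℂ) : PowerSeries ℂ := tay (pull τ₀ f)

theorem taylor_add {f g : ℍ → ℂ} (hf : MDiff f) (hg : MDiff g) :
    taylor τ₀ (f + g) = taylor τ₀ f + taylor τ₀ g :=
  tay_add (analyticAt_pull τ₀ hf) (analyticAt_pull τ₀ hg)

theorem taylor_mul {f g : ℍ → ℂ} (hf : MDiff f) (hg : MDiff g) :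
    taylor τ₀ (f * g) = taylor τ₀ f * taylor τ₀ g :=
  tay_mul (analyticAt_pull τ₀ hf) (analyticAt_pull τ₀ hg)

theorem taylor_const (c : ℂ) : taylor τ₀ (fun _ => c) = PowerSeries.C c := tay_const c

theorem taylor_one : taylor τ₀ (1 : ℍ → ℂ) = 1 := tay_one

theorem taylor_zero : taylor τ₀ (0 : ℍ → ℂ) = 0 := tay_zero

theorem taylor_neg {f : ℍ → ℂ} (hf : MDiff f) : taylor τ₀ (-f) = -taylor τ₀ f :=
  tay_neg (analyticAt_pull τ₀ hf)

theorem taylor_sub {f g : ℍ → ℂ} (hf : MDiff f) (hg : MDiff g) :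
    taylor τ₀ (f - g) = taylor τ₀ f - taylor τ₀ g :=
  tay_sub (analyticAt_pull τ₀ hf) (analyticAt_pull τ₀ hg)

theorem taylor_smul_const {f : ℍ → ℂ} (hf : MDiff f) (c : ℂ) :
    taylor τ₀ (c • f) = c • taylor τ₀ f :=
  tay_smul (analyticAt_pull τ₀ hf) c

theorem coeff_zero_taylor (f : ℍ → ℂ) : (taylor τ₀ f).coeff 0 = f τ₀ := by
  rw [taylor, coeff_tay]
  simp [pull_zero']

/-- The Taylor series converges to the function. -/
theorem hasSum_taylor {f : ℍ → ℂ} (hf : MDiff f) (τ : ℍ) :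
    HasSum (fun n => (taylor τ₀ f).coeff n * cay τ₀ τ ^ n) (f τ) := by
  have h := hasSum_tay (differentiableOn_pull τ₀ hf)
    (show cay τ₀ τ ∈ Metric.ball (0 : ℂ) 1 by simpa using norm_cay_lt_one τ₀ τ)
  rwa [pull_cay] at h

/-- **Identity theorem**: the Taylor map is injective on holomorphic functions. -/
theorem taylor_eq_zero_iff {f : ℍ → ℂ} (hf : MDiff f) : taylor τ₀ f = 0 ↔ f = 0 := by
  constructor
  · intro h
    funext τ
    have h1 := hasSum_taylor τ₀ hf τ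
    simp only [h, map_zero, zero_mul] at h1
    exact h1.unique hasSum_zero
  · rintro rfl
    exact taylor_zero τ₀

theorem taylor_injective {f g : ℍ → ℂ} (hf : MDiff f) (hg : MDiff g)
    (h : taylor τ₀ f = taylor τ₀ g) : f = g := by
  have h1 : taylor τ₀ (f - g) = 0 := by rw [taylor_sub τ₀ hf hg, h, sub_self]
  have h2 := (taylor_eq_zero_iff τ₀ (hf.sub hg)).mp h1
  exact sub_eq_zero.mp h2

/-- The order of the Taylor series is the analytic order at `τ₀`. -/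
theorem order_taylor {f : ℍ → ℂ} (hf : MDiff f) :
    (taylor τ₀ f).order = analyticOrderAt (f ∘ ofComplex) (τ₀ : ℂ) := by
  rw [taylor, order_tay (analyticAt_pull τ₀ hf)]
  have h1 : pull τ₀ f = (f ∘ ofComplex) ∘ cayInv τ₀ := rfl
  rw [h1, analyticOrderAt_comp_of_deriv_ne_zero (analyticAt_cayInv τ₀ (by simp))
    (deriv_cayInv_zero_ne_zero τ₀), cayInv_zero]

end Taylor

section Stabiliser

variable (τ₀ : ℍ)

/-- The rotation by which an element of the stabiliser of `τ₀` acts on the Cayley coordinate. -/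
noncomputable def rot (γ : SL(2, ℤ)) : ℂ := conj (denom γ τ₀) / denom γ τ₀

theorem denom_eq (γ : SL(2, ℤ)) (z : ℂ) :
    denom γ z = ((γ 1 0 : ℤ) : ℂ) * z + ((γ 1 1 : ℤ) : ℂ) := by
  simp [denom]

theorem conj_denom (γ : SL(2, ℤ)) (z : ℂ) : conj (denom γ z) = denom γ (conj z) := by
  simp [denom_eq]

theorem norm_rot (γ : SL(2, ℤ)) : ‖rot τ₀ γ‖ = 1 := by
  have h : denom γ τ₀ ≠ 0 := denom_ne_zero γ τ₀
  rw [rot, norm_div, Complex.norm_conj, div_self (norm_ne_zero_iff.mpr h)]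

theorem coe_smul_eq (γ : SL(2, ℤ)) (τ : ℍ) :
    ((γ • τ : ℍ) : ℂ) = (((γ 0 0 : ℤ) : ℂ) * τ + ((γ 0 1 : ℤ) : ℂ)) / denom γ τ := by
  rw [UpperHalfPlane.coe_specialLinearGroup_apply, denom_eq]
  simp

theorem det_eq_one (γ : SL(2, ℤ)) :
    ((γ 0 0 : ℤ) : ℂ) * ((γ 1 1 : ℤ) : ℂ) - ((γ 0 1 : ℤ) : ℂ) * ((γ 1 0 : ℤ) : ℂ) = 1 := by
  have h := γ.det_coe
  rw [Matrix.det_fin_two] at h
  exact_mod_cast h

/-- An element of the stabiliser of `τ₀` acts on the Cayley coordinate as a rotation. -/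
theorem cay_smul (γ : SL(2, ℤ)) (hγ : γ • τ₀ = τ₀) (τ : ℍ) :
    cay τ₀ ((γ • τ : ℍ) : ℂ) = rot τ₀ γ * cay τ₀ τ := by
  have hd : denom γ τ ≠ 0 := denom_ne_zero γ τ
  have hd0 : denom γ τ₀ ≠ 0 := denom_ne_zero γ τ₀
  have hd0' : denom γ (conj (τ₀ : ℂ)) ≠ 0 := by
    rw [← conj_denom]
    exact (map_ne_zero _).mpr hd0
  have hs : (τ : ℂ) - conj (τ₀ : ℂ) ≠ 0 := sub_conj_ne_zero τ₀ τ
  have hfix : (τ₀ : ℂ) = (((γ 0 0 : ℤ) : ℂ) * τ₀ + ((γ 0 1 : ℤ) : ℂ)) / denom γ τ₀ := by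
    conv_lhs => rw [← hγ]
    exact coe_smul_eq γ τ₀
  have hfix' : conj (τ₀ : ℂ)
      = (((γ 0 0 : ℤ) : ℂ) * conj (τ₀ : ℂ) + ((γ 0 1 : ℤ) : ℂ)) / denom γ (conj (τ₀ : ℂ)) := by
    conv_lhs => rw [hfix]
    rw [map_div₀, conj_denom]
    simp
  have hdet := det_eq_one γ
  have e1 : ((γ • τ : ℍ) : ℂ) - τ₀ = ((τ : ℂ) - τ₀) / (denom γ τ * denom γ τ₀) := by
    rw [coe_smul_eq]
    conv_lhs => rw [hfix]
    rw [div_sub_div _ _ hd hd0, denom_eq, denom_eq]
    congr 1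
    linear_combination ((τ : ℂ) - τ₀) * hdet
  have e2 : ((γ • τ : ℍ) : ℂ) - conj (τ₀ : ℂ)
      = ((τ : ℂ) - conj (τ₀ : ℂ)) / (denom γ τ * denom γ (conj (τ₀ : ℂ))) := by
    rw [coe_smul_eq]
    conv_lhs => rw [hfix']
    rw [div_sub_div _ _ hd hd0', denom_eq, denom_eq]
    congr 1
    linear_combination ((τ : ℂ) - conj (τ₀ : ℂ)) * hdet
  rw [cay, cay, e1, e2, rot, conj_denom]
  field_simp

theorem pull_smul (γ : SL(2, ℤ)) (hγ : γ • τ₀ = τ₀) (f : ℍ → ℂ) {w : ℂ} (hw : ‖w‖ < 1) :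
    pull τ₀ (fun τ => f (γ • τ)) w = pull τ₀ f (rot τ₀ γ * w) := by
  have hw' : ‖rot τ₀ γ * w‖ < 1 := by rwa [norm_mul, norm_rot, one_mul]
  set τ : ℍ := ⟨cayInv τ₀ w, im_cayInv_pos τ₀ hw⟩ with hτ
  have h1 : ofComplex (cayInv τ₀ w) = τ := by
    rw [hτ]
    exact ofComplex_apply_of_im_pos _
  have h2 : cay τ₀ (τ : ℂ) = w := cay_cayInv τ₀ hw
  have h3 : cayInv τ₀ (rot τ₀ γ * w) = ((γ • τ : ℍ) : ℂ) := by
    rw [← h2, ← cay_smul τ₀ γ hγ τ, cayInv_cay]
  show f (γ • ofComplex (cayInv τ₀ w)) = f (ofComplex (cayInv τ₀ (rot τ₀ γ * w)))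
  rw [h1, h3, ofComplex_apply]

/-- **Equivariance**: composing with an element of the stabiliser of `τ₀` rescales the Taylor
series by the rotation `rot τ₀ γ`. -/
theorem taylor_smul (γ : SL(2, ℤ)) (hγ : γ • τ₀ = τ₀) {f : ℍ → ℂ} (hf : MDiff f) :
    taylor τ₀ (fun τ => f (γ • τ)) = PowerSeries.rescale (rot τ₀ γ) (taylor τ₀ f) := by
  rw [taylor, taylor, ← tay_comp_mul (analyticAt_pull τ₀ hf)]
  refine tay_congr ?_
  filter_upwards [Metric.isOpen_ball.mem_nhds (show (0 : ℂ) ∈ Metric.ball (0 : ℂ) 1 by simp)]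
    with w hw
  exact pull_smul τ₀ γ hγ f (by simpa using hw)

theorem coeff_taylor_smul (γ : SL(2, ℤ)) (hγ : γ • τ₀ = τ₀) {f : ℍ → ℂ} (hf : MDiff f) (n : ℕ) :
    (taylor τ₀ (fun τ => f (γ • τ))).coeff n = rot τ₀ γ ^ n * (taylor τ₀ f).coeff n := by
  rw [taylor_smul τ₀ γ hγ hf, PowerSeries.coeff_rescale]

/-- At a fixed point of `S` the rotation is `-1`. -/
theorem rot_S (hτ : ModularGroup.S • τ₀ = τ₀) : rot τ₀ ModularGroup.S = -1 := by
  have h0 : (τ₀ : ℂ) ≠ 0 := ne_zero τ₀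
  have h1 := coe_smul_eq ModularGroup.S τ₀
  rw [hτ] at h1
  have hden : denom ModularGroup.S τ₀ = τ₀ := by simp [denom_eq, ModularGroup.S]
  rw [hden] at h1
  simp only [ModularGroup.S] at h1
  simp at h1
  -- `τ₀ = -1 / τ₀`
  have h2 : (τ₀ : ℂ) * τ₀ = -1 := by
    field_simp at h1
    linear_combination h1
  rw [rot, hden]
  have h3 : conj (τ₀ : ℂ) * conj (τ₀ : ℂ) = -1 := by
    have := congrArg conj h2
    simpa using this
  have h4 : conj (τ₀ : ℂ) ≠ 0 := (map_ne_zero _).mpr h0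
  -- `conj τ₀ = ± τ₀`; the sign is fixed by the imaginary part
  have h5 : (conj (τ₀ : ℂ) - τ₀) * (conj (τ₀ : ℂ) + τ₀) = 0 := by
    linear_combination h3 - h2
  rcases mul_eq_zero.mp h5 with h | h
  · exfalso
    have := congrArg Complex.im h
    simp only [Complex.sub_im, Complex.conj_im, Complex.zero_im] at this
    have hpos : 0 < (τ₀ : ℂ).im := τ₀.2
    linarith
  · rw [div_eq_iff h0]
    linear_combination h

/-- At a fixed point of `S * T` the rotation is a primitive cube root of unity. -/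
theorem rot_ST (hτ : (ModularGroup.S * ModularGroup.T) • τ₀ = τ₀) :
    IsPrimitiveRoot (rot τ₀ (ModularGroup.S * ModularGroup.T)) 3 := by
  have h1 := coe_smul_eq (ModularGroup.S * ModularGroup.T) τ₀
  rw [hτ] at h1
  have e00 : (ModularGroup.S * ModularGroup.T : SL(2, ℤ)) 0 0 = 0 := by
    simp [ModularGroup.S, ModularGroup.T, Matrix.mul_apply, Fin.sum_univ_two]
  have e01 : (ModularGroup.S * ModularGroup.T : SL(2, ℤ)) 0 1 = -1 := by
    simp [ModularGroup.S, ModularGroup.T, Matrix.mul_apply, Fin.sum_univ_two]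
  have e10 : (ModularGroup.S * ModularGroup.T : SL(2, ℤ)) 1 0 = 1 := by
    simp [ModularGroup.S, ModularGroup.T, Matrix.mul_apply, Fin.sum_univ_two]
  have e11 : (ModularGroup.S * ModularGroup.T : SL(2, ℤ)) 1 1 = 1 := by
    simp [ModularGroup.S, ModularGroup.T, Matrix.mul_apply, Fin.sum_univ_two]
  have hden : denom (ModularGroup.S * ModularGroup.T : SL(2, ℤ)) τ₀ = (τ₀ : ℂ) + 1 := by
    rw [denom_eq, e10, e11]
    simp
  have hd0 : denom (ModularGroup.S * ModularGroup.T : SL(2, ℤ)) τ₀ ≠ 0 :=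
    denom_ne_zero (ModularGroup.S * ModularGroup.T : SL(2, ℤ)) τ₀
  rw [hden, e00, e01] at h1
  rw [hden] at hd0
  simp only [Int.cast_zero, zero_mul, zero_add, Int.cast_neg, Int.cast_one] at h1
  -- `τ₀ ^ 2 + τ₀ + 1 = 0`
  have h2 : (τ₀ : ℂ) * τ₀ + τ₀ + 1 = 0 := by
    field_simp at h1
    linear_combination h1
  have h3 : conj (τ₀ : ℂ) * conj (τ₀ : ℂ) + conj (τ₀ : ℂ) + 1 = 0 := by
    have := congrArg conj h2
    simpa using this
  -- `conj τ₀` is the other root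
  have h5 : (conj (τ₀ : ℂ) - τ₀) * (conj (τ₀ : ℂ) + τ₀ + 1) = 0 := by
    linear_combination h3 - h2
  have h6 : conj (τ₀ : ℂ) = -1 - τ₀ := by
    rcases mul_eq_zero.mp h5 with h | h
    · exfalso
      have := congrArg Complex.im h
      simp only [Complex.sub_im, Complex.conj_im, Complex.zero_im] at this
      have hpos : 0 < (τ₀ : ℂ).im := τ₀.2
      linarith
    · linear_combination h
  have hrot : rot τ₀ (ModularGroup.S * ModularGroup.T) = -1 - (τ₀ : ℂ) := by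
    rw [rot, hden, map_add, map_one, h6, div_eq_iff hd0]
    linear_combination h2
  rw [hrot]
  have hne : (-1 - (τ₀ : ℂ)) ≠ 1 := by
    intro h
    have := congrArg Complex.im h
    simp only [Complex.sub_im, Complex.neg_im, Complex.one_im] at this
    have hpos : 0 < (τ₀ : ℂ).im := τ₀.2
    linarith
  have hpow : (-1 - (τ₀ : ℂ)) ^ 3 = 1 := by
    linear_combination (-(τ₀ : ℂ) - 2) * h2
  refine isPrimitiveRoot_of_mem_nthRootsFinset Nat.prime_three ?_ hne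
  rw [Polynomial.mem_nthRootsFinset (by norm_num)]
  exact hpow

/-- For a primitive root of unity of order `1` nothing happens. -/
theorem rot_one : rot τ₀ 1 = 1 := by
  have h : denom (1 : SL(2, ℤ)) τ₀ = 1 := by simp
  rw [rot, h]
  simp

end Stabiliser

end Fermat.Agent.S24.Point
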