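import Mathlib
import Fermat.Agent.S24.Eval
import Fermat.Agent.S24.Jq
import Fermat.Agent.S24.JqCriterion
import Fermat.Agent.S24.Distinct
import Fermat.Agent.S24.Point
import Fermat.Agent.S24.CharPoly
import Fermat.Agent.S24.DegreeAlg
import Fermat.Agent.S24.DegreeBridge

/-!
# S24, leaf M5 (Degree): the degree of the function field of `X₀(N)` over `KK(j)`

`j` is transcendental over `KK`, the function field `FF N` is finite over `KK(j)` and
`[FF N : KK(j)] = [SL(2, ℤ) : Γ₀(N)]`.
-/

set_option autoImplicit false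
set_option linter.style.haveILetI false
set_option linter.unusedSectionVars false

namespace Fermat.Agent.S24.Degree

open UpperHalfPlane CongruenceSubgroup ModularForm Filter Topology Polynomial
open Fermat.Agent.S20
open Fermat.Agent.S24.Eval Fermat.Agent.S24.Jq Fermat.Agent.S24.JqCriterion
open Fermat.Agent.S24.Distinct Fermat.Agent.S24.CharPoly
open ModularCurve IntermediateField
open scoped MatrixGroups ModularForm Manifold

attribute [local instance] Fermat.Agent.S20.Dual.fintypeQ

/-! ### Functions all of whose translates are holomorphic and meromorphic at `i∞` -/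

/-- all translates of `f` are holomorphic on `ℍ` and meromorphic at `i∞`, with bounded pole
order -/
def Good (f : ℍ → ℂ) : Prop :=
  (∀ γ : SL(2, ℤ), MDiff (fun z : ℍ => f (γ • z))) ∧
    ∃ M : ℕ, ∀ γ : SL(2, ℤ), Mero M (fun z : ℍ => f (γ • z))

theorem Good.const (c : ℂ) : Good (fun _ : ℍ => c) :=
  ⟨fun _ => mdifferentiable_const, 0, fun _ => Mero.const c⟩

theorem Good.add {f g : ℍ → ℂ} (hf : Good f) (hg : Good g) : Good (fun z => f z + g z) := by
  obtain ⟨hf1, Mf, hf2⟩ := hf
  obtain ⟨hg1, Mg, hg2⟩ := hg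
  refine ⟨fun γ => (hf1 γ).add (hg1 γ), max Mf Mg, fun γ => ?_⟩
  exact ((hf2 γ).mono (le_max_left _ _)).add ((hg2 γ).mono (le_max_right _ _))

theorem Good.mul {f g : ℍ → ℂ} (hf : Good f) (hg : Good g) : Good (fun z => f z * g z) := by
  obtain ⟨hf1, Mf, hf2⟩ := hf
  obtain ⟨hg1, Mg, hg2⟩ := hg
  exact ⟨fun γ => (hf1 γ).mul (hg1 γ), Mf + Mg, fun γ => (hf2 γ).mul (hg2 γ)⟩

theorem good_JN (d : ℕ) (hd : 0 < d) : Good (JN d) :=
  ⟨fun γ => mdiff_JN_smul d hd γ, d, fun γ => isBoundedAtImInfty_discriminant_pow_mul_JN d hd γ⟩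

variable (N : ℕ) [NeZero N]

/-- the analytic realisation of the generators -/
noncomputable def vJ (z : ℍ) (i : Dv N) : ℂ := JN (i : ℕ) z

/-- the analytic realisation of a polynomial in the generators -/
noncomputable def theta (P : MvPolynomial (Dv N) KK) (z : ℍ) : ℂ :=
  MvPolynomial.eval₂ iota (vJ N z) P

theorem good_theta (P : MvPolynomial (Dv N) KK) : Good (theta N P) := by
  induction P using MvPolynomial.induction_on with
  | C a =>
    have e : theta N (MvPolynomial.C a) = fun _ => iota a := by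
      funext z
      simp [theta]
    rw [e]
    exact Good.const _
  | add p q hp hq =>
    have e : theta N (p + q) = fun z => theta N p z + theta N q z := by
      funext z
      simp [theta]
    rw [e]
    exact hp.add hq
  | mul_X p i hp =>
    have e : theta N (p * MvPolynomial.X i) = fun z => theta N p z * JN (i : ℕ) z := by
      funext z
      simp [theta, vJ]
    rw [e]
    exact hp.mul (good_JN _ (Nat.pos_of_ne_zero (dv_ne_zero i)))

theorem theta_smul (P : MvPolynomial (Dv N) KK) {γ : SL(2, ℤ)} (hγ : γ ∈ Gamma0 N) (z : ℍ) :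
    theta N P (γ • z) = theta N P z := by
  have e : vJ N (γ • z) = vJ N z := by
    funext i
    exact JN_smul_of_mem_Gamma0_of_dvd (i : ℕ) N (Nat.pos_of_ne_zero (dv_ne_zero i)) i.2 hγ z
  simp only [theta, e]

/-- **Analytic relation.** Every polynomial in the functions `j(d z)`, `d ∣ N`, is a root of a
monic polynomial of degree `[SL(2, ℤ) : Γ₀(N)]` with coefficients in `ℂ[j]`. -/
theorem exists_monic_relation_theta (P : MvPolynomial (Dv N) KK) :
    ∃ G : ℂ[X][X], G.Monic ∧ G.natDegree = Nat.card (Q N) ∧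
      ∀ z : ℍ, Polynomial.eval₂ (Polynomial.evalRingHom (JFunction.jfun z)) (theta N P z) G
        = 0 := by
  obtain ⟨hmd, M, hmero⟩ := good_theta N P
  exact CharPoly.exists_monic_relation M hmd (fun γ hγ z => theta_smul N P hγ z) hmero

/-! ### Substitution of multivariate polynomials into bivariate polynomials -/

section Subst

variable {R : Type*} [CommRing R] {σ : Type*}

/-- the multivariate polynomial `G(X_{i₁}, Y)` -/
noncomputable def substMv (i₁ : σ) (Y : MvPolynomial σ R) (G : R[X][X]) : MvPolynomial σ R :=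
  Polynomial.eval₂ (Polynomial.aeval (MvPolynomial.X i₁ : MvPolynomial σ R)).toRingHom Y G

theorem map_substMv {A : Type*} [CommRing A] (f : MvPolynomial σ R →+* A) (i₁ : σ)
    (Y : MvPolynomial σ R) (G : R[X][X]) :
    f (substMv i₁ Y G) = Polynomial.eval₂
      (f.comp (Polynomial.aeval (MvPolynomial.X i₁ : MvPolynomial σ R)).toRingHom) (f Y) G :=
  Polynomial.hom_eval₂ G _ f Y

theorem aeval_substMv {A : Type*} [CommRing A] [Algebra R A] (g : σ → A) (i₁ : σ)
    (Y : MvPolynomial σ R) (G : R[X][X]) :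
    MvPolynomial.aeval g (substMv i₁ Y G) =
      Polynomial.eval₂ (Polynomial.aeval (g i₁)).toRingHom (MvPolynomial.aeval g Y) G := by
  have h := map_substMv (MvPolynomial.aeval g : MvPolynomial σ R →ₐ[R] A).toRingHom i₁ Y G
  have e : (MvPolynomial.aeval g : MvPolynomial σ R →ₐ[R] A).toRingHom.comp
      (Polynomial.aeval (MvPolynomial.X i₁ : MvPolynomial σ R)).toRingHom
      = (Polynomial.aeval (R := R) (g i₁)).toRingHom := by
    apply Polynomial.ringHom_ext
    · intro a
      simp
    · simp
  rw [e] at h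
  exact h

theorem eval₂_substMv {A : Type*} [CommRing A] (ι : R →+* A) (v : σ → A) (i₁ : σ)
    (Y : MvPolynomial σ R) (G : R[X][X]) :
    MvPolynomial.eval₂ ι v (substMv i₁ Y G) =
      Polynomial.eval₂ (Polynomial.eval₂RingHom ι (v i₁)) (MvPolynomial.eval₂ ι v Y) G := by
  have h := map_substMv (MvPolynomial.eval₂Hom ι v) i₁ Y G
  have e : (MvPolynomial.eval₂Hom ι v).comp
      (Polynomial.aeval (MvPolynomial.X i₁ : MvPolynomial σ R)).toRingHom
      = Polynomial.eval₂RingHom ι (v i₁) := by
    apply Polynomial.ringHom_ext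
    · intro a
      simp
    · simp
  rw [e] at h
  exact h

theorem eval_substMv (v : σ → R) (i₁ : σ) (Y : MvPolynomial σ R) (G : R[X][X]) :
    MvPolynomial.eval v (substMv i₁ Y G) =
      Polynomial.eval₂ (Polynomial.evalRingHom (v i₁)) (MvPolynomial.eval v Y) G := by
  have h := map_substMv (MvPolynomial.eval v) i₁ Y G
  have e : (MvPolynomial.eval v).comp
      (Polynomial.aeval (MvPolynomial.X i₁ : MvPolynomial σ R)).toRingHom
      = Polynomial.evalRingHom (v i₁) := by
    apply Polynomial.ringHom_ext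
    · intro a
      simp
    · simp
  rw [e] at h
  exact h

end Subst

/-! ### The upper bound -/

/-- the inclusion of the function field into the Laurent series -/
noncomputable def incl : FF N →ₐ[KK] LaurentSeries KK := (modularFunctionFieldBar N).val

theorem incl_injective : Function.Injective (incl N) := Subtype.val_injective

theorem incl_jF : incl N (jF N) = jgenL 1 := rfl

theorem incl_gF (i : Dv N) : incl N (gF N i) = jgenL (i : ℕ) := rfl

theorem incl_aeval (P : MvPolynomial (Dv N) KK) :
    incl N (MvPolynomial.aeval (gF N) P)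
      = MvPolynomial.aeval (fun i : Dv N => jgenL (i : ℕ)) P := by
  rw [MvPolynomial.comp_aeval_apply]
  rfl

theorem incl_eval₂ (r : FF N) (G : KK[X][X]) :
    incl N (Polynomial.eval₂ (Polynomial.aeval (jF N)).toRingHom r G)
      = Polynomial.eval₂ (Polynomial.aeval (jgenL 1)).toRingHom (incl N r) G := by
  have h := Polynomial.hom_eval₂ G (Polynomial.aeval (R := KK) (jF N)).toRingHom
    (incl N).toRingHom r
  have e : (incl N).toRingHom.comp (Polynomial.aeval (R := KK) (jF N)).toRingHom
      = (Polynomial.aeval (R := KK) (jgenL 1)).toRingHom := by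
    apply Polynomial.ringHom_ext
    · intro a
      simp
    · simp [incl_jF]
  rw [e] at h
  exact h

/-- **Bivariate relations.** Every polynomial in the generators is a root of a nonzero
bivariate polynomial in `j` of `Y`-degree at most `[SL(2, ℤ) : Γ₀(N)]`. -/
theorem exists_relation_aeval (P : MvPolynomial (Dv N) KK) :
    ∃ G : KK[X][X], G ≠ 0 ∧ G.natDegree ≤ Nat.card (Q N) ∧
      Polynomial.eval₂ (Polynomial.aeval (jF N)).toRingHom (MvPolynomial.aeval (gF N) P) G
        = 0 := by
  obtain ⟨Gc, hmonic, hdeg, hz⟩ := exists_monic_relation_theta N P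
  have h1 : ∀ τ : ℍ, MvPolynomial.eval (fun i : Dv N => Jd (i : ℕ) τ)
      (substMv (one N) (MvPolynomial.map iota P) Gc) = 0 := by
    intro τ
    rw [eval_substMv, MvPolynomial.eval_map]
    have e1 : Jd ((one N : Dv N) : ℕ) τ = JFunction.jfun τ := JN_one τ
    rw [e1]
    exact hz τ
  have h2 := (JqCriterion.aeval_eq_zero_iff (fun i : Dv N => (i : ℕ))
    (substMv (one N) (MvPolynomial.map iota P) Gc)).mpr h1
  rw [aeval_substMv, ← JqCriterion.coeffMap_aeval] at h2
  obtain ⟨G', hG', hdeg', hroot⟩ := DegreeBridge.exists_bivariate_descent iota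
    (jgenL ((one N : Dv N) : ℕ)) (MvPolynomial.aeval (fun i : Dv N => jgenL (i : ℕ)) P) Gc
    hmonic.ne_zero h2
  refine ⟨G', hG', hdeg'.trans hdeg.le, ?_⟩
  apply incl_injective N
  rw [incl_eval₂, incl_aeval, map_zero]
  exact hroot

/-! ### Transcendence of `j` -/

/-- `j` is transcendental over the constants. -/
theorem transcendental_jF : Transcendental KK (jF N) := by
  rw [transcendental_iff]
  intro p hp
  have h0 : MvPolynomial.aeval (fun i : Dv N => jgenL (i : ℕ))
      (substMv (one N) (0 : MvPolynomial (Dv N) KK) (Polynomial.C p)) = 0 := by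
    rw [aeval_substMv, Polynomial.eval₂_C]
    have h := congrArg (incl N) hp
    rw [map_zero, ← Polynomial.aeval_algHom_apply, incl_jF] at h
    exact h
  have h1 := (JqCriterion.aeval_eq_zero_iff' (fun i : Dv N => (i : ℕ)) _).mp h0
  have h2 : ∀ w : ℂ, (p.map iota).eval w = Polynomial.eval w 0 := by
    intro w
    obtain ⟨τ, rfl⟩ := JFunction.jfun_surjective w
    have h := h1 τ
    rw [eval₂_substMv, Polynomial.eval₂_C] at h
    have e1 : Jd ((one N : Dv N) : ℕ) τ = JFunction.jfun τ := JN_one τ
    rw [e1, Polynomial.coe_eval₂RingHom] at h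
    rw [Polynomial.eval_map, h, Polynomial.eval_zero]
  have h3 : p.map iota = 0 := Polynomial.funext h2
  exact Polynomial.map_injective iota iota_injective (by rw [h3, Polynomial.map_zero])

/-! ### Finiteness and the upper bound -/

theorem adjoin_range_gF : IntermediateField.adjoin KK (Set.range (gF N)) = ⊤ := by
  apply IntermediateField.lift_injective (modularFunctionFieldBar N)
  rw [IntermediateField.lift_adjoin, IntermediateField.lift_top]
  have h : Subtype.val '' Set.range (gF N) = Set.range (gL N) := by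
    rw [← Set.range_comp]
    rfl
  rw [h, adjoin_range_gL]

theorem insert_jF : insert (jF N) (Set.range (gF N)) = Set.range (gF N) :=
  Set.insert_eq_of_mem ⟨one N, rfl⟩

theorem exists_relation_of_mem (r : FF N)
    (hr : r ∈ Algebra.adjoin KK (insert (jF N) (Set.range (gF N)))) :
    ∃ G : KK[X][X], G ≠ 0 ∧ G.natDegree ≤ Nat.card (Q N) ∧
      Polynomial.eval₂ (Polynomial.aeval (jF N)).toRingHom r G = 0 := by
  rw [insert_jF, Algebra.adjoin_range_eq_range_aeval] at hr
  obtain ⟨P, rfl⟩ := hr
  exact exists_relation_aeval N P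

/-- The function field of `X₀(N)` is finite over `KK(j)`. -/
theorem finiteDimensional_jF : FiniteDimensional KK⟮jF N⟯ (FF N) :=
  DegreeAlg.finiteDimensional (jF N) (transcendental_jF N) (Set.range (gF N))
    (Set.finite_range _) (by rw [insert_jF, adjoin_range_gF]) (Nat.card (Q N))
    (exists_relation_of_mem N)

/-- The upper bound for the degree. -/
theorem finrank_jF_le : Module.finrank KK⟮jF N⟯ (FF N) ≤ Nat.card (Q N) :=
  DegreeAlg.finrank_le (jF N) (transcendental_jF N) (Set.range (gF N))
    (Set.finite_range _) (by rw [insert_jF, adjoin_range_gF]) (Nat.card (Q N))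
    (exists_relation_of_mem N)

/-! ### Avoidance -/

theorem mdiff_prod {ι : Type*} (s : Finset ι) (f : ι → ℍ → ℂ) (hmd : ∀ i ∈ s, MDiff (f i)) :
    MDiff (∏ i ∈ s, f i) ∧
      Point.taylor UpperHalfPlane.I (∏ i ∈ s, f i)
        = ∏ i ∈ s, Point.taylor UpperHalfPlane.I (f i) := by
  classical
  induction s using Finset.induction_on with
  | empty =>
    rw [Finset.prod_empty, Finset.prod_empty]
    exact ⟨mdifferentiable_const, Point.taylor_one _⟩
  | insert a s ha ih =>
    obtain ⟨h1, h2⟩ := ih (fun i hi => hmd i (Finset.mem_insert_of_mem hi))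
    have ha1 := hmd a (Finset.mem_insert_self a s)
    rw [Finset.prod_insert ha, Finset.prod_insert ha]
    refine ⟨ha1.mul h1, ?_⟩
    rw [Point.taylor_mul _ ha1 h1, h2]

/-- Finitely many nonzero holomorphic functions on `ℍ` have a common non-vanishing point. -/
theorem exists_forall_ne_zero {ι : Type*} (s : Finset ι) (f : ι → ℍ → ℂ)
    (hmd : ∀ i ∈ s, MDiff (f i)) (hne : ∀ i ∈ s, f i ≠ 0) :
    ∃ τ : ℍ, ∀ i ∈ s, f i τ ≠ 0 := by
  classical
  obtain ⟨h1, h2⟩ := mdiff_prod s f hmd
  have h3 : Point.taylor UpperHalfPlane.I (∏ i ∈ s, f i) ≠ 0 := by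
    rw [h2, Finset.prod_ne_zero_iff]
    intro i hi h0
    exact hne i hi ((Point.taylor_eq_zero_iff _ (hmd i hi)).mp h0)
  have h4 : (∏ i ∈ s, f i) ≠ 0 := fun h0 =>
    h3 ((Point.taylor_eq_zero_iff _ h1).mpr h0)
  obtain ⟨τ, hτ⟩ : ∃ τ : ℍ, (∏ i ∈ s, f i) τ ≠ 0 := by
    by_contra hcon
    exact h4 (funext fun τ => by_contra fun h => hcon ⟨τ, h⟩)
  refine ⟨τ, fun i hi h0 => hτ ?_⟩
  rw [Finset.prod_apply]
  exact Finset.prod_eq_zero hi h0

theorem mdiff_polynomial_eval (p : ℂ[X]) {f : ℍ → ℂ} (hf : MDiff f) :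
    MDiff (fun z : ℍ => p.eval (f z)) :=
  (mdifferentiable_iff_differentiable.mpr p.differentiable).comp hf

/-! ### The lower bound -/

/-- the index of the generator `j(N z)` -/
def top : Dv N := ⟨N, dvd_rfl⟩

/-- the conjugates of `j(N z)` -/
noncomputable def cj (q : Q N) (z : ℍ) : ℂ := JN N ((q.out : SL(2, ℤ))⁻¹ • z)

theorem cj_injective : Function.Injective (cj N) :=
  conj_JN_injective N (Nat.pos_of_ne_zero (NeZero.ne N))

theorem mdiff_cj (q : Q N) : MDiff (cj N q) :=
  mdiff_JN_smul N (Nat.pos_of_ne_zero (NeZero.ne N)) _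

/-- the family of functions to avoid: `none ↦ c(j)`, `some (q, q') ↦ cj q - cj q'` -/
noncomputable def avoidFun (c : ℂ[X]) : Option (Q N × Q N) → ℍ → ℂ
  | none => fun z => c.eval (JFunction.jfun z)
  | some p => cj N p.1 - cj N p.2

/-- **The lower bound for the degree.** -/
theorem card_le_finrank_jF : Nat.card (Q N) ≤ Module.finrank KK⟮jF N⟯ (FF N) := by
  classical
  haveI := finiteDimensional_jF N
  obtain ⟨G, hG, hdeg, hroot⟩ :=
    DegreeBridge.exists_bivariate_of_finite (K := KK) (jF N) (gF N (top N))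
  have h0 : MvPolynomial.aeval (fun i : Dv N => jgenL (i : ℕ))
      (substMv (one N) (MvPolynomial.X (top N) : MvPolynomial (Dv N) KK) G) = 0 := by
    rw [aeval_substMv, MvPolynomial.aeval_X]
    have h := congrArg (incl N) hroot
    rw [incl_eval₂, map_zero] at h
    exact h
  have h1 := (JqCriterion.aeval_eq_zero_iff' (fun i : Dv N => (i : ℕ)) _).mp h0
  have h2 : ∀ τ : ℍ, Polynomial.eval₂ (Polynomial.eval₂RingHom iota (JFunction.jfun τ))
      (JN N τ) G = 0 := by
    intro τ
    have h := h1 τ
    rw [eval₂_substMv, MvPolynomial.eval₂_X] at h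
    have e1 : Jd ((one N : Dv N) : ℕ) τ = JFunction.jfun τ := JN_one τ
    rw [e1] at h
    exact h
  -- a nonzero coefficient
  obtain ⟨b, hb⟩ : ∃ b, G.coeff b ≠ 0 := by
    by_contra hcon
    exact hG (Polynomial.ext fun b => by_contra fun h => hcon ⟨b, h⟩)
  have hcb : (G.coeff b).map iota ≠ 0 := (Polynomial.map_ne_zero_iff iota_injective).mpr hb
  -- the avoidance
  set s : Finset (Option (Q N × Q N)) :=
    Finset.univ.filter (fun o => ∀ p, o = some p → p.1 ≠ p.2) with hs
  have hmd : ∀ o ∈ s, MDiff (avoidFun N ((G.coeff b).map iota) o) := by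
    rintro (_ | p) _
    · exact mdiff_polynomial_eval _ JFunction.mdiff_jfun
    · exact (mdiff_cj N p.1).sub (mdiff_cj N p.2)
  have hne : ∀ o ∈ s, avoidFun N ((G.coeff b).map iota) o ≠ 0 := by
    rintro (_ | p) ho
    · intro h
      apply hcb
      apply Polynomial.funext
      intro w
      obtain ⟨τ, rfl⟩ := JFunction.jfun_surjective w
      rw [Polynomial.eval_zero]
      exact congrFun h τ
    · intro h
      have hp : p.1 ≠ p.2 := (Finset.mem_filter.mp ho).2 p rfl
      exact hp (cj_injective N (sub_eq_zero.mp h))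
  obtain ⟨τ₀, hτ₀⟩ := exists_forall_ne_zero s _ hmd hne
  -- the specialised polynomial
  set H : ℂ[X] := G.map (Polynomial.eval₂RingHom iota (JFunction.jfun τ₀)) with hH
  have hHb : H.coeff b ≠ 0 := by
    have h := hτ₀ none (Finset.mem_filter.mpr ⟨Finset.mem_univ _, fun p hp => by cases hp⟩)
    rw [hH, Polynomial.coeff_map, Polynomial.coe_eval₂RingHom, ← Polynomial.eval_map]
    exact h
  have hH0 : H ≠ 0 := fun h => hHb (by rw [h, Polynomial.coeff_zero])
  have hroots : ∀ q : Q N, H.IsRoot (cj N q τ₀) := by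
    intro q
    have h := h2 ((q.out : SL(2, ℤ))⁻¹ • τ₀)
    rw [JFunction.jfun_smul] at h
    rw [Polynomial.IsRoot, hH, Polynomial.eval_map]
    exact h
  have hinj : Function.Injective (fun q : Q N => cj N q τ₀) := by
    intro q q' hqq
    by_contra hne'
    have h := hτ₀ (some (q, q')) (Finset.mem_filter.mpr ⟨Finset.mem_univ _, fun p hp => by
      cases hp
      exact hne'⟩)
    exact h (sub_eq_zero.mpr hqq)
  have hsub : (Finset.univ.image (fun q : Q N => cj N q τ₀)).val ⊆ H.roots := by
    intro w hw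
    rw [Finset.mem_val, Finset.mem_image] at hw
    obtain ⟨q, _, rfl⟩ := hw
    exact (Polynomial.mem_roots hH0).mpr (hroots q)
  have hcard := Polynomial.card_le_degree_of_subset_roots hsub
  rw [Finset.card_image_of_injective _ hinj, Finset.card_univ, ← Nat.card_eq_fintype_card]
    at hcard
  exact hcard.trans ((Polynomial.natDegree_map_le).trans hdeg)

/-- **The degree of the function field of `X₀(N)` over `KK(j)`** is the index of `Γ₀(N)` in
`SL(2, ℤ)`. -/
theorem finrank_jF : Module.finrank KK⟮jF N⟯ (FF N) = Nat.card (Q N) :=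
  le_antisymm (finrank_jF_le N) (card_le_finrank_jF N)

end Fermat.Agent.S24.Degree
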