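import Mathlib
import Fermat.Prelude.Def_AlgebraicCurve_CanonicalDivisor

/-!
# S24 (genus of the modular function field): basic API for places of a function field

* `ord` calculus for `AlgebraicCurve.Place` (membership, ultrametric inequality);
* `placesOver x a`, `placesOverInfty x`: the places of `F` over the points `x = a`, `x = ∞`
  of the `x`-line.
-/

set_option autoImplicit false

open AlgebraicCurve

namespace Fermat.Agent.S24

variable {k F : Type*} [Field k] [Field F] [Algebra k F]

/-! ### The order function of a place -/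

section ord

variable (v : Place k F)

theorem ord_nonneg_of_mem {f : F} (hf : f ∈ v.toValuationSubring) : 0 ≤ v.ord f := by
  rcases eq_or_ne f 0 with rfl | hf0
  · simp
  obtain ⟨π, hπ⟩ := IsDiscreteValuationRing.exists_irreducible v.toValuationSubring
  obtain ⟨n, u, hu⟩ :=
    IsDiscreteValuationRing.eq_unit_mul_pow_irreducible
      (x := (⟨f, hf⟩ : v.toValuationSubring)) (by simpa [Subtype.ext_iff] using hf0) hπ
  have hcoe : f = ((u : v.toValuationSubring) : F) * ((π : F) ^ (n : ℤ)) := by
    have h := congrArg (Subtype.val) hu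
    push_cast at h
    rw [zpow_natCast]
    exact h
  rw [hcoe, v.ord_unit_smul_zpow u hπ (n : ℤ)]
  exact Int.natCast_nonneg n

theorem mem_of_ord_nonneg {f : F} (hf : f ≠ 0) (h : 0 ≤ v.ord f) :
    f ∈ v.toValuationSubring := by
  obtain ⟨π, hπ⟩ := IsDiscreteValuationRing.exists_irreducible v.toValuationSubring
  obtain ⟨u, hu⟩ := v.exists_unit_mul_zpow hf hπ
  rw [hu, show v.ord f = (((v.ord f).toNat : ℕ) : ℤ) from (Int.toNat_of_nonneg h).symm,
    zpow_natCast]
  exact mul_mem (u : v.toValuationSubring).2 (pow_mem (π : v.toValuationSubring).2 _)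

theorem mem_iff_ord_nonneg {f : F} (hf : f ≠ 0) :
    f ∈ v.toValuationSubring ↔ 0 ≤ v.ord f :=
  ⟨ord_nonneg_of_mem v, mem_of_ord_nonneg v hf⟩

/-- A uniformizer of the place `v`. -/
theorem exists_uniformizer : ∃ π : F, π ≠ 0 ∧ v.ord π = 1 := by
  obtain ⟨π, hπ⟩ := IsDiscreteValuationRing.exists_irreducible v.toValuationSubring
  refine ⟨(π : F), ?_, v.ord_coe_irreducible hπ⟩
  simpa [ne_eq, ZeroMemClass.coe_eq_zero] using hπ.ne_zero

theorem ord_algebraMap (a : k) : v.ord (algebraMap k F a) = 0 := by
  rcases eq_or_ne a 0 with rfl | ha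
  · simp
  have h1 : algebraMap k F a ≠ 0 := fun h0 => ha ((map_eq_zero (algebraMap k F)).mp h0)
  have h2 := ord_nonneg_of_mem v (v.algebraMap_mem' a)
  have h3 := ord_nonneg_of_mem v (v.algebraMap_mem' a⁻¹)
  rw [map_inv₀, v.ord_inv] at h3
  omega

theorem ord_neg (f : F) : v.ord (-f) = v.ord f := by
  rcases eq_or_ne f 0 with rfl | hf
  · simp
  have h : (-f) = (-1 : F) * f := by ring
  have h1 : v.ord (-1 : F) = 0 := by
    have := ord_algebraMap v (-1 : k)
    simpa using this
  rw [h, v.ord_mul (by simp) hf, h1, zero_add]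

/-- The ultrametric inequality. -/
theorem le_ord_add {f g : F} (hf : f ≠ 0) (hg : g ≠ 0) (hfg : f + g ≠ 0) :
    min (v.ord f) (v.ord g) ≤ v.ord (f + g) := by
  wlog h : v.ord f ≤ v.ord g generalizing f g
  · have := this hg hf (by rwa [add_comm]) (le_of_not_ge h)
    rwa [min_comm, add_comm]
  rw [min_eq_left h]
  -- `g / f` lies in the valuation ring
  have h1 : g / f ∈ v.toValuationSubring := by
    apply mem_of_ord_nonneg v (div_ne_zero hg hf)
    rw [div_eq_mul_inv, v.ord_mul hg (inv_ne_zero hf), v.ord_inv]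
    omega
  have h2 : 1 + g / f ∈ v.toValuationSubring := add_mem (one_mem _) h1
  have h3 : f + g = f * (1 + g / f) := by field_simp
  have h4 : 1 + g / f ≠ 0 := by
    intro h0
    rw [h0, mul_zero] at h3
    exact hfg h3
  rw [h3, v.ord_mul hf h4]
  have := ord_nonneg_of_mem v h2
  omega

theorem ord_add_eq_of_lt {f g : F} (hf : f ≠ 0) (hg : g ≠ 0) (h : v.ord f < v.ord g) :
    v.ord (f + g) = v.ord f := by
  have hfg : f + g ≠ 0 := by
    intro h0
    have : g = -f := by linear_combination h0
    rw [this, ord_neg] at h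
    exact lt_irrefl _ h
  apply le_antisymm
  · by_contra hcon
    rw [not_le] at hcon
    have h1 : f = (f + g) + (-g) := by ring
    have h2 := le_ord_add v hfg (neg_ne_zero.mpr hg) (by rwa [← h1])
    rw [← h1, ord_neg] at h2
    have := lt_min hcon h
    omega
  · have := le_ord_add v hf hg hfg
    rwa [min_eq_left h.le] at this

theorem ord_pow (f : F) (n : ℕ) : v.ord (f ^ n) = n * v.ord f := by
  have := v.ord_zpow f n
  simpa using this

theorem ord_div {f g : F} (hf : f ≠ 0) (hg : g ≠ 0) : v.ord (f / g) = v.ord f - v.ord g := by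
  rw [div_eq_mul_inv, v.ord_mul hf (inv_ne_zero hg), v.ord_inv]
  ring

end ord

/-! ### Places over the points of the `x`-line -/

/-- The places of `F` over the point `x = a`. -/
def placesOver (x : F) (a : k) : Set (Place k F) := {v | 0 < v.ord (x - algebraMap k F a)}

/-- The places of `F` over the point `x = ∞`. -/
def placesOverInfty (x : F) : Set (Place k F) := {v | v.ord x < 0}

theorem mem_placesOver {x : F} {a : k} {v : Place k F} :
    v ∈ placesOver x a ↔ 0 < v.ord (x - algebraMap k F a) := Iff.rfl

theorem mem_placesOverInfty {x : F} {v : Place k F} :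
    v ∈ placesOverInfty x ↔ v.ord x < 0 := Iff.rfl

theorem placesOverInfty_eq (x : F) : placesOverInfty (k := k) x = placesOver x⁻¹ (0 : k) := by
  ext v
  rw [mem_placesOverInfty, mem_placesOver, map_zero, sub_zero, v.ord_inv]
  omega

/-- Places over different finite points are different. -/
theorem placesOver_disjoint (x : F) {a b : k} (hab : a ≠ b) :
    Disjoint (placesOver (k := k) x a) (placesOver x b) := by
  rw [Set.disjoint_left]
  intro v ha hb
  rw [mem_placesOver] at ha hb
  have h1 : x - algebraMap k F a ≠ 0 := by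
    intro h0
    rw [h0, v.ord_zero] at ha
    exact lt_irrefl _ ha
  have h2 : x - algebraMap k F b ≠ 0 := by
    intro h0
    rw [h0, v.ord_zero] at hb
    exact lt_irrefl _ hb
  have h3 : algebraMap k F (b - a) = (x - algebraMap k F a) + (-(x - algebraMap k F b)) := by
    rw [map_sub]
    ring
  have hba : b - a ≠ 0 := sub_ne_zero.mpr (Ne.symm hab)
  have h4 : algebraMap k F (b - a) ≠ 0 := fun h0 =>
    hba ((map_eq_zero (algebraMap k F)).mp h0)
  have h5 := le_ord_add v h1 (neg_ne_zero.mpr h2) (by rwa [← h3])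
  rw [← h3, ord_algebraMap, ord_neg] at h5
  have := lt_min ha hb
  omega

theorem placesOver_disjoint_infty (x : F) (a : k) :
    Disjoint (placesOver (k := k) x a) (placesOverInfty x) := by
  rw [Set.disjoint_left]
  intro v ha hb
  rw [mem_placesOver] at ha
  rw [mem_placesOverInfty] at hb
  have hx : x ≠ 0 := by
    intro h0
    rw [h0, v.ord_zero] at hb
    exact lt_irrefl _ hb
  rcases eq_or_ne a 0 with rfl | ha0
  · rw [map_zero, sub_zero] at ha
    omega
  have h1 : algebraMap k F (-a) ≠ 0 := fun h0 =>
    ha0 (neg_eq_zero.mp ((map_eq_zero (algebraMap k F)).mp h0))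
  have h2 : x + algebraMap k F (-a) = x - algebraMap k F a := by
    rw [map_neg]
    ring
  have h3 := ord_add_eq_of_lt v hx h1 (by rw [ord_algebraMap]; exact hb)
  rw [h2] at h3
  omega

end Fermat.Agent.S24
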