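import Mathlib
import Fermat.Prelude.Def_AlgebraicCurve_CanonicalDivisor
import Fermat.Agent.S24.FFBasic

/-!
# S24: places of a function field and primes of the integral closure

* `ord_ofHeightOneSpectrum`: the order function of the place attached to a height one prime of a
  Dedekind domain with fraction field `F` is the adic valuation of that prime;
* `exists_eq_ofHeightOneSpectrum`: every place whose valuation ring contains the Dedekind domain
  comes from a height one prime;
* `finiteDimensional_adjoin`: a function field of one variable is finite over `k(h)` for every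
  transcendental `h`;
* `exists_sub_algebraMap_ord_pos` (H1): the residue field of every place is `k`;
  `place_deg_eq_one`, `mem_placesOver_or_infty`.
-/

set_option autoImplicit false

open AlgebraicCurve IntermediateField IsDedekindDomain WithZero

namespace Fermat.Agent.S24

variable {k F : Type*} [Field k] [Field F] [Algebra k F]

section Dedekind

variable {R : Type*} [CommRing R] [IsDedekindDomain R] [Algebra R F] [IsFractionRing R F]
  [Algebra k R] [IsScalarTower k R F]

theorem mem_ofHeightOneSpectrum_iff (w : HeightOneSpectrum R) (f : F) :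
    f ∈ (Place.ofHeightOneSpectrum (K := k) (F := F) w).toValuationSubring ↔ w.valuation F f ≤ 1 := by
  rw [Place.ofHeightOneSpectrum_toValuationSubring, Valuation.mem_valuationSubring_iff]

/-- The order function of the place of a height one prime is its adic valuation. -/
theorem ord_ofHeightOneSpectrum (w : HeightOneSpectrum R) (f : F) :
    (Place.ofHeightOneSpectrum (K := k) (F := F) w).ord f = - WithZero.log (w.valuation F f) := by
  set v := Place.ofHeightOneSpectrum (K := k) (F := F) w with hv
  rcases eq_or_ne f 0 with rfl | hf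
  · simp
  -- a uniformizer of `w`
  obtain ⟨π, hπ⟩ := w.valuation_exists_uniformizer F
  have hπ0 : π ≠ 0 := by
    intro h0
    rw [h0, map_zero] at hπ
    exact WithZero.exp_ne_zero hπ.symm
  have hπmem : π ∈ v.toValuationSubring := by
    rw [mem_ofHeightOneSpectrum_iff, hπ, ← WithZero.exp_zero, WithZero.exp_le_exp]
    norm_num
  -- units of the valuation ring are the elements of valuation one
  have hunit : ∀ g : F, w.valuation F g = 1 → v.ord g = 0 := by
    intro g hg
    have hg0 : g ≠ 0 := by
      intro h0
      rw [h0, map_zero] at hg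
      exact zero_ne_one hg
    have h1 : g ∈ v.toValuationSubring := by
      rw [mem_ofHeightOneSpectrum_iff, hg]
    have h2 : g⁻¹ ∈ v.toValuationSubring := by
      rw [mem_ofHeightOneSpectrum_iff, map_inv₀, hg, inv_one]
    have h3 := ord_nonneg_of_mem v h1
    have h4 := ord_nonneg_of_mem v h2
    rw [v.ord_inv] at h4
    omega
  -- the order of the uniformizer is one
  have hπord : v.ord π = 1 := by
    obtain ⟨ϖ, hϖ0, hϖ⟩ := exists_uniformizer v
    -- `ϖ` has valuation `exp (-m)` with `m ≥ 1`
    have hϖmem : ϖ ∈ v.toValuationSubring := mem_of_ord_nonneg v hϖ0 (by omega)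
    have hϖval : w.valuation F ϖ ≠ 0 := (Valuation.ne_zero_iff _).mpr hϖ0
    obtain ⟨m, hm⟩ : ∃ m : ℤ, w.valuation F ϖ = WithZero.exp m :=
      ⟨WithZero.log (w.valuation F ϖ), (WithZero.exp_log hϖval).symm⟩
    -- `ϖ = u π ^ m` with `u` of valuation one
    have hu : w.valuation F (ϖ * (π ^ (-m))⁻¹) = 1 := by
      rw [map_mul, map_inv₀, map_zpow₀, hπ, hm, ← WithZero.exp_zsmul, ← WithZero.exp_neg,
        ← WithZero.exp_add]
      simp
    have h5 := hunit _ hu
    rw [v.ord_mul hϖ0 (inv_ne_zero (zpow_ne_zero _ hπ0)), v.ord_inv, v.ord_zpow, hϖ] at h5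
    -- so `1 = - m * ord π` with `ord π ≥ 0`
    have h6 := ord_nonneg_of_mem v hπmem
    have h7 : m * v.ord π = -1 := by linarith
    have h8 : v.ord π ∣ 1 := by
      refine ⟨-m, ?_⟩
      linarith
    rcases Int.isUnit_iff.mp (isUnit_of_dvd_one h8) with h | h
    · exact h
    · omega
  -- general case
  have hfval : w.valuation F f ≠ 0 := (Valuation.ne_zero_iff _).mpr hf
  set m := WithZero.log (w.valuation F f) with hm
  have hfm : w.valuation F f = WithZero.exp m := (WithZero.exp_log hfval).symm
  have hu : w.valuation F (f * (π ^ (-m))⁻¹) = 1 := by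
    rw [map_mul, map_inv₀, map_zpow₀, hπ, hfm, ← WithZero.exp_zsmul, ← WithZero.exp_neg,
      ← WithZero.exp_add]
    simp
  have h5 := hunit _ hu
  rw [v.ord_mul hf (inv_ne_zero (zpow_ne_zero _ hπ0)), v.ord_inv, v.ord_zpow, hπord] at h5
  linarith

/-- A place whose valuation ring contains the Dedekind domain `R` (with fraction field `F`)
is the place of a height one prime of `R`. -/
theorem exists_eq_ofHeightOneSpectrum (v : Place k F)
    (hR : ∀ r : R, algebraMap R F r ∈ v.toValuationSubring) :
    ∃ w : HeightOneSpectrum R, v = Place.ofHeightOneSpectrum (K := k) (F := F) w ∧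
      ∀ r : R, r ∈ w.asIdeal ↔ (r ≠ 0 ∧ 0 < v.ord (algebraMap R F r)) ∨ r = 0 := by
  classical
  -- the ring hom `R → O_v`
  let φ : R →+* v.toValuationSubring := (algebraMap R F).codRestrict v.toValuationSubring.toSubring hR
  have hφ : ∀ r, ((φ r : v.toValuationSubring) : F) = algebraMap R F r := fun r => rfl
  let P : Ideal R := (IsLocalRing.maximalIdeal v.toValuationSubring).comap φ
  have hPprime : P.IsPrime := Ideal.comap_isPrime φ _
  -- membership in `P`
  have hmemP : ∀ r : R, r ∈ P ↔ (r ≠ 0 ∧ 0 < v.ord (algebraMap R F r)) ∨ r = 0 := by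
    intro r
    show φ r ∈ IsLocalRing.maximalIdeal v.toValuationSubring ↔ _
    rw [IsLocalRing.mem_maximalIdeal, mem_nonunits_iff]
    rcases eq_or_ne r 0 with rfl | hr
    · simp
    have hr' : algebraMap R F r ≠ 0 := by
      intro h0
      exact hr ((IsFractionRing.injective R F) (by rw [h0, map_zero]))
    constructor
    · intro hnu
      left
      refine ⟨hr, ?_⟩
      by_contra hcon
      have h0 : v.ord (algebraMap R F r) = 0 := by
        have := ord_nonneg_of_mem v (hR r)
        omega
      apply hnu
      have hinv : (algebraMap R F r)⁻¹ ∈ v.toValuationSubring := by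
        apply mem_of_ord_nonneg v (inv_ne_zero hr')
        rw [v.ord_inv, h0]
        simp
      refine isUnit_iff_exists_inv.mpr ⟨⟨_, hinv⟩, ?_⟩
      apply Subtype.ext
      show algebraMap R F r * (algebraMap R F r)⁻¹ = 1
      exact mul_inv_cancel₀ hr'
    · rintro (⟨_, hpos⟩ | h0) hu
      · obtain ⟨b, hb⟩ := isUnit_iff_exists_inv.mp hu
        have hb' : algebraMap R F r * (b : F) = 1 := by
          have := congrArg Subtype.val hb
          simpa [hφ] using this
        have hb0 : (b : F) ≠ 0 := by
          intro h0
          rw [h0, mul_zero] at hb'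
          exact zero_ne_one hb'
        have h1 := v.ord_mul hr' hb0
        rw [hb', v.ord_one] at h1
        have h2 := ord_nonneg_of_mem v b.2
        omega
      · exact hr h0
  -- `P ≠ ⊥`
  have hPne : P ≠ ⊥ := by
    obtain ⟨ϖ, hϖ0, hϖ⟩ := exists_uniformizer v
    obtain ⟨a, b, hb, hab⟩ := IsFractionRing.div_surjective (A := R) ϖ
    have hb0 : algebraMap R F b ≠ 0 := by
      intro h0
      have := (IsFractionRing.injective R F) (by rw [h0, map_zero] : algebraMap R F b = algebraMap R F 0)
      exact (nonZeroDivisors.ne_zero hb) this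
    have ha0 : algebraMap R F a ≠ 0 := by
      intro h0
      rw [h0, zero_div] at hab
      exact hϖ0 hab.symm
    have h1 : v.ord (algebraMap R F a) = v.ord (algebraMap R F b) + 1 := by
      have := ord_div v ha0 hb0
      rw [hab, hϖ] at this
      omega
    have h2 := ord_nonneg_of_mem v (hR b)
    intro hbot
    have haP : a ∈ P := by
      rw [hmemP]
      left
      refine ⟨?_, by omega⟩
      rintro rfl
      simp at ha0
    rw [hbot, Ideal.mem_bot] at haP
    rw [haP, map_zero] at ha0
    exact ha0 rfl
  let w : HeightOneSpectrum R := ⟨P, hPprime, hPne⟩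
  refine ⟨w, ?_, hmemP⟩
  apply Place.ext
  rw [Place.ofHeightOneSpectrum_toValuationSubring]
  symm
  have hle : (w.valuation F).valuationSubring ≤ v.toValuationSubring := by
    intro f hf
    rw [Valuation.mem_valuationSubring_iff] at hf
    obtain ⟨n, d, hnd⟩ := w.exists_primeCompl_mul_eq_of_integer f hf
    have hdP : (d : R) ∉ P := d.2
    have hd0 : algebraMap R F (d : R) ≠ 0 := by
      intro h0
      have := (IsFractionRing.injective R F) (by rw [h0, map_zero] : algebraMap R F (d : R) = algebraMap R F 0)
      rw [this] at hdP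
      exact hdP P.zero_mem
    have hdord : v.ord (algebraMap R F (d : R)) = 0 := by
      have h1 := ord_nonneg_of_mem v (hR d)
      by_contra hne
      apply hdP
      rw [hmemP]
      left
      refine ⟨?_, by omega⟩
      rintro h0
      rw [h0, map_zero] at hd0
      exact hd0 rfl
    have hf' : f = algebraMap R F n / algebraMap R F (d : R) := by
      rw [eq_div_iff hd0, hnd]
    rcases eq_or_ne f 0 with rfl | hf0
    · exact zero_mem _
    apply mem_of_ord_nonneg v hf0
    have hn0 : algebraMap R F n ≠ 0 := by
      intro h0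
      rw [h0, zero_div] at hf'
      exact hf0 hf'
    rw [hf', ord_div v hn0 hd0, hdord]
    have := ord_nonneg_of_mem v (hR n)
    omega
  have hK : Ring.KrullDimLE 1 (w.valuation F).valuationSubring := by
    rw [← HeightOneSpectrum.valuationSubringAtPrime_eq_valuationSubring]
    infer_instance
  exact ValuationSubring.eq_of_le_of_ne_top _ hle v.ne_top'

end Dedekind

section trdeg
open IntermediateField.algebraAdjoinAdjoin

theorem transcendental_of_not_mem_range [IsAlgClosed k] (h : F)
    (hh : h ∉ Set.range (algebraMap k F)) : Transcendental k h := by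
  intro halg
  apply hh
  have hint : IsIntegral k h := halg.isIntegral
  exact minpoly.mem_range_of_degree_eq_one k h
    (IsAlgClosed.degree_eq_one_of_irreducible k (minpoly.irreducible hint))

theorem not_mem_range_of_transcendental (h : F) (hh : Transcendental k h) :
    h ∉ Set.range (algebraMap k F) := by
  rintro ⟨c, rfl⟩
  exact hh (isAlgebraic_algebraMap c)

variable (x : F) (hx : Transcendental k x) [FiniteDimensional k⟮x⟯ F]

include hx in
theorem finiteDimensional_adjoin (h : F) (hh : Transcendental k h) :
    FiniteDimensional k⟮h⟯ F := by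
  -- `F` is essentially of finite type over `k`
  have e1 : Algebra.EssFiniteType k k⟮x⟯ := by
    rw [IntermediateField.essFiniteType_iff]
    exact ⟨{x}, by simp⟩
  have e2 : Algebra.EssFiniteType k⟮x⟯ F := inferInstance
  have e3 : Algebra.EssFiniteType k F := Algebra.EssFiniteType.comp k k⟮x⟯ F
  have e4 : Algebra.EssFiniteType k⟮h⟯ F := Algebra.EssFiniteType.of_comp k k⟮h⟯ F
  -- `F` is algebraic over `k(h)`
  have a1 : Algebra.IsAlgebraic k⟮x⟯ F := inferInstance
  have a2 : Algebra.IsAlgebraic (Algebra.adjoin k ({x} : Set F)) F := by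
    exact (IsFractionRing.comap_isAlgebraic_iff (A := Algebra.adjoin k ({x} : Set F))
      (K := k⟮x⟯) (C := F)).mpr a1
  have hle : Algebra.trdeg k F ≤ 1 := by
    have := Algebra.IsAlgebraic.trdeg_le_cardinalMk k ({x} : Set F)
    simpa using this
  have hind : AlgebraicIndependent k (fun _ : Unit => h) := by
    rw [algebraicIndependent_unique_type_iff]
    exact hh
  have hb : IsTranscendenceBasis k (fun _ : Unit => h) :=
    hind.isTranscendenceBasis_of_lift_trdeg_le_of_finite (by
      rw [Cardinal.mk_fintype, Fintype.card_unit, Nat.cast_one, Cardinal.lift_one]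
      rw [← Cardinal.lift_one.{_, 0}]
      exact Cardinal.lift_le.mpr hle)
  have a3 : Algebra.IsAlgebraic k⟮h⟯ F := by
    have := hb.isAlgebraic_field
    have he : (Set.range fun _ : Unit => h) = {h} := by
      ext z; simp [eq_comm]
    rwa [he] at this
  exact Algebra.finite_of_essFiniteType_of_isAlgebraic

end trdeg

section setup
open IntermediateField.algebraAdjoinAdjoin

variable (y : F) (hy : Transcendental k y)

/-- `k[y]` is isomorphic to the polynomial ring. -/
noncomputable def adjoinEquiv (hy : Transcendental k y) :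
    Polynomial k ≃ₐ[k] Algebra.adjoin k {y} :=
  (AlgEquiv.ofInjective (Polynomial.aeval y) (transcendental_iff_injective.mp hy)).trans
    (Subalgebra.equivOfEq _ _ (Algebra.adjoin_singleton_eq_range_aeval k y).symm)

theorem adjoinEquiv_X (hy : Transcendental k y) :
    ((adjoinEquiv y hy Polynomial.X : Algebra.adjoin k {y}) : F) = y := by
  simp [adjoinEquiv]

theorem isPrincipalIdealRing_adjoin (hy : Transcendental k y) :
    IsPrincipalIdealRing (Algebra.adjoin k {y}) :=
  IsPrincipalIdealRing.of_surjective (adjoinEquiv y hy).toRingEquiv.toRingHom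
    (adjoinEquiv y hy).surjective

theorem isDedekindDomain_adjoin (hy : Transcendental k y) :
    IsDedekindDomain (Algebra.adjoin k {y}) := by
  haveI := isPrincipalIdealRing_adjoin y hy
  infer_instance

variable [CharZero k] [FiniteDimensional k⟮y⟯ F]

theorem isDedekindDomain_integralClosure (hy : Transcendental k y) :
    IsDedekindDomain (integralClosure (Algebra.adjoin k {y}) F) := by
  haveI := isDedekindDomain_adjoin y hy
  exact integralClosure.isDedekindDomain (Algebra.adjoin k {y}) k⟮y⟯ F

instance isFractionRing_integralClosure :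
    IsFractionRing (integralClosure (Algebra.adjoin k {y}) F) F :=
  integralClosure.isFractionRing_of_finite_extension k⟮y⟯ F

theorem finite_integralClosure (hy : Transcendental k y) :
    Module.Finite (Algebra.adjoin k {y}) (integralClosure (Algebra.adjoin k {y}) F) := by
  haveI := isDedekindDomain_adjoin y hy
  exact IsIntegralClosure.finite (Algebra.adjoin k {y}) k⟮y⟯ F _

end setup

section Closure
open IntermediateField.algebraAdjoinAdjoin

variable (y : F)

/-- `k[y] ⊆ O_v` if `ord_v y ≥ 0`. -/
theorem adjoin_mem_of_ord_nonneg (v : Place k F) (hv : 0 ≤ v.ord y)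
    (a : F) (ha : a ∈ Algebra.adjoin k {y}) : a ∈ v.toValuationSubring := by
  let S : Subalgebra k F :=
    { v.toValuationSubring.toSubring with algebraMap_mem' := v.algebraMap_mem' }
  have hS : Algebra.adjoin k {y} ≤ S := by
    apply Algebra.adjoin_le
    rintro z (rfl : z = y)
    rcases eq_or_ne z 0 with rfl | h0
    · exact zero_mem _
    · exact mem_of_ord_nonneg v h0 hv
  exact hS ha

/-- The integral closure of `k[y]` is contained in `O_v` if `ord_v y ≥ 0`. -/
theorem integralClosure_mem_of_ord_nonneg (v : Place k F) (hv : 0 ≤ v.ord y)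
    (b : F) (hb : b ∈ integralClosure (Algebra.adjoin k {y}) F) : b ∈ v.toValuationSubring := by
  let φ : Algebra.adjoin k {y} →+* v.toValuationSubring :=
    (algebraMap (Algebra.adjoin k {y}) F).codRestrict v.toValuationSubring.toSubring
      (fun a => adjoin_mem_of_ord_nonneg y v hv _ a.2)
  letI : Algebra (Algebra.adjoin k {y}) v.toValuationSubring := φ.toAlgebra
  haveI : IsScalarTower (Algebra.adjoin k {y}) v.toValuationSubring F :=
    IsScalarTower.of_algebraMap_eq (fun _ => rfl)
  have h1 : IsIntegral (Algebra.adjoin k {y}) b := hb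
  have h2 : IsIntegral v.toValuationSubring b := h1.tower_top
  obtain ⟨c, hc⟩ := (IsIntegrallyClosed.isIntegral_iff (R := v.toValuationSubring) (K := F)).mp h2
  rw [← hc]
  exact c.2

variable [CharZero k] [FiniteDimensional k⟮y⟯ F]

/-- (C1) a place with `ord_v y ≥ 0` is the place of a prime of the integral closure of `k[y]`. -/
theorem exists_eq_ofHeightOneSpectrum_integralClosure (hy : Transcendental k y)
    (v : Place k F) (hv : 0 ≤ v.ord y) :
    haveI := isDedekindDomain_integralClosure y hy
    ∃ w : HeightOneSpectrum (integralClosure (Algebra.adjoin k {y}) F),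
      v = Place.ofHeightOneSpectrum (K := k) (F := F) w ∧
      ∀ r : integralClosure (Algebra.adjoin k {y}) F,
        r ∈ w.asIdeal ↔ (r ≠ 0 ∧ 0 < v.ord (r : F)) ∨ r = 0 := by
  haveI := isDedekindDomain_integralClosure y hy
  exact exists_eq_ofHeightOneSpectrum (R := integralClosure (Algebra.adjoin k {y}) F) v
    (fun r => integralClosure_mem_of_ord_nonneg y v hv _ r.2)

omit [CharZero k] [FiniteDimensional k⟮y⟯ F] in
theorem ord_multiset_prod_eq_zero (v : Place k F) (s : Multiset F)
    (h : ∀ f ∈ s, f ≠ 0 ∧ v.ord f = 0) : s.prod ≠ 0 ∧ v.ord s.prod = 0 := by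
  induction s using Multiset.induction with
  | empty => simp
  | cons a s ih =>
    have h1 := h a (Multiset.mem_cons_self a s)
    have h2 := ih (fun f hf => h f (Multiset.mem_cons_of_mem hf))
    rw [Multiset.prod_cons]
    refine ⟨mul_ne_zero h1.1 h2.1, ?_⟩
    rw [v.ord_mul h1.1 h2.1, h1.2, h2.2, add_zero]

/-- (C1') a place with `ord_v y ≥ 0` lies over a point `c : k`. -/
theorem exists_ord_sub_pos [IsAlgClosed k] (hy : Transcendental k y)
    (v : Place k F) (hv : 0 ≤ v.ord y) : ∃ c : k, 0 < v.ord (y - algebraMap k F c) := by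
  haveI := isDedekindDomain_integralClosure y hy
  obtain ⟨w, -, hw⟩ := exists_eq_ofHeightOneSpectrum_integralClosure y hy v hv
  -- a nonzero element of `P ∩ k[y]`
  obtain ⟨b, hbP, hb0⟩ := Submodule.exists_mem_ne_zero_of_ne_bot w.ne_bot
  have hbint : IsIntegral (Algebra.adjoin k {y}) b := integralClosure.isIntegral b
  have hne := Ideal.comap_ne_bot_of_integral_mem hb0 hbP hbint
  obtain ⟨a, haP, ha0⟩ := Submodule.exists_mem_ne_zero_of_ne_bot hne
  rw [Ideal.mem_comap, hw] at haP
  have hapos : 0 < v.ord (a : F) := by
    rcases haP with ⟨_, h⟩ | h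
    · exact h
    · exfalso
      apply ha0
      have h1 : ((algebraMap (Algebra.adjoin k {y})
        (integralClosure (Algebra.adjoin k {y}) F) a : integralClosure (Algebra.adjoin k {y}) F) : F)
          = (a : F) := rfl
      rw [h] at h1
      exact Subtype.ext h1.symm
  -- `a = q(y)` for a nonzero polynomial `q`
  obtain ⟨q, hq⟩ : ∃ q : Polynomial k, (a : F) = Polynomial.aeval y q := by
    have h1 : (a : F) ∈ (Polynomial.aeval y : Polynomial k →ₐ[k] F).range := by
      rw [← Algebra.adjoin_singleton_eq_range_aeval]
      exact a.2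
    obtain ⟨q, hq⟩ := h1
    exact ⟨q, hq.symm⟩
  have hq0 : q ≠ 0 := by
    rintro rfl
    apply ha0
    apply Subtype.ext
    rw [hq]
    simp
  have hsplit := IsAlgClosed.splits q
  have hqe := hsplit.eq_prod_roots
  by_contra hcon
  replace hcon : ∀ c : k, v.ord (y - algebraMap k F c) ≤ 0 := fun c =>
    not_lt.mp (fun h => hcon ⟨c, h⟩)
  have hfac : ∀ f ∈ q.roots.map (fun c => y - algebraMap k F c), f ≠ 0 ∧ v.ord f = 0 := by
    intro f hf
    obtain ⟨c, -, rfl⟩ := Multiset.mem_map.mp hf
    have hne0 : y - algebraMap k F c ≠ 0 := by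
      intro h0
      apply hy
      rw [sub_eq_zero.mp h0]
      exact isAlgebraic_algebraMap c
    refine ⟨hne0, le_antisymm (hcon c) ?_⟩
    apply ord_nonneg_of_mem
    apply sub_mem
    · exact mem_of_ord_nonneg v (fun h0 => hy (h0 ▸ isAlgebraic_zero)) hv
    · exact v.algebraMap_mem' c
  have hprod := ord_multiset_prod_eq_zero v _ hfac
  have hlc : q.leadingCoeff ≠ 0 := Polynomial.leadingCoeff_ne_zero.mpr hq0
  have hval : (a : F) = algebraMap k F q.leadingCoeff *
      (q.roots.map (fun c => y - algebraMap k F c)).prod := by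
    rw [hq]
    conv_lhs => rw [hqe]
    rw [map_mul, Polynomial.aeval_C, map_multiset_prod, Multiset.map_map]
    congr 2
    apply Multiset.map_congr rfl
    intro c _
    simp
  have hlc' : algebraMap k F q.leadingCoeff ≠ 0 := by
    intro h0
    apply hlc
    exact (algebraMap k F).injective (by rw [h0, map_zero])
  rw [hval, v.ord_mul hlc' hprod.1, hprod.2, ord_algebraMap] at hapos
  exact lt_irrefl _ hapos

end Closure

section Main

variable [IsAlgClosed k] [CharZero k] (x : F) (hx : Transcendental k x) [FiniteDimensional k⟮x⟯ F]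

include hx in
/-- (H1) the residue field of every place is `k`. -/
theorem exists_sub_algebraMap_ord_pos (v : Place k F) {f : F} (hf : 0 ≤ v.ord f) :
    ∃ c : k, f = algebraMap k F c ∨ 0 < v.ord (f - algebraMap k F c) := by
  by_cases hr : f ∈ Set.range (algebraMap k F)
  · obtain ⟨c, rfl⟩ := hr
    exact ⟨c, Or.inl rfl⟩
  · have hft := transcendental_of_not_mem_range f hr
    haveI := finiteDimensional_adjoin x hx f hft
    obtain ⟨c, hc⟩ := exists_ord_sub_pos f hft v hf
    exact ⟨c, Or.inr hc⟩

include hx in
/-- Every place lies over a point of the projective line. -/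
theorem mem_placesOver_or_infty (v : Place k F) :
    v ∈ placesOverInfty x ∨ ∃ a, v ∈ placesOver x a := by
  by_cases h : v.ord x < 0
  · left
    exact h
  · right
    obtain ⟨c, hc⟩ := exists_ord_sub_pos x hx v (not_lt.mp h)
    exact ⟨c, hc⟩

include hx in
/-- Every place has degree one. -/
theorem place_deg_eq_one (v : Place k F) : v.deg = 1 := by
  unfold Place.deg
  rw [finrank_eq_one_iff_of_nonzero' (1 : v.ResidueField) one_ne_zero]
  intro w
  obtain ⟨f, rfl⟩ := IsLocalRing.residue_surjective w
  obtain ⟨c, hc⟩ := exists_sub_algebraMap_ord_pos x hx v (ord_nonneg_of_mem v f.2)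
  refine ⟨c, ?_⟩
  have hmem : f - algebraMap k v.toValuationSubring c ∈
      IsLocalRing.maximalIdeal v.toValuationSubring := by
    rcases hc with hc | hc
    · have : f - algebraMap k v.toValuationSubring c = 0 := by
        apply Subtype.ext
        show (f : F) - algebraMap k F c = 0
        rw [hc, sub_self]
      rw [this]
      exact zero_mem _
    · rw [IsLocalRing.mem_maximalIdeal, mem_nonunits_iff]
      intro hu
      have h0 := v.ord_coe_unit hu.unit
      have h1 : ((hu.unit : v.toValuationSubring) : F) = (f : F) - algebraMap k F c := rfl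
      rw [h1] at h0
      omega
  rw [← IsLocalRing.residue_eq_zero_iff, map_sub, sub_eq_zero] at hmem
  rw [hmem, Algebra.smul_def, mul_one]
  rfl

end Main

end Fermat.Agent.S24
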