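import Mathlib
import Fermat.Prelude.Def_AlgebraicCurve_CanonicalDivisor
import Fermat.Agent.S24.FFPlaces

/-!
# S24: the fundamental identity for a function field of one variable

For `x : F` transcendental over the algebraically closed field `k` of characteristic zero with
`F` finite over `k(x)` and `a : k`:

* `placesOver_finite`, `finsum_ord_placesOver`: the places `v` with `ord_v (x - a) > 0` are finite
  in number and `∑ ord_v (x - a) = [F : k(x)]`;
* `placesOverInfty_finite`, `finsum_ord_placesOverInfty`: the same for the poles of `x`;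
* `sum_ord_le_finrank`: the inequality for a finite set of places over `a`.

The proof identifies the places over `a` with the primes of the integral closure of `k[x]` over
`(x - a)` and applies `Ideal.sum_ramification_inertia`.
-/

set_option autoImplicit false
set_option linter.deprecated false

open AlgebraicCurve IntermediateField IsDedekindDomain WithZero

namespace Fermat.Agent.S24.FFFiber

open Fermat.Agent.S24

variable {k F : Type*} [Field k] [Field F] [Algebra k F]

section Dedekind'

variable {R : Type*} [CommRing R] [IsDedekindDomain R] [Algebra R F] [IsFractionRing R F]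
  [Algebra k R] [IsScalarTower k R F]

theorem mem_asIdeal_iff_ord_pos (w : HeightOneSpectrum R) (r : R) (hr : r ≠ 0) :
    r ∈ w.asIdeal ↔ 0 < (Place.ofHeightOneSpectrum (K := k) (F := F) w).ord (algebraMap R F r) := by
  rw [← HeightOneSpectrum.valuation_lt_one_iff_mem (K := F), ord_ofHeightOneSpectrum]
  have hr' : algebraMap R F r ≠ 0 := by
    intro h0
    exact hr ((IsFractionRing.injective R F) (by rw [h0, map_zero]))
  have hval : w.valuation F (algebraMap R F r) ≠ 0 := (Valuation.ne_zero_iff _).mpr hr'
  obtain ⟨m, hm⟩ : ∃ m : ℤ, w.valuation F (algebraMap R F r) = WithZero.exp m :=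
    ⟨WithZero.log (w.valuation F (algebraMap R F r)), (WithZero.exp_log hval).symm⟩
  rw [hm, WithZero.log_exp, ← WithZero.exp_zero, WithZero.exp_lt_exp]
  omega

theorem ofHeightOneSpectrum_injective :
    Function.Injective (Place.ofHeightOneSpectrum (K := k) (F := F) (R := R)) := by
  intro w w' h
  apply HeightOneSpectrum.ext
  ext r
  rcases eq_or_ne r 0 with rfl | hr
  · simp
  rw [mem_asIdeal_iff_ord_pos (k := k) (F := F) w r hr,
    mem_asIdeal_iff_ord_pos (k := k) (F := F) w' r hr, h]

end Dedekind'

section Fiber
open IntermediateField.algebraAdjoinAdjoin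

variable (y : F)

/-- `y - c` as an element of `k[y]`. -/
def gen (c : k) : Algebra.adjoin k {y} :=
  ⟨y - algebraMap k F c, sub_mem (Algebra.self_mem_adjoin_singleton k y) (Subalgebra.algebraMap_mem _ c)⟩

@[simp] theorem coe_gen (c : k) : ((gen y c : Algebra.adjoin k {y}) : F) = y - algebraMap k F c := rfl

theorem adjoinEquiv_X_sub_C (hy : Transcendental k y) (c : k) :
    adjoinEquiv y hy (Polynomial.X - Polynomial.C c) = gen y c := by
  apply Subtype.ext
  simp [adjoinEquiv]

theorem gen_ne_zero (hy : Transcendental k y) (c : k) : gen y c ≠ 0 := by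
  intro h
  have h1 := congrArg Subtype.val h
  simp only [coe_gen, ZeroMemClass.coe_zero] at h1
  apply hy
  rw [sub_eq_zero.mp h1]
  exact isAlgebraic_algebraMap c

theorem irreducible_gen (hy : Transcendental k y) (c : k) : Irreducible (gen y c) := by
  rw [← adjoinEquiv_X_sub_C y hy c]
  exact (MulEquiv.irreducible_iff (adjoinEquiv y hy).toMulEquiv).mpr (Polynomial.irreducible_X_sub_C c)

/-- The point `y = c` of the affine line. -/
def pt (c : k) : Ideal (Algebra.adjoin k {y}) := Ideal.span {gen y c}

theorem pt_ne_bot (hy : Transcendental k y) (c : k) : pt y c ≠ ⊥ := by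
  unfold pt
  rw [Ne, Ideal.span_singleton_eq_bot]
  exact gen_ne_zero y hy c

theorem pt_isMaximal (hy : Transcendental k y) (c : k) : (pt y c).IsMaximal := by
  haveI := isPrincipalIdealRing_adjoin y hy
  exact PrincipalIdealRing.isMaximal_of_irreducible (irreducible_gen y hy c)

variable [CharZero k] [FiniteDimensional k⟮y⟯ F]

/-- The height one prime of `k[y]` at `c`. -/
def ptH (hy : Transcendental k y) (c : k) : HeightOneSpectrum (Algebra.adjoin k {y}) :=
  ⟨pt y c, (pt_isMaximal y hy c).isPrime, pt_ne_bot y hy c⟩

omit [CharZero k] [FiniteDimensional k⟮y⟯ F] in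
theorem liesOver_of_mem (hy : Transcendental k y) (c : k)
    (P : Ideal (integralClosure (Algebra.adjoin k {y}) F)) (hP : P.IsPrime)
    (hgen : algebraMap (Algebra.adjoin k {y}) (integralClosure (Algebra.adjoin k {y}) F) (gen y c) ∈ P) :
    P.LiesOver (pt y c) := by
  constructor
  apply (pt_isMaximal y hy c).eq_of_le
  · exact (Ideal.comap_isPrime _ P).ne_top
  · unfold pt
    rw [Ideal.span_le]
    rintro _ (rfl : _ = gen y c)
    exact hgen

theorem ord_gen_eq_ramificationIdx (hy : Transcendental k y) (c : k)
    (w : haveI := isDedekindDomain_integralClosure y hy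
      HeightOneSpectrum (integralClosure (Algebra.adjoin k {y}) F))
    (hw : w.asIdeal.LiesOver (pt y c)) :
    haveI := isDedekindDomain_integralClosure y hy
    (Place.ofHeightOneSpectrum (K := k) (F := F) w).ord (y - algebraMap k F c) =
      ((pt y c).ramificationIdx' w.asIdeal : ℤ) := by
  haveI := isDedekindDomain_integralClosure y hy
  haveI := isDedekindDomain_adjoin y hy
  haveI : w.asIdeal.LiesOver (ptH y hy c).asIdeal := hw
  have h1 := HeightOneSpectrum.valuation_liesOver (K := k⟮y⟯) F (ptH y hy c) w
    (algebraMap (Algebra.adjoin k {y}) k⟮y⟯ (gen y c))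
  rw [HeightOneSpectrum.valuation_of_algebraMap,
    HeightOneSpectrum.intValuation_singleton (ptH y hy c) (gen_ne_zero y hy c) rfl] at h1
  have h2 : algebraMap k⟮y⟯ F (algebraMap (Algebra.adjoin k {y}) k⟮y⟯ (gen y c)) =
      y - algebraMap k F c := rfl
  rw [h2] at h1
  rw [ord_ofHeightOneSpectrum, ← h1]
  show -log (exp (-1 : ℤ) ^ (pt y c).ramificationIdx' w.asIdeal) = _
  rw [← WithZero.exp_nsmul, WithZero.log_exp]
  simp

set_option synthInstance.maxHeartbeats 400000 in
set_option maxHeartbeats 1000000 in
theorem inertiaDeg_eq_one [IsAlgClosed k] (hy : Transcendental k y) (c : k)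
    (w : haveI := isDedekindDomain_integralClosure y hy
      HeightOneSpectrum (integralClosure (Algebra.adjoin k {y}) F))
    (hw : w.asIdeal.LiesOver (pt y c)) :
    (pt y c).inertiaDeg' w.asIdeal = 1 := by
  haveI := isDedekindDomain_integralClosure y hy
  haveI := hw
  rw [Ideal.inertiaDeg'_algebraMap]
  haveI := pt_isMaximal y hy c
  letI := Ideal.Quotient.field (pt y c)
  rw [finrank_eq_one_iff_of_nonzero' (1 : integralClosure (Algebra.adjoin k {y}) F ⧸ w.asIdeal)
    one_ne_zero]
  intro z
  obtain ⟨b, rfl⟩ := Ideal.Quotient.mk_surjective z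
  set v := Place.ofHeightOneSpectrum (K := k) (F := F) w with hv
  have hbmem : (b : F) ∈ v.toValuationSubring := by
    rw [hv, mem_ofHeightOneSpectrum_iff]
    exact w.valuation_le_one b
  obtain ⟨c', hc'⟩ := exists_sub_algebraMap_ord_pos y hy v (ord_nonneg_of_mem v hbmem)
  refine ⟨Ideal.Quotient.mk _ (algebraMap k (Algebra.adjoin k {y}) c'), ?_⟩
  rw [Algebra.smul_def, mul_one]
  have hmem : b - algebraMap k (integralClosure (Algebra.adjoin k {y}) F) c' ∈ w.asIdeal := by
    rcases hc' with hc' | hc'
    · have : b - algebraMap k (integralClosure (Algebra.adjoin k {y}) F) c' = 0 := by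
        apply Subtype.ext
        show (b : F) - algebraMap k F c' = 0
        rw [hc', sub_self]
      rw [this]
      exact zero_mem _
    · rcases eq_or_ne (b - algebraMap k (integralClosure (Algebra.adjoin k {y}) F) c') 0 with h0 | h0
      · rw [h0]
        exact zero_mem _
      · rw [mem_asIdeal_iff_ord_pos (k := k) (F := F) w _ h0]
        exact hc'
  rw [← Ideal.Quotient.eq] at hmem
  rw [hmem]
  rfl

omit [CharZero k] [FiniteDimensional k⟮y⟯ F] in
theorem ord_nonneg_of_mem_placesOver (c : k) (v : Place k F) (hv : v ∈ placesOver y c) :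
    0 ≤ v.ord y := by
  have h1 : 0 < v.ord (y - algebraMap k F c) := hv
  have hne : y - algebraMap k F c ≠ 0 := by
    intro h0
    rw [h0, v.ord_zero] at h1
    exact lt_irrefl _ h1
  have h2 : y - algebraMap k F c ∈ v.toValuationSubring := mem_of_ord_nonneg v hne h1.le
  have h3 : y ∈ v.toValuationSubring := by
    have := add_mem h2 (v.algebraMap_mem' c)
    simpa using this
  exact ord_nonneg_of_mem v h3

set_option synthInstance.maxHeartbeats 400000 in
set_option maxHeartbeats 1000000 in
/-- The fundamental identity over a finite point. -/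
theorem exists_finset_placesOver [IsAlgClosed k] (hy : Transcendental k y) (c : k) :
    ∃ T : Finset (Place k F), (↑T : Set (Place k F)) = placesOver y c ∧
      ∑ v ∈ T, v.ord (y - algebraMap k F c) = (Module.finrank k⟮y⟯ F : ℤ) := by
  classical
  haveI := isDedekindDomain_integralClosure y hy
  haveI := isDedekindDomain_adjoin y hy
  haveI := pt_isMaximal y hy c
  haveI := finite_integralClosure (F := F) y hy
  have hp0 := pt_ne_bot y hy c
  set S := IsDedekindDomain.primesOverFinset (pt y c) (integralClosure (Algebra.adjoin k {y}) F)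
    with hS
  have hmemS : ∀ P, P ∈ S ↔ P.IsPrime ∧ P.LiesOver (pt y c) := fun P =>
    IsDedekindDomain.mem_primesOverFinset_iff hp0 _
  have hne : ∀ P, P ∈ S → P ≠ ⊥ := by
    intro P hP
    haveI := ((hmemS P).mp hP).2
    exact Ideal.ne_bot_of_liesOver_of_ne_bot hp0 P
  let g : {P // P ∈ S} → Place k F := fun P =>
    Place.ofHeightOneSpectrum (K := k) (F := F)
      (⟨P.1, ((hmemS P.1).mp P.2).1, hne P.1 P.2⟩ :
        HeightOneSpectrum (integralClosure (Algebra.adjoin k {y}) F))
  have hg : Function.Injective g := by
    intro P Q h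
    have := ofHeightOneSpectrum_injective (k := k) (F := F) h
    apply Subtype.ext
    exact congrArg HeightOneSpectrum.asIdeal this
  refine ⟨S.attach.image g, ?_, ?_⟩
  · ext v
    simp only [Finset.coe_image, Finset.coe_attach, Set.image_univ, Set.mem_range]
    constructor
    · rintro ⟨P, rfl⟩
      have hlo := ((hmemS P.1).mp P.2).2
      rw [mem_placesOver]
      show 0 < (Place.ofHeightOneSpectrum (K := k) (F := F) _).ord _
      rw [ord_gen_eq_ramificationIdx y hy c _ hlo]
      haveI := hlo
      haveI := ((hmemS P.1).mp P.2).1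
      have := Ideal.IsDedekindDomain.ramificationIdx'_ne_zero_of_liesOver (p := pt y c) P.1 hp0
      exact_mod_cast Nat.pos_of_ne_zero this
    · intro hv
      obtain ⟨w, hw, hwmem⟩ := exists_eq_ofHeightOneSpectrum_integralClosure y hy v
        (ord_nonneg_of_mem_placesOver y c v hv)
      have hgenmem : algebraMap (Algebra.adjoin k {y})
          (integralClosure (Algebra.adjoin k {y}) F) (gen y c) ∈ w.asIdeal := by
        rw [hwmem]
        left
        refine ⟨?_, hv⟩
        intro h0
        have h1 := congrArg Subtype.val h0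
        exact gen_ne_zero y hy c (Subtype.ext h1)
      have hlo := liesOver_of_mem y hy c w.asIdeal w.isPrime hgenmem
      have hwS : w.asIdeal ∈ S := (hmemS _).mpr ⟨w.isPrime, hlo⟩
      exact ⟨⟨w.asIdeal, hwS⟩, hw.symm⟩
  · rw [Finset.sum_image (fun P _ Q _ h => hg h)]
    have hsum := Ideal.sum_ramification_inertia (R := Algebra.adjoin k {y})
      (S := integralClosure (Algebra.adjoin k {y}) F) k⟮y⟯ F hp0
    rw [← hsum, Nat.cast_sum]
    conv_rhs => rw [← Finset.sum_attach]
    apply Finset.sum_congr rfl
    intro P _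
    have hlo := ((hmemS P.1).mp P.2).2
    have h1 := ord_gen_eq_ramificationIdx y hy c
      (⟨P.1, ((hmemS P.1).mp P.2).1, hne P.1 P.2⟩ :
        HeightOneSpectrum (integralClosure (Algebra.adjoin k {y}) F)) hlo
    have h2 := inertiaDeg_eq_one y hy c
      (⟨P.1, ((hmemS P.1).mp P.2).1, hne P.1 P.2⟩ :
        HeightOneSpectrum (integralClosure (Algebra.adjoin k {y}) F)) hlo
    show (Place.ofHeightOneSpectrum (K := k) (F := F) _).ord _ = _
    rw [h1]
    simp only at h2 ⊢
    rw [h2, mul_one]

end Fiber

section Inv

variable (x : F)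

theorem finrank_eq_of_eq {K₁ K₂ : IntermediateField k F} (h : K₁ = K₂) :
    Module.finrank K₁ F = Module.finrank K₂ F := by
  subst h
  rfl

theorem adjoin_inv_eq : k⟮x⁻¹⟯ = k⟮x⟯ := by
  apply le_antisymm
  · rw [IntermediateField.adjoin_simple_le_iff]
    exact inv_mem (IntermediateField.mem_adjoin_simple_self k x)
  · rw [IntermediateField.adjoin_simple_le_iff]
    have := inv_mem (IntermediateField.mem_adjoin_simple_self k x⁻¹)
    rwa [inv_inv] at this

theorem transcendental_inv (hx : Transcendental k x) : Transcendental k x⁻¹ := by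
  intro h
  apply hx
  have := h.inv
  rwa [inv_inv] at this

end Inv

end Fermat.Agent.S24.FFFiber

namespace Fermat.Agent.S24

variable {k F : Type*} [Field k] [Field F] [Algebra k F]

section Exports

variable [IsAlgClosed k] [CharZero k] (x : F) (hx : Transcendental k x) [FiniteDimensional k⟮x⟯ F]

include hx in
theorem placesOver_finite (a : k) : (placesOver (k := k) x a).Finite := by
  obtain ⟨T, hT, -⟩ := FFFiber.exists_finset_placesOver x hx a
  rw [← hT]
  exact T.finite_toSet

include hx in
/-- The fundamental identity: `∑_{v ∣ a} e_v = [F : k(x)]`. -/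
theorem finsum_ord_placesOver (a : k) :
    ∑ᶠ v ∈ placesOver (k := k) x a, v.ord (x - algebraMap k F a) =
      (Module.finrank k⟮x⟯ F : ℤ) := by
  obtain ⟨T, hT, hsum⟩ := FFFiber.exists_finset_placesOver x hx a
  rw [← hT, finsum_mem_coe_finset, hsum]

include hx in
/-- (H2) the easy half of the fundamental identity. -/
theorem sum_ord_le_finrank (a : k) (S : Finset (Place k F))
    (hS : ∀ v ∈ S, v ∈ placesOver (k := k) x a) :
    ∑ v ∈ S, v.ord (x - algebraMap k F a) ≤ (Module.finrank k⟮x⟯ F : ℤ) := by
  obtain ⟨T, hT, hsum⟩ := FFFiber.exists_finset_placesOver x hx a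
  rw [← hsum]
  apply Finset.sum_le_sum_of_subset_of_nonneg
  · intro v hv
    have := hS v hv
    rw [← hT] at this
    exact this
  · intro v hv _
    have : v ∈ placesOver (k := k) x a := by
      rw [← hT]
      exact hv
    exact (mem_placesOver.mp this).le

include hx in
theorem placesOverInfty_finite : (placesOverInfty (k := k) x).Finite := by
  rw [placesOverInfty_eq]
  haveI := finiteDimensional_adjoin x hx x⁻¹ (FFFiber.transcendental_inv x hx)
  exact placesOver_finite x⁻¹ (FFFiber.transcendental_inv x hx) 0

include hx in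
/-- The fundamental identity at infinity: `∑_{v ∣ ∞} e_v = [F : k(x)]`. -/
theorem finsum_ord_placesOverInfty :
    ∑ᶠ v ∈ placesOverInfty (k := k) x, - v.ord x = (Module.finrank k⟮x⟯ F : ℤ) := by
  rw [placesOverInfty_eq]
  haveI := finiteDimensional_adjoin x hx x⁻¹ (FFFiber.transcendental_inv x hx)
  have h := finsum_ord_placesOver x⁻¹ (FFFiber.transcendental_inv x hx) 0
  rw [FFFiber.finrank_eq_of_eq (FFFiber.adjoin_inv_eq (k := k) x)] at h
  rw [← h]
  apply finsum_mem_congr rfl
  intro v _
  rw [map_zero, sub_zero, v.ord_inv]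

end Exports

end Fermat.Agent.S24
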