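import Mathlib
import Fermat.Agent.S24.FFBasic
import Fermat.Agent.S24.FFPlaces
import Fermat.Agent.S24.FFFiber

/-!
# S24, leaf F2: principal divisors of a function field have degree zero

For a function field `F` of one variable over an algebraically closed field `k` of characteristic
zero and `h ≠ 0` in `F`: only finitely many places `v` have `v.ord h ≠ 0`, and
`∑ v, v.ord h = 0`.

The core statements (`finite_ord_ne_zero_of`, `finsum_ord_eq_zero_of`) take the two facts about
the fibres of `h` over `0` and `∞` (finiteness, sum of the orders `= m`) as hypotheses.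
-/

set_option autoImplicit false

open AlgebraicCurve IntermediateField

namespace Fermat.Agent.S24.FFPrincipal

open Fermat.Agent.S24

variable {k F : Type*} [Field k] [Field F] [Algebra k F]

/-! ### Core statements (no hypothesis on `k`, `F`) -/

/-- The places where `h` has nonzero order are the zeros and the poles of `h`. -/
theorem setOf_ord_ne_zero_eq (h : F) :
    {v : Place k F | v.ord h ≠ 0} = placesOver h (0 : k) ∪ placesOverInfty h := by
  ext v
  change v.ord h ≠ 0 ↔ v ∈ placesOver h (0 : k) ∨ v ∈ placesOverInfty h
  rw [mem_placesOver, mem_placesOverInfty, map_zero, sub_zero]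
  omega

theorem support_ord_eq (h : F) :
    Function.support (fun v : Place k F => v.ord h) = placesOver h (0 : k) ∪ placesOverInfty h :=
  setOf_ord_ne_zero_eq h

theorem finite_ord_ne_zero_of (h : F) (hz : (placesOver (k := k) h 0).Finite)
    (hp : (placesOverInfty (k := k) h).Finite) : {v : Place k F | v.ord h ≠ 0}.Finite := by
  rw [setOf_ord_ne_zero_eq]
  exact hz.union hp

theorem finsum_ord_eq_zero_of (h : F) (m : ℤ) (hz : (placesOver (k := k) h 0).Finite)
    (hp : (placesOverInfty (k := k) h).Finite)
    (hzs : ∑ᶠ v ∈ placesOver (k := k) h 0, v.ord (h - algebraMap k F 0) = m)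
    (hps : ∑ᶠ v ∈ placesOverInfty (k := k) h, - v.ord h = m) :
    ∑ᶠ v : Place k F, v.ord h = 0 := by
  rw [← finsum_mem_support, support_ord_eq,
    finsum_mem_union (placesOver_disjoint_infty h 0) hz hp]
  have h1 : ∑ᶠ v ∈ placesOver (k := k) h 0, v.ord h = m := by
    rw [← hzs]
    refine finsum_mem_congr rfl fun v _ => ?_
    rw [map_zero, sub_zero]
  have h2 : ∑ᶠ v ∈ placesOverInfty (k := k) h, v.ord h = -m := by
    rw [← hps, finsum_mem_neg_distrib _ hp, neg_neg]
  rw [h1, h2, add_neg_cancel]

/-- Orders of constants vanish. -/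
theorem ord_eq_zero_of_mem_range {h : F} (hh : h ∈ Set.range (algebraMap k F)) (v : Place k F) :
    v.ord h = 0 := by
  obtain ⟨a, rfl⟩ := hh
  exact ord_algebraMap v a

/-- If every place has degree one, the degree of a divisor is the sum of its values. -/
theorem degree_eq_finsum (hdeg : ∀ v : Place k F, v.deg = 1) (D : Divisor k F) :
    Divisor.degree D = ∑ᶠ v : Place k F, D v := by
  classical
  rw [finsum_eq_sum_of_support_subset (s := D.support) _ (by
    intro v hv
    simpa [Finsupp.mem_support_iff] using hv)]
  rw [Divisor.degree, Finsupp.liftAddHom_apply, Finsupp.sum]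
  refine Finset.sum_congr rfl fun v _ => ?_
  rw [AddMonoidHom.coe_mulRight, hdeg v, Nat.cast_one]
  exact mul_one _

/-! ### The main statements -/

section Main

variable [IsAlgClosed k] [CharZero k] (x : F) (hx : Transcendental k x)
  [FiniteDimensional k⟮x⟯ F]

include hx

/-- Only finitely many places have `v.ord h ≠ 0` (no hypothesis on `h`). -/
theorem finite_ord_ne_zero' (h : F) : {v : Place k F | v.ord h ≠ 0}.Finite := by
  by_cases hr : h ∈ Set.range (algebraMap k F)
  · have : {v : Place k F | v.ord h ≠ 0} = ∅ := by
      ext v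
      simp only [Set.mem_empty_iff_false, iff_false]
      exact fun hv => hv (ord_eq_zero_of_mem_range hr v)
    rw [this]
    exact Set.finite_empty
  · have ht : Transcendental k h := transcendental_of_not_mem_range h hr
    have : FiniteDimensional k⟮h⟯ F := finiteDimensional_adjoin x hx h ht
    exact finite_ord_ne_zero_of h (placesOver_finite h ht 0) (placesOverInfty_finite h ht)

/-- **Principal divisors have finite support.** -/
theorem finite_ord_ne_zero (h : F) (_hh : h ≠ 0) : {v : Place k F | v.ord h ≠ 0}.Finite :=
  finite_ord_ne_zero' x hx h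

/-- The sum of the orders of `h` over all places vanishes (no hypothesis on `h`). -/
theorem finsum_ord_eq_zero' (h : F) : ∑ᶠ v : Place k F, v.ord h = 0 := by
  by_cases hr : h ∈ Set.range (algebraMap k F)
  · rw [show (fun v : Place k F => v.ord h) = fun _ => (0 : ℤ) from
      funext fun v => ord_eq_zero_of_mem_range hr v]
    exact finsum_zero
  · have ht : Transcendental k h := transcendental_of_not_mem_range h hr
    have : FiniteDimensional k⟮h⟯ F := finiteDimensional_adjoin x hx h ht
    exact finsum_ord_eq_zero_of h _ (placesOver_finite h ht 0) (placesOverInfty_finite h ht)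
      (finsum_ord_placesOver h ht 0) (finsum_ord_placesOverInfty h ht)

/-- **Principal divisors have degree zero**: `∑ v, v.ord h = 0`. -/
theorem finsum_ord_eq_zero (h : F) (_hh : h ≠ 0) : ∑ᶠ v : Place k F, v.ord h = 0 :=
  finsum_ord_eq_zero' x hx h

/-- The divisor of a function. -/
noncomputable def divOf (h : F) : Divisor k F :=
  Finsupp.ofSupportFinite (fun v => v.ord h) (finite_ord_ne_zero' x hx h)

@[simp]
theorem divOf_apply (h : F) (v : Place k F) : divOf x hx h v = v.ord h := rfl

theorem degree_divOf (h : F) : Divisor.degree (divOf x hx h) = 0 := by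
  rw [degree_eq_finsum (place_deg_eq_one x hx)]
  exact finsum_ord_eq_zero' x hx h

theorem eq_divOf {D : Divisor k F} {h : F} (hD : ∀ v : Place k F, D v = v.ord h) :
    D = divOf x hx h :=
  Finsupp.ext fun v => by rw [hD v, divOf_apply]

/-- Every nonzero function has a divisor, of degree zero. -/
theorem exists_divisor (h : F) (_hh : h ≠ 0) :
    ∃ D : Divisor k F, (∀ v : Place k F, D v = v.ord h) ∧ Divisor.degree D = 0 :=
  ⟨divOf x hx h, fun _ => rfl, degree_divOf x hx h⟩

theorem hasPrincipalDivisors : HasPrincipalDivisors k F :=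
  ⟨fun h hh => exists_divisor x hx h hh⟩

/-- Principal divisors have degree zero. -/
theorem degree_eq_zero_of_isPrincipal {D : Divisor k F} (hD : Divisor.IsPrincipal D) :
    Divisor.degree D = 0 := by
  obtain ⟨f, _, hf⟩ := hD
  rw [eq_divOf x hx hf]
  exact degree_divOf x hx f

theorem degree_eq_zero_of_mem_principal {D : Divisor k F}
    (hD : D ∈ Divisor.principal (K := k) (F := F)) : Divisor.degree D = 0 :=
  degree_eq_zero_of_isPrincipal x hx hD

theorem principal_le_degZero :
    Divisor.principal (K := k) (F := F) ≤ Divisor.degZero (K := k) (F := F) :=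
  fun _ hD => degree_eq_zero_of_mem_principal x hx hD

/-- `divOf` is multiplicative. -/
theorem divOf_mul {f g : F} (hf : f ≠ 0) (hg : g ≠ 0) :
    divOf x hx (f * g) = divOf x hx f + divOf x hx g :=
  Finsupp.ext fun v => by
    rw [Finsupp.add_apply, divOf_apply, divOf_apply, divOf_apply, v.ord_mul hf hg]

theorem divOf_inv (f : F) : divOf x hx f⁻¹ = - divOf x hx f :=
  Finsupp.ext fun v => by
    rw [Finsupp.neg_apply, divOf_apply, divOf_apply, v.ord_inv]

end Main

end Fermat.Agent.S24.FFPrincipal
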