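import Mathlib

/-!
# S24: rescaling of Laurent series

For a nonzero `ζ` in a field `R`, the map `∑ aₙ Xⁿ ↦ ∑ ζⁿ aₙ Xⁿ` is a ring automorphism of
`LaurentSeries R`.
-/

set_option autoImplicit false

namespace Fermat.Agent.S24.LaurentRescale

open HahnSeries

variable {R : Type*} [Field R]

/-- The underlying function of the rescaling map. -/
noncomputable def rescaleFun (ζ : R) (f : LaurentSeries R) : LaurentSeries R where
  coeff n := ζ ^ n * f.coeff n
  isPWO_support' := by
    refine f.isPWO_support.mono ?_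
    intro n hn
    simp only [Function.mem_support, ne_eq] at hn
    simp only [HahnSeries.mem_support, ne_eq]
    exact fun h => hn (by rw [h, mul_zero])

@[simp] theorem rescaleFun_coeff (ζ : R) (f : LaurentSeries R) (n : ℤ) :
    (rescaleFun ζ f).coeff n = ζ ^ n * f.coeff n := rfl

theorem support_rescaleFun {ζ : R} (hζ : ζ ≠ 0) (f : LaurentSeries R) :
    (rescaleFun ζ f).support = f.support := by
  ext n
  simp only [HahnSeries.mem_support, rescaleFun_coeff, ne_eq, mul_eq_zero, zpow_ne_zero n hζ,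
    false_or]

theorem rescaleFun_mul {ζ : R} (hζ : ζ ≠ 0) (f g : LaurentSeries R) :
    rescaleFun ζ (f * g) = rescaleFun ζ f * rescaleFun ζ g := by
  ext a
  rw [rescaleFun_coeff, HahnSeries.coeff_mul, HahnSeries.coeff_mul, Finset.mul_sum]
  refine Finset.sum_congr ?_ fun ij hij => ?_
  · ext ij
    simp only [Finset.mem_antidiagonal, support_rescaleFun hζ]
  · have hsum : ij.1 + ij.2 = a := (Finset.mem_antidiagonal.mp hij).2.2
    rw [rescaleFun_coeff, rescaleFun_coeff, ← hsum, zpow_add₀ hζ]
    ring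

/-- **Rescaling** `∑ aₙ Xⁿ ↦ ∑ ζⁿ aₙ Xⁿ` as a ring homomorphism. -/
noncomputable def rescale (ζ : R) (hζ : ζ ≠ 0) : LaurentSeries R →+* LaurentSeries R where
  toFun := rescaleFun ζ
  map_one' := by
    ext n
    rw [rescaleFun_coeff, HahnSeries.coeff_one]
    split_ifs with h
    · rw [h, zpow_zero, mul_one]
    · rw [mul_zero]
  map_mul' := rescaleFun_mul hζ
  map_zero' := by
    ext n
    simp
  map_add' f g := by
    ext n
    simp [mul_add]

@[simp] theorem rescale_coeff (ζ : R) (hζ : ζ ≠ 0) (f : LaurentSeries R) (n : ℤ) :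
    (rescale ζ hζ f).coeff n = ζ ^ n * f.coeff n := rfl

theorem rescale_single' (ζ : R) (hζ : ζ ≠ 0) (k : ℤ) (c : R) :
    rescale ζ hζ (HahnSeries.single k c) = HahnSeries.single k (ζ ^ k * c) := by
  ext n
  rw [rescale_coeff]
  by_cases h : n = k
  · subst h
    simp
  · rw [HahnSeries.coeff_single_of_ne h, HahnSeries.coeff_single_of_ne h, mul_zero]

theorem rescale_C (ζ : R) (hζ : ζ ≠ 0) (c : R) :
    rescale ζ hζ (HahnSeries.C c) = HahnSeries.C c := by
  have := rescale_single' ζ hζ 0 c
  simpa using this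

theorem rescale_ofPowerSeries (ζ : R) (hζ : ζ ≠ 0) (p : PowerSeries R) :
    rescale ζ hζ (HahnSeries.ofPowerSeries ℤ R p) =
      HahnSeries.ofPowerSeries ℤ R (PowerSeries.rescale ζ p) := by
  ext n
  rw [rescale_coeff]
  by_cases hn : 0 ≤ n
  · obtain ⟨m, rfl⟩ := Int.eq_ofNat_of_zero_le hn
    rw [HahnSeries.ofPowerSeries_apply_coeff, HahnSeries.ofPowerSeries_apply_coeff,
      PowerSeries.coeff_rescale, zpow_natCast]
  · have h1 : ∀ q : PowerSeries R, (HahnSeries.ofPowerSeries ℤ R q).coeff n = 0 := by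
      intro q
      rw [HahnSeries.ofPowerSeries_apply]
      refine HahnSeries.embDomain_of_notMem_range ?_
      rintro ⟨m, rfl⟩
      exact hn (Int.natCast_nonneg m)
    rw [h1, h1, mul_zero]

theorem rescale_injective (ζ : R) (hζ : ζ ≠ 0) : Function.Injective (rescale ζ hζ) :=
  (rescale ζ hζ).injective

theorem order_rescale (ζ : R) (hζ : ζ ≠ 0) (f : LaurentSeries R) :
    (rescale ζ hζ f).order = f.order := by
  by_cases hf : f = 0
  · rw [hf, map_zero]
  · have hf' : rescale ζ hζ f ≠ 0 := fun h => hf ((rescale ζ hζ).injective (by rw [h, map_zero]))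
    rw [HahnSeries.order_of_ne hf', HahnSeries.order_of_ne hf]
    congr 1
    exact support_rescaleFun hζ f

end Fermat.Agent.S24.LaurentRescale
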