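import Mathlib
import Fermat.Prelude.Def_AlgebraicCurve_CanonicalDivisor

/-!
# S24, abstract local uniformisation: places of a function field induced by embeddings into
Laurent series

`F / K` is a field extension, `σ : F →+* LaurentSeries ℂ` a ring embedding which maps `K` to
series of order `0` and some element to a series of positive order.  Then `f ↦ order (σ f)` is a
discrete valuation of `F`, trivial on `K`; it defines a place `place σ` of `F / K` (in the sense of
the prelude), and `order (σ f) = g * (place σ).ord f` for a positive integer `g`.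
-/

set_option autoImplicit false

namespace Fermat.Agent.S24.Embed

open HahnSeries AlgebraicCurve

variable {K F : Type*} [Field K] [Field F] [Algebra K F]

section Order

variable (σ : F →+* LaurentSeries ℂ)

theorem map_ne_zero' {f : F} (hf : f ≠ 0) : σ f ≠ 0 := (map_ne_zero σ).mpr hf

theorem order_map_mul {f g : F} (hf : f ≠ 0) (hg : g ≠ 0) :
    (σ (f * g)).order = (σ f).order + (σ g).order := by
  rw [map_mul, order_mul (map_ne_zero' σ hf) (map_ne_zero' σ hg)]

theorem order_map_one : (σ 1).order = 0 := by rw [map_one, order_one]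

theorem order_map_zero : (σ 0).order = 0 := by rw [map_zero, order_zero]

theorem order_map_inv (f : F) : (σ f⁻¹).order = -(σ f).order := by
  rcases eq_or_ne f 0 with rfl | hf
  · simp
  · have := order_map_mul σ hf (inv_ne_zero hf)
    rw [mul_inv_cancel₀ hf, order_map_one] at this
    omega

theorem order_map_div {f g : F} (hf : f ≠ 0) (hg : g ≠ 0) :
    (σ (f / g)).order = (σ f).order - (σ g).order := by
  rw [div_eq_mul_inv, order_map_mul σ hf (inv_ne_zero hg), order_map_inv]
  ring

theorem order_map_pow (f : F) (n : ℕ) : (σ (f ^ n)).order = n * (σ f).order := by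
  rw [map_pow, order_pow]
  simp

theorem order_map_zpow (f : F) (n : ℤ) : (σ (f ^ n)).order = n * (σ f).order := by
  obtain ⟨m, rfl | rfl⟩ := n.eq_nat_or_neg
  · rw [zpow_natCast, order_map_pow]
  · rw [zpow_neg, zpow_natCast, order_map_inv, order_map_pow]
    ring

theorem order_map_neg (f : F) : (σ (-f)).order = (σ f).order := by
  rw [map_neg, order_neg]

theorem min_le_order_map_add {f g : F} (h : f + g ≠ 0) :
    min (σ f).order (σ g).order ≤ (σ (f + g)).order := by
  rw [map_add]
  exact min_order_le_order_add (by rw [← map_add]; exact map_ne_zero' σ h)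

end Order

section Place

variable (σ : F →+* LaurentSeries ℂ)

/-- the valuation subring of `F` of the elements whose image has nonnegative order -/
def vsub : ValuationSubring F where
  carrier := {f | 0 ≤ (σ f).order}
  mul_mem' := by
    intro a b ha hb
    simp only [Set.mem_ofPred_eq] at ha hb ⊢
    rcases eq_or_ne a 0 with rfl | ha0
    · simp
    rcases eq_or_ne b 0 with rfl | hb0
    · simp
    rw [order_map_mul σ ha0 hb0]
    omega
  one_mem' := by simp only [Set.mem_ofPred_eq]; rw [order_map_one]
  add_mem' := by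
    intro a b ha hb
    simp only [Set.mem_ofPred_eq] at ha hb ⊢
    rcases eq_or_ne (a + b) 0 with h | h
    · rw [h]; simp
    · exact le_trans (le_min ha hb) (min_le_order_map_add σ h)
  zero_mem' := by simp
  neg_mem' := by
    intro a ha
    simp only [Set.mem_ofPred_eq] at ha ⊢
    rwa [order_map_neg]
  mem_or_inv_mem' := by
    intro a
    simp only [Set.mem_ofPred_eq]
    rw [order_map_inv]
    omega

theorem mem_vsub {f : F} : f ∈ vsub σ ↔ 0 ≤ (σ f).order := Iff.rfl

theorem isUnit_vsub_iff (a : vsub σ) : IsUnit a ↔ a ≠ 0 ∧ (σ (a : F)).order = 0 := by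
  constructor
  · rintro ⟨u, rfl⟩
    have h1 : 0 ≤ (σ ((u : vsub σ) : F)).order := (u : vsub σ).2
    have h2 : 0 ≤ (σ (((u⁻¹ : (vsub σ)ˣ) : vsub σ) : F)).order := ((u⁻¹ : (vsub σ)ˣ) : vsub σ).2
    have h3 : (((u⁻¹ : (vsub σ)ˣ) : vsub σ) : F) = ((u : vsub σ) : F)⁻¹ := by
      have := congrArg (fun x : vsub σ => (x : F)) u.mul_inv
      simp only [MulMemClass.coe_mul, OneMemClass.coe_one] at this
      exact eq_inv_of_mul_eq_one_right this
    rw [h3, order_map_inv] at h2
    exact ⟨u.ne_zero, by omega⟩
  · rintro ⟨h0, h⟩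
    have h0' : (a : F) ≠ 0 := fun h' => h0 (Subtype.ext h')
    have hinv : (a : F)⁻¹ ∈ vsub σ := by
      rw [mem_vsub, order_map_inv, h]
      simp
    refine ⟨⟨a, ⟨_, hinv⟩, ?_, ?_⟩, rfl⟩
    · exact Subtype.ext (mul_inv_cancel₀ h0')
    · exact Subtype.ext (inv_mul_cancel₀ h0')

theorem isPrincipalIdealRing_vsub : IsPrincipalIdealRing (vsub σ) := by
  refine ⟨fun I => ?_⟩
  by_cases hI : I = ⊥
  · rw [hI]
    exact bot_isPrincipal
  · obtain ⟨b, hbI, hb0⟩ := Submodule.exists_mem_ne_zero_of_ne_bot hI
    -- choose an element of minimal order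
    let P : ℕ → Prop := fun n => ∃ a ∈ I, a ≠ 0 ∧ (σ (a : F)).order = n
    have hP : ∃ n, P n := ⟨((σ (b : F)).order).toNat, b, hbI, hb0, by
      have : 0 ≤ (σ (b : F)).order := b.2
      omega⟩
    classical
    obtain ⟨a, haI, ha0, han⟩ := Nat.find_spec hP
    have hmin := fun m => Nat.find_min hP (m := m)
    refine ⟨a, le_antisymm ?_ ?_⟩
    · intro c hc
      rw [Ideal.submodule_span_eq, Ideal.mem_span_singleton']
      rcases eq_or_ne c 0 with rfl | hc0
      · exact ⟨0, by simp⟩
      have ha0' : (a : F) ≠ 0 := fun h' => ha0 (Subtype.ext h')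
      have hc0' : (c : F) ≠ 0 := fun h' => hc0 (Subtype.ext h')
      have hle : (σ (a : F)).order ≤ (σ (c : F)).order := by
        by_contra hlt
        rw [not_le] at hlt
        have hcn : 0 ≤ (σ (c : F)).order := c.2
        refine hmin ((σ (c : F)).order).toNat ?_ ⟨c, hc, hc0, by omega⟩
        omega
      have hmem : (c : F) / (a : F) ∈ vsub σ := by
        rw [mem_vsub, order_map_div σ hc0' ha0']
        omega
      exact ⟨⟨_, hmem⟩, Subtype.ext (by simp [div_mul_cancel₀ _ ha0'])⟩
    · rw [Ideal.submodule_span_eq, Ideal.span_singleton_le_iff_mem]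
      exact haI

variable (hK : ∀ k : K, (σ (algebraMap K F k)).order = 0) (t : F) (ht : 0 < (σ t).order)

/-- the place of `F / K` induced by the embedding `σ` -/
def place : Place K F where
  toValuationSubring := vsub σ
  algebraMap_mem' := fun a => (hK a).ge
  ne_top' := by
    intro h
    have : t⁻¹ ∈ vsub σ := by rw [h]; exact ValuationSubring.mem_top _
    rw [mem_vsub, order_map_inv] at this
    omega
  isPrincipalIdealRing' := isPrincipalIdealRing_vsub σ

@[simp] theorem place_toValuationSubring : (place σ hK t ht).toValuationSubring = vsub σ := rfl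

theorem mem_place_iff (f : F) :
    f ∈ (place σ hK t ht).toValuationSubring ↔ 0 ≤ (σ f).order := Iff.rfl

end Place

section Induced

/-- The place `v` is induced by the embedding `σ`, with ramification `g`:
`order (σ f) = g * v.ord f`. -/
structure IsInducedBy (v : Place K F) (σ : F →+* LaurentSeries ℂ) (g : ℕ) : Prop where
  pos : 0 < g
  order_eq : ∀ f : F, f ≠ 0 → (σ f).order = (g : ℤ) * v.ord f

variable {σ : F →+* LaurentSeries ℂ}

theorem IsInducedBy.mem_iff {v : Place K F} {g : ℕ} (h : IsInducedBy v σ g) (f : F) :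
    f ∈ v.toValuationSubring ↔ 0 ≤ (σ f).order := by
  rcases eq_or_ne f 0 with rfl | hf
  · simp
  obtain ⟨π, hπ⟩ := IsDiscreteValuationRing.exists_irreducible v.toValuationSubring
  obtain ⟨u, hu⟩ := v.exists_unit_mul_zpow hf hπ
  have hg : (0 : ℤ) < g := by exact_mod_cast h.pos
  rw [h.order_eq f hf]
  have hπ0 : (π : F) ≠ 0 := fun h0 => hπ.ne_zero (Subtype.ext h0)
  constructor
  · intro hmem
    by_contra hneg
    rw [not_le] at hneg
    have hn : v.ord f < 0 := by
      by_contra h'
      rw [not_lt] at h'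
      have := mul_nonneg hg.le h'
      omega
    -- then π ^ (-ord f) = u * f⁻¹ ... ; easier: f⁻¹ is in the ring and is a nonunit
    have hfinv : f⁻¹ = ((u⁻¹ : (v.toValuationSubring)ˣ) : v.toValuationSubring) *
        (π : F) ^ (-(v.ord f)) := by
      have hu0 : (((u : (v.toValuationSubring)ˣ) : v.toValuationSubring) : F) ≠ 0 := by
        intro h0
        exact u.ne_zero (Subtype.ext h0)
      have hcoe : (((u⁻¹ : (v.toValuationSubring)ˣ) : v.toValuationSubring) : F) =
          (((u : (v.toValuationSubring)ˣ) : v.toValuationSubring) : F)⁻¹ := by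
        have := congrArg (fun x : v.toValuationSubring => (x : F)) u.mul_inv
        simp only [MulMemClass.coe_mul, OneMemClass.coe_one] at this
        exact eq_inv_of_mul_eq_one_right this
      rw [hcoe, zpow_neg]
      conv_lhs => rw [hu]
      rw [mul_inv]
    obtain ⟨m, hm⟩ : ∃ m : ℕ, -(v.ord f) = (m + 1 : ℕ) := ⟨(-(v.ord f) - 1).toNat, by omega⟩
    have hmem' : f⁻¹ ∈ v.toValuationSubring := by
      rw [hfinv, hm, zpow_natCast]
      exact mul_mem (SetLike.coe_mem _) (pow_mem (SetLike.coe_mem _) _)
    have hunit : IsUnit (⟨f, hmem⟩ : v.toValuationSubring) :=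
      ⟨⟨⟨f, hmem⟩, ⟨f⁻¹, hmem'⟩, Subtype.ext (mul_inv_cancel₀ hf),
        Subtype.ext (inv_mul_cancel₀ hf)⟩, rfl⟩
    obtain ⟨w, hw⟩ := hunit
    have := v.ord_coe_unit w
    rw [hw] at this
    simp only at this
    omega
  · intro hnn
    have hn : 0 ≤ v.ord f := by
      by_contra h'
      rw [not_le] at h'
      have := mul_neg_of_pos_of_neg hg h'
      omega
    obtain ⟨m, hm⟩ : ∃ m : ℕ, v.ord f = (m : ℕ) := ⟨(v.ord f).toNat, by omega⟩
    rw [hu, hm, zpow_natCast]
    exact mul_mem (SetLike.coe_mem _) (pow_mem (SetLike.coe_mem _) _)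

theorem IsInducedBy.toValuationSubring_eq {v : Place K F} {g : ℕ} (h : IsInducedBy v σ g) :
    v.toValuationSubring = vsub σ := by
  ext f
  exact h.mem_iff f

/-- Two places induced by the same embedding coincide. -/
theorem IsInducedBy.unique {v v' : Place K F} {g g' : ℕ} (h : IsInducedBy v σ g)
    (h' : IsInducedBy v' σ g') : v = v' :=
  Place.ext (h.toValuationSubring_eq.trans h'.toValuationSubring_eq.symm)

variable (σ)

/-- **Existence of the induced place.** -/
theorem exists_isInducedBy (hK : ∀ k : K, (σ (algebraMap K F k)).order = 0) (t : F)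
    (ht : 0 < (σ t).order) : ∃ g : ℕ, IsInducedBy (place σ hK t ht) σ g := by
  set v := place σ hK t ht with hv
  obtain ⟨π, hπ⟩ := IsDiscreteValuationRing.exists_irreducible v.toValuationSubring
  have hπ0 : (π : F) ≠ 0 := fun h0 => hπ.ne_zero (Subtype.ext h0)
  have hπnn : 0 ≤ (σ (π : F)).order := π.2
  have hπpos : 0 < (σ (π : F)).order := by
    rcases hπnn.lt_or_eq with h | h
    · exact h
    · exact absurd ((isUnit_vsub_iff σ π).mpr ⟨hπ.ne_zero, h.symm⟩) hπ.not_isUnit
  refine ⟨((σ (π : F)).order).toNat, by omega, fun f hf => ?_⟩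
  obtain ⟨u, hu⟩ := v.exists_unit_mul_zpow hf hπ
  have hu0 : (((u : (v.toValuationSubring)ˣ) : v.toValuationSubring) : F) ≠ 0 := by
    intro h0
    exact u.ne_zero (Subtype.ext h0)
  have huo : (σ (((u : (v.toValuationSubring)ˣ) : v.toValuationSubring) : F)).order = 0 :=
    ((isUnit_vsub_iff σ _).mp u.isUnit).2
  conv_lhs => rw [hu]
  rw [order_map_mul σ hu0 (zpow_ne_zero _ hπ0), huo, order_map_zpow, zero_add,
    Int.toNat_of_nonneg hπnn]
  ring

end Induced

end Fermat.Agent.S24.Embed
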