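import Mathlib
import Fermat.Agent.S24.FFBasic
import Fermat.Agent.S24.Embed

/-!
# S24, the differential formula

* the formal derivative `dw` of Laurent series over `ℂ`: Leibniz rule, orders;
* if the place `v` of `F / K` is induced by an embedding `σ : F →+* LaurentSeries ℂ` which maps
  the constants to constants, then `v.ordDifferential (D f) = v.ord f - 1` for every `f` with
  `v.ord f ≠ 0` (tame ramification in characteristic `0`).
-/

set_option autoImplicit false
set_option linter.style.haveILetI false

namespace Fermat.Agent.S24.Deriv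

open HahnSeries AlgebraicCurve Fermat.Agent.S24 Fermat.Agent.S24.Embed

/-! ### The formal derivative -/

/-- the formal derivative of Laurent series -/
noncomputable def dw : LaurentSeries ℂ →ₗ[ℂ] LaurentSeries ℂ := LaurentSeries.derivative ℂ

theorem coeff_dw (f : LaurentSeries ℂ) (n : ℤ) :
    (dw f).coeff n = ((n : ℂ) + 1) * f.coeff (n + 1) := by
  rw [dw, LaurentSeries.derivative_apply, LaurentSeries.hasseDeriv_coeff]
  simp

theorem dw_C (c : ℂ) : dw (C c) = 0 := by
  ext n
  rw [coeff_dw, coeff_zero]
  rcases eq_or_ne (n + 1) 0 with h | h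
  · have : ((n : ℂ) + 1) = 0 := by exact_mod_cast h
    rw [this, zero_mul]
  · rw [C_apply, coeff_single_of_ne h, mul_zero]

theorem dw_ofPowerSeries (p : PowerSeries ℂ) :
    dw (ofPowerSeries ℤ ℂ p) = ofPowerSeries ℤ ℂ (PowerSeries.derivative ℂ p) := by
  ext n
  rw [coeff_dw]
  rcases lt_or_ge n 0 with hn | hn
  · rw [show (ofPowerSeries ℤ ℂ (PowerSeries.derivative ℂ p)).coeff n = 0 from by
      have := PowerSeries.coeff_coe (PowerSeries.derivative ℂ p) n
      rw [if_pos hn] at this
      exact this]
    rcases eq_or_ne (n + 1) 0 with h | h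
    · have : ((n : ℂ) + 1) = 0 := by exact_mod_cast h
      rw [this, zero_mul]
    · have h' : n + 1 < 0 := by omega
      have := PowerSeries.coeff_coe p (n + 1)
      rw [if_pos h'] at this
      rw [show (ofPowerSeries ℤ ℂ p).coeff (n + 1) = 0 from this, mul_zero]
  · obtain ⟨m, rfl⟩ : ∃ m : ℕ, n = m := ⟨n.toNat, by omega⟩
    rw [show ((m : ℤ) + 1) = ((m + 1 : ℕ) : ℤ) from by push_cast; rfl,
      ofPowerSeries_apply_coeff, ofPowerSeries_apply_coeff, PowerSeries.coeff_derivative]
    push_cast
    ring

theorem dw_single_mul (a : ℤ) (h : LaurentSeries ℂ) :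
    dw (single a 1 * h) = single a 1 * dw h + single (a - 1) (a : ℂ) * h := by
  ext n
  rw [coeff_dw, coeff_add, coeff_single_mul, coeff_single_mul, coeff_single_mul, coeff_dw]
  have h1 : n + 1 - a = n - a + 1 := by ring
  have h2 : n - (a - 1) = n - a + 1 := by ring
  rw [h1, h2]
  push_cast
  ring

/-- the Leibniz rule -/
theorem dw_mul (f g : LaurentSeries ℂ) : dw (f * g) = f * dw g + g * dw f := by
  have hf := LaurentSeries.single_order_mul_powerSeriesPart f
  have hg := LaurentSeries.single_order_mul_powerSeriesPart g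
  set a := f.order
  set b := g.order
  set p := f.powerSeriesPart
  set q := g.powerSeriesPart
  have e1 : single a (1 : ℂ) * single b 1 = single (a + b) 1 := by
    rw [single_mul_single, one_mul]
  have e2 : single a (1 : ℂ) * single (b - 1) (b : ℂ) = single (a + b - 1) (b : ℂ) := by
    rw [single_mul_single, one_mul, show a + (b - 1) = a + b - 1 from by ring]
  have e3 : single b (1 : ℂ) * single (a - 1) (a : ℂ) = single (a + b - 1) (a : ℂ) := by
    rw [single_mul_single, one_mul, show b + (a - 1) = a + b - 1 from by ring]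
  have e4 : (single (a + b - 1) (((a + b : ℤ) : ℂ)) : LaurentSeries ℂ)
      = single (a + b - 1) (a : ℂ) + single (a + b - 1) (b : ℂ) := by
    rw [← single_add]
    push_cast
    rfl
  have hfg : f * g = single (a + b) 1 * ofPowerSeries ℤ ℂ (p * q) := by
    rw [map_mul, ← e1, ← hf, ← hg]
    ring
  have hdf : dw f = single a 1 * ofPowerSeries ℤ ℂ (PowerSeries.derivative ℂ p)
      + single (a - 1) (a : ℂ) * ofPowerSeries ℤ ℂ p := by
    conv_lhs => rw [← hf]
    rw [dw_single_mul, dw_ofPowerSeries]
  have hdg : dw g = single b 1 * ofPowerSeries ℤ ℂ (PowerSeries.derivative ℂ q)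
      + single (b - 1) (b : ℂ) * ofPowerSeries ℤ ℂ q := by
    conv_lhs => rw [← hg]
    rw [dw_single_mul, dw_ofPowerSeries]
  have hleib : PowerSeries.derivative ℂ (p * q)
      = p * PowerSeries.derivative ℂ q + q * PowerSeries.derivative ℂ p := by
    rw [Derivation.leibniz, smul_eq_mul, smul_eq_mul]
  rw [hfg, dw_single_mul, dw_ofPowerSeries, hleib, hdf, hdg, e4]
  conv_rhs => rw [← hf, ← hg]
  simp only [map_add, map_mul]
  linear_combination (-(ofPowerSeries ℤ ℂ p * ofPowerSeries ℤ ℂ (PowerSeries.derivative ℂ q)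
      + ofPowerSeries ℤ ℂ q * ofPowerSeries ℤ ℂ (PowerSeries.derivative ℂ p))) * e1
    - (ofPowerSeries ℤ ℂ p * ofPowerSeries ℤ ℂ q) * e2
    - (ofPowerSeries ℤ ℂ p * ofPowerSeries ℤ ℂ q) * e3

theorem coeff_dw_order_sub_one (s : LaurentSeries ℂ) :
    (dw s).coeff (s.order - 1) = (s.order : ℂ) * s.coeff s.order := by
  rw [coeff_dw, sub_add_cancel]
  push_cast
  ring_nf

theorem dw_ne_zero {s : LaurentSeries ℂ} (hs : s.order ≠ 0) : dw s ≠ 0 := by
  have hs0 : s ≠ 0 := by
    intro h0
    rw [h0, order_zero] at hs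
    exact hs rfl
  intro h0
  have := coeff_dw_order_sub_one s
  rw [h0, coeff_zero] at this
  rcases mul_eq_zero.mp this.symm with h | h
  · exact hs (by exact_mod_cast h)
  · exact hs0 (coeff_order_eq_zero.mp h)

/-- in characteristic `0`, differentiation lowers a nonzero order by exactly one -/
theorem order_dw {s : LaurentSeries ℂ} (hs : s.order ≠ 0) : (dw s).order = s.order - 1 := by
  have hs0 : s ≠ 0 := by
    intro h0
    rw [h0, order_zero] at hs
    exact hs rfl
  apply le_antisymm
  · apply order_le_of_coeff_ne_zero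
    rw [coeff_dw_order_sub_one]
    exact mul_ne_zero (by exact_mod_cast hs) (fun h => hs0 (coeff_order_eq_zero.mp h))
  · by_contra hlt
    rw [not_le] at hlt
    have h1 : (dw s).coeff (dw s).order = 0 := by
      rw [coeff_dw, coeff_eq_zero_of_lt_order (by omega), mul_zero]
    exact dw_ne_zero hs (coeff_order_eq_zero.mp h1)

/-! ### The derivation attached to an embedding and the differential formula -/

section Differential

open KaehlerDifferential

variable {K F : Type*} [Field K] [Field F] [Algebra K F]

/-- The differential of the (private) uniformizer of the prelude is the differential of an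
element of order `1`. -/
theorem exists_dCoord_eq (v : Place K F) :
    ∃ π : F, π ≠ 0 ∧ v.ord π = 1 ∧ v.dCoord = D K F π := by
  have hirr := (IsDiscreteValuationRing.exists_irreducible v.toValuationSubring).choose_spec
  refine ⟨_, ?_, v.ord_coe_irreducible hirr, rfl⟩
  intro h0
  exact hirr.ne_zero (Subtype.ext h0)

/-- **Transport of linear relations between differentials.**  If `σ` maps constants to
constants, every relation `D f = c • D π` in `Ω[F⁄K]` gives
`dw (σ f) = σ c * dw (σ π)`. -/
theorem dw_map_eq_of_D_eq (σ : F →+* LaurentSeries ℂ) (ι : K →+* ℂ)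
    (hconst : ∀ k, σ (algebraMap K F k) = C (ι k)) {f π c : F}
    (h : D K F f = c • D K F π) : dw (σ f) = σ c * dw (σ π) := by
  letI modF : Module F (LaurentSeries ℂ) := Module.compHom _ σ
  letI modK : Module K (LaurentSeries ℂ) := Module.compHom _ (σ.comp (algebraMap K F))
  have hsmulF : ∀ (a : F) (m : LaurentSeries ℂ), a • m = σ a * m := fun _ _ => rfl
  have hsmulK : ∀ (k : K) (m : LaurentSeries ℂ), k • m = σ (algebraMap K F k) * m :=
    fun _ _ => rfl
  haveI : IsScalarTower K F (LaurentSeries ℂ) := ⟨fun k a m => by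
    rw [hsmulF, hsmulK, hsmulF, Algebra.smul_def, map_mul, mul_assoc]⟩
  let δ : Derivation K F (LaurentSeries ℂ) :=
    { toFun := fun a => dw (σ a)
      map_add' := fun a b => by rw [map_add, map_add]
      map_smul' := fun k a => by
        rw [RingHom.id_apply, hsmulK, Algebra.smul_def, map_mul, dw_mul, hconst, dw_C, mul_zero,
          add_zero]
      map_one_eq_zero' := by
        show dw (σ 1) = 0
        rw [map_one, ← C_one, dw_C]
      leibniz' := fun a b => by
        show dw (σ (a * b)) = a • dw (σ b) + b • dw (σ a)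
        rw [hsmulF, hsmulF, map_mul, dw_mul] }
  have hδ : ∀ a, δ.liftKaehlerDifferential (D K F a) = dw (σ a) := fun a =>
    Derivation.liftKaehlerDifferential_comp_D δ a
  have := congrArg δ.liftKaehlerDifferential h
  rw [map_smul, hδ, hδ, hsmulF] at this
  exact this

/-- **The differential formula.**  If the place `v` is induced by an embedding `σ` mapping
constants to constants, then for every `f` whose order at `v` is nonzero and every `c` with
`D f = c • v.dCoord` one has `v.ord c = v.ord f - 1`. -/
theorem ord_coeff_eq (v : Place K F) (σ : F →+* LaurentSeries ℂ) (ι : K →+* ℂ)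
    (hconst : ∀ k, σ (algebraMap K F k) = C (ι k)) {g : ℕ} (hind : IsInducedBy v σ g)
    {f : F} (hf : v.ord f ≠ 0) {c : F} (hc : D K F f = c • v.dCoord) :
    v.ord c = v.ord f - 1 := by
  obtain ⟨π, hπ0, hπ, hdπ⟩ := exists_dCoord_eq v
  rw [hdπ] at hc
  have hrel := dw_map_eq_of_D_eq σ ι hconst hc
  have hg : (0 : ℤ) < g := by exact_mod_cast hind.pos
  have hf0 : f ≠ 0 := by
    intro h0
    rw [h0, v.ord_zero] at hf
    exact hf rfl
  have h1 : (σ f).order = g * v.ord f := hind.order_eq f hf0
  have h2 : (σ π).order = g := by rw [hind.order_eq π hπ0, hπ, mul_one]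
  have h1' : (σ f).order ≠ 0 := by
    rw [h1]
    exact mul_ne_zero hg.ne' hf
  have h2' : (σ π).order ≠ 0 := by
    rw [h2]
    exact hg.ne'
  have h3 := order_dw h1'
  have h4 := order_dw h2'
  have h5 := dw_ne_zero h1'
  have h6 := dw_ne_zero h2'
  have hc0 : c ≠ 0 := by
    intro h0
    rw [h0, map_zero, zero_mul] at hrel
    exact h5 hrel
  have h7 : (σ c).order = g * v.ord c := hind.order_eq c hc0
  have h8 : (dw (σ f)).order = (σ c).order + (dw (σ π)).order := by
    rw [hrel, order_mul (map_ne_zero' σ hc0) h6]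
  rw [h3, h4, h1, h2, h7] at h8
  have h9 : (g : ℤ) * (v.ord f - 1 - v.ord c) = 0 := by linear_combination h8
  rcases mul_eq_zero.mp h9 with h | h
  · exact absurd h hg.ne'
  · omega

/-- **The differential formula**, in terms of `ordDifferential`. -/
theorem ordDifferential_D_eq (v : Place K F) (σ : F →+* LaurentSeries ℂ) (ι : K →+* ℂ)
    (hconst : ∀ k, σ (algebraMap K F k) = C (ι k)) {g : ℕ} (hind : IsInducedBy v σ g)
    {f : F} (hf : v.ord f ≠ 0) (hspan : ∃ c : F, D K F f = c • v.dCoord) :
    v.ordDifferential (D K F f) = v.ord f - 1 := by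
  have h1 : D K F f = v.differentialCoeff (D K F f) • v.dCoord := by
    rw [Place.differentialCoeff, dif_pos hspan]
    exact hspan.choose_spec
  rw [Place.ordDifferential]
  exact ord_coeff_eq v σ ι hconst hind hf h1

/-- The differential formula when `D π` generates the differentials. -/
theorem ordDifferential_D_eq' (v : Place K F) [v.DCoordGenerates] (σ : F →+* LaurentSeries ℂ)
    (ι : K →+* ℂ) (hconst : ∀ k, σ (algebraMap K F k) = C (ι k)) {g : ℕ}
    (hind : IsInducedBy v σ g) {f : F} (hf : v.ord f ≠ 0) :
    v.ordDifferential (D K F f) = v.ord f - 1 :=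
  ordDifferential_D_eq v σ ι hconst hind hf (v.exists_eq_smul_dCoord _)

/-- A nonzero derivation exists: `D f ≠ 0` as soon as `f` has nonzero order at an induced
place. -/
theorem D_ne_zero (v : Place K F) (σ : F →+* LaurentSeries ℂ) (ι : K →+* ℂ)
    (hconst : ∀ k, σ (algebraMap K F k) = C (ι k)) {g : ℕ} (hind : IsInducedBy v σ g)
    {f : F} (hf : v.ord f ≠ 0) : D K F f ≠ 0 := by
  intro h0
  have hg : (0 : ℤ) < g := by exact_mod_cast hind.pos
  have hf0 : f ≠ 0 := by
    intro h0
    rw [h0, v.ord_zero] at hf
    exact hf rfl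
  have h1 : (σ f).order ≠ 0 := by
    rw [hind.order_eq f hf0]
    exact mul_ne_zero hg.ne' hf
  have h : D K F f = (0 : F) • D K F f := by rw [zero_smul, h0]
  have := dw_map_eq_of_D_eq σ ι hconst h
  rw [map_zero, zero_mul] at this
  exact dw_ne_zero h1 this

theorem nontrivial_kaehler (v : Place K F) (σ : F →+* LaurentSeries ℂ) (ι : K →+* ℂ)
    (hconst : ∀ k, σ (algebraMap K F k) = C (ι k)) {g : ℕ} (hind : IsInducedBy v σ g) :
    Nontrivial Ω[F⁄K] := by
  obtain ⟨π, hπ0, hπ⟩ := exists_uniformizer v
  exact ⟨⟨D K F π, 0, D_ne_zero v σ ι hconst hind (by rw [hπ]; exact one_ne_zero)⟩⟩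

end Differential

end Fermat.Agent.S24.Deriv
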