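import Mathlib
import Fermat.Agent.S24.FFBasic
import Fermat.Agent.S24.Embed
import Fermat.Agent.S24.Deriv

/-!
# S24, the counting theorem: places over a point = orbits of the local monodromy

`F / K` a function field, `x : F`.  Suppose we are given a finite set `X` with a permutation
`a ↦ γ • a` and embeddings `σ a : F →+* LaurentSeries ℂ` (`a : X`), semilinear over an embedding
`ι : K →+* ℂ` of the constants, which all agree on `x`, with `order (σ a x) = e₀ > 0`, pairwise
distinct, and such that `σ (γ • a)` is the twist of `σ a` by a primitive `e₀`-th root of unity.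
If the residue fields of the places of `F` are `K` (H1) and the zeros of `x`, counted with
multiplicity, are at most `card X` (H2, the easy half of the fundamental identity), then
the places `v` of `F` with `0 < v.ord x` are in bijection with the orbits of `γ` on `X`, every such
place is induced by some `σ a`, and `v.ord x` is the size of the corresponding orbit.
-/

set_option autoImplicit false
set_option linter.unusedSectionVars false
set_option linter.unusedVariables false
set_option linter.style.haveILetI false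

namespace Fermat.Agent.S24.Embed

open HahnSeries AlgebraicCurve Fermat.Agent.S24

variable {K F : Type*} [Field K] [Field F] [Algebra K F]

/-! ### Helpers on orders of Laurent series -/

theorem orderTop_nonneg_of_order_nonneg {s : LaurentSeries ℂ} (h : 0 ≤ s.order) :
    (0 : WithTop ℤ) ≤ s.orderTop := by
  rcases eq_or_ne s 0 with rfl | hs
  · rw [orderTop_zero]; exact le_top
  · rw [← order_eq_orderTop_of_ne_zero hs]; exact_mod_cast h

theorem order_eq_of_coeff_eq_mul {s t : LaurentSeries ℂ} (c : ℤ → ℂ) (hc : ∀ n, c n ≠ 0)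
    (h : ∀ n, t.coeff n = c n * s.coeff n) : t.order = s.order := by
  rcases eq_or_ne s 0 with rfl | hs
  · have : t = 0 := by
      ext n
      rw [h n]
      simp
    rw [this]
  have ht : t ≠ 0 := by
    intro h0
    apply hs
    ext n
    have := h n
    rw [h0] at this
    simp only [coeff_zero] at this ⊢
    rcases mul_eq_zero.mp this.symm with h1 | h1
    · exact absurd h1 (hc n)
    · exact h1
  apply le_antisymm
  · apply order_le_of_coeff_ne_zero
    rw [h]
    exact mul_ne_zero (hc _) (fun h0 => hs (coeff_order_eq_zero.mp h0))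
  · apply order_le_of_coeff_ne_zero
    intro h0
    have := h t.order
    rw [h0, mul_zero] at this
    exact ht (coeff_order_eq_zero.mp this)

/-! ### Expansions in a valuation ring with residue field `K` -/

section Expansion

variable (v : Place K F)

/-- `π`-adic expansion with remainder. -/
theorem exists_expansion
    (H1 : ∀ f : F, 0 ≤ v.ord f →
      ∃ c : K, f = algebraMap K F c ∨ 0 < v.ord (f - algebraMap K F c))
    {π : F} (hπ0 : π ≠ 0) (hπ : v.ord π = 1) (m : ℕ) (r : F) (hr : 0 ≤ v.ord r) :
    ∃ c : ℕ → K, ∃ s : F, 0 ≤ v.ord s ∧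
      r = ∑ k ∈ Finset.range m, algebraMap K F (c k) * π ^ k + π ^ m * s := by
  induction m with
  | zero => exact ⟨fun _ => 0, r, hr, by simp⟩
  | succ m ih =>
    obtain ⟨c, s, hs, hrs⟩ := ih
    obtain ⟨c', hc'⟩ := H1 s hs
    have hs' : 0 ≤ v.ord ((s - algebraMap K F c') / π) := by
      rcases hc' with h | h
      · rw [h, sub_self, zero_div, v.ord_zero]
      · have hne : s - algebraMap K F c' ≠ 0 := by
          intro h0
          rw [h0, v.ord_zero] at h
          exact lt_irrefl _ h
        rw [ord_div v hne hπ0, hπ]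
        omega
    refine ⟨fun k => if k < m then c k else c', (s - algebraMap K F c') / π, hs', ?_⟩
    rw [Finset.sum_range_succ]
    have h1 : ∑ k ∈ Finset.range m, algebraMap K F (if k < m then c k else c') * π ^ k
        = ∑ k ∈ Finset.range m, algebraMap K F (c k) * π ^ k :=
      Finset.sum_congr rfl (fun k hk => by rw [if_pos (Finset.mem_range.mp hk)])
    rw [h1]
    simp only [if_neg (lt_irrefl m)]
    conv_lhs => rw [hrs]
    field_simp
    ring

/-- Division with remainder by powers of `x`: the valuation ring is spanned over any subring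
containing `K` and `x` by `1, π, …, π ^ (e - 1)` modulo `x ^ n`, where `e = v.ord x`. -/
theorem exists_division
    (H1 : ∀ f : F, 0 ≤ v.ord f →
      ∃ c : K, f = algebraMap K F c ∨ 0 < v.ord (f - algebraMap K F c))
    {π : F} (hπ0 : π ≠ 0) (hπ : v.ord π = 1) {x : F} (hx : 0 < v.ord x)
    (R₀ : Subring F) (hR₀ : ∀ k : K, algebraMap K F k ∈ R₀) (hxR₀ : x ∈ R₀)
    (n : ℕ) (f : F) (hf : 0 ≤ v.ord f) :
    ∃ q : ℕ → F, (∀ k, q k ∈ R₀) ∧ ∃ r : F, 0 ≤ v.ord r ∧
      f = ∑ k ∈ Finset.range (v.ord x).toNat, q k * π ^ k + x ^ n * r := by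
  have hx0 : x ≠ 0 := by
    intro h0
    rw [h0, v.ord_zero] at hx
    exact lt_irrefl _ hx
  induction n with
  | zero => exact ⟨fun _ => 0, fun _ => R₀.zero_mem, f, hf, by simp⟩
  | succ n ih =>
    obtain ⟨q, hq, r, hr, hfr⟩ := ih
    obtain ⟨c, s, hs, hrs⟩ := exists_expansion v H1 hπ0 hπ (v.ord x).toNat r hr
    set e := (v.ord x).toNat with he
    have hw : v.ord (π ^ e / x) = 0 := by
      rw [ord_div v (pow_ne_zero _ hπ0) hx0, ord_pow, hπ]
      omega
    have hws : 0 ≤ v.ord (π ^ e / x * s) := by
      rcases eq_or_ne s 0 with rfl | hs0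
      · simp
      · rw [v.ord_mul (div_ne_zero (pow_ne_zero _ hπ0) hx0) hs0, hw]
        omega
    refine ⟨fun k => q k + algebraMap K F (c k) * x ^ n, fun k =>
      R₀.add_mem (hq k) (R₀.mul_mem (hR₀ _) (R₀.pow_mem hxR₀ _)), π ^ e / x * s, hws, ?_⟩
    conv_lhs => rw [hfr, hrs]
    simp only [add_mul, Finset.sum_add_distrib, mul_add, Finset.mul_sum]
    rw [add_assoc]
    congr 1
    congr 1
    · exact Finset.sum_congr rfl (fun k _ => by ring)
    · field_simp
      ring

end Expansion

/-! ### At most `e` embeddings induce a place of ramification `e` -/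

/-- the subring on which a family of ring homomorphisms agrees -/
def eqSubring {I : Type*} (τ : I → F →+* LaurentSeries ℂ) : Subring F where
  carrier := {y | ∀ i j, τ i y = τ j y}
  mul_mem' := by
    intro a b ha hb i j
    rw [map_mul, map_mul, ha i j, hb i j]
  one_mem' := by
    intro i j
    rw [map_one, map_one]
  add_mem' := by
    intro a b ha hb i j
    rw [map_add, map_add, ha i j, hb i j]
  zero_mem' := by
    intro i j
    rw [map_zero, map_zero]
  neg_mem' := by
    intro a ha i j
    rw [map_neg, map_neg, ha i j]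

theorem mem_eqSubring {I : Type*} (τ : I → F →+* LaurentSeries ℂ) (y : F) :
    y ∈ eqSubring τ ↔ ∀ i j, τ i y = τ j y := Iff.rfl

/-- **Local bound.**  If the pairwise distinct embeddings `τ i` all induce the place `v`, and
agree on `K` and on `x`, then their number is at most `v.ord x`. -/
theorem card_le_ord (v : Place K F)
    (H1 : ∀ f : F, 0 ≤ v.ord f →
      ∃ c : K, f = algebraMap K F c ∨ 0 < v.ord (f - algebraMap K F c))
    {x : F} (hx : 0 < v.ord x)
    {I : Type*} [Fintype I] (τ : I → F →+* LaurentSeries ℂ) (hτ : Function.Injective τ)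
    (hconst : ∀ i j k, τ i (algebraMap K F k) = τ j (algebraMap K F k))
    (hagree : ∀ i j, τ i x = τ j x)
    (hind : ∀ i, ∃ g, IsInducedBy v (τ i) g) :
    (Fintype.card I : ℤ) ≤ v.ord x := by
  classical
  by_contra hlt
  rw [not_le] at hlt
  set e := (v.ord x).toNat with he
  have hecard : e < Fintype.card I := by omega
  have hx0 : x ≠ 0 := by
    intro h0
    rw [h0, v.ord_zero] at hx
    exact lt_irrefl _ hx
  obtain ⟨π, hπ0, hπ⟩ := exists_uniformizer v
  -- a nontrivial linear relation between the vectors `(τ i π ^ k)_{k < e}`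
  let vec : I → (Fin e → LaurentSeries ℂ) := fun i k => (τ i π) ^ (k : ℕ)
  have hdep : ¬ LinearIndependent (LaurentSeries ℂ) vec := by
    intro hli
    have := hli.fintype_card_le_finrank
    rw [Module.finrank_fin_fun] at this
    omega
  rw [Fintype.not_linearIndependent_iff] at hdep
  obtain ⟨lam, hsum, i₀, hi₀⟩ := hdep
  have hvan : ∀ k, k < e → ∑ i, lam i * (τ i π) ^ k = 0 := by
    intro k hk
    have := congrFun hsum ⟨k, hk⟩
    simpa [vec, Finset.sum_apply] using this
  -- orders
  have hord_mem : ∀ i (f : F), 0 ≤ v.ord f → 0 ≤ (τ i f).order := by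
    intro i f hf
    obtain ⟨g, hg⟩ := hind i
    rcases eq_or_ne f 0 with rfl | hf0
    · simp
    · exact (hg.mem_iff f).mp (mem_of_ord_nonneg v hf0 hf)
  have hQ : (1 : WithTop ℤ) ≤ (τ i₀ x).orderTop := by
    obtain ⟨g, hg⟩ := hind i₀
    have h1 := hg.order_eq x hx0
    have h2 : (0 : ℤ) < g := by exact_mod_cast hg.pos
    have h3 : (1 : ℤ) ≤ (τ i₀ x).order := by
      rw [h1]
      nlinarith
    rw [← order_eq_orderTop_of_ne_zero (map_ne_zero' _ hx0)]
    exact_mod_cast h3
  -- a lower bound for the orders of the coefficients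
  obtain ⟨M, hM⟩ : ∃ M : ℤ, ∀ i, M ≤ (lam i).order := by
    obtain ⟨M', hM'⟩ := (Finset.univ.image fun i => -(lam i).order).exists_le
    refine ⟨-M', fun i => ?_⟩
    have := hM' _ (Finset.mem_image_of_mem _ (Finset.mem_univ i))
    omega
  have hM' : ∀ i, (M : WithTop ℤ) ≤ (lam i).orderTop := by
    intro i
    rcases eq_or_ne (lam i) 0 with h0 | h0
    · rw [h0, orderTop_zero]; exact le_top
    · rw [← order_eq_orderTop_of_ne_zero h0]
      exact_mod_cast hM i
  -- the functional `Σ lam i * τ i` vanishes on the valuation ring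
  have hkey : ∀ f : F, 0 ≤ v.ord f → ∑ i, lam i * τ i f = 0 := by
    intro f hf
    by_contra hy
    set y := ∑ i, lam i * τ i f with hydef
    set n := (y.order - M + 1).toNat with hn
    obtain ⟨q, hq, r, hr, hfr⟩ := exists_division v H1 hπ0 hπ hx (eqSubring τ)
      (fun k i j => hconst i j k) (fun i j => hagree i j) n f hf
    have h1 : ∀ i, τ i f = ∑ k ∈ Finset.range e, τ i₀ (q k) * (τ i π) ^ k
        + (τ i₀ x) ^ n * τ i r := by
      intro i
      conv_lhs => rw [hfr]
      rw [map_add, map_sum, map_mul, map_pow, hagree i i₀]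
      congr 1
      exact Finset.sum_congr rfl (fun k _ => by rw [map_mul, map_pow, hq k i i₀])
    have h2 : y = (τ i₀ x) ^ n * ∑ i, lam i * τ i r := by
      rw [hydef]
      calc ∑ i, lam i * τ i f
          = ∑ i, (∑ k ∈ Finset.range e, τ i₀ (q k) * (lam i * (τ i π) ^ k)
              + (τ i₀ x) ^ n * (lam i * τ i r)) := by
            apply Finset.sum_congr rfl
            intro i _
            rw [h1 i, mul_add, Finset.mul_sum]
            congr 1
            · exact Finset.sum_congr rfl (fun k _ => by ring)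
            · ring
        _ = ∑ k ∈ Finset.range e, τ i₀ (q k) * ∑ i, lam i * (τ i π) ^ k
              + (τ i₀ x) ^ n * ∑ i, lam i * τ i r := by
            rw [Finset.sum_add_distrib, Finset.sum_comm, ← Finset.mul_sum]
            congr 1
            exact Finset.sum_congr rfl (fun k _ => by rw [Finset.mul_sum])
        _ = (τ i₀ x) ^ n * ∑ i, lam i * τ i r := by
            rw [Finset.sum_eq_zero, zero_add]
            intro k hk
            rw [hvan k (Finset.mem_range.mp hk), mul_zero]
    have h3 : (M : WithTop ℤ) ≤ (∑ i, lam i * τ i r).orderTop := by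
      rw [← addVal_apply]
      apply AddValuation.map_le_sum
      intro i _
      rw [AddValuation.map_mul, addVal_apply, addVal_apply]
      calc (M : WithTop ℤ) = M + 0 := by rw [add_zero]
        _ ≤ _ := add_le_add (hM' i) (orderTop_nonneg_of_order_nonneg (hord_mem i r hr))
    have h4 : ((n : ℤ) : WithTop ℤ) + M ≤ y.orderTop := by
      rw [h2, ← addVal_apply, AddValuation.map_mul, AddValuation.map_pow, addVal_apply,
        addVal_apply]
      refine add_le_add ?_ h3
      calc ((n : ℤ) : WithTop ℤ) = n • (1 : WithTop ℤ) := by simp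
        _ ≤ n • (τ i₀ x).orderTop := nsmul_le_nsmul_right hQ n
    rw [← order_eq_orderTop_of_ne_zero hy] at h4
    have h5 : (n : ℤ) + M ≤ y.order := by exact_mod_cast h4
    omega
  -- Dedekind's independence of characters on the valuation ring
  let φ : I → (v.toValuationSubring →* LaurentSeries ℂ) := fun i =>
    ((τ i).comp v.toValuationSubring.subtype).toMonoidHom
  have hφ : Function.Injective φ := by
    intro i j hij
    apply hτ
    have h1 : ∀ f : F, f ∈ v.toValuationSubring → τ i f = τ j f := by
      intro f hf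
      exact DFunLike.congr_fun hij (⟨f, hf⟩ : v.toValuationSubring)
    ext1 f
    rcases v.toValuationSubring.mem_or_inv_mem f with h | h
    · exact h1 f h
    · have := h1 _ h
      rw [map_inv₀, map_inv₀] at this
      exact inv_injective this
  have hli := (linearIndependent_monoidHom v.toValuationSubring (LaurentSeries ℂ)).comp φ hφ
  have hzero := Fintype.linearIndependent_iff.mp hli lam (by
    funext y
    simp only [Function.comp_apply, Finset.sum_apply, Pi.smul_apply, smul_eq_mul, Pi.zero_apply]
    exact hkey y (ord_nonneg_of_mem v y.2)) i₀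
  exact hi₀ hzero

/-! ### The embedding data over a point and the counting theorem -/

section Count

variable {X : Type*} [Finite X] {G : Type*} [Group G] [MulAction G X]

/-- **Embedding data over the point `x = 0`**: embeddings `σ a`, `a : X`, of `F` into
`LaurentSeries ℂ`, semilinear over `ι : K →+* ℂ`, agreeing on `x`, with `order (σ a x) = e₀`,
pairwise distinct, and compatible with the action of `γ` on `X` (local monodromy): `σ (γ • a)` is
the twist of `σ a` by the primitive `e₀`-th root of unity `ζ`. -/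
structure LocalData (x : F) (γ : G) (ι : K →+* ℂ) (σ : X → F →+* LaurentSeries ℂ) (e₀ : ℕ)
    (ζ : ℂ) : Prop where
  pos : 0 < e₀
  prim : IsPrimitiveRoot ζ e₀
  const : ∀ a k, σ a (algebraMap K F k) = HahnSeries.C (ι k)
  agree : ∀ a b, σ a x = σ b x
  order_x : ∀ a, (σ a x).order = e₀
  twist : ∀ a f (n : ℤ), (σ (γ • a) f).coeff n = ζ ^ n * (σ a f).coeff n
  inj : Function.Injective σ

namespace LocalData

variable {x : F} {γ : G} {ι : K →+* ℂ} {σ : X → F →+* LaurentSeries ℂ} {e₀ : ℕ} {ζ : ℂ}
  (D : LocalData x γ ι σ e₀ ζ)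

include D

theorem order_const (a : X) (k : K) : (σ a (algebraMap K F k)).order = 0 := by
  rw [D.const]
  exact order_C

theorem order_x_pos (a : X) : 0 < (σ a x).order := by
  rw [D.order_x]
  exact_mod_cast D.pos

theorem x_ne_zero (a : X) : x ≠ 0 := by
  intro h0
  have := D.order_x_pos a
  rw [h0, map_zero, order_zero] at this
  exact lt_irrefl _ this

/-- the place induced by `σ a` -/
noncomputable def pl (a : X) : Place K F := place (σ a) (D.order_const a) x (D.order_x_pos a)

theorem exists_induced (a : X) :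
    ∃ g : ℕ, IsInducedBy (D.pl a) (σ a) g ∧ (g : ℤ) * (D.pl a).ord x = e₀ := by
  obtain ⟨g, hg⟩ := exists_isInducedBy (σ a) (D.order_const a) x (D.order_x_pos a)
  refine ⟨g, hg, ?_⟩
  have h := hg.order_eq x (D.x_ne_zero a)
  rw [D.order_x] at h
  exact h.symm

theorem ord_pos (a : X) : 0 < (D.pl a).ord x := by
  obtain ⟨g, hg, h⟩ := D.exists_induced a
  have h1 : (0 : ℤ) < g := by exact_mod_cast hg.pos
  have h2 : (0 : ℤ) < e₀ := by exact_mod_cast D.pos
  by_contra hcon
  rw [not_lt] at hcon
  nlinarith

theorem order_smul (a : X) (f : F) : (σ (γ • a) f).order = (σ a f).order :=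
  order_eq_of_coeff_eq_mul (fun n => ζ ^ n)
    (fun n => zpow_ne_zero _ (D.prim.ne_zero D.pos.ne')) (D.twist a f)

theorem pl_smul (a : X) : D.pl (γ • a) = D.pl a := by
  apply Place.ext
  ext f
  show 0 ≤ (σ (γ • a) f).order ↔ 0 ≤ (σ a f).order
  rw [D.order_smul]

theorem pl_inv_smul (a : X) : D.pl (γ⁻¹ • a) = D.pl a := by
  have := D.pl_smul (γ⁻¹ • a)
  rw [smul_inv_smul] at this
  exact this.symm

theorem pl_zpow_smul (n : ℤ) (a : X) : D.pl (γ ^ n • a) = D.pl a := by
  induction n using Int.induction_on with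
  | zero => simp
  | succ i ih => rw [add_comm, zpow_add, zpow_one, mul_smul, D.pl_smul, ih]
  | pred i ih =>
    rw [sub_eq_add_neg, add_comm, zpow_add, zpow_neg_one, mul_smul, D.pl_inv_smul, ih]

theorem pl_eq_of_mem_orbit {a b : X} (h : b ∈ MulAction.orbit (Subgroup.zpowers γ) a) :
    D.pl b = D.pl a := by
  obtain ⟨⟨g, hg⟩, rfl⟩ := h
  obtain ⟨n, rfl⟩ := Subgroup.mem_zpowers_iff.mp hg
  exact D.pl_zpow_smul n a

theorem twist_pow (a : X) (f : F) (h : ℕ) (n : ℤ) :
    (σ (γ ^ h • a) f).coeff n = (ζ ^ n) ^ h * (σ a f).coeff n := by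
  induction h with
  | zero => simp
  | succ h ih =>
    rw [pow_succ', mul_smul, D.twist, ih, pow_succ]
    ring

/-- the ramification index is at most the size of the orbit -/
theorem ord_le_of_pow_smul_eq (a : X) (h : ℕ) (hh : 0 < h) (hfix : γ ^ h • a = a) :
    (D.pl a).ord x ≤ h := by
  obtain ⟨g, hg, hge⟩ := D.exists_induced a
  obtain ⟨π, hπ0, hπ⟩ := exists_uniformizer (D.pl a)
  have h1 : (σ a π).order = g := by rw [hg.order_eq π hπ0, hπ, mul_one]
  have h2 : (σ a π).coeff g ≠ 0 := by
    rw [← h1]
    exact fun h0 => map_ne_zero' _ hπ0 (coeff_order_eq_zero.mp h0)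
  have h3 := D.twist_pow a π h g
  rw [hfix] at h3
  have h4 : (ζ ^ (g : ℤ)) ^ h = 1 := by
    have : ((ζ ^ (g : ℤ)) ^ h - 1) * (σ a π).coeff g = 0 := by
      rw [sub_mul, one_mul, ← h3, sub_self]
    rcases mul_eq_zero.mp this with h5 | h5
    · exact sub_eq_zero.mp h5
    · exact absurd h5 h2
  rw [zpow_natCast, ← pow_mul] at h4
  have h5 : e₀ ∣ g * h := (D.prim.pow_eq_one_iff_dvd _).mp h4
  have hepos := D.ord_pos a
  obtain ⟨e, he⟩ : ∃ e : ℕ, (D.pl a).ord x = e := ⟨((D.pl a).ord x).toNat, by omega⟩
  rw [he] at hge ⊢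
  have h6 : g * e = e₀ := by exact_mod_cast hge
  rw [← h6] at h5
  have h7 : e ∣ h := (Nat.mul_dvd_mul_iff_left hg.pos).mp h5
  exact_mod_cast Nat.le_of_dvd hh h7

variable (H1 : ∀ (v : Place K F) (f : F), 0 ≤ v.ord f →
      ∃ c : K, f = algebraMap K F c ∨ 0 < v.ord (f - algebraMap K F c))

include H1

/-- at most `v.ord x` of the embeddings induce `v` -/
theorem card_fiber_le (v : Place K F) (hv : 0 < v.ord x) (s : Finset X)
    (hs : ∀ a ∈ s, D.pl a = v) : (s.card : ℤ) ≤ v.ord x := by
  have := card_le_ord v (H1 v) hv (fun i : s => σ i.1)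
    (D.inj.comp Subtype.val_injective)
    (fun i j k => by rw [D.const, D.const]) (fun i j => D.agree _ _)
    (fun i => by
      obtain ⟨g, hg, _⟩ := D.exists_induced i.1
      rw [hs i.1 i.2] at hg
      exact ⟨g, hg⟩)
  rwa [Fintype.card_coe] at this

/-- two embeddings inducing the same place are in the same orbit -/
theorem mem_orbit_of_pl_eq {a b : X} (hab : D.pl b = D.pl a) :
    b ∈ MulAction.orbit (Subgroup.zpowers γ) a := by
  classical
  haveI := Fintype.ofFinite X
  set O : Finset X := Finset.univ.filter (fun b => b ∈ MulAction.orbit (Subgroup.zpowers γ) a)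
    with hO
  set C : Finset X := Finset.univ.filter (fun b => D.pl b = D.pl a) with hC
  have hOC : O ⊆ C := by
    intro c hc
    rw [hO, Finset.mem_filter] at hc
    rw [hC, Finset.mem_filter]
    exact ⟨Finset.mem_univ _, D.pl_eq_of_mem_orbit hc.2⟩
  have hcardO : MulAction.period γ a = O.card := by
    have h1 : MulAction.period γ a = Fintype.card (MulAction.orbit (Subgroup.zpowers γ) a) :=
      MulAction.minimalPeriod_eq_card γ a
    rw [h1]
    exact Fintype.card_of_subtype O (fun c => by rw [hO, Finset.mem_filter]; simp)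
  have hOpos : 0 < O.card :=
    Finset.card_pos.mpr ⟨a, by
      rw [hO, Finset.mem_filter]
      exact ⟨Finset.mem_univ _, MulAction.mem_orbit_self a⟩⟩
  have h1 : (C.card : ℤ) ≤ (D.pl a).ord x :=
    D.card_fiber_le H1 (D.pl a) (D.ord_pos a) C (fun c hc => by
      rw [hC, Finset.mem_filter] at hc
      exact hc.2)
  have h2 : (D.pl a).ord x ≤ O.card := by
    rw [← hcardO]
    exact D.ord_le_of_pow_smul_eq a _ (by rw [hcardO]; exact hOpos) (MulAction.pow_period_smul γ a)
  have h3 : C.card ≤ O.card := by exact_mod_cast h1.trans h2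
  have h4 : O = C := Finset.eq_of_subset_of_card_le hOC h3
  have h5 : b ∈ C := by
    rw [hC, Finset.mem_filter]
    exact ⟨Finset.mem_univ _, hab⟩
  rw [← h4, hO, Finset.mem_filter] at h5
  exact h5.2

theorem pl_eq_iff (a b : X) :
    D.pl a = D.pl b ↔ a ∈ MulAction.orbit (Subgroup.zpowers γ) b :=
  ⟨fun h => D.mem_orbit_of_pl_eq H1 h, fun h => D.pl_eq_of_mem_orbit h⟩

variable (H2 : ∀ S : Finset (Place K F), (∀ v ∈ S, 0 < v.ord x) →
      ∑ v ∈ S, v.ord x ≤ (Nat.card X : ℤ))

include H2

/-- **Completeness**: every zero of `x` is induced by one of the embeddings. -/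
theorem exists_pl_eq (v : Place K F) (hv : 0 < v.ord x) : ∃ a, D.pl a = v := by
  classical
  haveI := Fintype.ofFinite X
  rw [Nat.card_eq_fintype_card] at H2
  by_contra hcon
  rw [not_exists] at hcon
  set T : Finset (Place K F) := Finset.univ.image D.pl with hT
  have hvT : v ∉ T := by
    intro h
    rw [hT, Finset.mem_image] at h
    obtain ⟨a, _, ha⟩ := h
    exact hcon a ha
  have hTpos : ∀ w ∈ T, 0 < w.ord x := by
    intro w hw
    rw [hT, Finset.mem_image] at hw
    obtain ⟨a, _, rfl⟩ := hw
    exact D.ord_pos a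
  have h1 := H2 (insert v T) (by
    intro w hw
    rcases Finset.mem_insert.mp hw with rfl | hw
    · exact hv
    · exact hTpos w hw)
  rw [Finset.sum_insert hvT] at h1
  have h2 : (Fintype.card X : ℤ) ≤ ∑ w ∈ T, w.ord x := by
    have h3 : Fintype.card X = ∑ w ∈ T, (Finset.univ.filter (fun a => D.pl a = w)).card := by
      rw [← Finset.card_univ, hT]
      exact Finset.card_eq_sum_card_image D.pl Finset.univ
    rw [h3, Nat.cast_sum]
    apply Finset.sum_le_sum
    intro w hw
    exact D.card_fiber_le H1 w (hTpos w hw) _ (fun c hc => by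
      rw [Finset.mem_filter] at hc
      exact hc.2)
  omega

/-- every zero of `x` is induced by one of the embeddings, with ramification `g`,
`g * v.ord x = e₀` -/
theorem exists_induced_of_ord_pos (v : Place K F) (hv : 0 < v.ord x) :
    ∃ (a : X) (g : ℕ), IsInducedBy v (σ a) g ∧ (g : ℤ) * v.ord x = e₀ := by
  obtain ⟨a, rfl⟩ := D.exists_pl_eq H1 H2 v hv
  obtain ⟨g, hg, h⟩ := D.exists_induced a
  exact ⟨a, g, hg, h⟩

/-- in the unramified case all zeros of `x` are simple -/
theorem ord_eq_one (he₀ : e₀ = 1) (v : Place K F) (hv : 0 < v.ord x) : v.ord x = 1 := by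
  obtain ⟨a, g, hg, h⟩ := D.exists_induced_of_ord_pos H1 H2 v hv
  rw [he₀] at h
  have h1 : (0 : ℤ) < g := by exact_mod_cast hg.pos
  have h2 : (g : ℤ) ∣ 1 := Dvd.intro _ h
  have h3 : (g : ℤ) = 1 := by
    have := Int.le_of_dvd one_pos h2
    omega
  rw [h3, one_mul] at h
  exact_mod_cast h

/-- **The counting theorem**: the zeros of `x` are in bijection with the orbits of the local
monodromy `γ` on `X`. -/
theorem ncard_eq :
    {v : Place K F | 0 < v.ord x}.ncard
      = Nat.card (MulAction.orbitRel.Quotient (Subgroup.zpowers γ) X) := by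
  classical
  let fbar : MulAction.orbitRel.Quotient (Subgroup.zpowers γ) X → Place K F :=
    Quotient.lift D.pl (fun a b hab => D.pl_eq_of_mem_orbit (MulAction.orbitRel_apply.mp hab))
  have hinj : Function.Injective fbar := by
    intro p q
    induction p using Quotient.inductionOn with
    | _ a =>
      induction q using Quotient.inductionOn with
      | _ b =>
        intro h
        apply Quotient.sound
        exact MulAction.orbitRel_apply.mpr (D.mem_orbit_of_pl_eq H1 h)
  have hrange : Set.range fbar = {v : Place K F | 0 < v.ord x} := by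
    ext v
    constructor
    · rintro ⟨p, rfl⟩
      induction p using Quotient.inductionOn with
      | _ a => exact D.ord_pos a
    · intro hv
      obtain ⟨a, rfl⟩ := D.exists_pl_eq H1 H2 v hv
      exact ⟨Quotient.mk _ a, rfl⟩
  rw [← hrange, Set.ncard_range_of_injective hinj]

/-- the zeros of `x` form a finite set -/
theorem finite_zeros : {v : Place K F | 0 < v.ord x}.Finite := by
  classical
  have : {v : Place K F | 0 < v.ord x} ⊆ Set.range D.pl := by
    intro v hv
    obtain ⟨a, rfl⟩ := D.exists_pl_eq H1 H2 v hv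
    exact ⟨a, rfl⟩
  exact (Set.finite_range D.pl).subset this

/-- **The differential formula at the zeros of `x`**: for every `f` of nonzero order at a
zero `v` of `x`, `v.ordDifferential (D f) = v.ord f - 1`. -/
theorem ordDifferential_eq (v : Place K F) (hv : 0 < v.ord x) {f : F} (hf : v.ord f ≠ 0)
    (hspan : ∃ c : F, KaehlerDifferential.D K F f = c • v.dCoord) :
    v.ordDifferential (KaehlerDifferential.D K F f) = v.ord f - 1 := by
  obtain ⟨a, g, hg, _⟩ := D.exists_induced_of_ord_pos H1 H2 v hv
  exact Deriv.ordDifferential_D_eq v (σ a) ι (D.const a) hg hf hspan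

end LocalData

/-! ### The statements in terms of `placesOver` and `placesOverInfty` -/

section Exports

open KaehlerDifferential

variable {j : F} {γ : G} {ι : K →+* ℂ} {σ : X → F →+* LaurentSeries ℂ} {e₀ : ℕ} {ζ : ℂ}
variable (H1 : ∀ (v : Place K F) (f : F), 0 ≤ v.ord f →
      ∃ c : K, f = algebraMap K F c ∨ 0 < v.ord (f - algebraMap K F c))

omit [Finite X] in
theorem pos_iff_mem_placesOverInfty (v : Place K F) :
    0 < v.ord j⁻¹ ↔ v ∈ placesOverInfty j := by
  rw [mem_placesOverInfty, v.ord_inv]
  omega

include H1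

/-- (a) the places over `j = c` are in bijection with the orbits of the local monodromy -/
theorem ncard_placesOver {c : K} (D : LocalData (j - algebraMap K F c) γ ι σ e₀ ζ)
    (H2 : ∀ S : Finset (Place K F), (∀ v ∈ S, v ∈ placesOver j c) →
      ∑ v ∈ S, v.ord (j - algebraMap K F c) ≤ (Nat.card X : ℤ)) :
    (placesOver j c).ncard = Nat.card (MulAction.orbitRel.Quotient (Subgroup.zpowers γ) X) :=
  D.ncard_eq H1 H2

theorem finite_placesOver {c : K} (D : LocalData (j - algebraMap K F c) γ ι σ e₀ ζ)
    (H2 : ∀ S : Finset (Place K F), (∀ v ∈ S, v ∈ placesOver j c) →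
      ∑ v ∈ S, v.ord (j - algebraMap K F c) ≤ (Nat.card X : ℤ)) :
    (placesOver j c).Finite :=
  D.finite_zeros H1 H2

/-- every place over `j = c` is induced by one of the embeddings -/
theorem exists_induced_placesOver {c : K} (D : LocalData (j - algebraMap K F c) γ ι σ e₀ ζ)
    (H2 : ∀ S : Finset (Place K F), (∀ v ∈ S, v ∈ placesOver j c) →
      ∑ v ∈ S, v.ord (j - algebraMap K F c) ≤ (Nat.card X : ℤ))
    (v : Place K F) (hv : v ∈ placesOver j c) :
    ∃ (a : X) (g : ℕ), IsInducedBy v (σ a) g ∧
      (g : ℤ) * v.ord (j - algebraMap K F c) = e₀ :=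
  D.exists_induced_of_ord_pos H1 H2 v hv

/-- (b) the differential formula at the places over `j = c` -/
theorem ordDifferential_placesOver {c : K} (D : LocalData (j - algebraMap K F c) γ ι σ e₀ ζ)
    (H2 : ∀ S : Finset (Place K F), (∀ v ∈ S, v ∈ placesOver j c) →
      ∑ v ∈ S, v.ord (j - algebraMap K F c) ≤ (Nat.card X : ℤ))
    (v : Place K F) (hv : v ∈ placesOver j c)
    (hspan : ∃ c' : F, KaehlerDifferential.D K F j = c' • v.dCoord) :
    v.ordDifferential (KaehlerDifferential.D K F j) = v.ord (j - algebraMap K F c) - 1 := by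
  have hD : KaehlerDifferential.D K F (j - algebraMap K F c) = KaehlerDifferential.D K F j := by
    rw [map_sub, Derivation.map_algebraMap, sub_zero]
  have hv' : 0 < v.ord (j - algebraMap K F c) := hv
  have := D.ordDifferential_eq H1 H2 v hv hv'.ne' (by rw [hD]; exact hspan)
  rwa [hD] at this

/-- (d) in the unramified case all places over `j = c` are simple zeros of `j - c` -/
theorem ord_eq_one_placesOver {c : K} (D : LocalData (j - algebraMap K F c) γ ι σ e₀ ζ)
    (H2 : ∀ S : Finset (Place K F), (∀ v ∈ S, v ∈ placesOver j c) →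
      ∑ v ∈ S, v.ord (j - algebraMap K F c) ≤ (Nat.card X : ℤ))
    (he₀ : e₀ = 1) (v : Place K F) (hv : v ∈ placesOver j c) :
    v.ord (j - algebraMap K F c) = 1 :=
  D.ord_eq_one H1 H2 he₀ v hv

/-- (a) at infinity -/
theorem ncard_placesOverInfty (D : LocalData j⁻¹ γ ι σ e₀ ζ)
    (H2 : ∀ S : Finset (Place K F), (∀ v ∈ S, v ∈ placesOverInfty j) →
      ∑ v ∈ S, -v.ord j ≤ (Nat.card X : ℤ)) :
    (placesOverInfty (k := K) j).ncard
      = Nat.card (MulAction.orbitRel.Quotient (Subgroup.zpowers γ) X) := by
  have hset : placesOverInfty (k := K) j = {v : Place K F | 0 < v.ord j⁻¹} := by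
    ext v
    exact (pos_iff_mem_placesOverInfty v).symm
  rw [hset]
  refine D.ncard_eq H1 (fun S hS => ?_)
  have := H2 S (fun v hv => (pos_iff_mem_placesOverInfty v).mp (hS v hv))
  simpa [Place.ord_inv] using this

theorem finite_placesOverInfty (D : LocalData j⁻¹ γ ι σ e₀ ζ)
    (H2 : ∀ S : Finset (Place K F), (∀ v ∈ S, v ∈ placesOverInfty j) →
      ∑ v ∈ S, -v.ord j ≤ (Nat.card X : ℤ)) :
    (placesOverInfty (k := K) j).Finite := by
  have hset : placesOverInfty (k := K) j = {v : Place K F | 0 < v.ord j⁻¹} := by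
    ext v
    exact (pos_iff_mem_placesOverInfty v).symm
  rw [hset]
  refine D.finite_zeros H1 (fun S hS => ?_)
  have := H2 S (fun v hv => (pos_iff_mem_placesOverInfty v).mp (hS v hv))
  simpa [Place.ord_inv] using this

/-- every place over `j = ∞` is induced by one of the embeddings -/
theorem exists_induced_placesOverInfty (D : LocalData j⁻¹ γ ι σ e₀ ζ)
    (H2 : ∀ S : Finset (Place K F), (∀ v ∈ S, v ∈ placesOverInfty j) →
      ∑ v ∈ S, -v.ord j ≤ (Nat.card X : ℤ))
    (v : Place K F) (hv : v ∈ placesOverInfty j) :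
    ∃ (a : X) (g : ℕ), IsInducedBy v (σ a) g ∧ (g : ℤ) * (-v.ord j) = e₀ := by
  have := D.exists_induced_of_ord_pos H1 (fun S hS => by
    have := H2 S (fun v hv => (pos_iff_mem_placesOverInfty v).mp (hS v hv))
    simpa [Place.ord_inv] using this) v ((pos_iff_mem_placesOverInfty v).mpr hv)
  simpa [Place.ord_inv] using this

/-- (c) the differential formula at the places over `j = ∞` -/
theorem ordDifferential_placesOverInfty (D : LocalData j⁻¹ γ ι σ e₀ ζ)
    (H2 : ∀ S : Finset (Place K F), (∀ v ∈ S, v ∈ placesOverInfty j) →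
      ∑ v ∈ S, -v.ord j ≤ (Nat.card X : ℤ))
    (v : Place K F) (hv : v ∈ placesOverInfty j)
    (hspan : ∃ c' : F, KaehlerDifferential.D K F j = c' • v.dCoord) :
    v.ordDifferential (KaehlerDifferential.D K F j) = v.ord j - 1 := by
  have hv' : v.ord j < 0 := hv
  exact D.ordDifferential_eq H1 (fun S hS => by
    have := H2 S (fun v hv => (pos_iff_mem_placesOverInfty v).mp (hS v hv))
    simpa [Place.ord_inv] using this) v ((pos_iff_mem_placesOverInfty v).mpr hv) hv'.ne hspan

end Exports

end Count

end Fermat.Agent.S24.Embed
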