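import Mathlib
import Fermat.Prelude.Def_ModularCurve_CanonicalDivisor

/-!
# S24: Kähler differentials of a function field in one variable

* `span_D_eq_top` : if `F` is algebraic over `K(t)` (char 0) then `D t` spans `Ω[F⁄K]`;
* `isAlgebraic_adjoin_of_transcendental` : if `F` is algebraic over `K(j)` and `t` is
  transcendental over `K`, then `F` is algebraic over `K(t)`;
* `exists_irreducible_dCoord` : the coordinate differential of a place is `D π` for an
  irreducible `π` of the valuation ring;
* `dCoordGenerates` : every place satisfies `DCoordGenerates`.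
-/

set_option autoImplicit false

namespace Fermat.Agent.S24.KaehlerSpan

open KaehlerDifferential IntermediateField AlgebraicCurve

universe u v

variable {K : Type u} {F : Type v} [Field K] [Field F] [Algebra K F]

/-- the elements whose differential is a multiple of `D t` -/
def diffField (t : F) : IntermediateField K F where
  carrier := {f | D K F f ∈ Submodule.span F {D K F t}}
  mul_mem' := by
    intro a b ha hb
    simp only [Set.mem_ofPred_eq] at ha hb ⊢
    rw [Derivation.leibniz]
    exact Submodule.add_mem _ (Submodule.smul_mem _ _ hb) (Submodule.smul_mem _ _ ha)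
  add_mem' := by
    intro a b ha hb
    simp only [Set.mem_ofPred_eq] at ha hb ⊢
    rw [map_add]
    exact Submodule.add_mem _ ha hb
  algebraMap_mem' := by
    intro r
    simp only [Set.mem_ofPred_eq]
    rw [Derivation.map_algebraMap]
    exact Submodule.zero_mem _
  inv_mem' := by
    intro a ha
    simp only [Set.mem_ofPred_eq] at ha ⊢
    rw [Derivation.leibniz_inv]
    exact Submodule.smul_mem _ _ ha

theorem mem_diffField {t f : F} :
    f ∈ diffField (K := K) t ↔ D K F f ∈ Submodule.span F {D K F t} := Iff.rfl

theorem self_mem_diffField (t : F) : t ∈ diffField (K := K) t :=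
  Submodule.subset_span rfl

theorem adjoin_le_diffField (t : F) : K⟮t⟯ ≤ diffField (K := K) t := by
  rw [adjoin_le_iff]
  intro x hx
  rw [Set.mem_singleton_iff.mp hx]
  exact self_mem_diffField t

/-- the "total derivative" formula modulo `D t`, for polynomials with coefficients in `K(t)` -/
theorem D_aeval_sub_mem (t f : F) (p : Polynomial K⟮t⟯) :
    D K F (Polynomial.aeval f p) - Polynomial.aeval f (Polynomial.derivative p) • D K F f
      ∈ Submodule.span F {D K F t} := by
  induction p using Polynomial.induction_on' with
  | add p q hp hq =>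
    have : D K F (Polynomial.aeval f (p + q))
        - Polynomial.aeval f (Polynomial.derivative (p + q)) • D K F f
        = (D K F (Polynomial.aeval f p)
            - Polynomial.aeval f (Polynomial.derivative p) • D K F f)
          + (D K F (Polynomial.aeval f q)
            - Polynomial.aeval f (Polynomial.derivative q) • D K F f) := by
      simp only [map_add, add_smul]
      abel
    rw [this]
    exact Submodule.add_mem _ hp hq
  | monomial n a =>
    have ha : D K F (a : F) ∈ Submodule.span F {D K F t} := adjoin_le_diffField t a.2
    have : D K F (Polynomial.aeval f (Polynomial.monomial n a))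
        - Polynomial.aeval f (Polynomial.derivative (Polynomial.monomial n a)) • D K F f
        = f ^ n • D K F (a : F) := by
      rw [Polynomial.aeval_monomial, Polynomial.derivative_monomial, Polynomial.aeval_monomial]
      rw [Derivation.leibniz, Derivation.leibniz_pow]
      have h1 : algebraMap K⟮t⟯ F a = (a : F) := rfl
      have h2 : algebraMap K⟮t⟯ F (a * (n : K⟮t⟯)) = (a : F) * (n : F) := by
        rw [map_mul, map_natCast]; rfl
      rw [h1, h2, ← Nat.cast_smul_eq_nsmul F, smul_smul, smul_smul]
      have : (a : F) * (n : F) * f ^ (n - 1) = (a : F) * ((n : F) * f ^ (n - 1)) := by ring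
      rw [this]
      abel
    rw [this]
    exact Submodule.smul_mem _ _ ha

/-- If `F` is algebraic over `K(t)` and `K` has characteristic zero, `D t` spans `Ω[F⁄K]`. -/
theorem span_D_eq_top [CharZero K] (t : F) (halg : Algebra.IsAlgebraic K⟮t⟯ F) :
    Submodule.span F {D K F t} = ⊤ := by
  have hall : ∀ f : F, D K F f ∈ Submodule.span F {D K F t} := by
    intro f
    have hf : IsAlgebraic K⟮t⟯ f := halg.isAlgebraic f
    have hint : IsIntegral K⟮t⟯ f := hf.isIntegral
    set p := minpoly K⟮t⟯ f with hp
    have hsep : p.Separable := (minpoly.irreducible hint).separable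
    have hne : Polynomial.aeval f (Polynomial.derivative p) ≠ 0 :=
      hsep.aeval_derivative_ne_zero (minpoly.aeval _ _)
    have h := D_aeval_sub_mem (K := K) t f p
    rw [hp, minpoly.aeval, map_zero, zero_sub, ← hp] at h
    have h' := Submodule.smul_mem (Submodule.span F {D K F t})
      (-(Polynomial.aeval f (Polynomial.derivative p))⁻¹) h
    rwa [smul_neg, neg_smul, neg_neg, smul_smul, inv_mul_cancel₀ hne, one_smul] at h'
  rw [eq_top_iff, ← KaehlerDifferential.span_range_derivation, Submodule.span_le]
  rintro _ ⟨f, rfl⟩
  exact hall f

open IntermediateField.algebraAdjoinAdjoin in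
/-- algebraic over the field `K(j)` implies algebraic over the ring `K[j]` -/
theorem isAlgebraic_algebraAdjoin (j : F) (hj : Algebra.IsAlgebraic K⟮j⟯ F) :
    Algebra.IsAlgebraic (Algebra.adjoin K {j}) F :=
  Algebra.IsAlgebraic.trans (Algebra.adjoin K {j}) K⟮j⟯ F

/-- If `F` is algebraic over `K(j)` and `t` is transcendental over `K`, then `F` is algebraic
over `K(t)`. -/
theorem isAlgebraic_adjoin_of_transcendental (j t : F) (hj : Algebra.IsAlgebraic K⟮j⟯ F)
    (ht : Transcendental K t) : Algebra.IsAlgebraic K⟮t⟯ F := by
  have h1 := isAlgebraic_algebraAdjoin j hj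
  have htr : Algebra.trdeg K F ≤ 1 := by
    have := Algebra.IsAlgebraic.trdeg_le_cardinalMk K ({j} : Set F)
    simpa using this
  have hind : AlgebraicIndependent K (fun _ : PUnit.{v+1} => t) :=
    algebraicIndependent_unique_type_iff.mpr ht
  have hb : IsTranscendenceBasis K (fun _ : PUnit.{v+1} => t) :=
    hind.isTranscendenceBasis_of_trdeg_le_of_finite (by simpa using htr)
  have h2 := hb.isAlgebraic_field
  have h3 : (Set.range fun _ : PUnit.{v+1} => t) = {t} := by
    ext x; simp [eq_comm]
  rw [h3] at h2
  exact h2

/-- the coordinate differential of a place is `D π` for an irreducible element `π` of the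
valuation ring -/
theorem exists_irreducible_dCoord (v : Place K F) :
    ∃ π : v.toValuationSubring, Irreducible π ∧ v.dCoord = D K F (π : F) :=
  ⟨_, (IsDiscreteValuationRing.exists_irreducible v.toValuationSubring).choose_spec, rfl⟩

/-- elements algebraic over `K` lie in every valuation ring containing `K` -/
theorem mem_of_isAlgebraic (v : Place K F) {x : F} (hx : IsAlgebraic K x) :
    x ∈ v.toValuationSubring := by
  have hint : IsIntegral K x := hx.isIntegral
  have hint' : IsIntegral v.toValuationSubring x := hint.tower_top
  obtain ⟨y, hy⟩ := IsIntegrallyClosed.isIntegral_iff.mp hint'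
  rw [← hy]
  exact y.2

/-- nonzero elements algebraic over `K` have order `0` at every place -/
theorem ord_eq_zero_of_isAlgebraic (v : Place K F) {x : F} (hx : IsAlgebraic K x) :
    v.ord x = 0 := by
  rcases eq_or_ne x 0 with rfl | hx0
  · simp
  have h1 := mem_of_isAlgebraic v hx
  have h2 := mem_of_isAlgebraic v hx.inv
  let u : v.toValuationSubringˣ :=
    ⟨⟨x, h1⟩, ⟨x⁻¹, h2⟩, Subtype.ext (mul_inv_cancel₀ hx0), Subtype.ext (inv_mul_cancel₀ hx0)⟩
  exact v.ord_coe_unit u

/-- an element of nonzero order at some place is transcendental over `K` -/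
theorem transcendental_of_ord_ne_zero (v : Place K F) {x : F} (hx : v.ord x ≠ 0) :
    Transcendental K x := fun h => hx (ord_eq_zero_of_isAlgebraic v h)

/-- every place of a function field in one variable (char 0) has `DCoordGenerates` -/
theorem dCoordGenerates [CharZero K] (j : F) (hj : Algebra.IsAlgebraic K⟮j⟯ F)
    (v : Place K F) : v.DCoordGenerates := by
  obtain ⟨π, hπ, hd⟩ := exists_irreducible_dCoord v
  have hord : v.ord (π : F) = 1 := v.ord_coe_irreducible hπ
  have htr : Transcendental K (π : F) :=
    transcendental_of_ord_ne_zero v (by rw [hord]; exact one_ne_zero)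
  refine ⟨?_⟩
  rw [hd]
  exact span_D_eq_top _ (isAlgebraic_adjoin_of_transcendental j _ hj htr)

/-- the universal differential of `x` is nonzero as soon as some derivation does not kill
`x` -/
theorem D_ne_zero_of_derivation {M : Type*} [AddCommGroup M] [Module K M] [Module F M]
    [IsScalarTower K F M] (d : Derivation K F M) {x : F} (hx : d x ≠ 0) : D K F x ≠ 0 := by
  intro h
  apply hx
  rw [← Derivation.liftKaehlerDifferential_comp_D d x, h, map_zero]

theorem nontrivial_of_derivation {M : Type*} [AddCommGroup M] [Module K M] [Module F M]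
    [IsScalarTower K F M] (d : Derivation K F M) {x : F} (hx : d x ≠ 0) :
    Nontrivial Ω[F⁄K] :=
  ⟨⟨_, _, D_ne_zero_of_derivation d hx⟩⟩

/-- transport of the coefficient w.r.t. the coordinate differential along a derivation -/
theorem lift_eq_differentialCoeff_smul {M : Type*} [AddCommGroup M] [Module K M] [Module F M]
    [IsScalarTower K F M] (d : Derivation K F M) (v : Place K F) [v.DCoordGenerates]
    (ω : Ω[F⁄K]) :
    d.liftKaehlerDifferential ω
      = v.differentialCoeff ω • d.liftKaehlerDifferential v.dCoord := by
  conv_lhs => rw [← v.differentialCoeff_smul_dCoord ω]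
  rw [map_smul]

/-- the same for exact differentials: `d f = (df/dπ) • d π` -/
theorem derivation_eq_differentialCoeff_smul {M : Type*} [AddCommGroup M] [Module K M]
    [Module F M] [IsScalarTower K F M] (d : Derivation K F M) (v : Place K F)
    [v.DCoordGenerates] (f : F) :
    ∃ π : v.toValuationSubring, Irreducible π ∧
      d f = v.differentialCoeff (D K F f) • d (π : F) := by
  obtain ⟨π, hπ, hd⟩ := exists_irreducible_dCoord v
  refine ⟨π, hπ, ?_⟩
  have := lift_eq_differentialCoeff_smul d v (D K F f)
  rwa [hd, Derivation.liftKaehlerDifferential_comp_D, Derivation.liftKaehlerDifferential_comp_D]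
    at this

/-- if `D j` spans and is nonzero, the coefficient of a nonzero differential is nonzero -/
theorem differentialCoeff_ne_zero (v : Place K F) [v.DCoordGenerates] {ω : Ω[F⁄K]}
    (hω : ω ≠ 0) : v.differentialCoeff ω ≠ 0 := by
  intro h
  apply hω
  rw [← v.differentialCoeff_smul_dCoord ω, h, zero_smul]

/-- every differential is a multiple of `D j` -/
theorem exists_eq_smul_D {j : F} (hspan : Submodule.span F {D K F j} = ⊤) (ω : Ω[F⁄K]) :
    ∃ f : F, ω = f • D K F j := by
  have hω : ω ∈ (⊤ : Submodule F Ω[F⁄K]) := Submodule.mem_top
  rw [← hspan, Submodule.mem_span_singleton] at hω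
  exact hω.imp fun _ hf => hf.symm

end Fermat.Agent.S24.KaehlerSpan
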