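import Fermat.Agent.S20.Cosets
import Fermat.Agent.S20.PermEigenQ
import Fermat.Agent.S20.Spectral

/-!
# S24: orbit counts on `SL₂(ℤ) / Γ₀(N)` and the Riemann–Hurwitz arithmetic

* `two_mul_card_orbits_S` : `2 · #(⟨S⟩-orbits) = ψ(N) + ν₂(N)`;
* `three_mul_card_orbits_ST` : `3 · #(⟨S T⟩-orbits) = ψ(N) + 2 ν₃(N)`;
* `card_orbits_T'` : `#(⟨T⟩-orbits) = cuspCount N`;
* `riemannHurwitz_arith` : `-2n + (n - r₀) + (n - r₁₇₂₈) + (n - r_∞) = 2 · genusFormula N - 2`.
-/

set_option autoImplicit false
set_option linter.unusedSectionVars false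

namespace Fermat.Agent.S24.OrbitCount

open Module CongruenceSubgroup Matrix.SpecialLinearGroup
open Fermat.Agent.S20 Fermat.Agent.S20.Cosets Fermat.Agent.S20.PermEigen
  Fermat.Agent.S20.PermEigenQ Fermat.Agent.S20.Spectral
open scoped MatrixGroups

variable (N : ℕ) [NeZero N]

/-- invariants of the cyclic group generated by `g` are the `1`-eigenspace of `g` -/
theorem invariants_zpowers_eq (g : SL(2, ℤ)) :
    invariants (Subgroup.zpowers g) (Q N) = eigen (act N g) 1 := by
  ext u
  rw [mem_invariants, mem_eigen]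
  constructor
  · intro h q
    have := h ⟨g, Subgroup.mem_zpowers g⟩ q
    rw [act_apply, one_mul]
    exact this
  · intro h
    have h1 : ∀ q, u (g • q) = u q := fun q => by
      have := h q
      rwa [act_apply, one_mul] at this
    have h2 : ∀ q, u (g⁻¹ • q) = u q := fun q => by
      have := h1 (g⁻¹ • q)
      rw [smul_inv_smul] at this
      exact this.symm
    have h3 : ∀ (k : ℤ) (q : Q N), u ((g ^ k) • q) = u q := by
      intro k
      induction k using Int.induction_on with
      | zero => intro q; simp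
      | succ i ih => intro q; rw [zpow_add_one, mul_smul, ih, h1]
      | pred i ih => intro q; rw [zpow_sub_one, mul_smul, ih, h2]
    rintro ⟨x, hx⟩ q
    obtain ⟨k, rfl⟩ := Subgroup.mem_zpowers_iff.mp hx
    exact h3 k q

/-- `2 · #(⟨S⟩-orbits) = ψ(N) + ν₂(N)` -/
theorem two_mul_card_orbits_S :
    2 * Nat.card (MulAction.orbitRel.Quotient (Subgroup.zpowers ModularGroup.S) (Q N))
      = ModularCurve.dedekindPsi N + ModularCurve.nuTwo N := by
  rw [← finrank_invariants, invariants_zpowers_eq, two_mul_finrank_eigen_S_one]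

/-- `3 · #(⟨S T⟩-orbits) = ψ(N) + 2 ν₃(N)` -/
theorem three_mul_card_orbits_ST :
    3 * Nat.card (MulAction.orbitRel.Quotient
        (Subgroup.zpowers (ModularGroup.S * ModularGroup.T)) (Q N))
      = ModularCurve.dedekindPsi N + 2 * ModularCurve.nuThree N := by
  rw [← finrank_invariants, invariants_zpowers_eq, three_mul_finrank_eigen_ST_one]

/-- `#(⟨T⟩-orbits) = cuspCount N` -/
theorem card_orbits_T' :
    Nat.card (MulAction.orbitRel.Quotient (Subgroup.zpowers ModularGroup.T) (Q N))
      = ModularCurve.cuspCount N :=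
  card_orbits_T N

/-- The Riemann–Hurwitz count, in the form used for the degree of the canonical divisor:
with `n = ψ(N)` and `r₀, r₁₇₂₈, r_∞` the numbers of orbits of `S T`, `S`, `T`,
`-2n + (n - r₀) + (n - r₁₇₂₈) + (n - r_∞) = 2 g - 2`. -/
theorem riemannHurwitz_arith (n r₀ r₁ rinf : ℕ) (hn : n = ModularCurve.dedekindPsi N)
    (h₀ : 3 * r₀ = ModularCurve.dedekindPsi N + 2 * ModularCurve.nuThree N)
    (h₁ : 2 * r₁ = ModularCurve.dedekindPsi N + ModularCurve.nuTwo N)
    (hinf : rinf = ModularCurve.cuspCount N) :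
    (-2 * (n : ℚ) + ((n : ℚ) - r₀) + ((n : ℚ) - r₁) + ((n : ℚ) - rinf))
      = 2 * ModularCurve.genusFormula N - 2 := by
  have e0 : (3 : ℚ) * r₀ = ModularCurve.dedekindPsi N + 2 * ModularCurve.nuThree N := by
    exact_mod_cast h₀
  have e1 : (2 : ℚ) * r₁ = ModularCurve.dedekindPsi N + ModularCurve.nuTwo N := by
    exact_mod_cast h₁
  have e2 : (rinf : ℚ) = ModularCurve.cuspCount N := by exact_mod_cast hinf
  have e3 : (n : ℚ) = ModularCurve.dedekindPsi N := by exact_mod_cast hn
  rw [ModularCurve.genusFormula]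
  linear_combination (-(1 : ℚ) / 3) * e0 - (1 / 2 : ℚ) * e1 - e2 + e3

/-- The same with the orbit counts substituted. -/
theorem riemannHurwitz_orbits :
    (-2 * (Nat.card (Q N) : ℚ)
      + ((Nat.card (Q N) : ℚ) - Nat.card (MulAction.orbitRel.Quotient
          (Subgroup.zpowers (ModularGroup.S * ModularGroup.T)) (Q N)))
      + ((Nat.card (Q N) : ℚ) - Nat.card (MulAction.orbitRel.Quotient
          (Subgroup.zpowers ModularGroup.S) (Q N)))
      + ((Nat.card (Q N) : ℚ) - Nat.card (MulAction.orbitRel.Quotient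
          (Subgroup.zpowers ModularGroup.T) (Q N))))
      = 2 * ModularCurve.genusFormula N - 2 :=
  riemannHurwitz_arith N _ _ _ _ (card_Q N) (three_mul_card_orbits_ST N)
    (two_mul_card_orbits_S N) (card_orbits_T' N)

end Fermat.Agent.S24.OrbitCount
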