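import Mathlib
import Fermat.Prelude.Def_AlgebraicCurve_CanonicalDivisor
import Fermat.Agent.S24.FFBasic
import Fermat.Agent.S24.KaehlerSpan

/-!
# S24: the Riemann–Hurwitz bookkeeping for a function field in one variable

Generic statement: `F / k(x)` algebraic, all places of degree one, principal divisors of
degree zero, the fibres of `x` finite with `∑ e_v = n`, unramified outside a finite set `A`
of values, and `ord_v (dx) = e_v - 1` at finite places resp. `- e_v - 1` at the poles of `x`.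
Then every canonical divisor has degree `- 2 n + ∑_{a ∈ A} (n - r_a) + (n - r_∞)`.
-/

set_option autoImplicit false

namespace Fermat.Agent.S24.RiemannHurwitz

open KaehlerDifferential IntermediateField AlgebraicCurve Fermat.Agent.S24
  Fermat.Agent.S24.KaehlerSpan

universe u v

variable {k : Type u} {F : Type v} [Field k] [Field F] [Algebra k F]

/-- degree of a divisor as a sum over any finite set containing the support, when all places
have degree one -/
theorem degree_eq_sum (hdeg : ∀ v : Place k F, v.deg = 1) (D : Divisor k F)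
    (T : Finset (Place k F)) (hT : ∀ v, v ∉ T → D v = 0) :
    Divisor.degree D = ∑ v ∈ T, D v := by
  classical
  have h1 : Divisor.degree D = D.sum fun v n => n * (v.deg : ℤ) := by
    simp [Divisor.degree, Finsupp.liftAddHom_apply]
  rw [h1, Finsupp.sum]
  have h2 : D.support ⊆ T := by
    intro v hv
    by_contra hvT
    exact (Finsupp.mem_support_iff.mp hv) (hT v hvT)
  rw [Finset.sum_subset h2 (fun v _ hv => by
    rw [Finsupp.notMem_support_iff.mp hv, zero_mul])]
  refine Finset.sum_congr rfl fun v _ => ?_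
  rw [hdeg v, Nat.cast_one, mul_one]

section main

variable [CharZero k] [HasCanonicalDivisor (K := k) (F := F)]

omit [CharZero k] in
/-- the canonical divisor of `f • ω` is `div f + div ω` -/
theorem degree_canonicalDivisorOf_smul
    (hgen : ∀ v : Place k F, v.DCoordGenerates)
    (hprinc : ∀ h : F, h ≠ 0 → ∃ D : Divisor k F, (∀ v, D v = v.ord h) ∧ Divisor.degree D = 0)
    {ω : Ω[F⁄k]} (hω : ω ≠ 0) {f : F} (hf : f ≠ 0) (hfω : f • ω ≠ 0) :
    Divisor.degree (canonicalDivisorOf hfω) = Divisor.degree (canonicalDivisorOf hω) := by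
  have : Nontrivial Ω[F⁄k] := ⟨⟨ω, 0, hω⟩⟩
  obtain ⟨P, hP, hP0⟩ := hprinc f hf
  have h : canonicalDivisorOf hfω = P + canonicalDivisorOf hω := by
    ext v
    have := hgen v
    rw [Finsupp.add_apply, canonicalDivisorOf_apply, canonicalDivisorOf_apply, hP,
      v.ordDifferential_smul hf (differentialCoeff_ne_zero v hω)]
  rw [h, map_add, hP0, zero_add]

/-- **Riemann–Hurwitz**, degree form. -/
theorem degree_canonicalDivisorOf
    (x : F) (halg : Algebra.IsAlgebraic k⟮x⟯ F) (hDx : D k F x ≠ 0)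
    (hdeg : ∀ v : Place k F, v.deg = 1)
    (hprinc : ∀ h : F, h ≠ 0 → ∃ D : Divisor k F, (∀ v, D v = v.ord h) ∧ Divisor.degree D = 0)
    (hcover : ∀ v : Place k F, v ∈ placesOverInfty x ∨ ∃ a : k, v ∈ placesOver x a)
    (n : ℕ) (A : Finset k)
    (hfin : ∀ a ∈ A, (placesOver (k := k) x a).Finite)
    (hsum : ∀ a ∈ A, ∑ᶠ v ∈ placesOver (k := k) x a, v.ord (x - algebraMap k F a) = (n : ℤ))
    (hfininf : (placesOverInfty (k := k) x).Finite)
    (hsuminf : ∑ᶠ v ∈ placesOverInfty (k := k) x, - v.ord x = (n : ℤ))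
    (hA : ∀ a, a ∉ A → ∀ v ∈ placesOver (k := k) x a, v.ord (x - algebraMap k F a) = 1)
    (hdiff : ∀ a, ∀ v ∈ placesOver (k := k) x a,
      v.ordDifferential (D k F x) = v.ord (x - algebraMap k F a) - 1)
    (hdiffinf : ∀ v ∈ placesOverInfty (k := k) x, v.ordDifferential (D k F x) = v.ord x - 1)
    {ω : Ω[F⁄k]} (hω : ω ≠ 0) :
    Divisor.degree (canonicalDivisorOf hω)
      = -2 * (n : ℤ) + ∑ a ∈ A, ((n : ℤ) - ((placesOver (k := k) x a).ncard : ℤ))
        + ((n : ℤ) - ((placesOverInfty (k := k) x).ncard : ℤ)) := by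
  classical
  have hgen : ∀ v : Place k F, v.DCoordGenerates := dCoordGenerates x halg
  have hspan : Submodule.span F {D k F x} = ⊤ := span_D_eq_top x halg
  -- reduce to `ω = D x`
  obtain ⟨f, hf⟩ := exists_eq_smul_D hspan ω
  have hf0 : f ≠ 0 := by
    rintro rfl
    rw [zero_smul] at hf
    exact hω hf
  subst hf
  rw [degree_canonicalDivisorOf_smul hgen hprinc hDx hf0 hω]
  -- the finite set of (possibly) ramified places
  set S : k → Finset (Place k F) := fun a =>
    if h : a ∈ A then (hfin a h).toFinset else ∅ with hS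
  have hSmem : ∀ a ∈ A, ∀ v, v ∈ S a ↔ v ∈ placesOver x a := by
    intro a ha v
    simp only [hS, dif_pos ha, Set.Finite.mem_toFinset]
  set Sinf : Finset (Place k F) := hfininf.toFinset with hSinf
  have hSinfmem : ∀ v, v ∈ Sinf ↔ v ∈ placesOverInfty x := by
    intro v
    simp only [hSinf, Set.Finite.mem_toFinset]
  set T : Finset (Place k F) := A.biUnion S ∪ Sinf with hTdef
  have hT : ∀ v, v ∉ T → canonicalDivisorOf hDx v = 0 := by
    intro v hv
    rw [canonicalDivisorOf_apply]
    rw [hTdef, Finset.mem_union, not_or, Finset.mem_biUnion] at hv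
    rcases hcover v with h | ⟨a, ha⟩
    · exact absurd ((hSinfmem v).mpr h) hv.2
    · have haA : a ∉ A := fun haA => hv.1 ⟨a, haA, (hSmem a haA v).mpr ha⟩
      rw [hdiff a v ha, hA a haA v ha, sub_self]
  rw [degree_eq_sum hdeg _ T hT]
  have hdisj1 : Disjoint (A.biUnion S) Sinf := by
    rw [Finset.disjoint_left]
    intro v hv hv'
    rw [Finset.mem_biUnion] at hv
    obtain ⟨a, ha, hva⟩ := hv
    exact Set.disjoint_left.mp (placesOver_disjoint_infty x a) ((hSmem a ha v).mp hva)
      ((hSinfmem v).mp hv')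
  have hdisj2 : (A : Set k).PairwiseDisjoint S := by
    intro a ha b hb hab
    rw [Function.onFun, Finset.disjoint_left]
    intro v hva hvb
    exact Set.disjoint_left.mp (placesOver_disjoint x hab) ((hSmem a ha v).mp hva)
      ((hSmem b hb v).mp hvb)
  rw [hTdef, Finset.sum_union hdisj1, Finset.sum_biUnion hdisj2]
  -- the finite fibres
  have hfib : ∀ a ∈ A, ∑ v ∈ S a, canonicalDivisorOf hDx v
      = (n : ℤ) - ((placesOver (k := k) x a).ncard : ℤ) := by
    intro a ha
    have h1 : ∑ v ∈ S a, canonicalDivisorOf hDx v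
        = ∑ v ∈ S a, (v.ord (x - algebraMap k F a) - 1) := by
      refine Finset.sum_congr rfl fun v hv => ?_
      rw [canonicalDivisorOf_apply, hdiff a v ((hSmem a ha v).mp hv)]
    have h2 : ∑ v ∈ S a, v.ord (x - algebraMap k F a) = (n : ℤ) := by
      rw [← hsum a ha, finsum_mem_eq_finite_toFinset_sum _ (hfin a ha)]
      simp only [hS, dif_pos ha]
    have h3 : (S a).card = (placesOver (k := k) x a).ncard := by
      rw [Set.ncard_eq_toFinset_card _ (hfin a ha)]
      simp only [hS, dif_pos ha]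
    rw [h1, Finset.sum_sub_distrib, h2, Finset.sum_const, ← h3]
    simp
  -- the fibre at infinity
  have hinf : ∑ v ∈ Sinf, canonicalDivisorOf hDx v
      = -(n : ℤ) - ((placesOverInfty (k := k) x).ncard : ℤ) := by
    have h1 : ∑ v ∈ Sinf, canonicalDivisorOf hDx v = ∑ v ∈ Sinf, (-(-v.ord x) - 1) := by
      refine Finset.sum_congr rfl fun v hv => ?_
      rw [canonicalDivisorOf_apply, hdiffinf v ((hSinfmem v).mp hv), neg_neg]
    have h2 : ∑ v ∈ Sinf, (-v.ord x) = (n : ℤ) := by
      rw [← hsuminf, finsum_mem_eq_finite_toFinset_sum _ hfininf]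
    have h3 : Sinf.card = (placesOverInfty (k := k) x).ncard := by
      rw [Set.ncard_eq_toFinset_card _ hfininf]
    rw [h1, Finset.sum_sub_distrib, Finset.sum_neg_distrib, h2, Finset.sum_const, ← h3]
    simp
  rw [Finset.sum_congr rfl hfib, hinf]
  ring

/-- **Riemann–Hurwitz**, genus form: the genus is `(deg K + 2) / 2`. -/
theorem genus_eq_toNat
    (x : F) (halg : Algebra.IsAlgebraic k⟮x⟯ F) (hDx : D k F x ≠ 0)
    (hdeg : ∀ v : Place k F, v.deg = 1)
    (hprinc : ∀ h : F, h ≠ 0 → ∃ D : Divisor k F, (∀ v, D v = v.ord h) ∧ Divisor.degree D = 0)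
    (hcover : ∀ v : Place k F, v ∈ placesOverInfty x ∨ ∃ a : k, v ∈ placesOver x a)
    (n : ℕ) (A : Finset k)
    (hfin : ∀ a ∈ A, (placesOver (k := k) x a).Finite)
    (hsum : ∀ a ∈ A, ∑ᶠ v ∈ placesOver (k := k) x a, v.ord (x - algebraMap k F a) = (n : ℤ))
    (hfininf : (placesOverInfty (k := k) x).Finite)
    (hsuminf : ∑ᶠ v ∈ placesOverInfty (k := k) x, - v.ord x = (n : ℤ))
    (hA : ∀ a, a ∉ A → ∀ v ∈ placesOver (k := k) x a, v.ord (x - algebraMap k F a) = 1)
    (hdiff : ∀ a, ∀ v ∈ placesOver (k := k) x a,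
      v.ordDifferential (D k F x) = v.ord (x - algebraMap k F a) - 1)
    (hdiffinf : ∀ v ∈ placesOverInfty (k := k) x, v.ordDifferential (D k F x) = v.ord x - 1) :
    genus k F = (-2 * (n : ℤ) + ∑ a ∈ A, ((n : ℤ) - ((placesOver (k := k) x a).ncard : ℤ))
        + ((n : ℤ) - ((placesOverInfty (k := k) x).ncard : ℤ)) + 2).toNat / 2 := by
  have hex : ∃ ω : Ω[F⁄k], ω ≠ 0 := ⟨_, hDx⟩
  rw [genus, dif_pos hex,
    degree_canonicalDivisorOf x halg hDx hdeg hprinc hcover n A hfin hsum hfininf hsuminf hA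
      hdiff hdiffinf]

/-- **Riemann–Hurwitz**, genus form with a given value `g`. -/
theorem genus_eq
    (x : F) (halg : Algebra.IsAlgebraic k⟮x⟯ F) (hDx : D k F x ≠ 0)
    (hdeg : ∀ v : Place k F, v.deg = 1)
    (hprinc : ∀ h : F, h ≠ 0 → ∃ D : Divisor k F, (∀ v, D v = v.ord h) ∧ Divisor.degree D = 0)
    (hcover : ∀ v : Place k F, v ∈ placesOverInfty x ∨ ∃ a : k, v ∈ placesOver x a)
    (n : ℕ) (A : Finset k)
    (hfin : ∀ a ∈ A, (placesOver (k := k) x a).Finite)
    (hsum : ∀ a ∈ A, ∑ᶠ v ∈ placesOver (k := k) x a, v.ord (x - algebraMap k F a) = (n : ℤ))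
    (hfininf : (placesOverInfty (k := k) x).Finite)
    (hsuminf : ∑ᶠ v ∈ placesOverInfty (k := k) x, - v.ord x = (n : ℤ))
    (hA : ∀ a, a ∉ A → ∀ v ∈ placesOver (k := k) x a, v.ord (x - algebraMap k F a) = 1)
    (hdiff : ∀ a, ∀ v ∈ placesOver (k := k) x a,
      v.ordDifferential (D k F x) = v.ord (x - algebraMap k F a) - 1)
    (hdiffinf : ∀ v ∈ placesOverInfty (k := k) x, v.ordDifferential (D k F x) = v.ord x - 1)
    (g : ℕ)
    (hg : 2 * (g : ℤ) - 2 = -2 * (n : ℤ)
        + ∑ a ∈ A, ((n : ℤ) - ((placesOver (k := k) x a).ncard : ℤ))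
        + ((n : ℤ) - ((placesOverInfty (k := k) x).ncard : ℤ))) :
    genus k F = g := by
  rw [genus_eq_toNat x halg hDx hdeg hprinc hcover n A hfin hsum hfininf hsuminf hA hdiff
    hdiffinf, ← hg]
  have : (2 * (g : ℤ) - 2 + 2).toNat = 2 * g := by omega
  rw [this]
  omega

end main

end Fermat.Agent.S24.RiemannHurwitz
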