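import Mathlib
import Fermat.Prelude.Def_ModularCurve_ArithmeticGalois
import Fermat.Prelude.Def_ModularCurve_GenusNumerics
import Fermat.Prelude.Def_AlgebraicCurve_CanonicalDivisor
import Fermat.Agent.S20
import Fermat.Agent.S24.FFBasic
import Fermat.Agent.S24.FFPlaces
import Fermat.Agent.S24.KaehlerSpan
import Fermat.Agent.S24.RiemannHurwitz
import Fermat.Agent.S24.EmbedCount
import Fermat.Agent.S24.OrbitCount
import Fermat.Agent.S24.Eval

/-!
# S24: from the local embedding data to the genus

Glue between the counting theorem (`EmbedCount`), the generic Riemann–Hurwitz bookkeeping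
(`RiemannHurwitz`), the orbit counts (`OrbitCount`) and the dimension formula (`S20.result`).

* `Inputs x ι X γ₀ γ₁ γinf c₀ c₁` : the hypotheses (generic function field `F / k`, `x : F`):
  degree `[F : k(x)] = #X`, fundamental identity, principal divisors of degree `0`, local
  embedding data over every point, with monodromy `γ₀`, `γ₁`, `γinf` over `c₀`, `c₁`, `∞` and
  unramified elsewhere;
* `Inputs.genus_eq` : the genus from the orbit counts;
* `genus_eq_genusFormula` : for the modular function field, with `X = SL₂(ℤ)/Γ₀(N)`,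
  `γ₀ = S T`, `γ₁ = S`, `γinf = T`, `c₀ = 0`, `c₁ = 1728`.
-/

set_option autoImplicit false
set_option linter.unusedSectionVars false

namespace Fermat.Agent.S24.Fiber

open KaehlerDifferential IntermediateField AlgebraicCurve ModularCurve
open Fermat.Agent.S24 Fermat.Agent.S24.Eval Fermat.Agent.S24.Embed
open Fermat.Agent.S20
open scoped MatrixGroups

/-! ### Generic part -/

section generic

variable {k F : Type*} [Field k] [Field F] [Algebra k F]
variable {X : Type*} [Finite X] {G : Type*} [Group G] [MulAction G X]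

/-- the easy half of the fundamental identity from the full one -/
theorem sum_le_of_finsum_eq {s : Set (Place k F)} (hs : s.Finite) (w : Place k F → ℤ)
    (hw : ∀ v ∈ s, 0 ≤ w v) (n : ℤ) (hsum : ∑ᶠ v ∈ s, w v = n) (S : Finset (Place k F))
    (hS : ∀ v ∈ S, v ∈ s) : ∑ v ∈ S, w v ≤ n := by
  classical
  rw [← hsum, finsum_mem_eq_finite_toFinset_sum _ hs]
  apply Finset.sum_le_sum_of_subset_of_nonneg
  · intro v hv
    rw [Set.Finite.mem_toFinset]
    exact hS v hv
  · intro v hv _
    rw [Set.Finite.mem_toFinset] at hv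
    exact hw v hv

/-- `D x ≠ 0` from local embedding data -/
theorem D_ne_zero_of_localData [Nonempty X] {x : F} {γ : G} {ι : k →+* ℂ}
    {σ : X → F →+* LaurentSeries ℂ} {e₀ : ℕ} {ζ : ℂ} (D : LocalData x γ ι σ e₀ ζ) :
    KaehlerDifferential.D k F x ≠ 0 := by
  obtain ⟨a⟩ := ‹Nonempty X›
  obtain ⟨g, hg, -⟩ := D.exists_induced a
  exact Deriv.D_ne_zero (D.pl a) (σ a) ι (D.const a) hg (D.ord_pos a).ne'

variable (X) in
/-- the hypotheses on the function field coming from the other leaves -/
structure Inputs (x : F) (ι : k →+* ℂ) (γ₀ γ₁ γinf : G) (c₀ c₁ : k) : Prop where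
  /-- `x` is transcendental -/
  trans : Transcendental k x
  /-- `F` is finite over `k(x)` -/
  fin : FiniteDimensional k⟮x⟯ F
  /-- the degree -/
  finrank_eq : Module.finrank k⟮x⟯ F = Nat.card X
  /-- principal divisors have degree zero -/
  princ : ∀ h : F, h ≠ 0 → ∃ D : Divisor k F, (∀ v, D v = v.ord h) ∧ Divisor.degree D = 0
  /-- finiteness of the fibres -/
  finite_over : ∀ a : k, (placesOver (k := k) x a).Finite
  /-- the fundamental identity -/
  sum_over : ∀ a : k, ∑ᶠ v ∈ placesOver (k := k) x a,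
    v.ord (x - algebraMap k F a) = (Module.finrank k⟮x⟯ F : ℤ)
  /-- finiteness of the fibre at infinity -/
  finite_infty : (placesOverInfty (k := k) x).Finite
  /-- the fundamental identity at infinity -/
  sum_infty : ∑ᶠ v ∈ placesOverInfty (k := k) x, - v.ord x = (Module.finrank k⟮x⟯ F : ℤ)
  /-- embedding data at the generic points -/
  sigma_generic : ∀ a : k, a ≠ c₀ → a ≠ c₁ →
    ∃ (σ : X → F →+* LaurentSeries ℂ) (γ : G) (ζ : ℂ),
      LocalData (x - algebraMap k F a) γ ι σ 1 ζ
  /-- embedding data over `c₀` -/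
  sigma_zero : ∃ (σ : X → F →+* LaurentSeries ℂ) (e₀ : ℕ) (ζ : ℂ),
      LocalData (x - algebraMap k F c₀) γ₀ ι σ e₀ ζ
  /-- embedding data over `c₁` -/
  sigma_one : ∃ (σ : X → F →+* LaurentSeries ℂ) (e₀ : ℕ) (ζ : ℂ),
      LocalData (x - algebraMap k F c₁) γ₁ ι σ e₀ ζ
  /-- embedding data over `∞` -/
  sigma_infty : ∃ (σ : X → F →+* LaurentSeries ℂ) (e₀ : ℕ) (ζ : ℂ),
      LocalData x⁻¹ γinf ι σ e₀ ζ

namespace Inputs

variable [IsAlgClosed k] [CharZero k]
variable {x : F} {ι : k →+* ℂ} {γ₀ γ₁ γinf : G} {c₀ c₁ : k}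
  (I : Inputs X x ι γ₀ γ₁ γinf c₀ c₁)

include I

theorem isAlgebraic : Algebra.IsAlgebraic k⟮x⟯ F :=
  haveI := I.fin
  Algebra.IsAlgebraic.of_finite _ _

theorem H1 (v : Place k F) (f : F) (hf : 0 ≤ v.ord f) :
    ∃ c : k, f = algebraMap k F c ∨ 0 < v.ord (f - algebraMap k F c) :=
  haveI := I.fin
  exists_sub_algebraMap_ord_pos x I.trans v hf

theorem H2 (a : k) (S : Finset (Place k F)) (hS : ∀ v ∈ S, v ∈ placesOver (k := k) x a) :
    ∑ v ∈ S, v.ord (x - algebraMap k F a) ≤ (Nat.card X : ℤ) := by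
  rw [← I.finrank_eq]
  exact sum_le_of_finsum_eq (I.finite_over a) _ (fun v hv => le_of_lt hv) _ (I.sum_over a) S hS

theorem H2infty (S : Finset (Place k F)) (hS : ∀ v ∈ S, v ∈ placesOverInfty (k := k) x) :
    ∑ v ∈ S, - v.ord x ≤ (Nat.card X : ℤ) := by
  rw [← I.finrank_eq]
  refine sum_le_of_finsum_eq I.finite_infty _ (fun v hv => ?_) _ I.sum_infty S hS
  have : v.ord x < 0 := hv
  omega

theorem hspan (v : Place k F) : ∃ c' : F, KaehlerDifferential.D k F x = c' • v.dCoord :=
  haveI := KaehlerSpan.dCoordGenerates x I.isAlgebraic v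
  v.exists_eq_smul_dCoord _

/-- local embedding data over an arbitrary finite point, with unspecified monodromy -/
theorem exists_localData (a : k) :
    ∃ (σ : X → F →+* LaurentSeries ℂ) (γ : G) (e₀ : ℕ) (ζ : ℂ),
      LocalData (x - algebraMap k F a) γ ι σ e₀ ζ := by
  by_cases h0 : a = c₀
  · subst h0
    obtain ⟨σ, e₀, ζ, D⟩ := I.sigma_zero
    exact ⟨σ, _, e₀, ζ, D⟩
  by_cases h1 : a = c₁
  · subst h1
    obtain ⟨σ, e₀, ζ, D⟩ := I.sigma_one
    exact ⟨σ, _, e₀, ζ, D⟩
  obtain ⟨σ, γ, ζ, D⟩ := I.sigma_generic a h0 h1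
  exact ⟨σ, γ, 1, ζ, D⟩

/-- the differential formula at the finite places -/
theorem ordDifferential_over (a : k) (v : Place k F) (hv : v ∈ placesOver (k := k) x a) :
    v.ordDifferential (KaehlerDifferential.D k F x) = v.ord (x - algebraMap k F a) - 1 := by
  obtain ⟨σ, γ, e₀, ζ, D⟩ := I.exists_localData a
  exact ordDifferential_placesOver I.H1 D (I.H2 a) v hv (I.hspan v)

/-- the differential formula at the poles of `x` -/
theorem ordDifferential_infty (v : Place k F) (hv : v ∈ placesOverInfty (k := k) x) :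
    v.ordDifferential (KaehlerDifferential.D k F x) = v.ord x - 1 := by
  obtain ⟨σ, e₀, ζ, D⟩ := I.sigma_infty
  exact ordDifferential_placesOverInfty I.H1 D I.H2infty v hv (I.hspan v)

/-- `x` is unramified outside `c₀`, `c₁`, `∞` -/
theorem ord_eq_one (a : k) (h0 : a ≠ c₀) (h1 : a ≠ c₁) (v : Place k F)
    (hv : v ∈ placesOver (k := k) x a) : v.ord (x - algebraMap k F a) = 1 := by
  obtain ⟨σ, γ, ζ, D⟩ := I.sigma_generic a h0 h1
  exact ord_eq_one_placesOver I.H1 D (I.H2 a) rfl v hv

theorem D_ne_zero [Nonempty X] : KaehlerDifferential.D k F x ≠ 0 := by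
  obtain ⟨σ, e₀, ζ, D⟩ := I.sigma_zero
  have h := D_ne_zero_of_localData D
  rwa [map_sub, Derivation.map_algebraMap, sub_zero] at h

/-- the number of places over `c₀` -/
theorem ncard_zero : (placesOver (k := k) x c₀).ncard
    = Nat.card (MulAction.orbitRel.Quotient (Subgroup.zpowers γ₀) X) := by
  obtain ⟨σ, e₀, ζ, D⟩ := I.sigma_zero
  exact ncard_placesOver I.H1 D (I.H2 c₀)

/-- the number of places over `c₁` -/
theorem ncard_one : (placesOver (k := k) x c₁).ncard
    = Nat.card (MulAction.orbitRel.Quotient (Subgroup.zpowers γ₁) X) := by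
  obtain ⟨σ, e₀, ζ, D⟩ := I.sigma_one
  exact ncard_placesOver I.H1 D (I.H2 c₁)

/-- the number of places over `∞` -/
theorem ncard_infty : (placesOverInfty (k := k) x).ncard
    = Nat.card (MulAction.orbitRel.Quotient (Subgroup.zpowers γinf) X) := by
  obtain ⟨σ, e₀, ζ, D⟩ := I.sigma_infty
  exact ncard_placesOverInfty I.H1 D I.H2infty

/-- the number of places over a generic point -/
theorem ncard_generic (a : k) (h0 : a ≠ c₀) (h1 : a ≠ c₁) :
    (placesOver (k := k) x a).ncard = Nat.card X := by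
  classical
  have hfin := I.finite_over a
  have h1' : ∑ v ∈ hfin.toFinset, v.ord (x - algebraMap k F a) = (Nat.card X : ℤ) := by
    rw [← finsum_mem_eq_finite_toFinset_sum _ hfin, I.sum_over a, I.finrank_eq]
  have h2 : ∑ v ∈ hfin.toFinset, v.ord (x - algebraMap k F a)
      = ∑ _v ∈ hfin.toFinset, (1 : ℤ) := by
    refine Finset.sum_congr rfl fun v hv => ?_
    rw [Set.Finite.mem_toFinset] at hv
    exact I.ord_eq_one a h0 h1 v hv
  rw [h2, Finset.sum_const, nsmul_eq_mul, mul_one] at h1'
  rw [Set.ncard_eq_toFinset_card _ hfin]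
  exact_mod_cast h1'

/-- **Riemann–Hurwitz** from the orbit counts. -/
theorem genus_eq [Nonempty X] [HasCanonicalDivisor (K := k) (F := F)] (hc : c₀ ≠ c₁) (g : ℕ)
    (hg : 2 * (g : ℤ) - 2 = -2 * (Nat.card X : ℤ)
      + ((Nat.card X : ℤ) - Nat.card (MulAction.orbitRel.Quotient (Subgroup.zpowers γ₀) X))
      + ((Nat.card X : ℤ) - Nat.card (MulAction.orbitRel.Quotient (Subgroup.zpowers γ₁) X))
      + ((Nat.card X : ℤ)
          - Nat.card (MulAction.orbitRel.Quotient (Subgroup.zpowers γinf) X))) :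
    genus k F = g := by
  classical
  have := I.fin
  refine RiemannHurwitz.genus_eq x I.isAlgebraic I.D_ne_zero
    (fun v => place_deg_eq_one x I.trans v) I.princ
    (fun v => mem_placesOver_or_infty x I.trans v)
    (Nat.card X) ({c₀, c₁} : Finset k)
    (fun a _ => I.finite_over a)
    (fun a _ => by rw [I.sum_over a, I.finrank_eq])
    I.finite_infty (by rw [I.sum_infty, I.finrank_eq])
    (fun a ha v hv => ?_)
    (fun a v hv => I.ordDifferential_over a v hv)
    (fun v hv => I.ordDifferential_infty v hv) g ?_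
  · rw [Finset.mem_insert, Finset.mem_singleton, not_or] at ha
    exact I.ord_eq_one a ha.1 ha.2 v hv
  · rw [Finset.sum_pair hc, I.ncard_zero, I.ncard_one, I.ncard_infty, hg]
    ring

end Inputs

end generic

/-! ### The modular function field -/

section modular

variable (N : ℕ) [NeZero N]

/-- the Riemann–Hurwitz count in `ℤ` for `X = SL₂(ℤ)/Γ₀(N)` -/
theorem count (g : ℕ) (hg : (g : ℚ) = genusFormula N) :
    2 * (g : ℤ) - 2 = -2 * (Nat.card (Q N) : ℤ)
      + ((Nat.card (Q N) : ℤ) - Nat.card (MulAction.orbitRel.Quotient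
          (Subgroup.zpowers (ModularGroup.S * ModularGroup.T)) (Q N)))
      + ((Nat.card (Q N) : ℤ) - Nat.card (MulAction.orbitRel.Quotient
          (Subgroup.zpowers ModularGroup.S) (Q N)))
      + ((Nat.card (Q N) : ℤ) - Nat.card (MulAction.orbitRel.Quotient
          (Subgroup.zpowers ModularGroup.T) (Q N))) := by
  have h := OrbitCount.riemannHurwitz_orbits N
  rw [← hg] at h
  have h' : ((2 * (g : ℤ) - 2 : ℤ) : ℚ) = ((-2 * (Nat.card (Q N) : ℤ)
      + ((Nat.card (Q N) : ℤ) - Nat.card (MulAction.orbitRel.Quotient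
          (Subgroup.zpowers (ModularGroup.S * ModularGroup.T)) (Q N)))
      + ((Nat.card (Q N) : ℤ) - Nat.card (MulAction.orbitRel.Quotient
          (Subgroup.zpowers ModularGroup.S) (Q N)))
      + ((Nat.card (Q N) : ℤ) - Nat.card (MulAction.orbitRel.Quotient
          (Subgroup.zpowers ModularGroup.T) (Q N))) : ℤ) : ℚ) := by
    push_cast
    linarith
  exact_mod_cast h'

/-- **The genus of the function field of `X₀(N)`**, from the inputs. -/
theorem genus_eq_genusFormula [HasCanonicalDivisor (K := KK) (F := FF N)]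
    (I : Inputs (Q N) (jF N) iota (ModularGroup.S * ModularGroup.T) ModularGroup.S
      ModularGroup.T (0 : KK) (1728 : KK)) :
    (genus KK (FF N) : ℚ) = genusFormula N := by
  have hS20 := Fermat.Agent.S20.result N
  have hne : (0 : KK) ≠ 1728 := by norm_num
  have hgenus := I.genus_eq hne _ (count N _ hS20)
  rw [hgenus, hS20]

end modular

end Fermat.Agent.S24.Fiber
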