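import Mathlib
import Fermat.Agent.S24.Point
import Fermat.Agent.S24.Distinct
import Fermat.Agent.S24.Eval
import Fermat.Agent.S24.LaurentRescale
import Fermat.Agent.S24.Jq
import Fermat.Agent.S24.JqCriterion
import Fermat.Agent.S24.EmbedCount

/-!
# S24: the embeddings of the function field attached to a point of the upper half plane

For `τ₀ : ℍ` and a coset `q ∈ SL₂(ℤ)/Γ₀(N)` the Taylor expansions at `τ₀` (in the Cayley
coordinate) of the translates `z ↦ j(d · q⁻¹ z)`, `d ∣ N`, satisfy exactly the polynomial relations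
of the generators `j(q^d)` of the function field; they define a field embedding
`σ_q : FF N →+* LaurentSeries ℂ`.
-/

set_option autoImplicit false
set_option linter.unusedSectionVars false

namespace Fermat.Agent.S24.SigmaPoint

open UpperHalfPlane Complex Filter Topology CongruenceSubgroup
open Fermat.Agent.S20 Fermat.Agent.S24.Point Fermat.Agent.S24.Distinct Fermat.Agent.S24.Eval
open scoped MatrixGroups Manifold

section Poly

variable {ι R : Type*} [CommSemiring R] (τ₀ : ℍ)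

/-- Polynomial expressions in holomorphic functions are holomorphic, and their Taylor series is the
polynomial expression in the Taylor series. -/
theorem mdiff_and_taylor_eval₂ (φ : R →+* ℂ) (G : ι → ℍ → ℂ) (hG : ∀ i, MDiff (G i))
    (P : MvPolynomial ι R) :
    MDiff (fun z => MvPolynomial.eval₂ φ (fun i => G i z) P) ∧
    taylor τ₀ (fun z => MvPolynomial.eval₂ φ (fun i => G i z) P)
      = MvPolynomial.eval₂ (PowerSeries.C.comp φ) (fun i => taylor τ₀ (G i)) P := by
  induction P using MvPolynomial.induction_on with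
  | C a =>
      simp only [MvPolynomial.eval₂_C]
      exact ⟨mdifferentiable_const, taylor_const τ₀ _⟩
  | add p q hp hq =>
      simp only [MvPolynomial.eval₂_add]
      refine ⟨hp.1.add hq.1, ?_⟩
      rw [← hp.2, ← hq.2]
      exact taylor_add τ₀ hp.1 hq.1
  | mul_X p i hp =>
      simp only [MvPolynomial.eval₂_mul, MvPolynomial.eval₂_X]
      refine ⟨hp.1.mul (hG i), ?_⟩
      rw [← hp.2]
      exact taylor_mul τ₀ hp.1 (hG i)

theorem mdiff_eval₂ (φ : R →+* ℂ) (G : ι → ℍ → ℂ) (hG : ∀ i, MDiff (G i))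
    (P : MvPolynomial ι R) : MDiff (fun z => MvPolynomial.eval₂ φ (fun i => G i z) P) :=
  (mdiff_and_taylor_eval₂ UpperHalfPlane.I φ G hG P).1

theorem taylor_eval₂ (φ : R →+* ℂ) (G : ι → ℍ → ℂ) (hG : ∀ i, MDiff (G i))
    (P : MvPolynomial ι R) :
    taylor τ₀ (fun z => MvPolynomial.eval₂ φ (fun i => G i z) P)
      = MvPolynomial.eval₂ (PowerSeries.C.comp φ) (fun i => taylor τ₀ (G i)) P :=
  (mdiff_and_taylor_eval₂ τ₀ φ G hG P).2

/-- The same for the Laurent series attached to the Taylor series. -/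
theorem ofPowerSeries_taylor_eval₂ (φ : R →+* ℂ) (G : ι → ℍ → ℂ) (hG : ∀ i, MDiff (G i))
    (P : MvPolynomial ι R) :
    HahnSeries.ofPowerSeries ℤ ℂ (taylor τ₀ (fun z => MvPolynomial.eval₂ φ (fun i => G i z) P))
      = MvPolynomial.eval₂ (HahnSeries.C.comp φ)
          (fun i => HahnSeries.ofPowerSeries ℤ ℂ (taylor τ₀ (G i))) P := by
  rw [taylor_eval₂ τ₀ φ G hG P, MvPolynomial.eval₂_comp_left]
  congr 1
  ext a
  simp

/-- **Criterion**: a polynomial relation holds for the Taylor expansions iff it holds for the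
functions. -/
theorem eval₂_theta_eq_zero_iff (φ : R →+* ℂ) (G : ι → ℍ → ℂ) (hG : ∀ i, MDiff (G i))
    (P : MvPolynomial ι R) :
    MvPolynomial.eval₂ (HahnSeries.C.comp φ)
          (fun i => HahnSeries.ofPowerSeries ℤ ℂ (taylor τ₀ (G i))) P = 0
      ↔ ∀ z, MvPolynomial.eval₂ φ (fun i => G i z) P = 0 := by
  rw [← ofPowerSeries_taylor_eval₂ τ₀ φ G hG P, map_eq_zero_iff _ HahnSeries.ofPowerSeries_injective,
    taylor_eq_zero_iff τ₀ (mdiff_eval₂ φ G hG P)]
  exact funext_iff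

end Poly

section Translates

variable (N : ℕ)

/-- the translate of `z ↦ j(d z)` attached to the coset `q` -/
noncomputable def G (q : Q N) (d : ℕ) (z : ℍ) : ℂ := JN d ((q.out : SL(2, ℤ))⁻¹ • z)

theorem G_def (q : Q N) (d : ℕ) (z : ℍ) : G N q d z = JN d ((q.out : SL(2, ℤ))⁻¹ • z) := rfl

theorem mdiff_G (q : Q N) {d : ℕ} (hd : 0 < d) : MDiff (G N q d) :=
  mdiff_JN_smul d hd _

theorem G_one (q : Q N) : G N q 1 = JFunction.jfun := by
  funext z
  rw [G_def, JN_one, jf_smul]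

theorem out_smul (h : SL(2, ℤ)) (q : Q N) :
    ∃ γ ∈ Gamma0 N, ((h • q).out : SL(2, ℤ)) = h * q.out * γ := by
  have h1 : h • q = ((h * q.out : SL(2, ℤ)) : Q N) := by
    conv_lhs => rw [← QuotientGroup.out_eq' q]
    rfl
  obtain ⟨γ, hγ⟩ := QuotientGroup.mk_out_eq_mul (Gamma0 N) (h * q.out)
  exact ⟨γ.1, γ.2, by rw [h1, hγ]⟩

/-- The translates are permuted by the action of `SL(2, ℤ)` on the cosets. -/
theorem G_smul (h : SL(2, ℤ)) (q : Q N) {d : ℕ} (hd : 0 < d) (hdN : d ∣ N) (z : ℍ) :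
    G N (h • q) d z = G N q d (h⁻¹ • z) := by
  obtain ⟨γ, hγ, he⟩ := out_smul N h q
  rw [G_def, G_def, he, mul_inv_rev, mul_inv_rev, mul_smul, mul_smul]
  exact JN_smul_of_mem_Gamma0_of_dvd d N hd hdN (inv_mem hγ) _

theorem G_inv_smul (h : SL(2, ℤ)) (q : Q N) {d : ℕ} (hd : 0 < d) (hdN : d ∣ N) :
    G N (h⁻¹ • q) d = fun z => G N q d (h • z) := by
  funext z
  rw [G_smul N h⁻¹ q hd hdN, inv_inv]

/-- The translates of `j(N z)` are pairwise distinct. -/
theorem G_injective (hN : 0 < N) {q q' : Q N} (h : G N q N = G N q' N) : q = q' :=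
  conj_JN_injective N hN h

variable (τ₀ : ℍ)

/-- the Taylor expansion at `τ₀` of the translate of `j(d z)` attached to `q`, as a Laurent
series -/
noncomputable def theta (q : Q N) (d : ℕ) : LaurentSeries ℂ :=
  HahnSeries.ofPowerSeries ℤ ℂ (taylor τ₀ (G N q d))

theorem theta_def (q : Q N) (d : ℕ) :
    theta N τ₀ q d = HahnSeries.ofPowerSeries ℤ ℂ (taylor τ₀ (G N q d)) := rfl

theorem theta_one (q : Q N) :
    theta N τ₀ q 1 = HahnSeries.ofPowerSeries ℤ ℂ (taylor τ₀ JFunction.jfun) := by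
  rw [theta_def, G_one]

theorem theta_injective (hN : 0 < N) {q q' : Q N} (h : theta N τ₀ q N = theta N τ₀ q' N) :
    q = q' :=
  G_injective N hN (taylor_injective τ₀ (mdiff_G N q hN) (mdiff_G N q' hN)
    (HahnSeries.ofPowerSeries_injective h))

theorem rot_ne_zero (γ : SL(2, ℤ)) : rot τ₀ γ ≠ 0 := by
  intro h
  have := norm_rot τ₀ γ
  rw [h, norm_zero] at this
  exact zero_ne_one this

/-- **Equivariance**: replacing `q` by `g⁻¹ • q`, for `g` in the stabiliser of `τ₀`, rescales the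
expansions by the rotation attached to `g`. -/
theorem theta_inv_smul (g : SL(2, ℤ)) (hg : g • τ₀ = τ₀) (q : Q N) {d : ℕ} (hd : 0 < d)
    (hdN : d ∣ N) :
    theta N τ₀ (g⁻¹ • q) d
      = LaurentRescale.rescale (rot τ₀ g) (rot_ne_zero τ₀ g) (theta N τ₀ q d) := by
  rw [theta_def, theta_def, LaurentRescale.rescale_ofPowerSeries, G_inv_smul N g q hd hdN,
    taylor_smul τ₀ g hg (mdiff_G N q hd)]

/-- **Criterion**: the expansions `theta N τ₀ q (dv i)` satisfy a polynomial relation iff the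
functions `z ↦ j(dv i · z)` do. -/
theorem eval₂_theta_eq_zero_iff' {ι R : Type*} [CommSemiring R] (φ : R →+* ℂ) (dv : ι → ℕ)
    (hdv : ∀ i, 0 < dv i) (q : Q N) (P : MvPolynomial ι R) :
    MvPolynomial.eval₂ (HahnSeries.C.comp φ) (fun i => theta N τ₀ q (dv i)) P = 0
      ↔ ∀ z, MvPolynomial.eval₂ φ (fun i => JN (dv i) z) P = 0 := by
  have h := eval₂_theta_eq_zero_iff τ₀ φ (fun i => G N q (dv i)) (fun i => mdiff_G N q (hdv i)) P
  rw [show (fun i => theta N τ₀ q (dv i))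
    = fun i => HahnSeries.ofPowerSeries ℤ ℂ (taylor τ₀ (G N q (dv i))) from rfl, h]
  constructor
  · intro H z
    have := H ((q.out : SL(2, ℤ)) • z)
    simpa only [G_def, inv_smul_smul] using this
  · intro H z
    exact H _

end Translates

section Order

/-- The order of a power series, viewed as a Laurent series. -/
theorem order_ofPowerSeries (p : PowerSeries ℂ) :
    (HahnSeries.ofPowerSeries ℤ ℂ p).order = (p.order.toNat : ℤ) := by
  by_cases hp : p = 0
  · rw [hp, map_zero, HahnSeries.order_zero, PowerSeries.order_zero]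
    simp
  have hp' : HahnSeries.ofPowerSeries ℤ ℂ p ≠ 0 := fun h =>
    hp (HahnSeries.ofPowerSeries_injective (by rw [h, map_zero]))
  have hc : ∀ m : ℤ, (HahnSeries.ofPowerSeries ℤ ℂ p).coeff m
      = if m < 0 then 0 else PowerSeries.coeff m.natAbs p := fun m => PowerSeries.coeff_coe p m
  apply le_antisymm
  · apply HahnSeries.order_le_of_coeff_ne_zero
    rw [hc]
    simp only [Int.natCast_nonneg, not_lt_of_ge, if_false, Int.natAbs_natCast]
    exact PowerSeries.coeff_order hp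
  · rw [HahnSeries.le_order_iff_forall hp']
    intro j hj
    rw [hc]
    split_ifs with h
    · rfl
    · apply PowerSeries.coeff_of_lt_order_toNat
      omega

end Order

section Rot

variable (τ₀ : ℍ)

/-- there is a point of `ℍ` different from `τ₀` -/
theorem exists_cay_ne_zero : ∃ τ : ℍ, cay τ₀ τ ≠ 0 := by
  refine ⟨(1 : ℝ) +ᵥ τ₀, ?_⟩
  rw [cay, div_ne_zero_iff]
  refine ⟨?_, sub_conj_ne_zero τ₀ _⟩
  rw [UpperHalfPlane.coe_vadd]
  simp

theorem rot_mul (g h : SL(2, ℤ)) (hg : g • τ₀ = τ₀) (hh : h • τ₀ = τ₀) :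
    rot τ₀ (g * h) = rot τ₀ g * rot τ₀ h := by
  obtain ⟨τ, hτ⟩ := exists_cay_ne_zero τ₀
  have hgh : (g * h) • τ₀ = τ₀ := by rw [mul_smul, hh, hg]
  have h1 := cay_smul τ₀ (g * h) hgh τ
  rw [mul_smul, cay_smul τ₀ g hg, cay_smul τ₀ h hh, ← mul_assoc] at h1
  exact (mul_right_cancel₀ hτ h1).symm

theorem rot_inv (g : SL(2, ℤ)) (hg : g • τ₀ = τ₀) : rot τ₀ g⁻¹ = (rot τ₀ g)⁻¹ := by
  have hg' : g⁻¹ • τ₀ = τ₀ := by
    conv_lhs => rw [← hg]
    rw [inv_smul_smul]
  have h := rot_mul τ₀ g⁻¹ g hg' hg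
  rw [inv_mul_cancel, rot_one] at h
  exact eq_inv_of_mul_eq_one_left h.symm

end Rot

/-! ### Properties of a family of embeddings with prescribed values on the generators -/

section Properties

variable (N : ℕ) [NeZero N] (τ₀ : ℍ) (σ : Q N → (FF N →+* LaurentSeries ℂ))

/-- (ii) the image of `j` does not depend on the coset -/
theorem sigma_jF
    (hgen : ∀ (q : Q N) (d : ℕ) [NeZero d] (hd : d ∣ N), σ q (jgen N d hd) = theta N τ₀ q d)
    (q : Q N) :
    σ q (jF N) = HahnSeries.ofPowerSeries ℤ ℂ (taylor τ₀ JFunction.jfun) := by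
  rw [jF, hgen q 1 (one_dvd N), theta_one]

/-- (iii) the order of the image of `j - a`, where `ι a = j(τ₀)`, is the ramification index of
`τ₀`. -/
theorem order_sigma_jF_sub
    (hK : ∀ (q : Q N) (k : KK), σ q (algebraMap KK (FF N) k) = HahnSeries.C (iota k))
    (hgen : ∀ (q : Q N) (d : ℕ) [NeZero d] (hd : d ∣ N), σ q (jgen N d hd) = theta N τ₀ q d)
    (q : Q N) (a : KK) (ha : iota a = JFunction.jfun τ₀) :
    (σ q (jF N - algebraMap KK (FF N) a)).order = (JFunction.ramIdx τ₀ : ℤ) := by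
  have h1 : σ q (jF N - algebraMap KK (FF N) a)
      = HahnSeries.ofPowerSeries ℤ ℂ
          (taylor τ₀ (JFunction.jfun - fun _ => JFunction.jfun τ₀)) := by
    rw [map_sub, sigma_jF N τ₀ σ hgen, hK, ha,
      taylor_sub τ₀ JFunction.mdiff_jfun mdifferentiable_const, taylor_const, map_sub,
      HahnSeries.ofPowerSeries_C]
  rw [h1, order_ofPowerSeries,
    order_taylor τ₀ (JFunction.mdiff_jfun.sub mdifferentiable_const)]
  have h2 : ((JFunction.jfun - fun _ => JFunction.jfun τ₀) ∘ ofComplex)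
      = fun w : ℂ => JFunction.jfun (ofComplex w) - JFunction.jfun τ₀ := rfl
  rw [h2, JFunction.analyticOrderAt_jfun_sub]
  simp

/-- (v) the embeddings attached to different cosets are different -/
theorem sigma_injective
    (hgen : ∀ (q : Q N) (d : ℕ) [NeZero d] (hd : d ∣ N), σ q (jgen N d hd) = theta N τ₀ q d) :
    Function.Injective σ := by
  intro q q' h
  have h1 := hgen q N (dvd_refl N)
  rw [h, hgen q' N (dvd_refl N)] at h1
  exact (theta_injective N τ₀ (Nat.pos_of_ne_zero (NeZero.ne N)) h1).symm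

/-- (iv) equivariance: for `g` in the stabiliser of `τ₀`, passing from `q` to `g⁻¹ • q` rescales
the embedding by the rotation attached to `g`. -/
theorem sigma_inv_smul_eq
    (hK : ∀ (q : Q N) (k : KK), σ q (algebraMap KK (FF N) k) = HahnSeries.C (iota k))
    (hgen : ∀ (q : Q N) (d : ℕ) [NeZero d] (hd : d ∣ N), σ q (jgen N d hd) = theta N τ₀ q d)
    (hext : ∀ f g : FF N →+* LaurentSeries ℂ,
      (∀ k, f (algebraMap KK (FF N) k) = g (algebraMap KK (FF N) k)) →
      (∀ (d : ℕ) [NeZero d] (hd : d ∣ N), f (jgen N d hd) = g (jgen N d hd)) → f = g)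
    (g : SL(2, ℤ)) (hg : g • τ₀ = τ₀) (q : Q N) :
    σ (g⁻¹ • q) = (LaurentRescale.rescale (rot τ₀ g) (rot_ne_zero τ₀ g)).comp (σ q) := by
  apply hext
  · intro k
    rw [RingHom.comp_apply, hK, hK, LaurentRescale.rescale_C]
  · intro d _ hd
    rw [RingHom.comp_apply, hgen, hgen,
      theta_inv_smul N τ₀ g hg q (Nat.pos_of_ne_zero (NeZero.ne d)) hd]

/-- (iv), coefficientwise, for the action of `g` itself -/
theorem coeff_sigma_smul
    (hK : ∀ (q : Q N) (k : KK), σ q (algebraMap KK (FF N) k) = HahnSeries.C (iota k))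
    (hgen : ∀ (q : Q N) (d : ℕ) [NeZero d] (hd : d ∣ N), σ q (jgen N d hd) = theta N τ₀ q d)
    (hext : ∀ f g : FF N →+* LaurentSeries ℂ,
      (∀ k, f (algebraMap KK (FF N) k) = g (algebraMap KK (FF N) k)) →
      (∀ (d : ℕ) [NeZero d] (hd : d ∣ N), f (jgen N d hd) = g (jgen N d hd)) → f = g)
    (g : SL(2, ℤ)) (hg : g • τ₀ = τ₀) (q : Q N) (f : FF N) (n : ℤ) :
    (σ (g • q) f).coeff n = ((rot τ₀ g)⁻¹) ^ n * (σ q f).coeff n := by
  have hg' : g⁻¹ • τ₀ = τ₀ := by
    conv_lhs => rw [← hg]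
    rw [inv_smul_smul]
  have h := sigma_inv_smul_eq N τ₀ σ hK hgen hext g⁻¹ hg' q
  rw [inv_inv] at h
  rw [h, RingHom.comp_apply, LaurentRescale.rescale_coeff, rot_inv τ₀ g hg]

end Properties

/-! ### The three packages -/

section Packages

variable (N : ℕ) [NeZero N]

/-- `σ` is a family of embeddings of the function field, indexed by the cosets, whose values on
the constants and on the generators are the expected ones at the point `τ₀`. -/
def IsSigmaAt (τ₀ : ℍ) (σ : Q N → (FF N →+* LaurentSeries ℂ)) : Prop :=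
  (∀ (q : Q N) (k : KK), σ q (algebraMap KK (FF N) k) = HahnSeries.C (iota k)) ∧
  (∀ (q : Q N) (d : ℕ) [NeZero d] (hd : d ∣ N), σ q (jgen N d hd) = theta N τ₀ q d)

/-- ring homomorphisms out of the function field are determined by their values on the constants
and on the generators -/
def GensExt : Prop :=
  ∀ f g : FF N →+* LaurentSeries ℂ,
      (∀ k, f (algebraMap KK (FF N) k) = g (algebraMap KK (FF N) k)) →
      (∀ (d : ℕ) [NeZero d] (hd : d ∣ N), f (jgen N d hd) = g (jgen N d hd)) → f = g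

variable {N}

theorem IsSigmaAt.jF_eq {τ₀ : ℍ} {σ : Q N → (FF N →+* LaurentSeries ℂ)} (h : IsSigmaAt N τ₀ σ)
    (q q' : Q N) : σ q (jF N) = σ q' (jF N) := by
  rw [sigma_jF N τ₀ σ h.2 q, sigma_jF N τ₀ σ h.2 q']

theorem IsSigmaAt.order_eq {τ₀ : ℍ} {σ : Q N → (FF N →+* LaurentSeries ℂ)}
    (h : IsSigmaAt N τ₀ σ) (q : Q N) (a : KK) (ha : iota a = JFunction.jfun τ₀) :
    (σ q (jF N - algebraMap KK (FF N) a)).order = (JFunction.ramIdx τ₀ : ℤ) :=
  order_sigma_jF_sub N τ₀ σ h.1 h.2 q a ha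

theorem IsSigmaAt.injective {τ₀ : ℍ} {σ : Q N → (FF N →+* LaurentSeries ℂ)}
    (h : IsSigmaAt N τ₀ σ) : Function.Injective σ :=
  sigma_injective N τ₀ σ h.2

theorem IsSigmaAt.coeff_smul {τ₀ : ℍ} {σ : Q N → (FF N →+* LaurentSeries ℂ)}
    (h : IsSigmaAt N τ₀ σ) (hext : GensExt N) (g : SL(2, ℤ)) (hg : g • τ₀ = τ₀) (q : Q N)
    (f : FF N) (n : ℤ) :
    (σ (g • q) f).coeff n = ((rot τ₀ g)⁻¹) ^ n * (σ q f).coeff n :=
  coeff_sigma_smul N τ₀ σ h.1 h.2 hext g hg q f n

variable (N)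

/-- **The embeddings over a generic value** `a ≠ 0, 1728`: unramified. -/
theorem exists_sigma_generic_of (hσ : ∀ τ₀ : ℍ, ∃ σ, IsSigmaAt N τ₀ σ) (a : KK) (h0 : a ≠ 0)
    (h1 : a ≠ 1728) :
    ∃ σ : Q N → (FF N →+* LaurentSeries ℂ),
      (∀ (q : Q N) (k : KK), σ q (algebraMap KK (FF N) k) = HahnSeries.C (iota k)) ∧
      (∀ q q' : Q N, σ q (jF N) = σ q' (jF N)) ∧
      (∀ q : Q N, (σ q (jF N - algebraMap KK (FF N) a)).order = 1) ∧
      Function.Injective σ := by
  obtain ⟨τ₀, hτ₀⟩ := JFunction.jfun_surjective (iota a)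
  obtain ⟨σ, hσ'⟩ := hσ τ₀
  have hr : JFunction.ramIdx τ₀ = 1 := by
    apply JFunction.ramIdx_of_jfun_ne
    · rw [hτ₀]
      exact fun h => h0 (iota_injective (by rw [h, map_zero]))
    · rw [hτ₀]
      intro h
      apply h1
      apply iota_injective
      rw [h]
      exact (map_ofNat iota 1728).symm
  refine ⟨σ, hσ'.1, hσ'.jF_eq, fun q => ?_, hσ'.injective⟩
  rw [hσ'.order_eq q a hτ₀.symm, hr]
  rfl

/-- **The embeddings over `1728`**: ramification index `2`, the cosets are permuted by `S`. -/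
theorem exists_sigma_1728_of (hσ : ∀ τ₀ : ℍ, ∃ σ, IsSigmaAt N τ₀ σ) (hext : GensExt N) :
    ∃ σ : Q N → (FF N →+* LaurentSeries ℂ),
      (∀ (q : Q N) (k : KK), σ q (algebraMap KK (FF N) k) = HahnSeries.C (iota k)) ∧
      (∀ q q' : Q N, σ q (jF N) = σ q' (jF N)) ∧
      (∀ q : Q N, (σ q (jF N - algebraMap KK (FF N) 1728)).order = 2) ∧
      (∀ (q : Q N) (f : FF N) (n : ℤ),
        (σ (ModularGroup.S • q) f).coeff n = (-1 : ℂ) ^ n * (σ q f).coeff n) ∧
      Function.Injective σ := by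
  obtain ⟨σ, hσ'⟩ := hσ UpperHalfPlane.I
  refine ⟨σ, hσ'.1, hσ'.jF_eq, fun q => ?_, fun q f n => ?_, hσ'.injective⟩
  · have ha : iota (1728 : KK) = JFunction.jfun UpperHalfPlane.I := by
      rw [JFunction.jfun_I]
      exact map_ofNat iota 1728
    rw [hσ'.order_eq q 1728 ha, JFunction.ramIdx_of_E₆ JInj.E₆_I]
    rfl
  · rw [hσ'.coeff_smul hext ModularGroup.S JInj.S_smul_I q f n, rot_S _ JInj.S_smul_I]
    norm_num

/-- **The embeddings over `0`**: ramification index `3`, the cosets are permuted by `S T`. -/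
theorem exists_sigma_zero_of (hσ : ∀ τ₀ : ℍ, ∃ σ, IsSigmaAt N τ₀ σ) (hext : GensExt N) :
    ∃ (σ : Q N → (FF N →+* LaurentSeries ℂ)) (ζ : ℂ), IsPrimitiveRoot ζ 3 ∧
      (∀ (q : Q N) (k : KK), σ q (algebraMap KK (FF N) k) = HahnSeries.C (iota k)) ∧
      (∀ q q' : Q N, σ q (jF N) = σ q' (jF N)) ∧
      (∀ q : Q N, (σ q (jF N - algebraMap KK (FF N) 0)).order = 3) ∧
      (∀ (q : Q N) (f : FF N) (n : ℤ),
        (σ ((ModularGroup.S * ModularGroup.T) • q) f).coeff n = ζ ^ n * (σ q f).coeff n) ∧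
      Function.Injective σ := by
  obtain ⟨σ, hσ'⟩ := hσ JInj.rho
  refine ⟨σ, (rot JInj.rho (ModularGroup.S * ModularGroup.T))⁻¹,
    (rot_ST _ JInj.ST_smul_rho).inv, hσ'.1, hσ'.jF_eq, fun q => ?_, fun q f n => ?_,
    hσ'.injective⟩
  · have ha : iota (0 : KK) = JFunction.jfun JInj.rho := by
      rw [JFunction.jfun_rho, map_zero]
    rw [hσ'.order_eq q 0 ha, JFunction.ramIdx_of_E₄ JInj.E₄_rho]
    rfl
  · exact hσ'.coeff_smul hext _ JInj.ST_smul_rho q f n

end Packages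

/-! ### Existence, and the local data over `0`, `1728` and a generic point -/

section Final

variable (N : ℕ) [NeZero N]

theorem gensExt : GensExt N := fun _ _ hc hg => Jq.ringHom_ext_jgen N hc hg

/-- The Taylor expansions at `τ₀` of the translates of the `j(d z)` define embeddings of the
function field. -/
theorem exists_isSigmaAt (τ₀ : ℍ) : ∃ σ, IsSigmaAt N τ₀ σ := by
  have h : ∀ q : Q N, ∃ σ : FF N →+* LaurentSeries ℂ,
      (∀ c : KK, σ (algebraMap KK (FF N) c) = (HahnSeries.C.comp iota) c) ∧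
      ∀ d : Jq.Dv N, σ (jgen N (d : ℕ) d.2) = theta N τ₀ q (d : ℕ) := by
    intro q
    apply Jq.exists_lift_jgen N (HahnSeries.C.comp iota) (fun d => theta N τ₀ q (d : ℕ))
    intro P
    rw [JqCriterion.aeval_eq_zero_iff' (fun d : Jq.Dv N => (d : ℕ)) P,
      eval₂_theta_eq_zero_iff' N τ₀ iota (fun d : Jq.Dv N => (d : ℕ))
        (fun d => Nat.pos_of_ne_zero (NeZero.ne _)) q P]
    rfl
  choose σ hσ using h
  exact ⟨σ, fun q k => (hσ q).1 k, fun q d _ hd => (hσ q).2 ⟨d, hd⟩⟩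

theorem exists_sigma_generic (a : KK) (h0 : a ≠ 0) (h1 : a ≠ 1728) :
    ∃ σ : Q N → (FF N →+* LaurentSeries ℂ),
      (∀ (q : Q N) (k : KK), σ q (algebraMap KK (FF N) k) = HahnSeries.C (iota k)) ∧
      (∀ q q' : Q N, σ q (jF N) = σ q' (jF N)) ∧
      (∀ q : Q N, (σ q (jF N - algebraMap KK (FF N) a)).order = 1) ∧
      Function.Injective σ :=
  exists_sigma_generic_of N (exists_isSigmaAt N) a h0 h1

theorem exists_sigma_1728 :
    ∃ σ : Q N → (FF N →+* LaurentSeries ℂ),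
      (∀ (q : Q N) (k : KK), σ q (algebraMap KK (FF N) k) = HahnSeries.C (iota k)) ∧
      (∀ q q' : Q N, σ q (jF N) = σ q' (jF N)) ∧
      (∀ q : Q N, (σ q (jF N - algebraMap KK (FF N) 1728)).order = 2) ∧
      (∀ (q : Q N) (f : FF N) (n : ℤ),
        (σ (ModularGroup.S • q) f).coeff n = (-1 : ℂ) ^ n * (σ q f).coeff n) ∧
      Function.Injective σ :=
  exists_sigma_1728_of N (exists_isSigmaAt N) (gensExt N)

theorem exists_sigma_zero :
    ∃ (σ : Q N → (FF N →+* LaurentSeries ℂ)) (ζ : ℂ), IsPrimitiveRoot ζ 3 ∧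
      (∀ (q : Q N) (k : KK), σ q (algebraMap KK (FF N) k) = HahnSeries.C (iota k)) ∧
      (∀ q q' : Q N, σ q (jF N) = σ q' (jF N)) ∧
      (∀ q : Q N, (σ q (jF N - algebraMap KK (FF N) 0)).order = 3) ∧
      (∀ (q : Q N) (f : FF N) (n : ℤ),
        (σ ((ModularGroup.S * ModularGroup.T) • q) f).coeff n = ζ ^ n * (σ q f).coeff n) ∧
      Function.Injective σ :=
  exists_sigma_zero_of N (exists_isSigmaAt N) (gensExt N)

/-- **Local data over a generic point** `a ≠ 0, 1728`. -/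
theorem exists_localData_generic (a : KK) (h0 : a ≠ 0) (h1 : a ≠ 1728) :
    ∃ σ : Q N → (FF N →+* LaurentSeries ℂ),
      Embed.LocalData (jF N - algebraMap KK (FF N) a) (1 : SL(2, ℤ)) iota σ 1 1 := by
  obtain ⟨σ, hc, hag, hord, hinj⟩ := exists_sigma_generic N a h0 h1
  refine ⟨σ, ⟨Nat.one_pos, IsPrimitiveRoot.one, hc, fun q q' => ?_, fun q => ?_,
    fun q f n => ?_, hinj⟩⟩
  · rw [map_sub, map_sub, hag q q', hc, hc]
  · rw [hord q]
    rfl
  · rw [one_smul, one_zpow, one_mul]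

/-- **Local data over `1728`**. -/
theorem exists_localData_1728 :
    ∃ σ : Q N → (FF N →+* LaurentSeries ℂ),
      Embed.LocalData (jF N - algebraMap KK (FF N) 1728) ModularGroup.S iota σ 2 (-1) := by
  obtain ⟨σ, hc, hag, hord, htw, hinj⟩ := exists_sigma_1728 N
  refine ⟨σ, ⟨Nat.succ_pos 1, ?_, hc, fun q q' => ?_, fun q => ?_, htw, hinj⟩⟩
  · exact IsPrimitiveRoot.neg_one 0 (by norm_num)
  · rw [map_sub, map_sub, hag q q', hc, hc]
  · rw [hord q]
    rfl

/-- **Local data over `0`**. -/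
theorem exists_localData_zero :
    ∃ (σ : Q N → (FF N →+* LaurentSeries ℂ)) (ζ : ℂ),
      Embed.LocalData (jF N - algebraMap KK (FF N) 0) (ModularGroup.S * ModularGroup.T)
        iota σ 3 ζ := by
  obtain ⟨σ, ζ, hζ, hc, hag, hord, htw, hinj⟩ := exists_sigma_zero N
  refine ⟨σ, ζ, ⟨Nat.succ_pos 2, hζ, hc, fun q q' => ?_, fun q => ?_, htw, hinj⟩⟩
  · rw [map_sub, map_sub, hag q q', hc, hc]
  · rw [hord q]
    rfl

end Final

end Fermat.Agent.S24.SigmaPoint
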