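import Mathlib
import Fermat.Agent.S24.Fiber
import Fermat.Agent.S24.FFFiber
import Fermat.Agent.S24.SigmaPoint

/-!
# S24: the inputs of `Fiber.genus_eq_genusFormula`, with the landed leaves filled in

Remaining hypotheses: the degree `[FF N : KK(j)] = #(SL₂(ℤ)/Γ₀(N))` (with transcendence and
finiteness), principal divisors of degree zero, and the local embedding data at the cusp.
-/

set_option autoImplicit false

namespace Fermat.Agent.S24.FiberInputs

open IntermediateField AlgebraicCurve ModularCurve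
open Fermat.Agent.S24 Fermat.Agent.S24.Eval Fermat.Agent.S24.Embed
open Fermat.Agent.S20
open scoped MatrixGroups

variable (N : ℕ) [NeZero N]

/-- the inputs of the Riemann–Hurwitz computation for `FF N` -/
theorem inputs
    (htr : Transcendental KK (jF N)) (hfd : FiniteDimensional KK⟮jF N⟯ (FF N))
    (hrank : Module.finrank KK⟮jF N⟯ (FF N) = Nat.card (Q N))
    (hprinc : ∀ h : FF N, h ≠ 0 →
      ∃ D : Divisor KK (FF N), (∀ v, D v = v.ord h) ∧ Divisor.degree D = 0)
    (hcusp : ∃ (σ : Q N → FF N →+* LaurentSeries ℂ) (e₀ : ℕ) (ζ : ℂ),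
      LocalData (jF N)⁻¹ ModularGroup.T iota σ e₀ ζ) :
    Fiber.Inputs (Q N) (jF N) iota (ModularGroup.S * ModularGroup.T) ModularGroup.S
      ModularGroup.T (0 : KK) (1728 : KK) where
  trans := htr
  fin := hfd
  finrank_eq := hrank
  princ := hprinc
  finite_over := fun a => placesOver_finite (jF N) htr a
  sum_over := fun a => finsum_ord_placesOver (jF N) htr a
  finite_infty := placesOverInfty_finite (jF N) htr
  sum_infty := finsum_ord_placesOverInfty (jF N) htr
  sigma_generic := fun a h0 h1 => by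
    obtain ⟨σ, D⟩ := SigmaPoint.exists_localData_generic N a h0 h1
    exact ⟨σ, 1, 1, D⟩
  sigma_zero := by
    obtain ⟨σ, ζ, D⟩ := SigmaPoint.exists_localData_zero N
    exact ⟨σ, 3, ζ, D⟩
  sigma_one := by
    obtain ⟨σ, D⟩ := SigmaPoint.exists_localData_1728 N
    exact ⟨σ, 2, -1, D⟩
  sigma_infty := hcusp

/-- **The genus of the function field of `X₀(N)`**, from the three remaining leaves. -/
theorem genus_eq_genusFormula [HasCanonicalDivisor (K := KK) (F := FF N)]
    (htr : Transcendental KK (jF N)) (hfd : FiniteDimensional KK⟮jF N⟯ (FF N))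
    (hrank : Module.finrank KK⟮jF N⟯ (FF N) = Nat.card (Q N))
    (hprinc : ∀ h : FF N, h ≠ 0 →
      ∃ D : Divisor KK (FF N), (∀ v, D v = v.ord h) ∧ Divisor.degree D = 0)
    (hcusp : ∃ (σ : Q N → FF N →+* LaurentSeries ℂ) (e₀ : ℕ) (ζ : ℂ),
      LocalData (jF N)⁻¹ ModularGroup.T iota σ e₀ ζ) :
    (genus KK (FF N) : ℚ) = genusFormula N :=
  Fiber.genus_eq_genusFormula N (inputs N htr hfd hrank hprinc hcusp)

end Fermat.Agent.S24.FiberInputs
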