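import Mathlib
import Fermat.Agent.S20.CuspExp
import Fermat.Agent.S20.Div
import Fermat.Agent.S20.Stab
import Fermat.Agent.S20.Ramanujan
import Fermat.Agent.S24.LaurentRescale
import Fermat.Agent.S24.JFunction

/-!
# S24, leaf M3: Laurent expansions at the cusp `∞`

A function `g : ℍ → ℂ` is *meromorphic at the cusp* (`Mero N g`) if it is holomorphic on `ℍ`,
`N`-periodic, and `Δ ^ M * g` is bounded at `i∞` for some `M`.  Such functions form a ring, and
`cuspL N : (ℍ → ℂ) → LaurentSeries ℂ` (the expansion in `q_N = exp (2πiτ/N)`) is an injective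
ring homomorphism on it, compatible with the translation `τ ↦ τ + 1`.
-/

set_option autoImplicit false

namespace Fermat.Agent.S24.Cusp

open UpperHalfPlane ModularForm Function Filter Asymptotics
open Fermat.Agent.S20 Fermat.Agent.S20.CuspExp
open scoped MatrixGroups ModularForm Manifold Topology Real

local notation "𝕢" => Periodic.qParam
local notation "Δ" => ModularForm.discriminant

/-! ### The discriminant -/

theorem discriminant_vadd_int (n : ℤ) (τ : ℍ) : Δ ((n : ℝ) +ᵥ τ) = Δ τ := by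
  obtain ⟨γ, hγ⟩ : ∃ γ : SL(2, ℤ), γ = ModularGroup.T ^ n := ⟨_, rfl⟩
  have h := Fermat.Agent.S20.Stab.discriminant_smul γ τ
  have hd : denom γ τ = 1 := by
    rw [Fermat.Agent.S20.Stab.denom_SL, hγ, ModularGroup.coe_T_zpow]
    simp
  rw [hd, one_pow, one_mul, hγ, UpperHalfPlane.modular_T_zpow_smul] at h
  exact h

theorem discriminant_vadd_nat (n : ℕ) (τ : ℍ) : Δ ((n : ℝ) +ᵥ τ) = Δ τ := by
  have := discriminant_vadd_int (n : ℤ) τ
  simpa using this

theorem discriminant_vadd_one (τ : ℍ) : Δ ((1 : ℝ) +ᵥ τ) = Δ τ := by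
  have := discriminant_vadd_int 1 τ
  simpa using this

theorem isBoundedAtImInfty_discriminant_pow (M : ℕ) :
    IsBoundedAtImInfty (fun z : ℍ => Δ z ^ M) := by
  induction M with
  | zero =>
      simp only [pow_zero]
      exact Filter.const_boundedAtFilter _ (1 : ℂ)
  | succ M ih =>
      have h1 : IsBoundedAtImInfty (Δ : ℍ → ℂ) :=
        (discriminant_isZeroAtImInfty).isBoundedAtImInfty
      have := ih.mul h1
      refine this.congr' (Filter.Eventually.of_forall fun z => ?_) (Filter.EventuallyEq.refl _ _)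
      simp only [Pi.mul_apply, pow_succ]

theorem mdiff_discriminant_pow (M : ℕ) : MDiff (fun z : ℍ => Δ z ^ M) :=
  Fermat.Agent.S20.Div.mdiff_discriminant.pow M

theorem nice_discriminant_pow (N : ℕ) (M : ℕ) : Nice (N : ℝ) (fun z : ℍ => Δ z ^ M) where
  mdiff := mdiff_discriminant_pow M
  vadd τ := by
    show Δ ((N : ℝ) +ᵥ τ) ^ M = Δ τ ^ M
    rw [discriminant_vadd_nat]
  bdd := isBoundedAtImInfty_discriminant_pow M

/-! ### Functions meromorphic at the cusp -/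

/-- holomorphic on `ℍ`, `N`-periodic and meromorphic at `i∞` -/
structure Mero (N : ℕ) (g : ℍ → ℂ) : Prop where
  mdiff : MDiff g
  vadd : ∀ τ : ℍ, g ((N : ℝ) +ᵥ τ) = g τ
  bdd : ∃ M : ℕ, IsBoundedAtImInfty (fun z : ℍ => Δ z ^ M * g z)

section Mero

variable {N : ℕ} {g g₁ g₂ : ℍ → ℂ} {M : ℕ}

theorem Mero.nice (hg : Mero N g) (hM : IsBoundedAtImInfty (fun z : ℍ => Δ z ^ M * g z)) :
    Nice (N : ℝ) (fun z : ℍ => Δ z ^ M * g z) where
  mdiff := (mdiff_discriminant_pow M).mul hg.mdiff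
  vadd τ := by
    show Δ ((N : ℝ) +ᵥ τ) ^ M * g ((N : ℝ) +ᵥ τ) = Δ τ ^ M * g τ
    rw [discriminant_vadd_nat, hg.vadd]
  bdd := hM

theorem bdd_add (hM : IsBoundedAtImInfty (fun z : ℍ => Δ z ^ M * g z)) (k : ℕ) :
    IsBoundedAtImInfty (fun z : ℍ => Δ z ^ (M + k) * g z) := by
  have := (isBoundedAtImInfty_discriminant_pow k).mul hM
  refine this.congr' (Filter.Eventually.of_forall fun z => ?_) (Filter.EventuallyEq.refl _ _)
  simp only [Pi.mul_apply]
  ring

theorem bdd_add' (hM : IsBoundedAtImInfty (fun z : ℍ => Δ z ^ M * g z)) (k : ℕ) :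
    IsBoundedAtImInfty (fun z : ℍ => Δ z ^ (k + M) * g z) := by
  rw [add_comm]; exact bdd_add hM k

theorem mero_of_nice (hg : Nice (N : ℝ) g) : Mero N g :=
  ⟨hg.mdiff, hg.vadd, 0, by simpa using hg.bdd⟩

theorem mero_const (N : ℕ) (c : ℂ) : Mero N (fun _ : ℍ => c) :=
  ⟨mdifferentiable_const, fun _ => rfl, 0, by
    simp only [pow_zero, one_mul]
    exact Filter.const_boundedAtFilter _ c⟩

theorem Mero.add (h₁ : Mero N g₁) (h₂ : Mero N g₂) : Mero N (fun z => g₁ z + g₂ z) := by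
  obtain ⟨M₁, hM₁⟩ := h₁.bdd
  obtain ⟨M₂, hM₂⟩ := h₂.bdd
  refine ⟨h₁.mdiff.add h₂.mdiff, fun τ => by rw [h₁.vadd, h₂.vadd], M₁ + M₂, ?_⟩
  have := (bdd_add hM₁ M₂).add (bdd_add' hM₂ M₁)
  refine this.congr' (Filter.Eventually.of_forall fun z => ?_) (Filter.EventuallyEq.refl _ _)
  simp only [Pi.add_apply]
  ring

theorem Mero.mul (h₁ : Mero N g₁) (h₂ : Mero N g₂) : Mero N (fun z => g₁ z * g₂ z) := by
  obtain ⟨M₁, hM₁⟩ := h₁.bdd
  obtain ⟨M₂, hM₂⟩ := h₂.bdd
  refine ⟨h₁.mdiff.mul h₂.mdiff, fun τ => by rw [h₁.vadd, h₂.vadd], M₁ + M₂, ?_⟩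
  have := hM₁.mul hM₂
  refine this.congr' (Filter.Eventually.of_forall fun z => ?_) (Filter.EventuallyEq.refl _ _)
  simp only [Pi.mul_apply]
  ring

theorem Mero.neg (h₁ : Mero N g) : Mero N (fun z => -g z) := by
  have := (mero_const N (-1)).mul h₁
  simpa using this

theorem Mero.sub (h₁ : Mero N g₁) (h₂ : Mero N g₂) : Mero N (fun z => g₁ z - g₂ z) := by
  have := h₁.add h₂.neg
  simpa [sub_eq_add_neg] using this

theorem Mero.pow (h₁ : Mero N g) (k : ℕ) : Mero N (fun z => g z ^ k) := by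
  induction k with
  | zero => simpa using mero_const N 1
  | succ k ih =>
      have := ih.mul h₁
      simpa [pow_succ] using this

/-- translation by `1` -/
theorem Mero.translate (hg : Mero N g) : Mero N (fun τ : ℍ => g ((1 : ℝ) +ᵥ τ)) := by
  obtain ⟨M, hM⟩ := hg.bdd
  have h1 := (hg.nice hM).translate
  refine ⟨?_, ?_, M, ?_⟩
  · rw [translate_eq_slash]
    exact hg.mdiff.slash 0 _
  · intro τ
    have : (1 : ℝ) +ᵥ ((N : ℝ) +ᵥ τ) = (N : ℝ) +ᵥ ((1 : ℝ) +ᵥ τ) := by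
      rw [vadd_vadd, vadd_vadd, add_comm]
    show g ((1 : ℝ) +ᵥ ((N : ℝ) +ᵥ τ)) = g ((1 : ℝ) +ᵥ τ)
    rw [this, hg.vadd]
  · refine h1.bdd.congr' (Filter.Eventually.of_forall fun z => ?_) (Filter.EventuallyEq.refl _ _)
    show Δ ((1 : ℝ) +ᵥ z) ^ M * g ((1 : ℝ) +ᵥ z) = Δ z ^ M * g ((1 : ℝ) +ᵥ z)
    rw [discriminant_vadd_one]

end Mero

/-! ### Power series expansions of bounded functions -/

section PS

variable {N : ℕ} [NeZero N] {f f₁ f₂ : ℍ → ℂ}

theorem pos_N' : (0 : ℝ) < (N : ℝ) := by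
  exact_mod_cast Nat.pos_of_ne_zero (NeZero.ne N)

/-- the `q_N`-expansion of a bounded function, as a Laurent series -/
noncomputable def PS (N : ℕ) (f : ℍ → ℂ) : LaurentSeries ℂ :=
  HahnSeries.ofPowerSeries ℤ ℂ (qExpansion (N : ℝ) f)

theorem PS_add (h₁ : Nice (N : ℝ) f₁) (h₂ : Nice (N : ℝ) f₂) :
    PS N (fun z => f₁ z + f₂ z) = PS N f₁ + PS N f₂ := by
  unfold PS
  rw [← map_add]
  congr 1
  exact qExpansion_add (h₁.analyticAt pos_N') (h₂.analyticAt pos_N')

theorem PS_mul (h₁ : Nice (N : ℝ) f₁) (h₂ : Nice (N : ℝ) f₂) :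
    PS N (fun z => f₁ z * f₂ z) = PS N f₁ * PS N f₂ := by
  unfold PS
  rw [← map_mul]
  congr 1
  exact qExpansion_mul (h₁.analyticAt pos_N') (h₂.analyticAt pos_N')

theorem PS_eq_zero_iff (h₁ : Nice (N : ℝ) f) : PS N f = 0 ↔ f = 0 := by
  unfold PS
  rw [map_eq_zero_iff _ HahnSeries.ofPowerSeries_injective]
  exact qExpansion_eq_zero_iff pos_N' h₁.per h₁.mdiff h₁.bdd

theorem PS_one (N : ℕ) : PS N (fun _ : ℍ => (1 : ℂ)) = 1 := by
  unfold PS
  have : (fun _ : ℍ => (1 : ℂ)) = (1 : ℍ → ℂ) := rfl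
  rw [this, qExpansion_one, map_one]

theorem nice_const (N : ℕ) (c : ℂ) : Nice (N : ℝ) (fun _ : ℍ => c) :=
  ⟨mdifferentiable_const, fun _ => rfl, Filter.const_boundedAtFilter _ c⟩

theorem PS_const (N : ℕ) [NeZero N] (c : ℂ) : PS N (fun _ : ℍ => c) = HahnSeries.C c := by
  unfold PS
  have h1 : (fun _ : ℍ => c) = c • (1 : ℍ → ℂ) := by
    funext z
    simp
  have hA : AnalyticAt ℂ (cuspFunction (N : ℝ) (1 : ℍ → ℂ)) 0 :=
    (nice_const N 1).analyticAt pos_N'
  rw [h1, qExpansion_smul hA, qExpansion_one]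
  rw [show c • (1 : PowerSeries ℂ) = PowerSeries.C c by
    ext n
    simp [PowerSeries.coeff_one, PowerSeries.coeff_C]]
  exact HahnSeries.ofPowerSeries_C c

theorem PS_discriminant_pow_ne_zero (N : ℕ) [NeZero N] (M : ℕ) :
    PS N (fun z : ℍ => Δ z ^ M) ≠ 0 := by
  rw [Ne, PS_eq_zero_iff (nice_discriminant_pow N M)]
  intro h
  have := congrFun h UpperHalfPlane.I
  exact pow_ne_zero M (discriminant_ne_zero _) this

theorem PS_translate (h₁ : Nice (N : ℝ) f) :
    PS N (fun τ : ℍ => f ((1 : ℝ) +ᵥ τ)) =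
      LaurentRescale.rescale (Complex.exp (2 * π * Complex.I / N)) (Complex.exp_ne_zero _)
        (PS N f) := by
  unfold PS
  rw [LaurentRescale.rescale_ofPowerSeries]
  congr 1
  ext m
  rw [PowerSeries.coeff_rescale]
  exact cf_translate h₁ pos_N' m

end PS

/-! ### The Laurent expansion at the cusp -/

section CuspL

variable {N : ℕ} [NeZero N] {g g₁ g₂ : ℍ → ℂ} {M : ℕ}

open Classical in
/-- the Laurent expansion at the cusp, in the variable `q_N = exp (2πiτ/N)` -/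
noncomputable def cuspL (N : ℕ) (g : ℍ → ℂ) : LaurentSeries ℂ :=
  if h : ∃ M : ℕ, IsBoundedAtImInfty (fun z : ℍ => Δ z ^ M * g z) then
    PS N (fun z : ℍ => Δ z ^ h.choose * g z) / PS N (fun z : ℍ => Δ z ^ h.choose)
  else 0

theorem cuspL_eq (hg : Mero N g) (hM : IsBoundedAtImInfty (fun z : ℍ => Δ z ^ M * g z)) :
    cuspL N g = PS N (fun z : ℍ => Δ z ^ M * g z) / PS N (fun z : ℍ => Δ z ^ M) := by
  unfold cuspL
  rw [dif_pos hg.bdd]
  obtain ⟨M₀, hM₀e⟩ : ∃ M₀, M₀ = hg.bdd.choose := ⟨_, rfl⟩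
  have hM₀ : IsBoundedAtImInfty (fun z : ℍ => Δ z ^ M₀ * g z) := by
    rw [hM₀e]; exact hg.bdd.choose_spec
  rw [← hM₀e]
  rw [div_eq_div_iff (PS_discriminant_pow_ne_zero N M₀) (PS_discriminant_pow_ne_zero N M),
    ← PS_mul (hg.nice hM₀) (nice_discriminant_pow N M),
    ← PS_mul (hg.nice hM) (nice_discriminant_pow N M₀)]
  congr 1
  funext z
  ring

theorem cuspL_of_nice (hg : Nice (N : ℝ) g) : cuspL N g = PS N g := by
  have h0 : IsBoundedAtImInfty (fun z : ℍ => Δ z ^ 0 * g z) := by simpa using hg.bdd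
  rw [cuspL_eq (mero_of_nice hg) h0]
  simp only [pow_zero, one_mul]
  rw [PS_one, div_one]

theorem cuspL_const (N : ℕ) [NeZero N] (c : ℂ) : cuspL N (fun _ : ℍ => c) = HahnSeries.C c := by
  rw [cuspL_of_nice (nice_const N c), PS_const]

theorem cuspL_one (N : ℕ) [NeZero N] : cuspL N (fun _ : ℍ => (1 : ℂ)) = 1 := by
  rw [cuspL_const, map_one]

theorem cuspL_zero (N : ℕ) [NeZero N] : cuspL N (fun _ : ℍ => (0 : ℂ)) = 0 := by
  rw [cuspL_const, map_zero]

theorem cuspL_add (h₁ : Mero N g₁) (h₂ : Mero N g₂) :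
    cuspL N (fun z => g₁ z + g₂ z) = cuspL N g₁ + cuspL N g₂ := by
  obtain ⟨M₁, hM₁⟩ := h₁.bdd
  obtain ⟨M₂, hM₂⟩ := h₂.bdd
  have b₁ := bdd_add hM₁ M₂
  have b₂ := bdd_add' hM₂ M₁
  have b : IsBoundedAtImInfty (fun z : ℍ => Δ z ^ (M₁ + M₂) * (g₁ z + g₂ z)) := by
    refine (b₁.add b₂).congr' (Filter.Eventually.of_forall fun z => ?_)
      (Filter.EventuallyEq.refl _ _)
    simp only [Pi.add_apply]
    ring
  rw [cuspL_eq (h₁.add h₂) b, cuspL_eq h₁ b₁, cuspL_eq h₂ b₂, ← add_div,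
    ← PS_add (h₁.nice b₁) (h₂.nice b₂)]
  congr 2
  funext z
  ring

theorem cuspL_mul (h₁ : Mero N g₁) (h₂ : Mero N g₂) :
    cuspL N (fun z => g₁ z * g₂ z) = cuspL N g₁ * cuspL N g₂ := by
  obtain ⟨M₁, hM₁⟩ := h₁.bdd
  obtain ⟨M₂, hM₂⟩ := h₂.bdd
  have b : IsBoundedAtImInfty (fun z : ℍ => Δ z ^ (M₁ + M₂) * (g₁ z * g₂ z)) := by
    refine (hM₁.mul hM₂).congr' (Filter.Eventually.of_forall fun z => ?_)
      (Filter.EventuallyEq.refl _ _)
    simp only [Pi.mul_apply]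
    ring
  rw [cuspL_eq (h₁.mul h₂) b, cuspL_eq h₁ hM₁, cuspL_eq h₂ hM₂, div_mul_div_comm,
    ← PS_mul (h₁.nice hM₁) (h₂.nice hM₂),
    ← PS_mul (nice_discriminant_pow N M₁) (nice_discriminant_pow N M₂)]
  congr 2
  · funext z
    ring
  · funext z
    ring

theorem cuspL_neg (h₁ : Mero N g) : cuspL N (fun z => -g z) = -cuspL N g := by
  have h := cuspL_add h₁ h₁.neg
  have e : (fun z => g z + -g z) = fun _ : ℍ => (0 : ℂ) := by
    funext z
    ring
  rw [e, cuspL_zero] at h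
  exact (neg_eq_of_add_eq_zero_right h.symm).symm

theorem cuspL_sub (h₁ : Mero N g₁) (h₂ : Mero N g₂) :
    cuspL N (fun z => g₁ z - g₂ z) = cuspL N g₁ - cuspL N g₂ := by
  have h := cuspL_add h₁ h₂.neg
  rw [cuspL_neg h₂, ← sub_eq_add_neg] at h
  rw [← h]
  have e : (fun z => g₁ z - g₂ z) = fun z => g₁ z + -g₂ z := by
    funext z
    ring
  rw [e]

theorem cuspL_eq_zero_iff (hg : Mero N g) : cuspL N g = 0 ↔ g = 0 := by
  obtain ⟨M, hM⟩ := hg.bdd
  rw [cuspL_eq hg hM, div_eq_zero_iff]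
  constructor
  · rintro (h | h)
    · rw [PS_eq_zero_iff (hg.nice hM)] at h
      funext z
      have := congrFun h z
      simp only [Pi.zero_apply, mul_eq_zero] at this
      rcases this with h1 | h1
      · exact absurd h1 (pow_ne_zero M (discriminant_ne_zero z))
      · exact h1
    · exact absurd h (PS_discriminant_pow_ne_zero N M)
  · intro h
    left
    rw [PS_eq_zero_iff (hg.nice hM)]
    funext z
    rw [h]
    simp

theorem cuspL_injective (h₁ : Mero N g₁) (h₂ : Mero N g₂) (h : cuspL N g₁ = cuspL N g₂) :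
    g₁ = g₂ := by
  have h3 := cuspL_sub h₁ h₂
  rw [h, sub_self, cuspL_eq_zero_iff (h₁.sub h₂)] at h3
  funext z
  have := congrFun h3 z
  exact sub_eq_zero.mp this

/-- **Translation rule**: the expansion of `τ ↦ g (τ + 1)` is obtained by multiplying the `n`-th
coefficient by `ζⁿ`, `ζ = exp (2πi/N)`. -/
theorem cuspL_translate (hg : Mero N g) :
    cuspL N (fun τ : ℍ => g ((1 : ℝ) +ᵥ τ)) =
      LaurentRescale.rescale (Complex.exp (2 * π * Complex.I / N)) (Complex.exp_ne_zero _)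
        (cuspL N g) := by
  obtain ⟨M, hM⟩ := hg.bdd
  have hn := hg.nice hM
  have hM' : IsBoundedAtImInfty (fun z : ℍ => Δ z ^ M * g ((1 : ℝ) +ᵥ z)) := by
    refine hn.translate.bdd.congr' (Filter.Eventually.of_forall fun z => ?_)
      (Filter.EventuallyEq.refl _ _)
    show Δ ((1 : ℝ) +ᵥ z) ^ M * g ((1 : ℝ) +ᵥ z) = Δ z ^ M * g ((1 : ℝ) +ᵥ z)
    rw [discriminant_vadd_one]
  have hA : PS N (fun z : ℍ => Δ z ^ M * g ((1 : ℝ) +ᵥ z)) =
      LaurentRescale.rescale (Complex.exp (2 * π * Complex.I / N)) (Complex.exp_ne_zero _)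
        (PS N (fun z : ℍ => Δ z ^ M * g z)) := by
    rw [← PS_translate hn]
    have e : (fun z : ℍ => Δ z ^ M * g ((1 : ℝ) +ᵥ z)) =
        fun τ : ℍ => (fun z : ℍ => Δ z ^ M * g z) ((1 : ℝ) +ᵥ τ) := by
      funext z
      show Δ z ^ M * g ((1 : ℝ) +ᵥ z) = Δ ((1 : ℝ) +ᵥ z) ^ M * g ((1 : ℝ) +ᵥ z)
      rw [discriminant_vadd_one]
    rw [e]
  have hB : PS N (fun z : ℍ => Δ z ^ M) =
      LaurentRescale.rescale (Complex.exp (2 * π * Complex.I / N)) (Complex.exp_ne_zero _)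
        (PS N (fun z : ℍ => Δ z ^ M)) := by
    rw [← PS_translate (nice_discriminant_pow N M)]
    have e : (fun z : ℍ => Δ z ^ M) =
        fun τ : ℍ => (fun z : ℍ => Δ z ^ M) ((1 : ℝ) +ᵥ τ) := by
      funext z
      show Δ z ^ M = Δ ((1 : ℝ) +ᵥ z) ^ M
      rw [discriminant_vadd_one]
    exact congrArg (PS N) e
  rw [cuspL_eq hg.translate hM', cuspL_eq hg hM, hA, map_div₀, ← hB]

theorem coeff_cuspL_translate (hg : Mero N g) (n : ℤ) :
    (cuspL N (fun τ : ℍ => g ((1 : ℝ) +ᵥ τ))).coeff n =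
      Complex.exp (2 * π * Complex.I / N) ^ n * (cuspL N g).coeff n := by
  rw [cuspL_translate hg, LaurentRescale.rescale_coeff]

end CuspL

/-! ### Orders -/

section Order

variable {N : ℕ} [NeZero N] {f : ℍ → ℂ}

theorem order_eq_of_coeff {R : Type*} [Zero R] (x : HahnSeries ℤ R) (m : ℤ)
    (hm : x.coeff m ≠ 0) (hlt : ∀ i < m, x.coeff i = 0) : x.order = m := by
  have hx : x ≠ 0 := by
    rintro rfl
    exact hm rfl
  apply le_antisymm
  · exact HahnSeries.order_le_of_coeff_ne_zero hm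
  · by_contra hlt'
    rw [not_le] at hlt'
    exact hx (HahnSeries.coeff_order_eq_zero.mp (hlt _ hlt'))

theorem PS_coeff_nat (N : ℕ) (f : ℍ → ℂ) (n : ℕ) : (PS N f).coeff (n : ℤ) = cf (N : ℝ) f n := by
  unfold PS cf
  exact HahnSeries.ofPowerSeries_apply_coeff _ n

theorem PS_coeff_neg (N : ℕ) (f : ℍ → ℂ) {n : ℤ} (hn : n < 0) : (PS N f).coeff n = 0 := by
  unfold PS
  rw [HahnSeries.ofPowerSeries_apply]
  apply HahnSeries.embDomain_of_notMem_range
  rintro ⟨m, hm⟩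
  have hm' : ((m : ℕ) : ℤ) = n := hm
  omega

theorem qParam_pow_N (τ : ℍ) : 𝕢 (N : ℝ) τ ^ N = 𝕢 1 τ := by
  unfold Function.Periodic.qParam
  rw [← Complex.exp_nat_mul]
  congr 1
  have hN : (N : ℂ) ≠ 0 := Nat.cast_ne_zero.mpr (NeZero.ne N)
  push_cast
  field_simp

theorem nice_of_one (N : ℕ) (hf : Nice (1 : ℝ) f) : Nice (N : ℝ) f where
  mdiff := hf.mdiff
  vadd := by
    induction N with
    | zero =>
        intro τ
        simp
    | succ n ih =>
        intro τ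
        have : ((n + 1 : ℕ) : ℝ) +ᵥ τ = (1 : ℝ) +ᵥ ((n : ℝ) +ᵥ τ) := by
          rw [vadd_vadd]
          push_cast
          rw [add_comm]
        rw [this, hf.vadd, ih]
  bdd := hf.bdd

/-- the `q_N`-expansion of a `1`-periodic function is its `q`-expansion in `q = q_N ^ N` -/
theorem cf_expand (hf : Nice (1 : ℝ) f) (k : ℕ) :
    cf (N : ℝ) f k = if N ∣ k then cf 1 f (k / N) else 0 := by
  symm
  refine (nice_of_one N hf).cf_unique pos_N'
    (c := fun k => if N ∣ k then cf 1 f (k / N) else 0) (fun τ => ?_) k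
  have h1 := hf.hasSum one_pos τ
  have hinj : Function.Injective (fun m : ℕ => N * m) :=
    mul_right_injective₀ (NeZero.ne N)
  rw [← hinj.hasSum_iff]
  · have e : ((fun k : ℕ => (if N ∣ k then cf 1 f (k / N) else 0) * 𝕢 (N : ℝ) τ ^ k) ∘
        fun m : ℕ => N * m) = fun m : ℕ => cf 1 f m * 𝕢 1 τ ^ m := by
      funext m
      have hN : 0 < N := Nat.pos_of_ne_zero (NeZero.ne N)
      simp only [Function.comp_apply, dvd_mul_right, if_true, Nat.mul_div_cancel_left m hN]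
      rw [pow_mul, qParam_pow_N]
    rw [e]
    exact h1
  · intro k hk
    have : ¬ N ∣ k := fun ⟨m, hm⟩ => hk ⟨m, hm.symm⟩
    simp [this]

theorem nice_one_discriminant : Nice (1 : ℝ) (Δ : ℍ → ℂ) where
  mdiff := Fermat.Agent.S20.Div.mdiff_discriminant
  vadd τ := discriminant_vadd_one τ
  bdd := (discriminant_isZeroAtImInfty).isBoundedAtImInfty

theorem cf_one_discriminant_zero : cf 1 (Δ : ℍ → ℂ) 0 = 0 := by
  have h1 := nice_one_discriminant.tendsto one_pos
  have h2 : Tendsto (Δ : ℍ → ℂ) atImInfty (𝓝 0) := discriminant_isZeroAtImInfty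
  exact tendsto_nhds_unique h1 h2

theorem cf_one_discriminant_one : cf 1 (Δ : ℍ → ℂ) 1 = 1 :=
  discriminant_qExpansion_coeff_one

theorem order_PS_discriminant (N : ℕ) [NeZero N] : (PS N (Δ : ℍ → ℂ)).order = N := by
  have hN : 0 < N := Nat.pos_of_ne_zero (NeZero.ne N)
  apply order_eq_of_coeff
  · rw [PS_coeff_nat, cf_expand nice_one_discriminant, if_pos dvd_rfl, Nat.div_self hN,
      cf_one_discriminant_one]
    exact one_ne_zero
  · intro i hi
    rcases lt_or_ge i 0 with h0 | h0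
    · exact PS_coeff_neg N _ h0
    · obtain ⟨k, rfl⟩ := Int.eq_ofNat_of_zero_le h0
      have hk : k < N := by exact_mod_cast hi
      rw [PS_coeff_nat, cf_expand nice_one_discriminant]
      split_ifs with hd
      · have : k = 0 := Nat.eq_zero_of_dvd_of_lt hd hk
        subst this
        rw [Nat.zero_div]
        exact cf_one_discriminant_zero
      · rfl

theorem order_PS_of_tendsto (hf : Nice (N : ℝ) f) {c : ℂ} (hc : c ≠ 0)
    (h : Tendsto f atImInfty (𝓝 c)) : (PS N f).order = 0 := by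
  have h1 := hf.tendsto pos_N'
  have h2 : cf (N : ℝ) f 0 = c := tendsto_nhds_unique h1 h
  apply order_eq_of_coeff
  · have := PS_coeff_nat N f 0
    rw [Nat.cast_zero] at this
    rw [this, h2]
    exact hc
  · intro i hi
    exact PS_coeff_neg N _ hi

open Fermat.Agent.S24.JFunction

theorem jfun_vadd_nat (n : ℕ) (τ : ℍ) : jfun ((n : ℝ) +ᵥ τ) = jfun τ := by
  have h := jfun_smul (ModularGroup.T ^ (n : ℤ)) τ
  rw [UpperHalfPlane.modular_T_zpow_smul] at h
  simpa using h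

theorem discriminant_mul_jfun (z : ℍ) : Δ z * jfun z = E₄ z ^ 3 := by
  rw [jfun_apply]
  field_simp [discriminant_ne_zero z]

theorem nice_E₄_cube (N : ℕ) : Nice (N : ℝ) (fun z : ℍ => E₄ z ^ 3) := by
  have h1 : Nice (1 : ℝ) (fun z : ℍ => E₄ z ^ 3) := by
    have e : (fun z : ℍ => E₄ z ^ 3) = fun z => Δ z * jfun z := by
      funext z
      rw [discriminant_mul_jfun]
    refine ⟨?_, ?_, ?_⟩
    · rw [e]
      exact Fermat.Agent.S20.Div.mdiff_discriminant.mul mdiff_jfun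
    · intro τ
      show E₄ ((1 : ℝ) +ᵥ τ) ^ 3 = E₄ τ ^ 3
      rw [← discriminant_mul_jfun, ← discriminant_mul_jfun, discriminant_vadd_one]
      have := jfun_vadd_nat 1 τ
      rw [Nat.cast_one] at this
      rw [this]
    · have : Tendsto (fun z : ℍ => E₄ z ^ 3) atImInfty (𝓝 (1 ^ 3)) :=
        Fermat.Agent.S20.Ramanujan.tendsto_E₄.pow 3
      exact this.isBigO_one ℝ
  exact nice_of_one N h1

theorem bdd_discriminant_mul_jfun :
    IsBoundedAtImInfty (fun z : ℍ => Δ z ^ 1 * jfun z) := by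
  have e : (fun z : ℍ => Δ z ^ 1 * jfun z) = fun z : ℍ => E₄ z ^ 3 := by
    funext z
    rw [pow_one, discriminant_mul_jfun]
  rw [e]
  exact (nice_E₄_cube 1).bdd

theorem mero_jfun (N : ℕ) : Mero N jfun :=
  ⟨mdiff_jfun, jfun_vadd_nat N, 1, bdd_discriminant_mul_jfun⟩

theorem cuspL_jfun_eq (N : ℕ) [NeZero N] :
    cuspL N jfun = PS N (fun z : ℍ => E₄ z ^ 3) / PS N (Δ : ℍ → ℂ) := by
  rw [cuspL_eq (mero_jfun N) bdd_discriminant_mul_jfun]
  congr 2
  · funext z
    rw [pow_one, discriminant_mul_jfun]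
  · funext z
    rw [pow_one]

theorem PS_discriminant_ne_zero (N : ℕ) [NeZero N] : PS N (Δ : ℍ → ℂ) ≠ 0 := by
  have := PS_discriminant_pow_ne_zero N 1
  simpa using this

theorem order_PS_E₄_cube (N : ℕ) [NeZero N] : (PS N (fun z : ℍ => E₄ z ^ 3)).order = 0 := by
  have : Tendsto (fun z : ℍ => E₄ z ^ 3) atImInfty (𝓝 (1 ^ 3)) :=
    Fermat.Agent.S20.Ramanujan.tendsto_E₄.pow 3
  exact order_PS_of_tendsto (nice_E₄_cube N) (by norm_num) this

theorem PS_E₄_cube_ne_zero (N : ℕ) [NeZero N] : PS N (fun z : ℍ => E₄ z ^ 3) ≠ 0 := by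
  intro h
  have h1 : (PS N (fun z : ℍ => E₄ z ^ 3)).coeff 0 = 1 := by
    have := PS_coeff_nat N (fun z : ℍ => E₄ z ^ 3) 0
    rw [Nat.cast_zero] at this
    rw [this]
    have h2 : Tendsto (fun z : ℍ => E₄ z ^ 3) atImInfty (𝓝 (1 ^ 3)) :=
      Fermat.Agent.S20.Ramanujan.tendsto_E₄.pow 3
    rw [one_pow] at h2
    exact tendsto_nhds_unique ((nice_E₄_cube N).tendsto pos_N') h2
  rw [h] at h1
  simp at h1

theorem cuspL_jfun_ne_zero (N : ℕ) [NeZero N] : cuspL N jfun ≠ 0 := by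
  rw [cuspL_jfun_eq]
  exact div_ne_zero (PS_E₄_cube_ne_zero N) (PS_discriminant_ne_zero N)

/-- `j` has a pole of order `N` in the variable `q_N` -/
theorem order_cuspL_jfun (N : ℕ) [NeZero N] : (cuspL N jfun).order = -(N : ℤ) := by
  have h := HahnSeries.order_mul (cuspL_jfun_ne_zero N) (PS_discriminant_ne_zero N)
  have e : cuspL N jfun * PS N (Δ : ℍ → ℂ) = PS N (fun z : ℍ => E₄ z ^ 3) := by
    rw [cuspL_jfun_eq, div_mul_cancel₀ _ (PS_discriminant_ne_zero N)]
  rw [e, order_PS_E₄_cube, order_PS_discriminant] at h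
  omega

theorem order_cuspL_jfun_inv (N : ℕ) [NeZero N] : ((cuspL N jfun)⁻¹).order = (N : ℤ) := by
  have h0 := cuspL_jfun_ne_zero N
  have h := HahnSeries.order_mul (inv_ne_zero h0) h0
  rw [inv_mul_cancel₀ h0, HahnSeries.order_one, order_cuspL_jfun] at h
  omega

end Order

/-! ### Polynomial expressions -/

section Poly

variable {N : ℕ} [NeZero N] {σ R : Type*} [CommSemiring R]

omit [NeZero N] in
theorem mero_eval₂ (φ : R →+* ℂ) (g : σ → ℍ → ℂ) (hg : ∀ i, Mero N (g i))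
    (P : MvPolynomial σ R) :
    Mero N (fun τ : ℍ => MvPolynomial.eval₂ φ (fun i => g i τ) P) := by
  induction P using MvPolynomial.induction_on with
  | C a =>
      simp only [MvPolynomial.eval₂_C]
      exact mero_const N (φ a)
  | add p q hp hq =>
      simp only [MvPolynomial.eval₂_add]
      exact hp.add hq
  | mul_X p i hp =>
      simp only [MvPolynomial.eval₂_mul, MvPolynomial.eval₂_X]
      exact hp.mul (hg i)

theorem cuspL_eval₂ (φ : R →+* ℂ) (g : σ → ℍ → ℂ) (hg : ∀ i, Mero N (g i))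
    (P : MvPolynomial σ R) :
    cuspL N (fun τ : ℍ => MvPolynomial.eval₂ φ (fun i => g i τ) P) =
      MvPolynomial.eval₂ ((HahnSeries.C : ℂ →+* LaurentSeries ℂ).comp φ)
        (fun i => cuspL N (g i)) P := by
  induction P using MvPolynomial.induction_on with
  | C a =>
      simp only [MvPolynomial.eval₂_C]
      exact cuspL_const N (φ a)
  | add p q hp hq =>
      simp only [MvPolynomial.eval₂_add]
      rw [cuspL_add (mero_eval₂ φ g hg p) (mero_eval₂ φ g hg q), hp, hq]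
  | mul_X p i hp =>
      simp only [MvPolynomial.eval₂_mul, MvPolynomial.eval₂_X]
      rw [cuspL_mul (mero_eval₂ φ g hg p) (hg i), hp]

end Poly

end Fermat.Agent.S24.Cusp
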