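import Mathlib
import Fermat.Agent.S24.Cusp
import Fermat.Agent.S24.Distinct
import Fermat.Agent.S24.Eval
import Fermat.Agent.S24.Jq
import Fermat.Agent.S24.JqCriterion
import Fermat.Agent.S24.EmbedCount

/-!
# S24: the embeddings of the function field of `X₀(N)` at the cusp `∞`

For every coset `q : Q N = SL(2, ℤ) ⧸ Γ₀(N)` the `q_N`-expansions at `i∞` of the translates
`τ ↦ j (d · q.out⁻¹ τ)`, `d ∣ N`, satisfy the same polynomial relations as the generators
`j(q^d)` of the function field, so they define an embedding `sigma N q : FF N →+* ℂ((q_N))`.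
These embeddings form embedding data over `j = ∞` (`localData`): constants go to constants, all
`sigma N q` agree on `j`, the order of `j⁻¹` is `N`, `sigma N (T • q)` is the twist of
`sigma N q` by a primitive `N`-th root of unity, and `q ↦ sigma N q` is injective.
-/

set_option autoImplicit false

namespace Fermat.Agent.S24.SigmaCusp

open UpperHalfPlane ModularForm Function Filter CongruenceSubgroup
open Fermat.Agent.S20 Fermat.Agent.S20.CuspExp
open Fermat.Agent.S24.Cusp Fermat.Agent.S24.Distinct Fermat.Agent.S24.Eval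
open Fermat.Agent.S24.Jq Fermat.Agent.S24.JFunction
open scoped MatrixGroups ModularForm Manifold Topology Real

variable (N : ℕ) [NeZero N]

/-! ### The translates of the generators -/

/-- the translate of `j (d τ)` by the inverse of the chosen representative of `q` -/
noncomputable def G (q : Q N) (d : ℕ) (z : ℍ) : ℂ := JN d ((q.out : SL(2, ℤ))⁻¹ • z)

theorem pos_of_dvd_N {d : ℕ} (hd : d ∣ N) : 0 < d :=
  Nat.pos_of_dvd_of_pos hd (Nat.pos_of_ne_zero (NeZero.ne N))

theorem mero_G (q : Q N) {d : ℕ} (hd : d ∣ N) : Mero N (G N q d) where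
  mdiff := mdiff_JN_smul d (pos_of_dvd_N N hd) _
  vadd τ := JN_smul_vadd d N (pos_of_dvd_N N hd) hd _ τ
  bdd := ⟨d, isBoundedAtImInfty_discriminant_pow_mul_JN d (pos_of_dvd_N N hd) _⟩

theorem G_smul (h : SL(2, ℤ)) (q : Q N) {d : ℕ} (hd : d ∣ N) (z : ℍ) :
    G N (h • q) d z = G N q d (h⁻¹ • z) := by
  obtain ⟨γ, hγe⟩ : ∃ γ : SL(2, ℤ), γ = ((h • q).out)⁻¹ * (h * q.out) := ⟨_, rfl⟩
  have hγ : γ ∈ Gamma0 N := by
    rw [hγe, ← QuotientGroup.eq]
    have h1 : ((h * q.out : SL(2, ℤ)) : Q N) = h • q := by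
      conv_rhs => rw [← QuotientGroup.out_eq' q]
      rfl
    rw [h1]
    exact QuotientGroup.out_eq' (h • q)
  have e : ((h • q).out : SL(2, ℤ))⁻¹ = γ * ((q.out : SL(2, ℤ))⁻¹ * h⁻¹) := by
    rw [hγe]
    group
  unfold G
  rw [e, mul_smul, mul_smul, JN_smul_of_mem_Gamma0_of_dvd d N (pos_of_dvd_N N hd) hd hγ]

omit [NeZero N] in
theorem G_one (q : Q N) (z : ℍ) : G N q 1 z = jfun z := by
  unfold G
  rw [JN_one, jf_smul]

omit [NeZero N] in
theorem G_one_eq (q : Q N) : G N q 1 = jfun := funext (G_one N q)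

/-! ### The values of the generators and the criterion -/

/-- the expansion of the `d`-th generator at the cusp, translated by `q` -/
noncomputable def theta (q : Q N) (d : Dv N) : LaurentSeries ℂ := cuspL N (G N q (d : ℕ))

/-- the embedding of the constants -/
noncomputable def iotaE : KK →+* LaurentSeries ℂ :=
  (HahnSeries.C : ℂ →+* LaurentSeries ℂ).comp iota

theorem iotaE_apply (c : KK) : iotaE c = HahnSeries.C (iota c) := rfl

theorem eval₂_theta (q : Q N) (P : MvPolynomial (Dv N) KK) :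
    MvPolynomial.eval₂ iotaE (theta N q) P =
      cuspL N (fun τ : ℍ => MvPolynomial.eval₂ iota (fun d : Dv N => G N q (d : ℕ) τ) P) :=
  (cuspL_eval₂ iota (fun d : Dv N => G N q (d : ℕ)) (fun d => mero_G N q d.2) P).symm

theorem eval₂_theta_eq_zero_iff (q : Q N) (P : MvPolynomial (Dv N) KK) :
    MvPolynomial.eval₂ iotaE (theta N q) P = 0 ↔
      ∀ z : ℍ, MvPolynomial.eval₂ iota (fun d : Dv N => JN (d : ℕ) z) P = 0 := by
  rw [eval₂_theta, cuspL_eq_zero_iff
    (mero_eval₂ iota (fun d : Dv N => G N q (d : ℕ)) (fun d => mero_G N q d.2) P)]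
  constructor
  · intro h z
    have := congrFun h ((q.out : SL(2, ℤ)) • z)
    simp only [G, inv_smul_smul, Pi.zero_apply] at this
    exact this
  · intro h
    funext z
    exact h _

theorem criterion (q : Q N) (P : MvPolynomial (Dv N) KK) :
    MvPolynomial.aeval (gL N) P = 0 ↔ MvPolynomial.eval₂ iotaE (theta N q) P = 0 := by
  rw [eval₂_theta_eq_zero_iff]
  exact JqCriterion.aeval_eq_zero_iff' (fun d : Dv N => (d : ℕ)) P

/-! ### The embeddings -/

/-- the embedding of the function field of `X₀(N)` into `ℂ((q_N))` attached to the coset `q` -/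
noncomputable def sigma (q : Q N) : FF N →+* LaurentSeries ℂ :=
  (Jq.exists_lift N iotaE (theta N q) (criterion N q)).choose

theorem sigma_const (q : Q N) (c : KK) :
    sigma N q (algebraMap KK (FF N) c) = HahnSeries.C (iota c) :=
  (Jq.exists_lift N iotaE (theta N q) (criterion N q)).choose_spec.1 c

theorem sigma_gF (q : Q N) (d : Dv N) : sigma N q (gF N d) = theta N q d :=
  (Jq.exists_lift N iotaE (theta N q) (criterion N q)).choose_spec.2 d

theorem sigma_jgen (q : Q N) (d : ℕ) [NeZero d] (hd : d ∣ N) :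
    sigma N q (jgen N d hd) = cuspL N (G N q d) :=
  sigma_gF N q ⟨d, hd⟩

/-- (ii) all embeddings agree on `j` -/
theorem sigma_jF (q : Q N) : sigma N q (jF N) = cuspL N jfun := by
  have := sigma_gF N q (Jq.one N)
  rw [gF_one] at this
  rw [this]
  show cuspL N (G N q 1) = _
  rw [G_one_eq]

theorem sigma_jF_inv (q : Q N) : sigma N q (jF N)⁻¹ = (cuspL N jfun)⁻¹ := by
  rw [map_inv₀, sigma_jF]

/-- (iii) the order of `j⁻¹` is `N` -/
theorem order_sigma_jF_inv (q : Q N) : (sigma N q (jF N)⁻¹).order = (N : ℤ) := by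
  rw [sigma_jF_inv, order_cuspL_jfun_inv]

theorem order_sigma_jF (q : Q N) : (sigma N q (jF N)).order = -(N : ℤ) := by
  rw [sigma_jF, order_cuspL_jfun]

/-- the primitive `N`-th root of unity `exp (2πi/N)` -/
noncomputable def zeta : ℂ := Complex.exp (2 * π * Complex.I / N)

omit [NeZero N] in
theorem zeta_ne_zero : zeta N ≠ 0 := Complex.exp_ne_zero _

theorem isPrimitiveRoot_zeta : IsPrimitiveRoot (zeta N) N :=
  Complex.isPrimitiveRoot_exp N (NeZero.ne N)

theorem theta_T_inv_smul (q : Q N) (d : Dv N) :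
    theta N ((ModularGroup.T)⁻¹ • q) d =
      LaurentRescale.rescale (zeta N) (zeta_ne_zero N) (theta N q d) := by
  unfold theta
  have e : G N ((ModularGroup.T)⁻¹ • q) (d : ℕ) =
      fun τ : ℍ => G N q (d : ℕ) ((1 : ℝ) +ᵥ τ) := by
    funext z
    rw [G_smul N _ q d.2, inv_inv, UpperHalfPlane.modular_T_smul]
  rw [e]
  exact cuspL_translate (mero_G N q d.2)

/-- (iv) the embedding at `T⁻¹ • q` is the twist of the embedding at `q` -/
theorem sigma_T_inv_smul (q : Q N) :
    sigma N ((ModularGroup.T)⁻¹ • q) =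
      (LaurentRescale.rescale (zeta N) (zeta_ne_zero N)).comp (sigma N q) := by
  apply Jq.ringHom_ext N
  · intro c
    rw [RingHom.comp_apply, sigma_const, sigma_const, LaurentRescale.rescale_C]
  · intro d
    rw [RingHom.comp_apply, sigma_gF, sigma_gF, theta_T_inv_smul]

theorem coeff_sigma_T_inv_smul (q : Q N) (f : FF N) (n : ℤ) :
    (sigma N ((ModularGroup.T)⁻¹ • q) f).coeff n = zeta N ^ n * (sigma N q f).coeff n := by
  rw [sigma_T_inv_smul, RingHom.comp_apply, LaurentRescale.rescale_coeff]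

theorem coeff_sigma_T_smul (q : Q N) (f : FF N) (n : ℤ) :
    (sigma N (ModularGroup.T • q) f).coeff n = (zeta N)⁻¹ ^ n * (sigma N q f).coeff n := by
  have h := coeff_sigma_T_inv_smul N (ModularGroup.T • q) f n
  rw [inv_smul_smul] at h
  rw [h, inv_zpow, ← mul_assoc, inv_mul_cancel₀ (zpow_ne_zero n (zeta_ne_zero N)), one_mul]

/-- (v) distinct cosets give distinct embeddings -/
theorem sigma_injective : Function.Injective (sigma N) := by
  intro q q' h
  have hN : 0 < N := Nat.pos_of_ne_zero (NeZero.ne N)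
  have h1 : theta N q ⟨N, dvd_rfl⟩ = theta N q' ⟨N, dvd_rfl⟩ := by
    rw [← sigma_gF, ← sigma_gF, h]
  have h2 : G N q N = G N q' N :=
    cuspL_injective (mero_G N q dvd_rfl) (mero_G N q' dvd_rfl) h1
  exact conj_JN_injective N hN h2

/-! ### The embedding data over `j = ∞` -/

/-- **Embedding data at the cusps**, for the local monodromy `T⁻¹` and `ζ = exp (2πi/N)`. -/
theorem localData_T_inv :
    Embed.LocalData (K := KK) (F := FF N) (X := Q N) (jF N)⁻¹ ((ModularGroup.T)⁻¹ : SL(2, ℤ))
      iota (sigma N) N (zeta N) where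
  pos := Nat.pos_of_ne_zero (NeZero.ne N)
  prim := isPrimitiveRoot_zeta N
  const := sigma_const N
  agree a b := by rw [sigma_jF_inv, sigma_jF_inv]
  order_x := order_sigma_jF_inv N
  twist := coeff_sigma_T_inv_smul N
  inj := sigma_injective N

/-- **Embedding data at the cusps**, for the local monodromy `T` and `ζ = exp (-2πi/N)`. -/
theorem localData :
    Embed.LocalData (K := KK) (F := FF N) (X := Q N) (jF N)⁻¹ (ModularGroup.T : SL(2, ℤ))
      iota (sigma N) N (zeta N)⁻¹ where
  pos := Nat.pos_of_ne_zero (NeZero.ne N)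
  prim := (isPrimitiveRoot_zeta N).inv
  const := sigma_const N
  agree a b := by rw [sigma_jF_inv, sigma_jF_inv]
  order_x := order_sigma_jF_inv N
  twist := coeff_sigma_T_smul N
  inj := sigma_injective N

/-- the embedding data at the cusps in existential form -/
theorem exists_sigma_cusp :
    ∃ (σ : Q N → (FF N →+* LaurentSeries ℂ)) (ζ : ℂ), IsPrimitiveRoot ζ N ∧
      (∀ (q : Q N) (k : KK), σ q (algebraMap KK (FF N) k) = HahnSeries.C (iota k)) ∧
      (∀ q q' : Q N, σ q (jF N) = σ q' (jF N)) ∧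
      (∀ q : Q N, (σ q (jF N)⁻¹).order = (N : ℤ)) ∧
      (∀ (q : Q N) (f : FF N) (n : ℤ),
        (σ (ModularGroup.T • q) f).coeff n = ζ ^ n * (σ q f).coeff n) ∧
      Function.Injective σ :=
  ⟨sigma N, (zeta N)⁻¹, (isPrimitiveRoot_zeta N).inv, sigma_const N,
    fun q q' => by rw [sigma_jF, sigma_jF], order_sigma_jF_inv N, coeff_sigma_T_smul N,
    sigma_injective N⟩

end Fermat.Agent.S24.SigmaCusp
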