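import Mathlib
import Fermat.Prelude.Def_ModularCurve_ArithmeticGalois
import Fermat.Prelude.Def_ModularCurve_GenusNumerics
import Fermat.Prelude.Def_AlgebraicCurve_CanonicalDivisor
import Fermat.Agent.S20
import Fermat.Agent.S24.Eval
import Fermat.Agent.S24.FFFiber
import Fermat.Agent.S24.OrbitCount
import Fermat.Agent.S24.RiemannHurwitz

/-!
# S24: assembly

`genus_eq_genusFormula_of`: the genus of the function field of `X₀(N)` is `genusFormula N`,
assuming
* the degree of `F` over `K(j)` is `#(SL₂(ℤ) / Γ₀(N))`,
* principal divisors have degree zero,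
* `dj ≠ 0`, `j` is unramified outside `0, 1728, ∞`, the differential formula
  `ord_v (dj) = e_v - 1` (resp. `- e_v - 1` at the poles),
* the numbers of places over `0`, `1728`, `∞` are the numbers of orbits of `S T`, `S`, `T`.

The Riemann–Hurwitz bookkeeping is `RiemannHurwitz.genus_eq`, the fundamental identity comes
from `FFFiber`, the arithmetic from `OrbitCount.riemannHurwitz_orbits` and the integrality of
`genusFormula N` from `S20.result`.
-/

set_option autoImplicit false

namespace Fermat.Agent.S24.Assembly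

open AlgebraicCurve ModularCurve KaehlerDifferential IntermediateField
open Fermat.Agent.S24 Fermat.Agent.S24.Eval Fermat.Agent.S20
open scoped MatrixGroups

theorem genus_eq_genusFormula_of (N : ℕ) [NeZero N]
    [HasCanonicalDivisor (K := KK) (F := FF N)]
    (htr : Transcendental KK (jF N))
    (hfd : FiniteDimensional KK⟮jF N⟯ (FF N))
    (hrank : Module.finrank KK⟮jF N⟯ (FF N) = Nat.card (Q N))
    (hprinc : ∀ h : FF N, h ≠ 0 →
      ∃ D : Divisor KK (FF N), (∀ v, D v = v.ord h) ∧ Divisor.degree D = 0)
    (hDx : D KK (FF N) (jF N) ≠ 0)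
    (hA : ∀ a : KK, a ≠ 0 → a ≠ 1728 → ∀ v ∈ placesOver (k := KK) (jF N) a,
      v.ord (jF N - algebraMap KK (FF N) a) = 1)
    (hdiff : ∀ a : KK, ∀ v ∈ placesOver (k := KK) (jF N) a,
      v.ordDifferential (D KK (FF N) (jF N)) = v.ord (jF N - algebraMap KK (FF N) a) - 1)
    (hdiffinf : ∀ v ∈ placesOverInfty (k := KK) (jF N),
      v.ordDifferential (D KK (FF N) (jF N)) = v.ord (jF N) - 1)
    (h0 : (placesOver (k := KK) (jF N) 0).ncard = Nat.card (MulAction.orbitRel.Quotient
      (Subgroup.zpowers (ModularGroup.S * ModularGroup.T)) (Q N)))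
    (h1728 : (placesOver (k := KK) (jF N) 1728).ncard = Nat.card (MulAction.orbitRel.Quotient
      (Subgroup.zpowers ModularGroup.S) (Q N)))
    (hinf : (placesOverInfty (k := KK) (jF N)).ncard = Nat.card (MulAction.orbitRel.Quotient
      (Subgroup.zpowers ModularGroup.T) (Q N))) :
    (genus KK (FF N) : ℚ) = genusFormula N := by
  classical
  haveI := hfd
  have hne : (0 : KK) ≠ 1728 := by norm_num
  have halg : Algebra.IsAlgebraic KK⟮jF N⟯ (FF N) := Algebra.IsAlgebraic.of_finite _ _
  have key := RiemannHurwitz.genus_eq (k := KK) (F := FF N) (jF N) halg hDx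
    (place_deg_eq_one (jF N) htr) hprinc (mem_placesOver_or_infty (jF N) htr)
    (Nat.card (Q N)) ({0, 1728} : Finset KK)
    (fun a _ => placesOver_finite (jF N) htr a)
    (fun a _ => by rw [finsum_ord_placesOver (jF N) htr a, hrank])
    (placesOverInfty_finite (jF N) htr)
    (by rw [finsum_ord_placesOverInfty (jF N) htr, hrank])
    (fun a ha v hv => by
      simp only [Finset.mem_insert, Finset.mem_singleton, not_or] at ha
      exact hA a ha.1 ha.2 v hv)
    hdiff hdiffinf
    (Module.finrank ℂ (CuspForm (CongruenceSubgroup.Gamma0 N) 2))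
    (by
      have h1 := OrbitCount.riemannHurwitz_orbits N
      have h2 := Fermat.Agent.S20.result N
      rw [Finset.sum_pair hne, h0, h1728, hinf]
      have h3 : ((2 * (Module.finrank ℂ (CuspForm (CongruenceSubgroup.Gamma0 N) 2) : ℤ) - 2 : ℤ) : ℚ)
          = ((-2 * (Nat.card (Q N) : ℤ)
            + (((Nat.card (Q N) : ℤ) - (Nat.card (MulAction.orbitRel.Quotient
                (Subgroup.zpowers (ModularGroup.S * ModularGroup.T)) (Q N)) : ℤ))
              + ((Nat.card (Q N) : ℤ) - (Nat.card (MulAction.orbitRel.Quotient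
                (Subgroup.zpowers ModularGroup.S) (Q N)) : ℤ)))
            + ((Nat.card (Q N) : ℤ) - (Nat.card (MulAction.orbitRel.Quotient
                (Subgroup.zpowers ModularGroup.T) (Q N)) : ℤ)) : ℤ) : ℚ) := by
        push_cast
        rw [h2]
        linarith
      exact_mod_cast h3)
  rw [key]
  exact Fermat.Agent.S20.result N

end Fermat.Agent.S24.Assembly
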