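import Mathlib
import Fermat.Prelude.Def_AlgebraicCurve_CanonicalDivisor
import Fermat.Agent.S24.FFFiber

/-!
# S24: the easy half of the fundamental identity at infinity

`sum_ord_le_finrank_infty`: for a finite set `S` of poles of `x`, `∑ v ∈ S, - ord_v x ≤ [F : k(x)]`.
-/

set_option autoImplicit false

open AlgebraicCurve IntermediateField

namespace Fermat.Agent.S24

variable {k F : Type*} [Field k] [Field F] [Algebra k F]

variable [IsAlgClosed k] [CharZero k] (x : F) (hx : Transcendental k x) [FiniteDimensional k⟮x⟯ F]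

include hx in
/-- (H2) at infinity. -/
theorem sum_ord_le_finrank_infty (S : Finset (Place k F))
    (hS : ∀ v ∈ S, v ∈ placesOverInfty (k := k) x) :
    ∑ v ∈ S, - v.ord x ≤ (Module.finrank k⟮x⟯ F : ℤ) := by
  haveI := finiteDimensional_adjoin x hx x⁻¹ (FFFiber.transcendental_inv x hx)
  have h := sum_ord_le_finrank x⁻¹ (FFFiber.transcendental_inv x hx) 0 S
    (fun v hv => by rw [← placesOverInfty_eq]; exact hS v hv)
  rw [FFFiber.finrank_eq_of_eq (FFFiber.adjoin_inv_eq (k := k) x)] at h
  refine le_trans (le_of_eq ?_) h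
  apply Finset.sum_congr rfl
  intro v _
  rw [map_zero, sub_zero, v.ord_inv]

include hx in
/-- The number of places over a point is at most the degree. -/
theorem ncard_placesOver_le (a : k) :
    ((placesOver (k := k) x a).ncard : ℤ) ≤ (Module.finrank k⟮x⟯ F : ℤ) := by
  have hfin := placesOver_finite x hx a
  have h := sum_ord_le_finrank x hx a hfin.toFinset (fun v hv => hfin.mem_toFinset.mp hv)
  refine le_trans ?_ h
  rw [Set.ncard_eq_toFinset_card _ hfin, Finset.card_eq_sum_ones, Nat.cast_sum]
  apply Finset.sum_le_sum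
  intro v hv
  have : 0 < v.ord (x - algebraMap k F a) := hfin.mem_toFinset.mp hv
  simp only [Nat.cast_one]
  omega

end Fermat.Agent.S24
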