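import Mathlib
import Fermat.Agent.S24.Eval
import Fermat.Agent.S24.JFunction

/-!
# S24: choice of a point of the upper half plane over a given value of `j`

For `a : ℚ̄` there is `τ₀ : ℍ` with `j(τ₀) = ι(a)`; for `a ∉ {0, 1728}` the map `j` is unramified
at `τ₀`; for `a = 0` (resp. `a = 1728`) one can take `τ₀ = ρ` (resp. `τ₀ = i`), where the
ramification index is `3` (resp. `2`).
-/

set_option autoImplicit false

namespace Fermat.Agent.S24.PointChoice

open UpperHalfPlane ModularForm EisensteinSeries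
open Fermat.Agent.S20 Fermat.Agent.S20.Ramanujan Fermat.Agent.S20.JInj
open Fermat.Agent.S24.JFunction Fermat.Agent.S24.Eval
open scoped MatrixGroups

theorem iota_zero : iota (0 : KK) = 0 := map_zero iota

theorem iota_1728 : iota (1728 : KK) = 1728 := map_ofNat iota 1728

theorem iota_eq_zero_iff (a : KK) : iota a = 0 ↔ a = 0 := map_eq_zero iota

theorem iota_eq_1728_iff (a : KK) : iota a = 1728 ↔ a = 1728 := by
  rw [← iota_1728]
  exact iota_injective.eq_iff

/-- Every value is attained. -/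
theorem exists_jfun_eq (a : KK) : ∃ τ₀ : ℍ, jfun τ₀ = iota a := jfun_surjective (iota a)

theorem jfun_rho_eq : jfun rho = iota (0 : KK) := by rw [jfun_rho, iota_zero]

theorem jfun_I_eq : jfun UpperHalfPlane.I = iota (1728 : KK) := by rw [jfun_I, iota_1728]

/-- Away from `0` and `1728` the map `j` is unramified. -/
theorem ramIdx_eq_one {a : KK} (h0 : a ≠ 0) (h1 : a ≠ 1728) {τ₀ : ℍ} (h : jfun τ₀ = iota a) :
    ramIdx τ₀ = 1 :=
  ramIdx_of_jfun_ne (by rw [h]; exact fun h' => h0 ((iota_eq_zero_iff a).mp h'))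
    (by rw [h]; exact fun h' => h1 ((iota_eq_1728_iff a).mp h'))

/-- Over `0` the ramification index is `3`. -/
theorem ramIdx_eq_three {τ₀ : ℍ} (h : jfun τ₀ = iota (0 : KK)) : ramIdx τ₀ = 3 :=
  ramIdx_of_E₄ ((jfun_eq_zero_iff τ₀).mp (by rw [h, iota_zero]))

/-- Over `1728` the ramification index is `2`. -/
theorem ramIdx_eq_two {τ₀ : ℍ} (h : jfun τ₀ = iota (1728 : KK)) : ramIdx τ₀ = 2 :=
  ramIdx_of_E₆ ((jfun_eq_1728_iff τ₀).mp (by rw [h, iota_1728]))

theorem ramIdx_rho : ramIdx rho = 3 := ramIdx_eq_three jfun_rho_eq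

theorem ramIdx_I : ramIdx UpperHalfPlane.I = 2 := ramIdx_eq_two jfun_I_eq

/-- The local order of `j - ι(a)` at a point over `a`. -/
theorem analyticOrderAt_jfun_sub_iota {a : KK} {τ₀ : ℍ} (h : jfun τ₀ = iota a) :
    analyticOrderAt (fun w : ℂ => jfun (ofComplex w) - iota a) (τ₀ : ℂ) = ramIdx τ₀ := by
  rw [← h]
  exact analyticOrderAt_jfun_sub τ₀

/-- Points over the same value are `SL₂(ℤ)`-equivalent. -/
theorem exists_smul_eq_of_jfun_eq {a : KK} {τ₀ τ₁ : ℍ} (h₀ : jfun τ₀ = iota a)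
    (h₁ : jfun τ₁ = iota a) : ∃ g : SL(2, ℤ), g • τ₀ = τ₁ :=
  (jfun_eq_iff τ₀ τ₁).mp (h₁.trans h₀.symm)

end Fermat.Agent.S24.PointChoice
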