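import Mathlib

/-!
# S24: the rescaling automorphism of Laurent series

For a field `R` and `ζ ≠ 0` the map `∑ aₙ Xⁿ ↦ ∑ ζⁿ aₙ Xⁿ` is a ring endomorphism `twist ζ hζ` of
`LaurentSeries R`; on power series it is `PowerSeries.rescale ζ`.
-/

set_option autoImplicit false

namespace Fermat.Agent.S24.Twist

open HahnSeries

variable {R : Type*} [Field R]

/-- coefficientwise multiplication by `ζ ^ n` -/
noncomputable def twistFun (ζ : R) (f : LaurentSeries R) : LaurentSeries R where
  coeff n := ζ ^ n * f.coeff n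
  isPWO_support' := f.isPWO_support.mono (fun n hn => by
    simp only [Function.mem_support, ne_eq] at hn
    simp only [HahnSeries.mem_support, ne_eq]
    intro h
    exact hn (by rw [h, mul_zero]))

@[simp] theorem coeff_twistFun (ζ : R) (f : LaurentSeries R) (n : ℤ) :
    (twistFun ζ f).coeff n = ζ ^ n * f.coeff n := rfl

theorem support_twistFun {ζ : R} (hζ : ζ ≠ 0) (f : LaurentSeries R) :
    (twistFun ζ f).support = f.support := by
  ext n
  simp only [HahnSeries.mem_support, coeff_twistFun, ne_eq, mul_eq_zero, not_or]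
  constructor
  · exact fun h => h.2
  · exact fun h => ⟨zpow_ne_zero n hζ, h⟩

theorem twistFun_mul {ζ : R} (hζ : ζ ≠ 0) (f g : LaurentSeries R) :
    twistFun ζ (f * g) = twistFun ζ f * twistFun ζ g := by
  ext a
  rw [coeff_twistFun, HahnSeries.coeff_mul, HahnSeries.coeff_mul, Finset.mul_sum]
  have hAD : Finset.antidiagonal (twistFun ζ f).isPWO_support (twistFun ζ g).isPWO_support a
      = Finset.antidiagonal f.isPWO_support g.isPWO_support a := by
    ext ij
    simp only [Finset.mem_antidiagonal, support_twistFun hζ]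
  rw [hAD]
  refine Finset.sum_congr rfl (fun ij hij => ?_)
  have h := (Finset.mem_antidiagonal.mp hij).2.2
  rw [coeff_twistFun, coeff_twistFun, ← h, zpow_add₀ hζ]
  ring

/-- The rescaling endomorphism `∑ aₙ Xⁿ ↦ ∑ ζⁿ aₙ Xⁿ` of the field of Laurent series. -/
noncomputable def twist (ζ : R) (hζ : ζ ≠ 0) : LaurentSeries R →+* LaurentSeries R where
  toFun := twistFun ζ
  map_one' := by
    ext n
    rw [coeff_twistFun, HahnSeries.coeff_one]
    split_ifs with h
    · rw [h, zpow_zero, mul_one]
    · rw [mul_zero]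
  map_mul' := twistFun_mul hζ
  map_zero' := by
    ext n
    simp
  map_add' f g := by
    ext n
    simp [mul_add]

@[simp] theorem coeff_twist (ζ : R) (hζ : ζ ≠ 0) (f : LaurentSeries R) (n : ℤ) :
    (twist ζ hζ f).coeff n = ζ ^ n * f.coeff n := rfl

theorem twist_single (ζ : R) (hζ : ζ ≠ 0) (n : ℤ) (c : R) :
    twist ζ hζ (HahnSeries.single n c) = HahnSeries.single n (ζ ^ n * c) := by
  ext m
  rw [coeff_twist, HahnSeries.coeff_single, HahnSeries.coeff_single]
  split_ifs with h
  · rw [h]
  · rw [mul_zero]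

@[simp] theorem twist_C (ζ : R) (hζ : ζ ≠ 0) (c : R) :
    twist ζ hζ (HahnSeries.C c) = HahnSeries.C c := by
  rw [HahnSeries.C_apply, twist_single, zpow_zero, one_mul]

theorem twist_ofPowerSeries (ζ : R) (hζ : ζ ≠ 0) (p : PowerSeries R) :
    twist ζ hζ (HahnSeries.ofPowerSeries ℤ R p)
      = HahnSeries.ofPowerSeries ℤ R (PowerSeries.rescale ζ p) := by
  ext n
  rw [coeff_twist]
  change ζ ^ n * ((p : LaurentSeries R)).coeff n
    = ((PowerSeries.rescale ζ p : PowerSeries R) : LaurentSeries R).coeff n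
  rw [PowerSeries.coeff_coe, PowerSeries.coeff_coe]
  split_ifs with h
  · rw [mul_zero]
  · rw [PowerSeries.coeff_rescale]
    congr 1
    have hn : (n.natAbs : ℤ) = n := Int.natAbs_of_nonneg (not_lt.mp h)
    conv_lhs => rw [← hn]
    rw [zpow_natCast]

theorem twist_injective (ζ : R) (hζ : ζ ≠ 0) : Function.Injective (twist ζ hζ) :=
  (twist ζ hζ).injective

@[simp] theorem twist_one (f : LaurentSeries R) : twist (1 : R) one_ne_zero f = f := by
  ext n
  simp

theorem twist_twist (ζ ξ : R) (hζ : ζ ≠ 0) (hξ : ξ ≠ 0) (f : LaurentSeries R) :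
    twist ζ hζ (twist ξ hξ f) = twist (ζ * ξ) (mul_ne_zero hζ hξ) f := by
  ext n
  simp only [coeff_twist]
  rw [mul_zpow, mul_assoc]

theorem order_twist (ζ : R) (hζ : ζ ≠ 0) (f : LaurentSeries R) :
    (twist ζ hζ f).order = f.order := by
  by_cases hf : f = 0
  · rw [hf, map_zero]
  · have hf' : twist ζ hζ f ≠ 0 := fun h => hf ((twist_injective ζ hζ) (by rw [h, map_zero]))
    rw [HahnSeries.order_of_ne hf, HahnSeries.order_of_ne hf']
    congr 1
    exact support_twistFun hζ f

end Fermat.Agent.S24.Twist
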